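import Mathlib

/-!
# S14, block N2a (part 1): Euler products over the prime ideals of a Dedekind domain

`R` a Dedekind domain, `f : (Ideal R)⁰ →* F` a completely multiplicative function on the nonzero
ideals with values in a complete normed field.

* `S14_facIdeals s`: the nonzero ideals all of whose prime factors lie in the finite set `s` of
  height one primes;
* `S14_euler_finite`: if `‖f 𝔭‖ < 1` for all `𝔭`, then `∑_{I ∈ facIdeals s} f I` converges absolutely
  to `∏_{𝔭 ∈ s} (1 - f 𝔭)⁻¹`;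
* `S14_euler_tendsto`: if `f` is norm-summable, `∏_{𝔭 ∈ s} (1 - f 𝔭)⁻¹ → ∑' I, f I` as `s → ∞`.
-/

set_option autoImplicit false
set_option linter.unusedSectionVars false
set_option linter.deprecated false

namespace Fermat.Agent.S14

open IsDedekindDomain nonZeroDivisors Filter Topology

variable {R : Type*} [CommRing R] [IsDedekindDomain R]

/-- The height one prime `v` as a nonzero ideal. -/
noncomputable def S14_primeNZ (v : HeightOneSpectrum R) : (Ideal R)⁰ :=
  ⟨v.asIdeal, mem_nonZeroDivisors_of_ne_zero v.ne_bot⟩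

@[simp] lemma S14_primeNZ_coe (v : HeightOneSpectrum R) :
    ((S14_primeNZ v : (Ideal R)⁰) : Ideal R) = v.asIdeal := rfl

/-- The nonzero ideals all of whose prime factors lie in `s`. -/
def S14_facIdeals (s : Finset (HeightOneSpectrum R)) : Set (Ideal R)⁰ :=
  {I | ∀ v : HeightOneSpectrum R, v.asIdeal ∣ (I : Ideal R) → v ∈ s}

lemma S14_mem_facIdeals {s : Finset (HeightOneSpectrum R)} {I : (Ideal R)⁰} :
    I ∈ S14_facIdeals s ↔ ∀ v : HeightOneSpectrum R, v.asIdeal ∣ (I : Ideal R) → v ∈ s := Iff.rfl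

lemma S14_facIdeals_mono {s t : Finset (HeightOneSpectrum R)} (h : s ⊆ t) :
    S14_facIdeals s ⊆ S14_facIdeals t := fun _ hI v hv ↦ h (hI v hv)

lemma S14_nz_ne_bot (I : (Ideal R)⁰) : (I : Ideal R) ≠ ⊥ :=
  nonZeroDivisors.ne_zero I.2

/-- A nonzero ideal without prime divisors is the unit ideal. -/
lemma S14_eq_one_of_forall_not_dvd (I : (Ideal R)⁰)
    (h : ∀ v : HeightOneSpectrum R, ¬ v.asIdeal ∣ (I : Ideal R)) : I = 1 := by
  by_contra hI
  have hI' : (I : Ideal R) ≠ ⊤ := fun h' ↦ hI (Subtype.ext (by simpa using h'))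
  obtain ⟨M, hM, hIM⟩ := Ideal.exists_le_maximal _ hI'
  have hM0 : M ≠ ⊥ := fun h0 ↦ S14_nz_ne_bot I (le_bot_iff.mp (h0 ▸ hIM))
  exact h ⟨M, hM.isPrime, hM0⟩ (Ideal.dvd_iff_le.mpr hIM)

lemma S14_facIdeals_empty :
    S14_facIdeals (∅ : Finset (HeightOneSpectrum R)) = {1} := by
  ext I
  simp only [S14_facIdeals, Finset.notMem_empty, imp_false, Set.mem_setOf_eq,
    Set.mem_singleton_iff]
  constructor
  · exact S14_eq_one_of_forall_not_dvd I
  · rintro rfl v hv
    have hv' : v.asIdeal ∣ (1 : Ideal R) := hv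
    have : v.asIdeal = ⊤ := by
      rw [Ideal.one_eq_top, Ideal.dvd_iff_le] at hv'
      exact top_le_iff.mp hv'
    exact v.isPrime.ne_top this

/-- The finite set of primes dividing a nonzero ideal. -/
noncomputable def S14_primesOf (I : (Ideal R)⁰) : Finset (HeightOneSpectrum R) :=
  (Ideal.finite_factors (S14_nz_ne_bot I)).toFinset

lemma S14_mem_primesOf {I : (Ideal R)⁰} {v : HeightOneSpectrum R} :
    v ∈ S14_primesOf I ↔ v.asIdeal ∣ (I : Ideal R) := by
  simp [S14_primesOf]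

lemma S14_mem_facIdeals_of_primesOf_subset {I : (Ideal R)⁰} {s : Finset (HeightOneSpectrum R)}
    (h : S14_primesOf I ⊆ s) : I ∈ S14_facIdeals s :=
  fun _ hv ↦ h (S14_mem_primesOf.mpr hv)

section facmap

variable [DecidableEq (HeightOneSpectrum R)]

/-- The map `(e, I) ↦ v ^ e * I`. -/
noncomputable def S14_facMap (v : HeightOneSpectrum R) (s : Finset (HeightOneSpectrum R))
    (x : ℕ × S14_facIdeals s) : S14_facIdeals (insert v s) :=
  ⟨S14_primeNZ v ^ x.1 * x.2.1, by
    intro w hw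
    have hw' : w.asIdeal ∣ v.asIdeal ^ x.1 * ((x.2.1 : (Ideal R)⁰) : Ideal R) := by
      simpa using hw
    rcases w.prime.dvd_or_dvd hw' with h | h
    · have h1 : w.asIdeal ∣ v.asIdeal := w.prime.dvd_of_dvd_pow h
      have h2 : v.asIdeal ≤ w.asIdeal := Ideal.dvd_iff_le.mp h1
      have h3 : v.asIdeal = w.asIdeal :=
        (v.isPrime.isMaximal v.ne_bot).eq_of_le w.isPrime.ne_top h2
      have : v = w := HeightOneSpectrum.ext h3
      exact this ▸ Finset.mem_insert_self v s
    · exact Finset.mem_insert_of_mem (x.2.2 w h)⟩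

lemma S14_facMap_coe (v : HeightOneSpectrum R) (s : Finset (HeightOneSpectrum R))
    (x : ℕ × S14_facIdeals s) :
    ((S14_facMap v s x : S14_facIdeals (insert v s)) : (Ideal R)⁰) = S14_primeNZ v ^ x.1 * x.2.1 :=
  rfl

lemma S14_facMap_injective {v : HeightOneSpectrum R} {s : Finset (HeightOneSpectrum R)}
    (hv : v ∉ s) : Function.Injective (S14_facMap v s) := by
  -- key: `v ∤ I` for `I ∈ facIdeals s`
  have key : ∀ (a b : ℕ) (I J : S14_facIdeals s), a ≤ b →
      v.asIdeal ^ a * ((I.1 : (Ideal R)⁰) : Ideal R) = v.asIdeal ^ b * ((J.1 : (Ideal R)⁰) : Ideal R) →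
      a = b ∧ I = J := by
    intro a b I J hab h
    obtain ⟨c, rfl⟩ := Nat.exists_eq_add_of_le hab
    rw [pow_add, mul_assoc] at h
    have hva : v.asIdeal ^ a ≠ 0 := pow_ne_zero _ v.ne_bot
    have h' := mul_left_cancel₀ hva h
    rcases Nat.eq_zero_or_pos c with rfl | hc
    · simp only [pow_zero, one_mul] at h'
      exact ⟨rfl, Subtype.ext (Subtype.ext h')⟩
    · exfalso
      apply hv
      apply I.2 v
      rw [h']
      exact Dvd.dvd.mul_right (dvd_pow_self _ hc.ne') _
  rintro ⟨a, I⟩ ⟨b, J⟩ h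
  have h' : v.asIdeal ^ a * ((I.1 : (Ideal R)⁰) : Ideal R) =
      v.asIdeal ^ b * ((J.1 : (Ideal R)⁰) : Ideal R) := by
    have := congrArg (fun x : S14_facIdeals (insert v s) ↦ ((x : (Ideal R)⁰) : Ideal R)) h
    simpa [S14_facMap_coe] using this
  rcases le_total a b with hab | hab
  · obtain ⟨h1, h2⟩ := key a b I J hab h'
    exact Prod.ext h1 h2
  · obtain ⟨h1, h2⟩ := key b a J I hab h'.symm
    exact Prod.ext h1.symm h2.symm

lemma S14_facMap_surjective (v : HeightOneSpectrum R) (s : Finset (HeightOneSpectrum R)) :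
    Function.Surjective (S14_facMap v s) := by
  rintro ⟨J, hJ⟩
  obtain ⟨n, I, hI, hJI⟩ :=
    WfDvdMonoid.max_power_factor (S14_nz_ne_bot J) v.irreducible
  have hI0 : I ≠ 0 := by
    rintro rfl
    exact S14_nz_ne_bot J (by simpa using hJI)
  have hIfac : (⟨I, mem_nonZeroDivisors_of_ne_zero hI0⟩ : (Ideal R)⁰) ∈ S14_facIdeals s := by
    intro w hw
    have hw' : w.asIdeal ∣ I := hw
    have hwJ : w.asIdeal ∣ (J : Ideal R) := hJI ▸ Dvd.dvd.mul_left hw' _
    rcases Finset.mem_insert.mp (hJ w hwJ) with rfl | h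
    · exact absurd hw' hI
    · exact h
  refine ⟨⟨n, ⟨⟨I, mem_nonZeroDivisors_of_ne_zero hI0⟩, hIfac⟩⟩, ?_⟩
  apply Subtype.ext
  apply Subtype.ext
  simp [S14_facMap_coe, hJI]

/-- The equivalence `ℕ × facIdeals s ≃ facIdeals (insert v s)` for `v ∉ s`. -/
noncomputable def S14_facEquiv {v : HeightOneSpectrum R} {s : Finset (HeightOneSpectrum R)}
    (hv : v ∉ s) : ℕ × S14_facIdeals s ≃ S14_facIdeals (insert v s) :=
  Equiv.ofBijective (S14_facMap v s) ⟨S14_facMap_injective hv, S14_facMap_surjective v s⟩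

lemma S14_facEquiv_apply {v : HeightOneSpectrum R} {s : Finset (HeightOneSpectrum R)}
    (hv : v ∉ s) (x : ℕ × S14_facIdeals s) :
    ((S14_facEquiv hv x : S14_facIdeals (insert v s)) : (Ideal R)⁰) =
      S14_primeNZ v ^ x.1 * x.2.1 := rfl

end facmap

section euler

variable {F : Type*} [NormedField F] [CompleteSpace F]

/-- Insertion step for the finite Euler product. -/
lemma S14_euler_insert [DecidableEq (HeightOneSpectrum R)] (f : (Ideal R)⁰ →* F)
    {v : HeightOneSpectrum R} (hfv : ‖f (S14_primeNZ v)‖ < 1)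
    {s : Finset (HeightOneSpectrum R)} (hv : v ∉ s) {a : F}
    (ih1 : Summable (fun I : S14_facIdeals s ↦ ‖f I‖))
    (ih2 : HasSum (fun I : S14_facIdeals s ↦ f I) a) :
    Summable (fun I : S14_facIdeals (insert v s) ↦ ‖f I‖) ∧
      HasSum (fun I : S14_facIdeals (insert v s) ↦ f I) ((1 - f (S14_primeNZ v))⁻¹ * a) := by
  have hgeo : Summable (fun n : ℕ ↦ ‖f (S14_primeNZ v) ^ n‖) := by
    refine Summable.of_nonneg_of_le (fun _ ↦ norm_nonneg _) (fun _ ↦ norm_pow_le ..) ?_
    exact summable_geometric_iff_norm_lt_one.mpr <| (norm_norm (f (S14_primeNZ v))).symm ▸ hfv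
  have hgeo' : HasSum (fun n : ℕ ↦ f (S14_primeNZ v) ^ n) (1 - f (S14_primeNZ v))⁻¹ :=
    hasSum_geometric_of_norm_lt_one hfv
  have hfun : ∀ x : ℕ × S14_facIdeals s,
      f ((S14_facEquiv hv x : S14_facIdeals (insert v s)) : (Ideal R)⁰) =
        f (S14_primeNZ v) ^ x.1 * f x.2 := by
    intro x
    rw [S14_facEquiv_apply, map_mul, map_pow]
  constructor
  · refine (Equiv.summable_iff (S14_facEquiv hv)).mp ?_
    have h1 : Summable (fun x : ℕ × S14_facIdeals s ↦
        ‖f (S14_primeNZ v) ^ x.1‖ * ‖f x.2‖) :=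
      Summable.mul_of_nonneg (f := fun n : ℕ ↦ ‖f (S14_primeNZ v) ^ n‖)
        (g := fun I : S14_facIdeals s ↦ ‖f I‖) hgeo ih1
        (fun _ ↦ norm_nonneg _) (fun _ ↦ norm_nonneg _)
    refine h1.congr (fun x ↦ ?_)
    show _ = ‖f ((S14_facEquiv hv x : S14_facIdeals (insert v s)) : (Ideal R)⁰)‖
    rw [hfun x, norm_mul]
  · refine (Equiv.hasSum_iff (S14_facEquiv hv)).mp ?_
    have h3 : Summable (fun x : ℕ × S14_facIdeals s ↦ f (S14_primeNZ v) ^ x.1 * f x.2) :=
      summable_mul_of_summable_norm (f := fun n : ℕ ↦ f (S14_primeNZ v) ^ n)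
        (g := fun I : S14_facIdeals s ↦ f I) hgeo ih1
    have h2 : HasSum (fun x : ℕ × S14_facIdeals s ↦ f (S14_primeNZ v) ^ x.1 * f x.2)
        ((1 - f (S14_primeNZ v))⁻¹ * a) :=
      HasSum.mul (f := fun n : ℕ ↦ f (S14_primeNZ v) ^ n)
        (g := fun I : S14_facIdeals s ↦ f I) hgeo' ih2 h3
    refine h2.congr_fun (fun x ↦ ?_)
    show f ((S14_facEquiv hv x : S14_facIdeals (insert v s)) : (Ideal R)⁰) = _
    rw [hfun x]

/-- Finite Euler product: the sum of `f` over the `s`-factored ideals. -/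
theorem S14_euler_finite (f : (Ideal R)⁰ →* F)
    (h : ∀ v : HeightOneSpectrum R, ‖f (S14_primeNZ v)‖ < 1)
    (s : Finset (HeightOneSpectrum R)) :
    Summable (fun I : S14_facIdeals s ↦ ‖f I‖) ∧
      HasSum (fun I : S14_facIdeals s ↦ f I) (∏ v ∈ s, (1 - f (S14_primeNZ v))⁻¹) := by
  classical
  induction s using Finset.induction with
  | empty =>
    rw [S14_facIdeals_empty]
    simp only [Finset.prod_empty]
    refine ⟨(Set.finite_singleton (1 : (Ideal R)⁰)).summable (‖f ·‖), ?_⟩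
    have := hasSum_singleton (1 : (Ideal R)⁰) (fun I ↦ f I)
    rw [map_one] at this
    exact this
  | insert v s hv ih =>
    rw [Finset.prod_insert hv]
    exact S14_euler_insert f (h v) hv ih.1 ih.2

/-- If `f` is summable then `‖f 𝔭‖ < 1` for all primes. -/
lemma S14_norm_prime_lt_one (f : (Ideal R)⁰ →* F) (hsum : Summable f)
    (v : HeightOneSpectrum R) : ‖f (S14_primeNZ v)‖ < 1 := by
  refine summable_geometric_iff_norm_lt_one.mp ?_
  simp_rw [← map_pow]
  refine hsum.comp_injective ?_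
  intro a b hab
  have hab' : v.asIdeal ^ a = v.asIdeal ^ b := by
    have := congrArg (fun x : (Ideal R)⁰ ↦ (x : Ideal R)) hab
    simpa using this
  by_contra hne
  rcases Nat.lt_or_gt_of_ne hne with hlt | hlt
  · exact (Ideal.pow_right_strictAnti v.asIdeal v.ne_bot v.isPrime.ne_top hlt).ne' hab'
  · exact (Ideal.pow_right_strictAnti v.asIdeal v.ne_bot v.isPrime.ne_top hlt).ne hab'

lemma S14_euler_tsum_facIdeals (f : (Ideal R)⁰ →* F) (hsum : Summable f)
    (s : Finset (HeightOneSpectrum R)) :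
    ∑' I : S14_facIdeals s, f I = ∏ v ∈ s, (1 - f (S14_primeNZ v))⁻¹ :=
  (S14_euler_finite f (S14_norm_prime_lt_one f hsum) s).2.tsum_eq

/-- **Euler product** over the primes of a Dedekind domain, for a completely multiplicative
norm-summable function on nonzero ideals. -/
theorem S14_euler_tendsto (f : (Ideal R)⁰ →* F) (hsum : Summable (fun I ↦ ‖f I‖)) :
    Tendsto (fun s : Finset (HeightOneSpectrum R) ↦ ∏ v ∈ s, (1 - f (S14_primeNZ v))⁻¹)
      atTop (𝓝 (∑' I, f I)) := by
  classical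
  have hsum' : Summable f := hsum.of_norm
  rw [Metric.tendsto_atTop]
  intro ε hε
  obtain ⟨t, ht⟩ := hsum'.tsum_vanishing (Metric.ball_mem_nhds 0 hε)
  refine ⟨t.biUnion S14_primesOf, fun s hs ↦ ?_⟩
  have hdisj : Disjoint (S14_facIdeals s)ᶜ (t : Set (Ideal R)⁰) := by
    rw [Set.disjoint_left]
    intro I hI hIt
    apply hI
    apply S14_mem_facIdeals_of_primesOf_subset
    exact (Finset.subset_biUnion_of_mem S14_primesOf hIt).trans hs
  have h1 := ht _ hdisj
  rw [mem_ball_zero_iff] at h1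
  rw [dist_eq_norm, ← S14_euler_tsum_facIdeals f hsum' s,
    ← hsum'.tsum_subtype_add_tsum_subtype_compl (S14_facIdeals s), sub_add_cancel_left, norm_neg]
  exact h1

end euler

end Fermat.Agent.S14
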