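import Mathlib

/-!
# S14, block N2a (part 2): the Dedekind zeta function as a sum over nonzero ideals

For a number field `K` and real `s > 1`:

* `S14_idealZeta K s = ∑' I : (Ideal (𝓞 K))⁰, N(I) ^ (-s)` (a real number);
* `S14_idealZeta_summable`: the sum converges;
* `S14_idealZeta_eq`: it is equal to Mathlib's `NumberField.dedekindZeta K s`;
* `S14_idealZeta_residue`: `(s - 1) * S14_idealZeta K s → dedekindZeta_residue K` as `s → 1⁺`.
-/

set_option autoImplicit false
set_option linter.unusedSectionVars false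
set_option linter.deprecated false
set_option linter.style.haveILetI false

namespace Fermat.Agent.S14

open NumberField Ideal nonZeroDivisors Filter Topology

variable (K : Type*) [Field K] [NumberField K]

/-- The term `N(I) ^ (-s)`. -/
noncomputable def S14_normPow (s : ℝ) (I : (Ideal (𝓞 K))⁰) : ℝ :=
  (absNorm (I : Ideal (𝓞 K)) : ℝ) ^ (-s)

/-- The Dedekind zeta function at a real argument, as a sum over nonzero ideals. -/
noncomputable def S14_idealZeta (s : ℝ) : ℝ :=
  ∑' I : (Ideal (𝓞 K))⁰, S14_normPow K s I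

variable {K}

lemma S14_absNorm_pos (I : (Ideal (𝓞 K))⁰) : 0 < absNorm (I : Ideal (𝓞 K)) :=
  Nat.pos_of_ne_zero (fun h ↦ nonZeroDivisors.ne_zero I.2 (absNorm_eq_zero_iff.mp h))

lemma S14_one_le_absNorm (I : (Ideal (𝓞 K))⁰) : (1 : ℝ) ≤ absNorm (I : Ideal (𝓞 K)) := by
  exact_mod_cast S14_absNorm_pos I

lemma S14_normPow_nonneg (s : ℝ) (I : (Ideal (𝓞 K))⁰) : 0 ≤ S14_normPow K s I :=
  Real.rpow_nonneg (Nat.cast_nonneg _) _

lemma S14_normPow_pos (s : ℝ) (I : (Ideal (𝓞 K))⁰) : 0 < S14_normPow K s I :=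
  Real.rpow_pos_of_pos (by exact_mod_cast S14_absNorm_pos I) _

lemma S14_normPow_le_one {s : ℝ} (hs : 0 ≤ s) (I : (Ideal (𝓞 K))⁰) : S14_normPow K s I ≤ 1 :=
  Real.rpow_le_one_of_one_le_of_nonpos (S14_one_le_absNorm I) (by linarith)

lemma S14_normPow_one (s : ℝ) : S14_normPow K s 1 = 1 := by
  simp [S14_normPow]

lemma S14_normPow_mul (s : ℝ) (I J : (Ideal (𝓞 K))⁰) :
    S14_normPow K s (I * J) = S14_normPow K s I * S14_normPow K s J := by
  simp only [S14_normPow, Submonoid.coe_mul, map_mul, Nat.cast_mul]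
  exact Real.mul_rpow (Nat.cast_nonneg _) (Nat.cast_nonneg _)

/-- Monotonicity in the exponent. -/
lemma S14_normPow_anti {s t : ℝ} (hst : s ≤ t) (I : (Ideal (𝓞 K))⁰) :
    S14_normPow K t I ≤ S14_normPow K s I :=
  Real.rpow_le_rpow_of_exponent_le (S14_one_le_absNorm I) (by linarith)

/-- `N^{-s}` as a monoid homomorphism. -/
noncomputable def S14_normPowHom (K : Type*) [Field K] [NumberField K] (s : ℝ) :
    (Ideal (𝓞 K))⁰ →* ℝ where
  toFun := S14_normPow K s
  map_one' := S14_normPow_one s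
  map_mul' := S14_normPow_mul s

@[simp] lemma S14_normPowHom_apply (s : ℝ) (I : (Ideal (𝓞 K))⁰) :
    S14_normPowHom K s I = S14_normPow K s I := rfl

variable (K)

/-- The number of ideals of norm `n`. -/
noncomputable def S14_cnt (n : ℕ) : ℕ := Nat.card {I : Ideal (𝓞 K) // absNorm I = n}

lemma S14_cnt_tendsto :
    Tendsto (fun n : ℕ ↦ (∑ k ∈ Finset.Icc 1 n, (S14_cnt K k : ℝ)) / (n : ℝ)) atTop
      (𝓝 (dedekindZeta_residue K)) := by
  refine ((Ideal.tendsto_norm_le_div_atTop₀ K).comp tendsto_natCast_atTop_atTop).congr fun n ↦ ?_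
  simp only [Function.comp_apply, Nat.cast_le, ← Nat.cast_sum, S14_cnt]
  congr
  rw [← add_left_inj 1, ← card_norm_le_eq_card_norm_le_add_one,
    show Finset.Icc 1 n = Finset.Ioc 0 n from Finset.Icc_succ_left_eq_Ioc _ _,
    show 1 = Nat.card {I : Ideal (𝓞 K) // absNorm I = 0} by simp [Ideal.absNorm_eq_zero_iff],
    Finset.sum_Ioc_add_eq_sum_Icc (n.zero_le),
    ← Finset.card_preimage_eq_sum_card_image_eq (fun k _ ↦ finite_setOfPred_absNorm_eq k)]
  simp [Set.coe_eq_subtype]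

lemma S14_cnt_lseriesSummable {s : ℝ} (hs : 1 < s) :
    LSeriesSummable (fun n ↦ ((S14_cnt K n : ℝ) : ℂ)) (s : ℂ) := by
  refine LSeriesSummable_of_sum_norm_bigO_and_nonneg (f := fun n ↦ (S14_cnt K n : ℝ)) ?_
    (fun _ ↦ Nat.cast_nonneg _) zero_le_one (by simpa using hs)
  exact Asymptotics.isBigO_atTop_natCast_rpow_of_tendsto_div_rpow (a := dedekindZeta_residue K)
    (by simpa using S14_cnt_tendsto K)

/-- The real `n`-th term of the Dedekind zeta series. -/
noncomputable def S14_term (s : ℝ) (n : ℕ) : ℝ :=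
  if n = 0 then 0 else (S14_cnt K n : ℝ) * (n : ℝ) ^ (-s)

lemma S14_term_eq (s : ℝ) (n : ℕ) :
    LSeries.term (fun n ↦ ((S14_cnt K n : ℝ) : ℂ)) (s : ℂ) n = ((S14_term K s n : ℝ) : ℂ) := by
  rw [LSeries.term_def, S14_term]
  split_ifs with h
  · simp
  · rw [Complex.ofReal_mul, Complex.ofReal_cpow (Nat.cast_nonneg n), Complex.ofReal_neg,
      Complex.cpow_neg, div_eq_mul_inv]
    simp

lemma S14_term_summable {s : ℝ} (hs : 1 < s) : Summable (S14_term K s) := by
  have h := S14_cnt_lseriesSummable K hs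
  rw [LSeriesSummable] at h
  rw [← Complex.summable_ofReal]
  exact h.congr (fun n ↦ S14_term_eq K s n)

lemma S14_term_tsum (s : ℝ) :
    ((∑' n, S14_term K s n : ℝ) : ℂ) = dedekindZeta K (s : ℂ) := by
  rw [Complex.ofReal_tsum, dedekindZeta, LSeries]
  refine tsum_congr (fun n ↦ ?_)
  rw [← S14_term_eq, LSeries.term_def, LSeries.term_def]
  simp [S14_cnt]

/-- The fibre of the norm over `n`, inside the nonzero ideals. -/
def S14_normFib (n : ℕ) : Set (Ideal (𝓞 K))⁰ := {I | absNorm (I : Ideal (𝓞 K)) = n}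

lemma S14_normFib_finite (n : ℕ) : (S14_normFib K n).Finite := by
  have h := finite_setOfPred_absNorm_eq (S := 𝓞 K) n
  refine Set.Finite.of_finite_image (f := fun I : (Ideal (𝓞 K))⁰ ↦ (I : Ideal (𝓞 K))) ?_
    (fun _ _ _ _ h ↦ Subtype.ext h)
  refine h.subset ?_
  rintro _ ⟨I, hI, rfl⟩
  exact hI

lemma S14_normFib_card (n : ℕ) (hn : n ≠ 0) : Nat.card (S14_normFib K n) = S14_cnt K n := by
  refine Nat.card_congr ?_
  refine
    { toFun := fun I ↦ ⟨(I.1 : Ideal (𝓞 K)), I.2⟩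
      invFun := fun I ↦ ⟨⟨I.1, mem_nonZeroDivisors_of_ne_zero (fun h ↦ hn ?_)⟩, I.2⟩
      left_inv := fun I ↦ rfl
      right_inv := fun I ↦ rfl }
  have := I.2
  rw [h] at this
  simpa using this.symm

lemma S14_normFib_tsum (s : ℝ) (n : ℕ) :
    ∑' I : S14_normFib K n, S14_normPow K s I = S14_term K s n := by
  classical
  haveI : Finite (S14_normFib K n) := (S14_normFib_finite K n).to_subtype
  haveI : Fintype (S14_normFib K n) := Fintype.ofFinite _
  rw [tsum_fintype, S14_term]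
  have : ∀ I : S14_normFib K n, S14_normPow K s I = (n : ℝ) ^ (-s) := by
    intro I
    have hI : absNorm ((I : (Ideal (𝓞 K))⁰) : Ideal (𝓞 K)) = n := I.2
    simp [S14_normPow, hI]
  rw [Finset.sum_congr rfl (fun I _ ↦ this I), Finset.sum_const, Finset.card_univ, nsmul_eq_mul]
  split_ifs with h
  · subst h
    have : IsEmpty (S14_normFib K 0) := ⟨fun I ↦ (S14_absNorm_pos I.1).ne' I.2⟩
    simp
  · rw [← S14_normFib_card K n h, Nat.card_eq_fintype_card]

lemma S14_normFib_partition (I : (Ideal (𝓞 K))⁰) : ∃! n, I ∈ S14_normFib K n :=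
  ⟨absNorm (I : Ideal (𝓞 K)), rfl, fun _ h ↦ h.symm⟩

theorem S14_idealZeta_summable {s : ℝ} (hs : 1 < s) : Summable (S14_normPow K s) := by
  rw [summable_partition (fun I ↦ S14_normPow_nonneg s I) (S14_normFib_partition K)]
  refine ⟨fun n ↦ ?_, ?_⟩
  · haveI : Finite (S14_normFib K n) := (S14_normFib_finite K n).to_subtype
    exact Summable.of_finite
  · simp_rw [S14_normFib_tsum]
    exact S14_term_summable K hs

theorem S14_idealZeta_eq_tsum_term {s : ℝ} (hs : 1 < s) :
    S14_idealZeta K s = ∑' n, S14_term K s n := by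
  have h := (S14_idealZeta_summable K hs).hasSum.tsum_fiberwise
    (fun I : (Ideal (𝓞 K))⁰ ↦ absNorm (I : Ideal (𝓞 K)))
  have h2 : ∀ n, ∑' I : ((fun I : (Ideal (𝓞 K))⁰ ↦ absNorm (I : Ideal (𝓞 K))) ⁻¹' {n}),
      S14_normPow K s I = S14_term K s n := fun n ↦ S14_normFib_tsum K s n
  simp_rw [h2] at h
  exact h.tsum_eq.symm

theorem S14_idealZeta_eq {s : ℝ} (hs : 1 < s) :
    ((S14_idealZeta K s : ℝ) : ℂ) = dedekindZeta K (s : ℂ) := by
  rw [S14_idealZeta_eq_tsum_term K hs, S14_term_tsum]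

theorem S14_idealZeta_residue :
    Tendsto (fun s : ℝ ↦ (s - 1) * S14_idealZeta K s) (𝓝[>] 1) (𝓝 (dedekindZeta_residue K)) := by
  have h := tendsto_sub_one_mul_dedekindZeta_nhdsGT K
  have h2 := (Complex.continuous_re.tendsto _).comp h
  simp only [Complex.ofReal_re] at h2
  refine h2.congr' ?_
  filter_upwards [self_mem_nhdsWithin] with s hs
  simp only [Function.comp_apply]
  rw [← S14_idealZeta_eq K hs, ← Complex.ofReal_one, ← Complex.ofReal_sub, ← Complex.ofReal_mul,
    Complex.ofReal_re]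

lemma S14_idealZeta_pos {s : ℝ} (hs : 1 < s) : 0 < S14_idealZeta K s :=
  (S14_idealZeta_summable K hs).tsum_pos (fun I ↦ S14_normPow_nonneg s I) 1
    (S14_normPow_pos s 1)

lemma S14_one_le_idealZeta {s : ℝ} (hs : 1 < s) : 1 ≤ S14_idealZeta K s := by
  have := (S14_idealZeta_summable K hs).le_tsum 1 (fun I _ ↦ S14_normPow_nonneg s I)
  rwa [S14_normPow_one] at this

end Fermat.Agent.S14
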