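import Mathlib

/-!
# S14 (item 13): shared definitions of the class-field-theory core

Only Mathlib is imported.  Both definitions are plain abbreviations of elementary
statements; every block may use either the name or the spelled-out statement (they are
definitionally equal, `Iff.rfl`).  (The target `S14_NoExtNF` of the core is defined in
`S14/Dict.lean`.)

* `S14_Unr E M` : `M/E` is unramified at every finite prime, in the form "trivial inertia".
* `S14_IsFrob σ P` : `σ ∈ Gal(M/E)` is a Frobenius element at the prime `P` of `𝓞 M`.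
-/

namespace Fermat.Agent.S14

open NumberField IntermediateField

/-- `M/E` is unramified at every finite prime: every inertia group is trivial. -/
def S14_Unr (E M : Type*) [Field E] [NumberField E] [Field M] [NumberField M] [Algebra E M] :
    Prop :=
  ∀ P : Ideal (𝓞 M), P.IsPrime → P ≠ ⊥ →
    ∀ σ : M ≃ₐ[E] M, (∀ x : 𝓞 M, σ • x - x ∈ P) → σ = 1

/-- `σ` is a Frobenius element at the prime `P` of `𝓞 M` (relative to `E`):
`σ x ≡ x ^ N𝔭 mod P` for all `x ∈ 𝓞 M`, where `𝔭 = P ∩ 𝓞 E`. -/
def S14_IsFrob {E M : Type*} [Field E] [NumberField E] [Field M] [NumberField M] [Algebra E M]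
    (σ : M ≃ₐ[E] M) (P : Ideal (𝓞 M)) : Prop :=
  ∀ x : 𝓞 M, σ • x - x ^ Nat.card (𝓞 E ⧸ P.under (𝓞 E)) ∈ P

end Fermat.Agent.S14
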