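import Mathlib

/-!
# S14 (item 13): the reciprocity interface `(R)` between block N3 and block GLUE

`S14_Recip p` is the statement of Artin reciprocity for everywhere-unramified Galois extensions
`K/F` of number fields of degree `p`, in elementary terms:
there is a surjective homomorphism `φ : Cl(𝓞 F) → Gal(K/F)` such that for every nonzero ideal
`𝔭` of `𝓞 F` and every prime `P` of `𝓞 K` with `P ∩ 𝓞 F = 𝔭` (so `𝔭` is a nonzero prime),
`φ [𝔭]` is a Frobenius element at `P`:  `φ [𝔭] x ≡ x ^ N𝔭  (mod P)` for all `x ∈ 𝓞 K`.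

Only Mathlib is imported.  Block N3 proves `S14_Recip p` (for odd primes `p`), block GLUE
(`S14/Glue.lean`) consumes it.
-/

namespace Fermat.Agent.S14

open NumberField nonZeroDivisors

/-- Reciprocity for unramified Galois extensions of degree `p` (interface `(R)`). -/
def S14_Recip (p : ℕ) : Prop :=
  ∀ (F K : Type) [Field F] [NumberField F] [Field K] [NumberField K] [Algebra F K]
    [IsGalois F K],
    Module.finrank F K = p →
    (∀ P : Ideal (𝓞 K), P.IsPrime → P ≠ ⊥ →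
      ∀ σ : K ≃ₐ[F] K, (∀ x : 𝓞 K, σ • x - x ∈ P) → σ = 1) →
    ∃ φ : ClassGroup (𝓞 F) →* (K ≃ₐ[F] K), Function.Surjective φ ∧
      ∀ (𝔭 : (Ideal (𝓞 F))⁰) (P : Ideal (𝓞 K)), P.IsPrime → P.under (𝓞 F) = 𝔭.1 →
        ∀ x : 𝓞 K, φ (ClassGroup.mk0 𝔭) • x - x ^ Nat.card (𝓞 F ⧸ 𝔭.1) ∈ P

end Fermat.Agent.S14
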