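import Mathlib
import Fermat.Agent.S14.Defs
import Fermat.Agent.S14.RecipDef

/-!
# S14 (item 13), block N3 (crossing): shared definitions and frozen interfaces

Everything here is a definition (no proofs).  `E ⊆ M` (or `F ⊆ K`) are number fields given as
types with `[Algebra E M]`.

* `S14_HsT E M t` : subgroup of `Cl(𝓞 E)` generated by the classes of the primes of `𝓞 E` lying
  under a prime `P` of `𝓞 M` of relative degree one with `(t : 𝓞 M) ∉ P`.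
* `S14_HtT p E M t` : `S14_HsT E M t ⊔ (p-th powers)`.
* `S14_FrobOf σ 𝔮` : `σ` is a Frobenius element of `M/E` at some prime of `𝓞 M` over `𝔮`.
* `S14_N1Stmt p` : interface with block N1 (first inequality, weak form).
* `S14_N2Stmt` : interface with block N2 (universal norm inequality with an exceptional modulus).
* `S14_CoreStmt p`, `S14_BridgeStmt p` : the two halves of the crossing argument, as statements
  about `F ⊆ K` only (all auxiliary fields are hidden in their proofs).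
* `S14_TwoPrimeStmt p` : their consequence, input of the final group theory.
-/

namespace Fermat.Agent.S14

open NumberField nonZeroDivisors

/-- classes of primes of `𝓞 E` under a relative-degree-one prime of `𝓞 M` not containing `t`. -/
noncomputable def S14_HsT (E M : Type*) [Field E] [NumberField E] [Field M] [NumberField M] [Algebra E M]
    (t : ℕ) : Subgroup (ClassGroup (𝓞 E)) :=
  Subgroup.closure {c | ∃ (𝔮 : (Ideal (𝓞 E))⁰) (P : Ideal (𝓞 M)), P.IsPrime ∧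
    P.under (𝓞 E) = 𝔮.1 ∧ P.inertiaDeg (𝓞 E) = 1 ∧ (t : 𝓞 M) ∉ P ∧ ClassGroup.mk0 𝔮 = c}

/-- `S14_HsT E M t ⊔ (p-th powers)`. -/
noncomputable def S14_HtT (p : ℕ) (E M : Type*) [Field E] [NumberField E] [Field M] [NumberField M]
    [Algebra E M] (t : ℕ) : Subgroup (ClassGroup (𝓞 E)) :=
  S14_HsT E M t ⊔ (powMonoidHom p : ClassGroup (𝓞 E) →* ClassGroup (𝓞 E)).range

/-- `σ` is a Frobenius element of `M/E` at some nonzero prime of `𝓞 M` over `𝔮`. -/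
def S14_FrobOf {E M : Type*} [Field E] [NumberField E] [Field M] [NumberField M] [Algebra E M]
    (σ : M ≃ₐ[E] M) (𝔮 : Ideal (𝓞 E)) : Prop :=
  ∃ Q : Ideal (𝓞 M), Q.IsPrime ∧ Q ≠ ⊥ ∧ Q.under (𝓞 E) = 𝔮 ∧ S14_IsFrob σ Q

/-- Interface N1 → N3 (first inequality, weak form): for an unramified Galois extension `M/E` of
degree `p`, some ideal class of `E` is not the class of a relative norm. -/
def S14_N1Stmt (p : ℕ) : Prop :=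
  ∀ (E M : Type) [Field E] [NumberField E] [Field M] [NumberField M] [Algebra E M]
    [IsGalois E M], Module.finrank E M = p → S14_Unr E M →
    ∃ c : ClassGroup (𝓞 E), ∀ (J : Ideal (𝓞 M)) (I : (Ideal (𝓞 E))⁰), J ≠ ⊥ →
      I.1 = Ideal.relNorm (𝓞 E) J → ClassGroup.mk0 I ≠ c

/-- Interface N2 → N3 (universal norm inequality, with an exceptional modulus `t`). -/
def S14_N2Stmt : Prop :=
  ∀ (E M : Type) [Field E] [NumberField E] [Field M] [NumberField M] [Algebra E M]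
    [IsGalois E M] (t : ℕ), t ≠ 0 → (S14_HsT E M t).index ≤ Module.finrank E M

/-- CORE: crossing with one cyclotomic field `K(ζ_ℓ)`.  If two primes `𝔮₁, 𝔮₂` of `F` prime to `ℓ`
have the same "Frobenius power" `(σᵢ ^ nᵢ, N𝔮ᵢ ^ nᵢ mod ℓ)`, of exact order `p` in both
components, then `[𝔮₁] ^ n₁ ≡ [𝔮₂] ^ n₂` modulo `S14_HtT p F K 1`. -/
def S14_CoreStmt (p : ℕ) : Prop :=
  ∀ (F K : Type) [Field F] [NumberField F] [Field K] [NumberField K] [Algebra F K]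
    [IsGalois F K], Module.finrank F K = p → S14_Unr F K →
    ∀ (ℓ : ℕ), ℓ.Prime →
    ∀ (𝔮₁ 𝔮₂ : (Ideal (𝓞 F))⁰) (σ₁ σ₂ : K ≃ₐ[F] K),
      S14_FrobOf σ₁ 𝔮₁.1 → S14_FrobOf σ₂ 𝔮₂.1 →
      (ℓ : 𝓞 F) ∉ 𝔮₁.1 → (ℓ : 𝓞 F) ∉ 𝔮₂.1 →
    ∀ n₁ n₂ : ℕ, σ₁ ^ n₁ = σ₂ ^ n₂ → σ₁ ^ n₁ ≠ 1 →
      ((Nat.card (𝓞 F ⧸ 𝔮₁.1) : ℕ) : ZMod ℓ) ^ n₁ = ((Nat.card (𝓞 F ⧸ 𝔮₂.1) : ℕ) : ZMod ℓ) ^ n₂ →
      ((Nat.card (𝓞 F ⧸ 𝔮₁.1) : ℕ) : ZMod ℓ) ^ n₁ ≠ 1 →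
      ((Nat.card (𝓞 F ⧸ 𝔮₁.1) : ℕ) : ZMod ℓ) ^ (n₁ * p) = 1 →
      ClassGroup.mk0 𝔮₁ ^ n₁ / ClassGroup.mk0 𝔮₂ ^ n₂ ∈ S14_HtT p F K 1

/-- BRIDGE: existence of a prime `𝔮` of `F` with prescribed Frobenius power in
`K(ζ_{ℓ₀ℓ₁})/F` (first inequality for `K(ζ_{ℓ₀ℓ₁})` over the fixed field of an element of
order `p`). -/
def S14_BridgeStmt (p : ℕ) : Prop :=
  ∀ (F K : Type) [Field F] [NumberField F] [Field K] [NumberField K] [Algebra F K]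
    [IsGalois F K], Module.finrank F K = p → S14_Unr F K →
    ∀ (ℓ₀ ℓ₁ : ℕ), ℓ₀.Prime → ℓ₁.Prime → ℓ₀ ≠ ℓ₁ →
      ¬ (ℓ₀ : ℤ) ∣ NumberField.discr K → ¬ (ℓ₁ : ℤ) ∣ NumberField.discr K →
    ∀ (s : K ≃ₐ[F] K) (u₀ : ZMod ℓ₀) (u₁ : ZMod ℓ₁), s ≠ 1 → u₀ ^ p = 1 → u₁ ^ p = 1 →
    ∃ (𝔮 : (Ideal (𝓞 F))⁰) (τ : K ≃ₐ[F] K) (n i : ℕ),
      𝔮.1.IsPrime ∧ S14_FrobOf τ 𝔮.1 ∧ (ℓ₀ : 𝓞 F) ∉ 𝔮.1 ∧ (ℓ₁ : 𝓞 F) ∉ 𝔮.1 ∧ ¬ p ∣ i ∧
      τ ^ n = s ^ i ∧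
      ((Nat.card (𝓞 F ⧸ 𝔮.1) : ℕ) : ZMod ℓ₀) ^ n = u₀ ^ i ∧
      ((Nat.card (𝓞 F ⧸ 𝔮.1) : ℕ) : ZMod ℓ₁) ^ n = u₁ ^ i

/-- TWO-PRIME LEMMA (output of CORE + BRIDGE + Artin's lemma, input of the final group theory):
two primes of `F` with nontrivial Frobenius in `K/F` have classes that correspond modulo
`S14_HtT p F K 1`. -/
def S14_TwoPrimeStmt (p : ℕ) : Prop :=
  ∀ (F K : Type) [Field F] [NumberField F] [Field K] [NumberField K] [Algebra F K]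
    [IsGalois F K], Module.finrank F K = p → S14_Unr F K →
    ∀ (𝔭₀ 𝔭₁ : (Ideal (𝓞 F))⁰) (σ₀ σ₁ : K ≃ₐ[F] K),
      S14_FrobOf σ₀ 𝔭₀.1 → S14_FrobOf σ₁ 𝔭₁.1 → σ₀ ≠ 1 → σ₁ ≠ 1 →
    ∃ m₀ m₁ : ℕ, σ₀ ^ m₀ = σ₁ ^ m₁ ∧ σ₀ ^ m₀ ≠ 1 ∧
      ClassGroup.mk0 𝔭₀ ^ m₀ / ClassGroup.mk0 𝔭₁ ^ m₁ ∈ S14_HtT p F K 1

end Fermat.Agent.S14
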