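import Mathlib

/-!
# S14 / N3 FIELD (b5), first half: degree of `K(ζ_m)/K` when `gcd(m, disc K) = 1`

`S14_field_finrank`: if `Ω = K(ζ_m)` and `m` is coprime to the discriminant of `K`, then
`[Ω : K] = φ(m)` (linear disjointness of `ℚ(ζ_m)` and `K` inside `Ω`).
-/

namespace Fermat.Agent.S14

open NumberField IntermediateField

section

variable (K Ω : Type*) [Field K] [NumberField K] [Field Ω] [NumberField Ω] [Algebra K Ω]
  (m : ℕ) [NeZero m] [IsCyclotomicExtension {m} K Ω]

theorem S14_field_finrank (hd : IsCoprime (m : ℤ) (NumberField.discr K)) :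
    Module.finrank K Ω = m.totient := by
  classical
  obtain ⟨ζ, hζ⟩ := IsCyclotomicExtension.exists_isPrimitiveRoot K Ω (Set.mem_singleton m)
    (NeZero.ne m)
  -- the two subfields of `Ω`
  let K₁ : IntermediateField ℚ Ω := ℚ⟮ζ⟯
  let K₂ : IntermediateField ℚ Ω := (IsScalarTower.toAlgHom ℚ K Ω).fieldRange
  have hcyc : IsCyclotomicExtension {m} ℚ K₁ :=
    hζ.intermediateField_adjoin_isCyclotomicExtension ℚ
  have : IsGalois ℚ K₁ := IsCyclotomicExtension.isGalois {m} ℚ K₁
  -- `K ≃ K₂`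
  let e : K ≃ₐ[ℚ] K₂ := AlgEquiv.ofInjectiveField (IsScalarTower.toAlgHom ℚ K Ω)
  have hdisc₂ : NumberField.discr K₂ = NumberField.discr K :=
    (NumberField.discr_eq_discr_of_algEquiv K e).symm
  have hrank₂ : Module.finrank ℚ K₂ = Module.finrank ℚ K := e.toLinearEquiv.finrank_eq.symm
  have hrank₁ : Module.finrank ℚ K₁ = m.totient :=
    IsCyclotomicExtension.finrank K₁ (Polynomial.cyclotomic.irreducible_rat (NeZero.pos m))
  -- coprime discriminants
  have hcop : IsCoprime (NumberField.discr K₁) (NumberField.discr K₂) := by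
    rw [hdisc₂, Int.isCoprime_iff_nat_coprime, IsCyclotomicExtension.Rat.natAbs_discr m K₁]
    refine Nat.Coprime.coprime_div_left ?_
      (Nat.prod_primeFactors_pow_totient_ediv_dvd (NeZero.pos m))
    refine Nat.Coprime.pow_left _ ?_
    have := Int.isCoprime_iff_nat_coprime.mp hd
    simpa using this
  have hdisj : K₁.LinearDisjoint K₂ :=
    NumberField.linearDisjoint_of_isGalois_isCoprime_discr Ω K₁ K₂ hcop
  -- `K₁ ⊔ K₂ = ⊤`
  have htop : K₁ ⊔ K₂ = ⊤ := by
    rw [eq_top_iff]
    intro x hx0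
    clear hx0
    have hx : x ∈ Algebra.adjoin K {b : Ω | ∃ n ∈ ({m} : Set ℕ), n ≠ 0 ∧ b ^ n = 1} :=
      IsCyclotomicExtension.adjoin_roots (S := {m}) (A := K) (B := Ω) x
    induction hx using Algebra.adjoin_induction with
    | mem b hb =>
      obtain ⟨n, hn, -, hbn⟩ := hb
      rw [Set.mem_singleton_iff] at hn
      subst hn
      obtain ⟨i, -, rfl⟩ := hζ.eq_pow_of_pow_eq_one hbn
      exact (le_sup_left : K₁ ≤ K₁ ⊔ K₂) (pow_mem (mem_adjoin_simple_self ℚ ζ) i)
    | algebraMap r =>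
      exact (le_sup_right : K₂ ≤ K₁ ⊔ K₂) ⟨r, rfl⟩
    | add a b _ _ ha hb => exact add_mem ha hb
    | mul a b _ _ ha hb => exact mul_mem ha hb
  have h1 : Module.finrank ℚ Ω = m.totient * Module.finrank ℚ K := by
    have := hdisj.finrank_sup
    rw [htop, hrank₁, hrank₂] at this
    rw [← this]
    exact (IntermediateField.finrank_top').symm
  have h2 : Module.finrank ℚ K * Module.finrank K Ω = Module.finrank ℚ Ω :=
    Module.finrank_mul_finrank ℚ K Ω
  have hpos : 0 < Module.finrank ℚ K := Module.finrank_pos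
  rw [h1, mul_comm] at h2
  exact Nat.eq_of_mul_eq_mul_right hpos h2

end

end Fermat.Agent.S14
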