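import Mathlib
import Fermat.Agent.S14.Defs

/-!
# S14 block ART: Frobenius elements (API on top of Mathlib's `IsArithFrobAt`)

`E ⊆ M` number fields, `M/E` Galois.  `S14_IsFrob σ P` (see `S14/Defs.lean`) is the elementary
congruence `σ x ≡ x ^ N𝔭 (mod P)`, `𝔭 = P ∩ 𝓞 E`; it is definitionally Mathlib's
`IsArithFrobAt (𝓞 E) σ P` (`S14_isFrob_iff`).  "Trivial inertia at `P`" is the hypothesis
`hin : ∀ σ : M ≃ₐ[E] M, (∀ x : 𝓞 M, σ • x - x ∈ P) → σ = 1` (an instance of `S14_Unr E M`).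

* A1 `S14_frob_exists`      : Frobenius elements exist at every nonzero prime.
* A2 `S14_frob_unique`      : uniqueness at a prime with trivial inertia.
* A3 `S14_frob_conj`        : `τ σ τ⁻¹` is a Frobenius at `τ • P`.
* A4 `S14_frob_indep`       : commutative Galois group: Frobenius at `P` is Frobenius at every
                              prime over the same prime of `E`.
* A5 `S14_frob_pow_eq_one_iff`, `S14_frob_orderOf`, `S14_frob_eq_one_iff` : order = residue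
                              degree; `S14_frob_card_quot`, `S14_frob_relNorm`.
* A7 `S14_frob_root_of_unity` : `σ ζ = ζ ^ N𝔭` on roots of unity of order prime to `P`.
* trivial inertia: `S14_unr_card_inertia`, `S14_unr_ramificationIdx` (`e = 1`),
  `S14_unr_ncard_mul_inertiaDeg` (`g · f = [M : E]`); prime degree: `S14_frob_inertiaDeg_of_ne_one`,
  `S14_frob_eq_of_ne_one` (inert), `S14_frob_relNorm_of_one` (split: `N P = 𝔭`).
-/

namespace Fermat.Agent.S14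

open NumberField nonZeroDivisors
open scoped Pointwise

variable {E M : Type*} [Field E] [NumberField E] [Field M] [NumberField M] [Algebra E M]

/-- A nonzero prime of `𝓞 M` has a finite residue field. -/
theorem S14_frob_finite_quot (P : Ideal (𝓞 M)) (hP0 : P ≠ ⊥) : Finite (𝓞 M ⧸ P) :=
  Ideal.finiteQuotientOfFreeOfNeBot P hP0

section galois
variable [IsGalois E M]

theorem S14_isFrob_iff (σ : M ≃ₐ[E] M) (P : Ideal (𝓞 M)) :
    S14_IsFrob σ P ↔ IsArithFrobAt (𝓞 E) σ P := Iff.rfl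

/-- **A1** existence of Frobenius elements. -/
theorem S14_frob_exists (P : Ideal (𝓞 M)) (hP : P.IsPrime) (hP0 : P ≠ ⊥) :
    ∃ σ : M ≃ₐ[E] M, S14_IsFrob σ P := by
  have := hP
  have := S14_frob_finite_quot P hP0
  exact IsArithFrobAt.exists_of_isInvariant (𝓞 E) (M ≃ₐ[E] M) P

/-- **A2** uniqueness of the Frobenius element at a prime with trivial inertia. -/
theorem S14_frob_unique {P : Ideal (𝓞 M)}
    (hin : ∀ σ : M ≃ₐ[E] M, (∀ x : 𝓞 M, σ • x - x ∈ P) → σ = 1)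
    {σ σ' : M ≃ₐ[E] M} (h : S14_IsFrob σ P) (h' : S14_IsFrob σ' P) : σ = σ' := by
  have h1 : σ * σ'⁻¹ ∈ P.inertia (M ≃ₐ[E] M) :=
    IsArithFrobAt.mul_inv_mem_inertia (R := 𝓞 E) h h'
  have h2 : σ * σ'⁻¹ = 1 := hin _ (fun x => h1 x)
  exact mul_inv_eq_one.mp h2

/-- **A3** conjugation. -/
theorem S14_frob_conj {P : Ideal (𝓞 M)} {σ : M ≃ₐ[E] M} (h : S14_IsFrob σ P) (τ : M ≃ₐ[E] M) :
    S14_IsFrob (τ * σ * τ⁻¹) (τ • P) :=
  IsArithFrobAt.conj (R := 𝓞 E) h τ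

/-- A Frobenius element at `P` stabilises `P`. -/
theorem S14_frob_smul_eq {P : Ideal (𝓞 M)} (hP : P.IsPrime) {σ : M ≃ₐ[E] M}
    (h : S14_IsFrob σ P) : σ • P = P := by
  have := hP
  exact MulAction.mem_stabilizer_iff.mp (IsArithFrobAt.mem_stabilizer (R := 𝓞 E) h)

theorem S14_frob_smul_mem {P : Ideal (𝓞 M)} (hP : P.IsPrime) {σ : M ≃ₐ[E] M}
    (h : S14_IsFrob σ P) {x : 𝓞 M} (hx : x ∈ P) : σ • x ∈ P := by
  have h1 : σ • x ∈ σ • P := Ideal.smul_mem_pointwise_smul _ _ _ hx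
  rwa [S14_frob_smul_eq hP h] at h1

/-- the Galois group acts transitively on the primes over a given prime. -/
theorem S14_frob_exists_smul_eq {P P' : Ideal (𝓞 M)} (hP : P.IsPrime) (hP' : P'.IsPrime)
    (hu : P.under (𝓞 E) = P'.under (𝓞 E)) : ∃ τ : M ≃ₐ[E] M, P' = τ • P := by
  have := hP
  have := hP'
  exact Algebra.IsInvariant.exists_smul_of_under_eq (𝓞 E) (𝓞 M) (M ≃ₐ[E] M) P P' hu

/-- **A4** independence of the prime above, for commutative Galois groups. -/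
theorem S14_frob_indep (hcomm : ∀ a b : M ≃ₐ[E] M, a * b = b * a) {P P' : Ideal (𝓞 M)}
    (hP : P.IsPrime) (hP' : P'.IsPrime) (hu : P.under (𝓞 E) = P'.under (𝓞 E))
    {σ : M ≃ₐ[E] M} (h : S14_IsFrob σ P) : S14_IsFrob σ P' := by
  obtain ⟨τ, rfl⟩ := S14_frob_exists_smul_eq hP hP' hu
  have h1 := S14_frob_conj h τ
  rwa [hcomm τ σ, mul_inv_cancel_right] at h1

end galois

/-- powers of a Frobenius element. -/
theorem S14_frob_pow {P : Ideal (𝓞 M)} {σ : M ≃ₐ[E] M}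
    (h : S14_IsFrob σ P) (n : ℕ) (x : 𝓞 M) :
    (σ ^ n) • x - x ^ (Nat.card (𝓞 E ⧸ P.under (𝓞 E)) ^ n) ∈ P := by
  induction n generalizing x with
  | zero => simp
  | succ n ih =>
    have h1 : (σ ^ (n + 1)) • x - x ^ (Nat.card (𝓞 E ⧸ P.under (𝓞 E)) ^ (n + 1))
        = ((σ ^ n) • (σ • x) - (σ • x) ^ (Nat.card (𝓞 E ⧸ P.under (𝓞 E)) ^ n))
          + ((σ • (x ^ (Nat.card (𝓞 E ⧸ P.under (𝓞 E)) ^ n)))
              - (x ^ (Nat.card (𝓞 E ⧸ P.under (𝓞 E)) ^ n)) ^ Nat.card (𝓞 E ⧸ P.under (𝓞 E))) := by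
      rw [pow_succ, mul_smul, smul_pow', ← pow_mul, ← pow_succ]
      ring
    rw [h1]
    exact P.add_mem (ih _) (h _)


/-- In a finite extension `L/K` of finite fields: `x ^ (#K ^ n) = x` for all `x` iff
`[L : K] ∣ n`. -/
theorem S14_frob_finField (K L : Type*) [Field K] [Field L] [Algebra K L] [Finite K] [Finite L]
    (n : ℕ) : (∀ x : L, x ^ (Nat.card K ^ n) = x) ↔ Module.finrank K L ∣ n := by
  classical
  have := Fintype.ofFinite K
  rw [← FiniteField.orderOf_frobeniusAlgHom K L, orderOf_dvd_iff_pow_eq_one, DFunLike.ext_iff]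
  simp only [AlgHom.coe_pow, FiniteField.coe_frobeniusAlgHom, pow_iterate, AlgHom.one_apply,
    Nat.card_eq_fintype_card]

/-- **A5** the order of the Frobenius element at a prime with trivial inertia is the residue
degree. -/
theorem S14_frob_pow_eq_one_iff {P : Ideal (𝓞 M)} (hP : P.IsPrime) (hP0 : P ≠ ⊥)
    (hin : ∀ σ : M ≃ₐ[E] M, (∀ x : 𝓞 M, σ • x - x ∈ P) → σ = 1)
    {σ : M ≃ₐ[E] M} (h : S14_IsFrob σ P) (n : ℕ) :
    σ ^ n = 1 ↔ P.inertiaDeg (𝓞 E) ∣ n := by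
  have := hP
  have hPmax : P.IsMaximal := hP.isMaximal hP0
  have hp0 : P.under (𝓞 E) ≠ ⊥ := by
    intro h0
    exact hP0 (Ideal.eq_bot_of_comap_eq_bot (R := 𝓞 E) h0)
  have hpmax : (P.under (𝓞 E)).IsMaximal := Ideal.IsPrime.isMaximal inferInstance hp0
  have : Finite (𝓞 M ⧸ P) := Ideal.finiteQuotientOfFreeOfNeBot P hP0
  have : Finite (𝓞 E ⧸ P.under (𝓞 E)) := Ideal.finiteQuotientOfFreeOfNeBot _ hp0
  let : Field (𝓞 E ⧸ P.under (𝓞 E)) := Ideal.Quotient.field _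
  let : Field (𝓞 M ⧸ P) := Ideal.Quotient.field _
  rw [Ideal.inertiaDeg_eq_of_isMaximal (P.under (𝓞 E)) P,
    ← S14_frob_finField (𝓞 E ⧸ P.under (𝓞 E)) (𝓞 M ⧸ P) n]
  constructor
  · intro h1 y
    obtain ⟨x, rfl⟩ := Ideal.Quotient.mk_surjective y
    have h2 := S14_frob_pow h n x
    rw [h1, one_smul] at h2
    rw [← map_pow]
    exact (Ideal.Quotient.eq.mpr h2).symm
  · intro h1
    apply hin
    intro x
    have h2 := S14_frob_pow h n x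
    have h3 : x ^ (Nat.card (𝓞 E ⧸ P.under (𝓞 E)) ^ n) - x ∈ P := by
      rw [← Ideal.Quotient.eq, map_pow]
      exact h1 _
    have := P.add_mem h2 h3
    simpa using this

theorem S14_frob_orderOf {P : Ideal (𝓞 M)} (hP : P.IsPrime) (hP0 : P ≠ ⊥)
    (hin : ∀ σ : M ≃ₐ[E] M, (∀ x : 𝓞 M, σ • x - x ∈ P) → σ = 1)
    {σ : M ≃ₐ[E] M} (h : S14_IsFrob σ P) :
    orderOf σ = P.inertiaDeg (𝓞 E) := by
  have := hP
  refine (orderOf_eq_iff (Ideal.inertiaDeg_pos P (𝓞 E))).mpr ⟨?_, ?_⟩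
  · exact (S14_frob_pow_eq_one_iff hP hP0 hin h _).mpr dvd_rfl
  · intro m hm hm0 h1
    have := Nat.le_of_dvd hm0 ((S14_frob_pow_eq_one_iff hP hP0 hin h m).mp h1)
    omega

theorem S14_frob_eq_one_iff {P : Ideal (𝓞 M)} (hP : P.IsPrime) (hP0 : P ≠ ⊥)
    (hin : ∀ σ : M ≃ₐ[E] M, (∀ x : 𝓞 M, σ • x - x ∈ P) → σ = 1)
    {σ : M ≃ₐ[E] M} (h : S14_IsFrob σ P) :
    σ = 1 ↔ P.inertiaDeg (𝓞 E) = 1 := by
  rw [← S14_frob_orderOf hP hP0 hin h, orderOf_eq_one_iff]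

/-- cardinality of the residue field. -/
theorem S14_frob_card_quot {P : Ideal (𝓞 M)} (hP : P.IsPrime) (hP0 : P ≠ ⊥) :
    Nat.card (𝓞 M ⧸ P) = Nat.card (𝓞 E ⧸ P.under (𝓞 E)) ^ P.inertiaDeg (𝓞 E) := by
  have := hP
  have hPmax : P.IsMaximal := hP.isMaximal hP0
  have hp0 : P.under (𝓞 E) ≠ ⊥ := by
    intro h0
    exact hP0 (Ideal.eq_bot_of_comap_eq_bot (R := 𝓞 E) h0)
  have hpmax : (P.under (𝓞 E)).IsMaximal := Ideal.IsPrime.isMaximal inferInstance hp0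
  have h1 := Ideal.cardQuot_pow_inertiaDeg (P.under (𝓞 E)) P
  simpa [Submodule.cardQuot_apply] using h1.symm

/-- the relative norm of a prime. -/
theorem S14_frob_relNorm (P : Ideal (𝓞 M)) (hP : P.IsPrime) (hP0 : P ≠ ⊥) :
    Ideal.relNorm (𝓞 E) P = (P.under (𝓞 E)) ^ P.inertiaDeg (𝓞 E) := by
  have := hP
  have hPmax : P.IsMaximal := hP.isMaximal hP0
  have hp0 : P.under (𝓞 E) ≠ ⊥ := by
    intro h0
    exact hP0 (Ideal.eq_bot_of_comap_eq_bot (R := 𝓞 E) h0)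
  have hpmax : (P.under (𝓞 E)).IsMaximal := Ideal.IsPrime.isMaximal inferInstance hp0
  exact Ideal.relNorm_eq_pow_of_isMaximal P (P.under (𝓞 E))

/-- **A7** Frobenius elements on roots of unity. -/
theorem S14_frob_root_of_unity [IsGalois E M] {P : Ideal (𝓞 M)} {σ : M ≃ₐ[E] M}
    (h : S14_IsFrob σ P) {ζ : 𝓞 M} {m : ℕ} (hζ : ζ ^ m = 1) (hm : (m : 𝓞 M) ∉ P) :
    σ • ζ = ζ ^ Nat.card (𝓞 E ⧸ P.under (𝓞 E)) :=
  AlgHom.IsArithFrobAt.apply_of_pow_eq_one (R := 𝓞 E)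
    (φ := MulSemiringAction.toAlgHom (𝓞 E) (𝓞 M) σ) h hζ hm

section unramified
variable [IsGalois E M]

/-- trivial inertia at `P` ⇒ the inertia subgroup has one element. -/
theorem S14_unr_card_inertia {P : Ideal (𝓞 M)}
    (hin : ∀ σ : M ≃ₐ[E] M, (∀ x : 𝓞 M, σ • x - x ∈ P) → σ = 1) :
    Nat.card (P.inertia (M ≃ₐ[E] M)) = 1 := by
  rw [Nat.card_eq_one_iff_unique]
  refine ⟨⟨?_⟩, ⟨1⟩⟩
  rintro ⟨a, ha⟩ ⟨b, hb⟩
  rw [Subtype.mk.injEq, hin a (fun x => ha x), hin b (fun x => hb x)]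

/-- trivial inertia at `P` ⇒ ramification index one. -/
theorem S14_unr_ramificationIdx {P : Ideal (𝓞 M)} (hP : P.IsPrime) (hP0 : P ≠ ⊥)
    (hin : ∀ σ : M ≃ₐ[E] M, (∀ x : 𝓞 M, σ • x - x ∈ P) → σ = 1) :
    P.ramificationIdx (𝓞 E) = 1 := by
  have := hP
  have hp0 : P.under (𝓞 E) ≠ ⊥ := by
    intro h0
    exact hP0 (Ideal.eq_bot_of_comap_eq_bot (R := 𝓞 E) h0)
  have hpmax : (P.under (𝓞 E)).IsMaximal := Ideal.IsPrime.isMaximal inferInstance hp0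
  have : Finite (𝓞 E ⧸ P.under (𝓞 E)) := Ideal.finiteQuotientOfFreeOfNeBot _ hp0
  have h1 := Ideal.card_inertia_eq_ramificationIdxIn (G := M ≃ₐ[E] M) (P.under (𝓞 E)) P
  rw [S14_unr_card_inertia hin,
    Ideal.ramificationIdxIn_eq_ramificationIdx (P.under (𝓞 E)) P (M ≃ₐ[E] M)] at h1
  exact h1.symm

/-- number of primes over `𝔭` times residue degree = degree (unramified Galois case). -/
theorem S14_unr_ncard_mul_inertiaDeg {P : Ideal (𝓞 M)} (hP : P.IsPrime) (hP0 : P ≠ ⊥)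
    (hin : ∀ σ : M ≃ₐ[E] M, (∀ x : 𝓞 M, σ • x - x ∈ P) → σ = 1) :
    ((P.under (𝓞 E)).primesOver (𝓞 M)).ncard * P.inertiaDeg (𝓞 E) = Module.finrank E M := by
  have := hP
  have hp0 : P.under (𝓞 E) ≠ ⊥ := by
    intro h0
    exact hP0 (Ideal.eq_bot_of_comap_eq_bot (R := 𝓞 E) h0)
  have hpmax : (P.under (𝓞 E)).IsMaximal := Ideal.IsPrime.isMaximal inferInstance hp0
  have : Finite (𝓞 E ⧸ P.under (𝓞 E)) := Ideal.finiteQuotientOfFreeOfNeBot _ hp0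
  have h1 := Ideal.ncard_primesOver_mul_card_inertia_mul_finrank (G := M ≃ₐ[E] M)
    (P.under (𝓞 E)) P
  rw [S14_unr_card_inertia hin, mul_one, IsGaloisGroup.card_eq_finrank (M ≃ₐ[E] M) E M] at h1
  exact h1

/-- prime degree, trivial inertia: a nontrivial Frobenius has residue degree `p`. -/
theorem S14_frob_inertiaDeg_of_ne_one {p : ℕ} (hp : p.Prime) (hdeg : Module.finrank E M = p)
    {P : Ideal (𝓞 M)} (hP : P.IsPrime) (hP0 : P ≠ ⊥)
    (hin : ∀ σ : M ≃ₐ[E] M, (∀ x : 𝓞 M, σ • x - x ∈ P) → σ = 1)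
    {σ : M ≃ₐ[E] M} (h : S14_IsFrob σ P) (hσ : σ ≠ 1) : P.inertiaDeg (𝓞 E) = p := by
  have h1 := S14_unr_ncard_mul_inertiaDeg hP hP0 hin
  rw [hdeg] at h1
  have h2 : P.inertiaDeg (𝓞 E) ∣ p := Dvd.intro_left _ h1
  rcases (Nat.dvd_prime hp).mp h2 with h3 | h3
  · exact absurd ((S14_frob_eq_one_iff hP hP0 hin h).mpr h3) hσ
  · exact h3

/-- prime degree, trivial inertia, nontrivial Frobenius: `P` is the only prime over `P ∩ 𝓞 E`
(the prime is inert). -/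
theorem S14_frob_eq_of_ne_one {p : ℕ} (hp : p.Prime) (hdeg : Module.finrank E M = p)
    {P : Ideal (𝓞 M)} (hP : P.IsPrime) (hP0 : P ≠ ⊥)
    (hin : ∀ σ : M ≃ₐ[E] M, (∀ x : 𝓞 M, σ • x - x ∈ P) → σ = 1)
    {σ : M ≃ₐ[E] M} (h : S14_IsFrob σ P) (hσ : σ ≠ 1)
    {P' : Ideal (𝓞 M)} (hP' : P'.IsPrime) (hu : P'.under (𝓞 E) = P.under (𝓞 E)) : P' = P := by
  have h1 := S14_unr_ncard_mul_inertiaDeg hP hP0 hin
  rw [hdeg, S14_frob_inertiaDeg_of_ne_one hp hdeg hP hP0 hin h hσ] at h1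
  have h2 : ((P.under (𝓞 E)).primesOver (𝓞 M)).ncard = 1 := by
    have := hp.pos
    nlinarith [Nat.eq_of_mul_eq_mul_right hp.pos (by rw [h1, one_mul] :
      ((P.under (𝓞 E)).primesOver (𝓞 M)).ncard * p = 1 * p)]
  obtain ⟨Q, hQ⟩ := Set.ncard_eq_one.mp h2
  have hPm : P ∈ (P.under (𝓞 E)).primesOver (𝓞 M) := ⟨hP, ⟨rfl⟩⟩
  have hP'm : P' ∈ (P.under (𝓞 E)).primesOver (𝓞 M) := ⟨hP', ⟨hu.symm⟩⟩
  rw [hQ, Set.mem_singleton_iff] at hPm hP'm
  rw [hPm, hP'm]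

/-- trivial Frobenius ⇒ the prime below is the relative norm of `P`. -/
theorem S14_frob_relNorm_of_one {P : Ideal (𝓞 M)} (hP : P.IsPrime) (hP0 : P ≠ ⊥)
    (hin : ∀ σ : M ≃ₐ[E] M, (∀ x : 𝓞 M, σ • x - x ∈ P) → σ = 1)
    (h : S14_IsFrob (1 : M ≃ₐ[E] M) P) : Ideal.relNorm (𝓞 E) P = P.under (𝓞 E) := by
  rw [S14_frob_relNorm P hP hP0, (S14_frob_eq_one_iff hP hP0 hin h).mp rfl, pow_one]

end unramified

end Fermat.Agent.S14
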