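import Mathlib
import Fermat.Agent.S14.Defs
import Fermat.Agent.S14.Frob
import Fermat.Agent.S14.CrossFieldChar

/-!
# S14, block N3b (FIELD): Galois theory of `Ω = K(ζ_m)` over `F`

`K/F` is a Galois extension of number fields, `Ω = K(ζ_m)`.

* `S14_field_isGalois` (b0): `Ω/F` is Galois.
* `S14_field_ext` (b1): an element of `Gal(Ω/F)` is determined by its restriction to `K` and
  its value at `ζ`.
* `S14_field_unr_base` (b2): if `K/F` is unramified and `M = K·L`, then `M/L` is unramified.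
* `S14_field_inertia` (b3): if `K/F` is unramified, the inertia groups of `Ω/F` at the primes not
  containing `m` are trivial.
* `S14_field_char_surj` (b5): if `m` is prime to the discriminant of `K`, then every unit `u`
  of `ℤ/m` is realised by an element of `Gal(Ω/K)`.
-/

set_option autoImplicit false
set_option linter.unusedSectionVars false
set_option linter.unusedVariables false
set_option linter.style.haveILetI false

namespace Fermat.Agent.S14

open NumberField IntermediateField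

section ext

variable {F K Ω : Type} [Field F] [Field K] [Field Ω]
  [Algebra F K] [Algebra K Ω] [Algebra F Ω] [IsScalarTower F K Ω]
  (m : ℕ) [NeZero m] [IsCyclotomicExtension {m} K Ω] {ζ : Ω} (hζ : IsPrimitiveRoot ζ m)

include hζ in
/-- **(b1)** an element of `Gal(Ω/F)` is determined by its restriction to `K` and its value at
`ζ`. -/
theorem S14_field_ext (g g' : Ω ≃ₐ[F] Ω)
    (hK : ∀ x : K, g (algebraMap K Ω x) = g' (algebraMap K Ω x)) (hz : g ζ = g' ζ) : g = g' := by
  have htop : Algebra.adjoin K {ζ} = ⊤ :=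
    IsCyclotomicExtension.adjoin_primitive_root_eq_top hζ
  ext x
  have hx : x ∈ Algebra.adjoin K {ζ} := by rw [htop]; trivial
  induction hx using Algebra.adjoin_induction with
  | mem y hy =>
    rw [Set.mem_singleton_iff] at hy
    rw [hy]; exact hz
  | algebraMap r => exact hK r
  | add x y _ _ hx hy => rw [map_add, map_add, hx, hy]
  | mul x y _ _ hx hy => rw [map_mul, map_mul, hx, hy]

end ext

section unr

variable {F K L M : Type} [Field F] [NumberField F] [Field K] [NumberField K]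
  [Field L] [NumberField L] [Field M] [NumberField M]
  [Algebra F K] [Algebra K M] [Algebra F L] [Algebra L M] [Algebra F M]
  [IsScalarTower F K M] [IsScalarTower F L M] [IsGalois F K]

variable (F K) in
/-- restriction of an element of `Gal(M/L)` to `K`. -/
noncomputable def S14_field_res (σ : M ≃ₐ[L] M) : K ≃ₐ[F] K :=
  (σ.restrictScalars F).restrictNormal K

theorem S14_field_res_commutes (σ : M ≃ₐ[L] M) (x : K) :
    algebraMap K M (S14_field_res F K σ x) = σ (algebraMap K M x) :=
  AlgEquiv.restrictNormal_commutes (σ.restrictScalars F) K x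

theorem S14_field_res_smul (σ : M ≃ₐ[L] M) (x : 𝓞 K) :
    algebraMap (𝓞 K) (𝓞 M) (S14_field_res F K σ • x) = σ • algebraMap (𝓞 K) (𝓞 M) x := by
  apply RingOfIntegers.ext
  exact S14_field_res_commutes σ (x : K)

/-- core of (b2): an element of an inertia group of `M/L` restricts to the identity of `K`
when `K/F` is unramified. -/
theorem S14_field_res_eq_one (hunr : S14_Unr F K) (P : Ideal (𝓞 M)) (hP : P.IsPrime)
    (hP0 : P ≠ ⊥) (σ : M ≃ₐ[L] M) (hσ : ∀ x : 𝓞 M, σ • x - x ∈ P) :
    S14_field_res F K σ = 1 := by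
  refine hunr (P.under (𝓞 K)) (Ideal.IsPrime.under (𝓞 K) P) ?_ _ ?_
  · intro h0
    exact hP0 (Ideal.eq_bot_of_comap_eq_bot (R := 𝓞 K) h0)
  · intro x
    rw [Ideal.under_def, Ideal.mem_comap, map_sub, S14_field_res_smul]
    exact hσ _

/-- an element of an inertia group of `M/L` fixes `K` pointwise when `K/F` is unramified. -/
theorem S14_field_inertia_fix (hunr : S14_Unr F K) (P : Ideal (𝓞 M)) (hP : P.IsPrime)
    (hP0 : P ≠ ⊥) (σ : M ≃ₐ[L] M) (hσ : ∀ x : 𝓞 M, σ • x - x ∈ P) (x : K) :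
    σ (algebraMap K M x) = algebraMap K M x := by
  rw [← S14_field_res_commutes (F := F) (K := K), S14_field_res_eq_one hunr P hP hP0 σ hσ]
  rfl

/-- **(b2)** if `K/F` is unramified and the restriction `Gal(M/L) → Gal(K/F)` is injective
(`M = K·L`), then `M/L` is unramified. -/
theorem S14_field_unr_base (hunr : S14_Unr F K)
    (hinj : ∀ σ : M ≃ₐ[L] M, (∀ x : K, σ (algebraMap K M x) = algebraMap K M x) → σ = 1) :
    S14_Unr L M := by
  intro P hP hP0 σ hσ
  exact hinj σ (S14_field_inertia_fix (F := F) hunr P hP hP0 σ hσ)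

end unr

section roots

/-- if `μ` is a primitive `m`-th root of unity in a domain `R` and `P` is a prime ideal of `R`
with `m ∉ P`, then `1 - μ ^ k ∉ P` unless `m ∣ k`: the `m`-th roots of unity stay distinct
modulo `P`. -/
theorem S14_field_one_sub_pow_notMem {R : Type*} [CommRing R] [IsDomain R] {m : ℕ} {μ : R}
    (hμ : IsPrimitiveRoot μ m) (P : Ideal R) (hP : P.IsPrime) (hm : (m : R) ∉ P)
    (k : ℕ) (hk : ¬ m ∣ k) : 1 - μ ^ k ∉ P := by
  have hm0 : m ≠ 0 := by
    rintro rfl
    exact hm (by simp)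
  obtain ⟨n, rfl⟩ : ∃ n, m = n + 1 := ⟨m - 1, by omega⟩
  have hk' : μ ^ k = μ ^ (k % (n + 1)) := by
    conv_lhs => rw [← Nat.mod_add_div k (n + 1), pow_add, pow_mul, hμ.pow_eq_one, one_pow,
      mul_one]
  have hr0 : k % (n + 1) ≠ 0 := fun h0 => hk (Nat.dvd_of_mod_eq_zero h0)
  have hrlt : k % (n + 1) < n + 1 := Nat.mod_lt _ (Nat.succ_pos n)
  obtain ⟨j, hj⟩ : ∃ j, k % (n + 1) = j + 1 := ⟨k % (n + 1) - 1, by omega⟩
  have hjn : j ∈ Finset.range n := Finset.mem_range.mpr (by omega)
  intro hmem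
  apply hm
  have hprod := hμ.prod_one_sub_pow_eq_order
  have hcast : ((n + 1 : ℕ) : R) = ∏ k ∈ Finset.range n, (1 - μ ^ (k + 1)) := by
    rw [hprod]; push_cast; rfl
  rw [hcast]
  refine Ideal.mem_of_dvd P (Finset.dvd_prod_of_mem _ hjn) ?_
  rw [← hj, ← hk']
  exact hmem

end roots

section inertia

variable {F K Ω : Type} [Field F] [NumberField F] [Field K] [NumberField K]
  [Field Ω] [NumberField Ω]
  [Algebra F K] [Algebra K Ω] [Algebra F Ω] [IsScalarTower F K Ω] [IsGalois F K]
  (m : ℕ) [NeZero m] [IsCyclotomicExtension {m} K Ω] {ζ : Ω} (hζ : IsPrimitiveRoot ζ m)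

include hζ in
/-- an element of an inertia group of `Ω/F` at a prime not containing `m` fixes `ζ`. -/
theorem S14_field_inertia_zeta (P : Ideal (𝓞 Ω)) (hP : P.IsPrime) (hm : (m : 𝓞 Ω) ∉ P)
    (σ : Ω ≃ₐ[F] Ω) (h : ∀ x : 𝓞 Ω, σ • x - x ∈ P) : σ ζ = ζ := by
  by_contra hne
  have hσm : (σ ζ) ^ m = 1 := by rw [← map_pow, hζ.pow_eq_one, map_one]
  obtain ⟨i, -, hi⟩ := hζ.eq_pow_of_pow_eq_one hσm
  have hm1 : m = (m - 1) + 1 := by have := NeZero.pos m; omega
  have hone : ζ * ζ ^ (m - 1) = 1 := by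
    rw [← pow_succ', ← hm1, hζ.pow_eq_one]
  have hk1 : ζ ^ (i + (m - 1)) ≠ 1 := by
    intro h1
    apply hne
    rw [← hi]
    calc ζ ^ i = ζ ^ i * (ζ * ζ ^ (m - 1)) := by rw [hone, mul_one]
      _ = ζ * ζ ^ (i + (m - 1)) := by rw [pow_add]; ring
      _ = ζ := by rw [h1, mul_one]
  have hndvd : ¬ m ∣ i + (m - 1) := fun hd => hk1 ((hζ.pow_eq_one_iff_dvd _).mpr hd)
  have hint : IsPrimitiveRoot hζ.toInteger m := hζ.toInteger_isPrimitiveRoot
  refine S14_field_one_sub_pow_notMem hint P hP hm _ hndvd ?_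
  have hσz : σ • hζ.toInteger = hζ.toInteger ^ i := by
    apply RingOfIntegers.ext
    change σ ζ = _
    rw [← hi]
    rfl
  have hone' : hζ.toInteger * hζ.toInteger ^ (m - 1) = 1 := by
    rw [← pow_succ', ← hm1, hint.pow_eq_one]
  have key : 1 - hζ.toInteger ^ (i + (m - 1))
      = - (hζ.toInteger ^ (m - 1)) * (σ • hζ.toInteger - hζ.toInteger) := by
    rw [hσz, pow_add]
    linear_combination (-1 : 𝓞 Ω) * hone'
  rw [key]
  exact Ideal.mul_mem_left _ _ (h _)

include hζ in
/-- **(b3)** if `K/F` is unramified, the inertia groups of `Ω = K(ζ_m)` over `F` at the primes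
not containing `m` are trivial. -/
theorem S14_field_inertia (hunr : S14_Unr F K) (P : Ideal (𝓞 Ω)) (hP : P.IsPrime)
    (hm : (m : 𝓞 Ω) ∉ P) (σ : Ω ≃ₐ[F] Ω) (h : ∀ x : 𝓞 Ω, σ • x - x ∈ P) : σ = 1 := by
  by_cases hP0 : P = ⊥
  · subst hP0
    have hfix : ∀ a : 𝓞 Ω, σ (a : Ω) = (a : Ω) := by
      intro a
      have ha := h a
      rw [Ideal.mem_bot, sub_eq_zero] at ha
      exact congrArg (fun y : 𝓞 Ω => (y : Ω)) ha
    ext x
    obtain ⟨a, b, hb, rfl⟩ := IsFractionRing.div_surjective (A := 𝓞 Ω) x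
    simp only [map_div₀, AlgEquiv.one_apply]
    rw [show algebraMap (𝓞 Ω) Ω a = (a : Ω) from rfl, show algebraMap (𝓞 Ω) Ω b = (b : Ω) from rfl,
      hfix a, hfix b]
  · refine S14_field_ext (K := K) m hζ σ 1 ?_ ?_
    · intro x
      rw [AlgEquiv.one_apply]
      exact S14_field_inertia_fix (F := F) (L := F) hunr P hP hP0 σ h x
    · rw [AlgEquiv.one_apply]
      exact S14_field_inertia_zeta m hζ P hP hm σ h

end inertia

section galois

open Polynomial

/-- **(b0)** `Ω = K(ζ_m)` is Galois over `F` when `K/F` is Galois. -/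
theorem S14_field_isGalois (F K Ω : Type) [Field F] [NumberField F] [Field K] [NumberField K]
    [Field Ω] [NumberField Ω]
    [Algebra F K] [Algebra K Ω] [Algebra F Ω] [IsScalarTower F K Ω] [IsGalois F K]
    (m : ℕ) [NeZero m] [IsCyclotomicExtension {m} K Ω] : IsGalois F Ω := by
  obtain ⟨q, hq, hsplit⟩ := IsGalois.is_separable_splitting_field F K
  haveI := hsplit
  haveI : IsSplittingField K Ω ((X ^ m - 1 : F[X]).map (algebraMap F K)) := by
    have := IsCyclotomicExtension.isSplittingField_X_pow_sub_one m K Ω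
    simpa using this
  have hq0 : q ≠ 0 := hq.ne_zero
  have hx0 : (X ^ m - 1 : F[X]) ≠ 0 := X_pow_sub_C_ne_zero (NeZero.pos m) (1 : F)
  haveI : IsSplittingField F Ω (q * (X ^ m - 1)) := IsSplittingField.mul (K := K) Ω q (X ^ m - 1) hq0 hx0
  haveI : Normal F Ω := Normal.of_isSplittingField (q * (X ^ m - 1))
  exact IsGalois.mk

end galois

section char

open Polynomial

variable {K Ω : Type} [Field K] [CharZero K] [Field Ω] [Algebra K Ω]
  (m : ℕ) [NeZero m] [IsCyclotomicExtension {m} K Ω] {ζ : Ω} (hζ : IsPrimitiveRoot ζ m)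

include hζ in
/-- if `[K(ζ_m) : K] = φ(m)` then the `m`-th cyclotomic polynomial is irreducible over `K`. -/
theorem S14_field_cyclotomic_irreducible (hfr : Module.finrank K Ω = m.totient) :
    Irreducible (cyclotomic m K) := by
  have hint : IsIntegral K ζ := (hζ.isIntegral (NeZero.pos m)).tower_top
  have hroot : aeval ζ (cyclotomic m K) = 0 := by
    rw [aeval_def, eval₂_eq_eval_map, map_cyclotomic]
    exact hζ.isRoot_cyclotomic (NeZero.pos m)
  have hdvd : minpoly K ζ ∣ cyclotomic m K := minpoly.dvd K ζ hroot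
  have hdeg : (minpoly K ζ).natDegree = m.totient := by
    rw [← hfr, ← hζ.powerBasis_dim K, ← PowerBasis.finrank]
  have heq : cyclotomic m K = minpoly K ζ :=
    eq_of_monic_of_dvd_of_natDegree_le (minpoly.monic hint) (cyclotomic.monic m K) hdvd
      (by rw [natDegree_cyclotomic, hdeg])
  rw [heq]
  exact minpoly.irreducible hint

include hζ in
/-- if the `m`-th cyclotomic polynomial is irreducible over `K`, every unit of `ℤ/m` is realised
by an element of `Gal(K(ζ_m)/K)`. -/
theorem S14_field_char_surj_of_irreducible (hirr : Irreducible (cyclotomic m K))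
    (u : (ZMod m)ˣ) : ∃ δ : Ω ≃ₐ[K] Ω, δ ζ = ζ ^ (u : ZMod m).val := by
  have hμ := hζ.pow_of_coprime _ (ZMod.val_coe_unit_coprime u)
  have hmin : minpoly K (hζ.powerBasis K).gen = minpoly K (hμ.powerBasis K).gen := by
    simp only [IsPrimitiveRoot.powerBasis_gen]
    exact (hζ.minpoly_eq_cyclotomic_of_irreducible hirr).symm.trans
      (hμ.minpoly_eq_cyclotomic_of_irreducible hirr)
  refine ⟨(hζ.powerBasis K).equivOfMinpoly (hμ.powerBasis K) hmin, ?_⟩
  have := (hζ.powerBasis K).equivOfMinpoly_gen (hμ.powerBasis K) hmin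
  rwa [hζ.powerBasis_gen K, hμ.powerBasis_gen K] at this

include hζ in
/-- if `[K(ζ_m) : K] = φ(m)`, every unit of `ℤ/m` is realised by an element of
`Gal(K(ζ_m)/K)`. -/
theorem S14_field_char_surj_of_finrank (hfr : Module.finrank K Ω = m.totient)
    (u : (ZMod m)ˣ) : ∃ δ : Ω ≃ₐ[K] Ω, δ ζ = ζ ^ (u : ZMod m).val :=
  S14_field_char_surj_of_irreducible m hζ (S14_field_cyclotomic_irreducible m hζ hfr) u

end char

section charSurj

variable {K Ω : Type} [Field K] [NumberField K] [Field Ω] [NumberField Ω] [Algebra K Ω]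
  (m : ℕ) [NeZero m] [IsCyclotomicExtension {m} K Ω] {ζ : Ω} (hζ : IsPrimitiveRoot ζ m)

include hζ in
/-- **(b5)** if `m` is prime to the discriminant of `K`, every unit of `ℤ/m` is realised by an
element of `Gal(K(ζ_m)/K)`. -/
theorem S14_field_char_surj (hd : IsCoprime (m : ℤ) (NumberField.discr K)) (u : (ZMod m)ˣ) :
    ∃ δ : Ω ≃ₐ[K] Ω, δ ζ = ζ ^ (u : ZMod m).val :=
  S14_field_char_surj_of_finrank m hζ (S14_field_finrank K Ω m hd) u

end charSurj

end Fermat.Agent.S14
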