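import Mathlib
import Fermat.Agent.S14.Frob
import Fermat.Agent.S14.CrossDefs

/-!
# S14 block N3d (FUNCT): functoriality of Frobenius elements and of class-group norms

Towers of number fields are given as types: `F ⊆ K ⊆ M`, `F ⊆ L ⊆ M`.

* `S14_funct_eq_of_congr` : two automorphisms congruent modulo a prime with trivial inertia
  (one of them stabilising the prime) are equal.
* (d1') `S14_funct_restrictScalars` : `M/F` Galois, `σ` Frobenius of `M/L` at `P`, `g` Frobenius of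
  `M/F` at `P`, trivial inertia of `M/F` at `P` ⇒ `σ.restrictScalars F = g ^ f(P ∩ L | F)`.
* (d1) `S14_funct_restrict` : `K/F` Galois, `σ` Frobenius of `M/L` at `P`, `τ` Frobenius of `K/F`
  at `P ∩ K`, trivial inertia of `K/F` at `P ∩ K` ⇒ `σ|_K = τ ^ f(P ∩ L | F)`.
* (d3) `S14_funct_relNorm_mem_Ht` : the class of the relative norm of a prime of `L` lying under
  a degree-one prime of `M` (prime to `t`) is in `S14_HtT p F K t`.
* (d4) `S14_clNorm F L : Cl(𝓞 L) →* Cl(𝓞 F)`, `S14_clNorm_mk0`, `S14_clNorm_Hs_le`,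
  `S14_clNorm_Ht_le`, `S14_clNorm_comp`.
-/

namespace Fermat.Agent.S14

open NumberField nonZeroDivisors
open scoped Pointwise

section two

variable {E M : Type*} [Field E] [NumberField E] [Field M] [NumberField M] [Algebra E M]

omit [NumberField E] [NumberField M] in
theorem S14_funct_under_ne_bot {P : Ideal (𝓞 M)} (hP0 : P ≠ ⊥) : P.under (𝓞 E) ≠ ⊥ := by
  intro h0
  exact hP0 (Ideal.eq_bot_of_comap_eq_bot (R := 𝓞 E) h0)

/-- In a Galois extension the residue degree divides the degree. -/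
theorem S14_funct_inertiaDeg_dvd [IsGalois E M] (P : Ideal (𝓞 M)) (hP : P.IsPrime)
    (hP0 : P ≠ ⊥) : P.inertiaDeg (𝓞 E) ∣ Module.finrank E M := by
  have := hP
  have hp0 : P.under (𝓞 E) ≠ ⊥ := S14_funct_under_ne_bot hP0
  have hpmax : (P.under (𝓞 E)).IsMaximal := Ideal.IsPrime.isMaximal inferInstance hp0
  have h1 := Ideal.ncard_primesOver_mul_ramificationIdxIn_mul_inertiaDegIn
    (P.under (𝓞 E)) (𝓞 M) (M ≃ₐ[E] M)
  rw [Ideal.inertiaDegIn_eq_inertiaDeg (P.under (𝓞 E)) P (M ≃ₐ[E] M),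
    IsGaloisGroup.card_eq_finrank (M ≃ₐ[E] M) E M] at h1
  exact ⟨((P.under (𝓞 E)).primesOver (𝓞 M)).ncard * (P.under (𝓞 E)).ramificationIdxIn (𝓞 M),
    by rw [← h1]; ring⟩

theorem S14_funct_relNorm_mem_nonZeroDivisors (Q : Ideal (𝓞 M)) (hQ : Q ≠ ⊥) :
    Ideal.relNorm (𝓞 E) Q ∈ (Ideal (𝓞 E))⁰ := by
  rw [mem_nonZeroDivisors_iff_ne_zero, Ideal.zero_eq_bot, Ne, Ideal.relNorm_eq_bot_iff]
  exact hQ

/-- the class of a prime under a degree-one prime (prime to `t`) is in `S14_HsT`. -/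
theorem S14_funct_mk0_mem_Hs (t : ℕ) (P : Ideal (𝓞 M)) (hP : P.IsPrime)
    (h1 : P.inertiaDeg (𝓞 E) = 1) (ht : (t : 𝓞 M) ∉ P)
    (𝔭 : (Ideal (𝓞 E))⁰) (h𝔭 : P.under (𝓞 E) = 𝔭.1) : ClassGroup.mk0 𝔭 ∈ S14_HsT E M t :=
  Subgroup.subset_closure ⟨𝔭, P, hP, h𝔭, h1, ht, rfl⟩

/-- monotonicity of `S14_HsT` in the exceptional modulus. -/
theorem S14_funct_HsT_le_one (t : ℕ) : S14_HsT E M t ≤ S14_HsT E M 1 := by
  refine (Subgroup.closure_le _).mpr ?_
  rintro c ⟨𝔭, P, hP, h𝔭, h1, -, rfl⟩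
  refine S14_funct_mk0_mem_Hs 1 P hP h1 ?_ 𝔭 h𝔭
  rw [Nat.cast_one]
  exact (Ideal.ne_top_iff_one P).mp hP.ne_top

theorem S14_funct_HtT_le_one (p t : ℕ) : S14_HtT p E M t ≤ S14_HtT p E M 1 :=
  sup_le_sup_right (S14_funct_HsT_le_one t) _

omit [NumberField E] [NumberField M] in
/-- Two automorphisms which are congruent modulo a prime `P` with trivial inertia are equal. -/
theorem S14_funct_eq_of_congr {P : Ideal (𝓞 M)}
    (hin : ∀ σ : M ≃ₐ[E] M, (∀ x : 𝓞 M, σ • x - x ∈ P) → σ = 1)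
    {a b : M ≃ₐ[E] M} (hab : ∀ x : 𝓞 M, a • x - b • x ∈ P) : a = b := by
  have h1 : a * b⁻¹ = 1 := by
    refine hin _ fun x => ?_
    have h2 := hab (b⁻¹ • x)
    rwa [← mul_smul, ← mul_smul, mul_inv_cancel, one_smul] at h2
  exact mul_inv_eq_one.mp h1

end two

section tower

variable {F K L M : Type*} [Field F] [NumberField F] [Field K] [NumberField K]
  [Field L] [NumberField L] [Field M] [NumberField M]
  [Algebra F K] [Algebra F L] [Algebra K M] [Algebra L M] [Algebra F M]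
  [IsScalarTower F K M] [IsScalarTower F L M]

/-- **(d3)** the class of the relative norm of a prime of `L` lying under a degree-one prime of
`M` (not containing `t`) lies in `S14_HtT p F K t`. -/
theorem S14_funct_relNorm_mem_Ht [IsGalois F K] {p : ℕ} (hp : p.Prime)
    (hdeg : Module.finrank F K = p) (t : ℕ) (P : Ideal (𝓞 M)) (hP : P.IsPrime) (hP0 : P ≠ ⊥)
    (h1 : P.inertiaDeg (𝓞 L) = 1) (ht : (t : 𝓞 M) ∉ P)
    (hN : Ideal.relNorm (𝓞 F) (P.under (𝓞 L)) ∈ (Ideal (𝓞 F))⁰) :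
    ClassGroup.mk0 ⟨Ideal.relNorm (𝓞 F) (P.under (𝓞 L)), hN⟩ ∈ S14_HtT p F K t := by
  have := hP
  set Q : Ideal (𝓞 L) := P.under (𝓞 L) with hQ
  set PK : Ideal (𝓞 K) := P.under (𝓞 K) with hPK
  have hQ0 : Q ≠ ⊥ := S14_funct_under_ne_bot hP0
  have hPK0 : PK ≠ ⊥ := S14_funct_under_ne_bot hP0
  have hQp : Q.IsPrime := inferInstance
  have hPKp : PK.IsPrime := inferInstance
  have hQF : Q.under (𝓞 F) = P.under (𝓞 F) := Ideal.under_under P
  have hPKF : PK.under (𝓞 F) = P.under (𝓞 F) := Ideal.under_under P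
  have h𝔮0 : P.under (𝓞 F) ≠ ⊥ := S14_funct_under_ne_bot hP0
  have htK : (t : 𝓞 K) ∉ PK := by
    intro h
    apply ht
    have h2 : algebraMap (𝓞 K) (𝓞 M) (t : 𝓞 K) ∈ P := h
    rwa [map_natCast] at h2
  -- inertia degrees
  have ht1 : P.inertiaDeg (𝓞 F) = Q.inertiaDeg (𝓞 F) * P.inertiaDeg (𝓞 L) :=
    Ideal.inertiaDeg_tower Q P
  have ht2 : P.inertiaDeg (𝓞 F) = PK.inertiaDeg (𝓞 F) * P.inertiaDeg (𝓞 K) :=
    Ideal.inertiaDeg_tower PK P
  rw [h1, mul_one] at ht1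
  have hdvd : PK.inertiaDeg (𝓞 F) ∣ p := hdeg ▸ S14_funct_inertiaDeg_dvd PK hPKp hPK0
  -- the class
  set 𝔮 : (Ideal (𝓞 F))⁰ := ⟨P.under (𝓞 F), mem_nonZeroDivisors_iff_ne_zero.mpr h𝔮0⟩ with h𝔮
  have hrel : Ideal.relNorm (𝓞 F) Q = (P.under (𝓞 F)) ^ Q.inertiaDeg (𝓞 F) := by
    rw [S14_frob_relNorm Q hQp hQ0, hQF]
  have hcls : ClassGroup.mk0 ⟨Ideal.relNorm (𝓞 F) Q, hN⟩ =
      ClassGroup.mk0 𝔮 ^ Q.inertiaDeg (𝓞 F) := by
    rw [← map_pow]
    congr 1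
    refine Subtype.ext ?_
    show Ideal.relNorm (𝓞 F) Q = ((𝔮 ^ Q.inertiaDeg (𝓞 F) : (Ideal (𝓞 F))⁰) : Ideal (𝓞 F))
    rw [hrel, SubmonoidClass.coe_pow]
  rw [hcls, S14_HtT]
  rcases (Nat.dvd_prime hp).mp hdvd with h | h
  · refine Subgroup.mem_sup_left (Subgroup.pow_mem _ ?_ _)
    exact S14_funct_mk0_mem_Hs t PK hPKp h htK 𝔮 hPKF
  · refine Subgroup.mem_sup_right ?_
    have h2 : p ∣ Q.inertiaDeg (𝓞 F) := by
      rw [← ht1, ht2, h]
      exact Dvd.intro _ rfl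
    obtain ⟨m, hm⟩ := h2
    refine ⟨ClassGroup.mk0 𝔮 ^ m, ?_⟩
    rw [powMonoidHom_apply, ← pow_mul, hm, mul_comm]

/-- **(d1')** `M/F` and `M/L` in a tower `F ⊆ L ⊆ M`: a Frobenius element of `M/L` at `P` is the
`f(P ∩ L | F)`-th power of a Frobenius element of `M/F` at `P` (trivial inertia of `M/F` at
`P`). -/
theorem S14_funct_restrictScalars (P : Ideal (𝓞 M)) (hP : P.IsPrime) (hP0 : P ≠ ⊥)
    (hin : ∀ g : M ≃ₐ[F] M, (∀ x : 𝓞 M, g • x - x ∈ P) → g = 1)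
    {σ : M ≃ₐ[L] M} (hσ : S14_IsFrob σ P) {g : M ≃ₐ[F] M} (hg : S14_IsFrob g P) :
    σ.restrictScalars F = g ^ (P.under (𝓞 L)).inertiaDeg (𝓞 F) := by
  have := hP
  set Q : Ideal (𝓞 L) := P.under (𝓞 L) with hQ
  have hQ0 : Q ≠ ⊥ := S14_funct_under_ne_bot hP0
  have hQp : Q.IsPrime := inferInstance
  have hQF : Q.under (𝓞 F) = P.under (𝓞 F) := Ideal.under_under P
  have hcard : Nat.card (𝓞 L ⧸ Q) =
      Nat.card (𝓞 F ⧸ P.under (𝓞 F)) ^ Q.inertiaDeg (𝓞 F) := by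
    rw [S14_frob_card_quot (E := F) hQp hQ0, hQF]
  refine S14_funct_eq_of_congr hin fun x => ?_
  have h1 : σ • x - x ^ Nat.card (𝓞 L ⧸ Q) ∈ P := hσ x
  have h2 := S14_frob_pow hg (Q.inertiaDeg (𝓞 F)) x
  rw [← hcard] at h2
  have h3 : (σ.restrictScalars F) • x = σ • x := rfl
  rw [h3]
  have := P.sub_mem h1 h2
  simpa using this

/-- **(d1)** restriction of a Frobenius element of `M/L` to `K`, for `K/F` Galois inside the
tower: it is the `f(P ∩ L | F)`-th power of the Frobenius element of `K/F` at `P ∩ K` (trivial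
inertia of `K/F` at `P ∩ K`). -/
theorem S14_funct_restrict [IsGalois F K] (P : Ideal (𝓞 M)) (hP : P.IsPrime) (hP0 : P ≠ ⊥)
    (hin : ∀ τ : K ≃ₐ[F] K, (∀ x : 𝓞 K, τ • x - x ∈ P.under (𝓞 K)) → τ = 1)
    {σ : M ≃ₐ[L] M} (hσ : S14_IsFrob σ P) {τ : K ≃ₐ[F] K}
    (hτ : S14_IsFrob τ (P.under (𝓞 K))) :
    (σ.restrictScalars F).restrictNormal K = τ ^ (P.under (𝓞 L)).inertiaDeg (𝓞 F) := by
  have := hP
  set Q : Ideal (𝓞 L) := P.under (𝓞 L) with hQ
  set PK : Ideal (𝓞 K) := P.under (𝓞 K) with hPK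
  have hQ0 : Q ≠ ⊥ := S14_funct_under_ne_bot hP0
  have hQp : Q.IsPrime := inferInstance
  have hQF : Q.under (𝓞 F) = P.under (𝓞 F) := Ideal.under_under P
  have hPKF : PK.under (𝓞 F) = P.under (𝓞 F) := Ideal.under_under P
  have hcard : Nat.card (𝓞 L ⧸ Q) =
      Nat.card (𝓞 F ⧸ PK.under (𝓞 F)) ^ Q.inertiaDeg (𝓞 F) := by
    rw [S14_frob_card_quot (E := F) hQp hQ0, hQF, hPKF]
  refine S14_funct_eq_of_congr hin fun x => ?_
  have h2 := S14_frob_pow hτ (Q.inertiaDeg (𝓞 F)) x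
  rw [← hcard] at h2
  have h1 : ((σ.restrictScalars F).restrictNormal K) • x - x ^ Nat.card (𝓞 L ⧸ Q) ∈ PK := by
    have h4 : σ • (algebraMap (𝓞 K) (𝓞 M) x) - (algebraMap (𝓞 K) (𝓞 M) x) ^ Nat.card (𝓞 L ⧸ Q)
        ∈ P := hσ _
    have h5 : algebraMap (𝓞 K) (𝓞 M) (((σ.restrictScalars F).restrictNormal K) • x) =
        σ • (algebraMap (𝓞 K) (𝓞 M) x) := by
      apply Subtype.ext
      exact AlgEquiv.restrictNormal_commutes (σ.restrictScalars F) K (x : K)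
    show algebraMap (𝓞 K) (𝓞 M) (((σ.restrictScalars F).restrictNormal K) • x -
      x ^ Nat.card (𝓞 L ⧸ Q)) ∈ P
    rw [map_sub, map_pow, h5]
    exact h4
  have := PK.sub_mem h1 h2
  simpa using this

end tower

/-- lift of a monoid hom along a surjective monoid hom onto a group. -/
noncomputable def S14_funct_liftSurj {A G H : Type*} [CommMonoid A] [Group G] [Group H]
    (π : A →* G) (hπ : Function.Surjective π) (f : A →* H)
    (hf : ∀ a b, π a = π b → f a = f b) : G →* H where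
  toFun x := f (Function.surjInv hπ x)
  map_one' := by
    have h : π (Function.surjInv hπ 1) = π 1 := by rw [Function.surjInv_eq hπ, map_one]
    rw [hf _ _ h, map_one]
  map_mul' x y := by
    have h : π (Function.surjInv hπ (x * y)) =
        π (Function.surjInv hπ x * Function.surjInv hπ y) := by
      rw [map_mul, Function.surjInv_eq hπ, Function.surjInv_eq hπ, Function.surjInv_eq hπ]
    rw [hf _ _ h, map_mul]

theorem S14_funct_liftSurj_apply {A G H : Type*} [CommMonoid A] [Group G] [Group H]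
    (π : A →* G) (hπ : Function.Surjective π) (f : A →* H)
    (hf : ∀ a b, π a = π b → f a = f b) (a : A) :
    S14_funct_liftSurj π hπ f hf (π a) = f a :=
  hf _ _ (Function.surjInv_eq hπ (π a))

section norm

variable (F L : Type*) [Field F] [NumberField F] [Field L] [NumberField L] [Algebra F L]

/-- the relative norm on nonzero ideals. -/
noncomputable def S14_funct_relNorm0 : (Ideal (𝓞 L))⁰ →* (Ideal (𝓞 F))⁰ where
  toFun I := ⟨Ideal.relNorm (𝓞 F) I.1,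
    S14_funct_relNorm_mem_nonZeroDivisors I.1 (mem_nonZeroDivisors_iff_ne_zero.mp I.2)⟩
  map_one' := Subtype.ext (by simp)
  map_mul' I J := Subtype.ext (by simp)

@[simp] theorem S14_funct_relNorm0_coe (I : (Ideal (𝓞 L))⁰) :
    ((S14_funct_relNorm0 F L I : (Ideal (𝓞 F))⁰) : Ideal (𝓞 F)) = Ideal.relNorm (𝓞 F) I.1 := rfl

theorem S14_funct_relNorm0_wd (I J : (Ideal (𝓞 L))⁰)
    (h : ClassGroup.mk0 I = ClassGroup.mk0 J) :
    ClassGroup.mk0 (S14_funct_relNorm0 F L I) = ClassGroup.mk0 (S14_funct_relNorm0 F L J) := by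
  rw [ClassGroup.mk0_eq_mk0_iff] at h ⊢
  obtain ⟨x, y, hx, hy, hxy⟩ := h
  refine ⟨Algebra.intNorm (𝓞 F) (𝓞 L) x, Algebra.intNorm (𝓞 F) (𝓞 L) y,
    Algebra.intNorm_ne_zero.mpr hx, Algebra.intNorm_ne_zero.mpr hy, ?_⟩
  have := congrArg (Ideal.relNorm (𝓞 F)) hxy
  rw [map_mul, map_mul, Ideal.relNorm_singleton, Ideal.relNorm_singleton] at this
  exact this

/-- **(d4) the norm map on class groups** `Cl(𝓞 L) → Cl(𝓞 F)`. -/
noncomputable def S14_clNorm : ClassGroup (𝓞 L) →* ClassGroup (𝓞 F) :=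
  S14_funct_liftSurj (ClassGroup.mk0 : (Ideal (𝓞 L))⁰ →* ClassGroup (𝓞 L))
    ClassGroup.mk0_surjective
    ((ClassGroup.mk0 : (Ideal (𝓞 F))⁰ →* ClassGroup (𝓞 F)).comp (S14_funct_relNorm0 F L))
    (fun I J h => S14_funct_relNorm0_wd F L I J h)

theorem S14_clNorm_mk0 (I : (Ideal (𝓞 L))⁰) :
    S14_clNorm F L (ClassGroup.mk0 I) = ClassGroup.mk0 (S14_funct_relNorm0 F L I) :=
  S14_funct_liftSurj_apply _ _ _ _ I

theorem S14_clNorm_mk0' (I : Ideal (𝓞 L)) (hI : I ∈ (Ideal (𝓞 L))⁰)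
    (hN : Ideal.relNorm (𝓞 F) I ∈ (Ideal (𝓞 F))⁰) :
    S14_clNorm F L (ClassGroup.mk0 ⟨I, hI⟩) = ClassGroup.mk0 ⟨Ideal.relNorm (𝓞 F) I, hN⟩ :=
  S14_clNorm_mk0 F L ⟨I, hI⟩

end norm

section normtower

variable {F K L M : Type*} [Field F] [NumberField F] [Field K] [NumberField K]
  [Field L] [NumberField L] [Field M] [NumberField M]
  [Algebra F K] [Algebra F L] [Algebra K M] [Algebra L M] [Algebra F M]
  [IsScalarTower F K M] [IsScalarTower F L M]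

/-- **(d4)** the norm map `Cl(𝓞 L) → Cl(𝓞 F)` maps `S14_HsT L M t` into `S14_HtT p F K t`. -/
theorem S14_clNorm_Hs_le [IsGalois F K] {p : ℕ} (hp : p.Prime)
    (hdeg : Module.finrank F K = p) (t : ℕ) :
    (S14_HsT L M t).map (S14_clNorm F L) ≤ S14_HtT p F K t := by
  rw [Subgroup.map_le_iff_le_comap, S14_HsT, Subgroup.closure_le]
  rintro c ⟨⟨Q, hQ⟩, P, hP, hPQ, h1, ht, rfl⟩
  simp only at hPQ
  subst hPQ
  have hP0 : P ≠ ⊥ := by
    rintro rfl
    have h0 : Ideal.under (𝓞 L) (⊥ : Ideal (𝓞 M)) ≠ ⊥ := mem_nonZeroDivisors_iff_ne_zero.mp hQ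
    exact h0 (Ideal.under_bot (𝓞 L) (𝓞 M))
  show S14_clNorm F L (ClassGroup.mk0 ⟨P.under (𝓞 L), hQ⟩) ∈ S14_HtT p F K t
  rw [S14_clNorm_mk0]
  exact S14_funct_relNorm_mem_Ht (F := F) (K := K) (L := L) (M := M) hp hdeg t P hP hP0 h1 ht
    (S14_funct_relNorm_mem_nonZeroDivisors _ (S14_funct_under_ne_bot hP0))

/-- the norm map maps `S14_HtT p L M t` into `S14_HtT p F K t`. -/
theorem S14_clNorm_Ht_le [IsGalois F K] {p : ℕ} (hp : p.Prime)
    (hdeg : Module.finrank F K = p) (t : ℕ) :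
    (S14_HtT p L M t).map (S14_clNorm F L) ≤ S14_HtT p F K t := by
  rw [S14_HtT, Subgroup.map_sup, sup_le_iff]
  refine ⟨S14_clNorm_Hs_le hp hdeg t, ?_⟩
  rw [Subgroup.map_le_iff_le_comap]
  rintro c ⟨d, rfl⟩
  show S14_clNorm F L (powMonoidHom p d) ∈ S14_HtT p F K t
  rw [powMonoidHom_apply, map_pow, S14_HtT]
  exact Subgroup.mem_sup_right ⟨_, rfl⟩

/-- restriction to `K` of a Frobenius element of `M/F` at `P` is a Frobenius element of `K/F`
at `P ∩ K` (no hypothesis on inertia). -/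
theorem S14_funct_restrictNormal_isFrob [IsGalois F K] (P : Ideal (𝓞 M))
    {g : M ≃ₐ[F] M} (hg : S14_IsFrob g P) :
    S14_IsFrob (g.restrictNormal K) (P.under (𝓞 K)) := by
  intro x
  have hPKF : (P.under (𝓞 K)).under (𝓞 F) = P.under (𝓞 F) := Ideal.under_under P
  have h4 : g • (algebraMap (𝓞 K) (𝓞 M) x) -
      (algebraMap (𝓞 K) (𝓞 M) x) ^ Nat.card (𝓞 F ⧸ P.under (𝓞 F)) ∈ P := hg _
  have h5 : algebraMap (𝓞 K) (𝓞 M) ((g.restrictNormal K) • x) =
      g • (algebraMap (𝓞 K) (𝓞 M) x) := by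
    apply Subtype.ext
    exact AlgEquiv.restrictNormal_commutes g K (x : K)
  rw [hPKF]
  show algebraMap (𝓞 K) (𝓞 M) ((g.restrictNormal K) • x -
    x ^ Nat.card (𝓞 F ⧸ P.under (𝓞 F))) ∈ P
  rw [map_sub, map_pow, h5]
  exact h4

end normtower

section normcomp

variable (F L₀ L : Type*) [Field F] [NumberField F] [Field L₀] [NumberField L₀]
  [Field L] [NumberField L] [Algebra F L₀] [Algebra L₀ L] [Algebra F L] [IsScalarTower F L₀ L]

/-- transitivity of the norm maps on class groups. -/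
theorem S14_clNorm_comp :
    (S14_clNorm F L₀).comp (S14_clNorm L₀ L) = S14_clNorm F L := by
  ext c
  obtain ⟨I, rfl⟩ := ClassGroup.mk0_surjective c
  rw [MonoidHom.comp_apply, S14_clNorm_mk0, S14_clNorm_mk0, S14_clNorm_mk0]
  congr 1
  refine Subtype.ext ?_
  rw [S14_funct_relNorm0_coe, S14_funct_relNorm0_coe, S14_funct_relNorm0_coe]
  exact Ideal.relNorm_relNorm (𝓞 F) (𝓞 L₀) I.1

theorem S14_clNorm_comp_apply (c : ClassGroup (𝓞 L)) :
    S14_clNorm F L₀ (S14_clNorm L₀ L c) = S14_clNorm F L c := by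
  rw [← S14_clNorm_comp F L₀ L]; rfl

end normcomp

end Fermat.Agent.S14
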