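import Mathlib

/-!
# S14 block N3, ML: the moving lemma and factoring through the class group

* `S14_exists_mk0_coprime` : every ideal class of a Dedekind domain contains an integral ideal
  coprime to a given nonzero ideal `𝔫`.
* `S14_move` : the same for `𝓞 E` and `𝔫 = (t)`, `t ≠ 0` a natural number.
* `S14_move_primes` : a subgroup of `Cl(𝓞 E)` containing the classes of all primes not containing
  `t` is everything.
* `S14_art_factor` : a function on ideals, multiplicative on the ideals coprime to `𝔫` and trivial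
  on the principal ideals coprime to `𝔫`, induces a homomorphism on the class group.
-/

namespace Fermat.Agent.S14

open NumberField nonZeroDivisors

/-- **Moving lemma**: every ideal class of a Dedekind domain contains an integral ideal coprime
to a given nonzero ideal. -/
theorem S14_exists_mk0_coprime {R : Type*} [CommRing R] [IsDedekindDomain R] (𝔫 : Ideal R)
    (h𝔫 : 𝔫 ≠ ⊥) (c : ClassGroup R) :
    ∃ I : (Ideal R)⁰, ClassGroup.mk0 I = c ∧ I.1 ⊔ 𝔫 = ⊤ := by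
  obtain ⟨J, hJ⟩ := ClassGroup.mk0_surjective c⁻¹
  have hJ0 : J.1 ≠ 0 := nonZeroDivisors.ne_zero J.2
  obtain ⟨a, ha⟩ := IsDedekindDomain.exists_sup_span_eq (I := J.1 * 𝔫) (J := J.1)
    Ideal.mul_le_left (mul_ne_zero hJ0 h𝔫)
  have haJ : Ideal.span {a} ≤ J.1 := by rw [← ha]; exact le_sup_right
  obtain ⟨I', hI'⟩ := Ideal.dvd_iff_le.mpr haJ
  have hcop : 𝔫 ⊔ I' = ⊤ := by
    have h1 : J.1 * (𝔫 ⊔ I') = J.1 * ⊤ := by
      rw [Ideal.mul_sup, ← hI', ha, Ideal.mul_top]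
    exact mul_left_cancel₀ hJ0 h1
  by_cases ha0 : a = 0
  · -- then `𝔫 = ⊤`
    have hI'0 : I' = ⊥ := by
      rw [ha0, Ideal.span_singleton_zero] at hI'
      rcases mul_eq_zero.mp hI'.symm with h | h
      · exact absurd h hJ0
      · exact h
    rw [hI'0, sup_bot_eq] at hcop
    obtain ⟨I, hI⟩ := ClassGroup.mk0_surjective c
    exact ⟨I, hI, by rw [hcop, sup_top_eq]⟩
  · have hI'0 : I' ≠ 0 := by
      rintro rfl
      rw [mul_zero] at hI'
      exact ha0 (Ideal.span_singleton_eq_bot.mp hI')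
    refine ⟨⟨I', mem_nonZeroDivisors_of_ne_zero hI'0⟩, ?_, by rw [sup_comm]; exact hcop⟩
    have h2 : ClassGroup.mk0 ⟨I', mem_nonZeroDivisors_of_ne_zero hI'0⟩ = (ClassGroup.mk0 J)⁻¹ := by
      rw [ClassGroup.mk0_eq_mk0_inv_iff]
      exact ⟨a, ha0, by rw [hI', mul_comm]⟩
    rw [h2, hJ, inv_inv]

/-- **Moving lemma** for rings of integers and a natural number `t ≠ 0`. -/
theorem S14_move (E : Type*) [Field E] [NumberField E] (t : ℕ) (ht : t ≠ 0)
    (c : ClassGroup (𝓞 E)) :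
    ∃ I : (Ideal (𝓞 E))⁰, ClassGroup.mk0 I = c ∧ I.1 ⊔ Ideal.span {(t : 𝓞 E)} = ⊤ := by
  refine S14_exists_mk0_coprime (Ideal.span {(t : 𝓞 E)}) ?_ c
  rw [Ne, Ideal.span_singleton_eq_bot]
  exact_mod_cast ht

/-- A subgroup of the class group containing the classes of all primes coprime to `𝔫` is
everything. -/
theorem S14_move_primes_ideal {R : Type*} [CommRing R] [IsDedekindDomain R] (𝔫 : Ideal R)
    (h𝔫 : 𝔫 ≠ ⊥) (H : Subgroup (ClassGroup R))
    (h : ∀ 𝔮 : (Ideal R)⁰, 𝔮.1.IsPrime → 𝔮.1 ⊔ 𝔫 = ⊤ → ClassGroup.mk0 𝔮 ∈ H) : H = ⊤ := by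
  classical
  have key : ∀ I : Ideal R, ∀ hI : I ∈ (Ideal R)⁰, I ⊔ 𝔫 = ⊤ → ClassGroup.mk0 ⟨I, hI⟩ ∈ H := by
    intro I
    induction I using UniqueFactorizationMonoid.induction_on_prime with
    | h₁ =>
      intro hI
      exact absurd rfl (nonZeroDivisors.ne_zero hI)
    | h₂ x hx =>
      intro hI _
      have hx1 : x = 1 := by
        rw [Ideal.one_eq_top]
        exact Ideal.isUnit_iff.mp hx
      subst hx1
      have : (⟨1, hI⟩ : (Ideal R)⁰) = 1 := rfl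
      rw [this, map_one]
      exact H.one_mem
    | h₃ a q ha hq ih =>
      intro hI hcop
      have hq0 : q ∈ (Ideal R)⁰ := mem_nonZeroDivisors_of_ne_zero hq.ne_zero
      have ha0 : a ∈ (Ideal R)⁰ := mem_nonZeroDivisors_of_ne_zero ha
      have hqn : q ⊔ 𝔫 = ⊤ := by
        rw [eq_top_iff, ← hcop]
        exact sup_le_sup_right Ideal.mul_le_left _
      have han : a ⊔ 𝔫 = ⊤ := by
        rw [eq_top_iff, ← hcop]
        exact sup_le_sup_right Ideal.mul_le_right _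
      have : (⟨q * a, hI⟩ : (Ideal R)⁰) = ⟨q, hq0⟩ * ⟨a, ha0⟩ := rfl
      rw [this, map_mul]
      exact H.mul_mem (h ⟨q, hq0⟩ (Ideal.isPrime_of_prime hq) hqn) (ih ha0 han)
  rw [eq_top_iff]
  intro c _
  obtain ⟨I, rfl, hI⟩ := S14_exists_mk0_coprime 𝔫 h𝔫 c
  exact key I.1 I.2 hI

/-- A subgroup of `Cl(𝓞 E)` containing the classes of all primes not containing `t` is
everything. -/
theorem S14_move_primes (E : Type*) [Field E] [NumberField E] (t : ℕ) (ht : t ≠ 0)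
    (H : Subgroup (ClassGroup (𝓞 E)))
    (h : ∀ 𝔮 : (Ideal (𝓞 E))⁰, 𝔮.1.IsPrime → (t : 𝓞 E) ∉ 𝔮.1 → ClassGroup.mk0 𝔮 ∈ H) :
    H = ⊤ := by
  refine S14_move_primes_ideal (Ideal.span {(t : 𝓞 E)}) ?_ H ?_
  · rw [Ne, Ideal.span_singleton_eq_bot]
    exact_mod_cast ht
  · intro 𝔮 h𝔮 hcop
    refine h 𝔮 h𝔮 (fun htq => ?_)
    have h1 : 𝔮.1 ⊔ Ideal.span {(t : 𝓞 E)} ≤ 𝔮.1 :=
      sup_le le_rfl ((Ideal.span_singleton_le_iff_mem _).mpr htq)
    rw [hcop] at h1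
    exact h𝔮.ne_top (eq_top_iff.mpr h1)

/-- An integral ideal coprime to `(t)` is contained in no prime containing `t`. -/
theorem S14_move_notMem {R : Type*} [CommRing R] {I P : Ideal R} {t : R} (hP : P.IsPrime)
    (hI : I ⊔ Ideal.span {t} = ⊤) (hIP : I ≤ P) : t ∉ P := by
  intro htP
  have h1 : I ⊔ Ideal.span {t} ≤ P := sup_le hIP ((Ideal.span_singleton_le_iff_mem _).mpr htP)
  rw [hI] at h1
  exact hP.ne_top (eq_top_iff.mpr h1)

/-- products of ideals coprime to `𝔫` are coprime to `𝔫`. -/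
theorem S14_mul_sup_eq_top {R : Type*} [CommRing R] {I J 𝔫 : Ideal R} (hI : I ⊔ 𝔫 = ⊤)
    (hJ : J ⊔ 𝔫 = ⊤) : I * J ⊔ 𝔫 = ⊤ := by
  have h1 : IsCoprime I 𝔫 := Ideal.isCoprime_iff_sup_eq.mpr hI
  have h2 : IsCoprime J 𝔫 := Ideal.isCoprime_iff_sup_eq.mpr hJ
  exact Ideal.isCoprime_iff_sup_eq.mp (h1.mul_left h2)

/-- **Factoring through the class group.**  A multiplicative function on the ideals coprime to
`𝔫` that is trivial on the principal ideals coprime to `𝔫` induces a homomorphism on the class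
group. -/
theorem S14_art_factor {R : Type*} [CommRing R] [IsDedekindDomain R] {G' : Type*} [Group G']
    (A : Ideal R → G') (𝔫 : Ideal R) (h𝔫 : 𝔫 ≠ ⊥)
    (hmul : ∀ I J : Ideal R, I ⊔ 𝔫 = ⊤ → J ⊔ 𝔫 = ⊤ → A (I * J) = A I * A J)
    (hprin : ∀ a : R, Ideal.span {a} ⊔ 𝔫 = ⊤ → A (Ideal.span {a}) = 1) :
    ∃ ψ : ClassGroup R →* G', ∀ I : (Ideal R)⁰, I.1 ⊔ 𝔫 = ⊤ → ψ (ClassGroup.mk0 I) = A I.1 := by
  classical
  -- well-definedness
  have hwd : ∀ I I' : (Ideal R)⁰, I.1 ⊔ 𝔫 = ⊤ → I'.1 ⊔ 𝔫 = ⊤ →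
      ClassGroup.mk0 I = ClassGroup.mk0 I' → A I.1 = A I'.1 := by
    intro I I' hI hI' hII'
    obtain ⟨J, hJ, hJn⟩ := S14_exists_mk0_coprime 𝔫 h𝔫 (ClassGroup.mk0 I)⁻¹
    have h1 : ClassGroup.mk0 I = (ClassGroup.mk0 J)⁻¹ := by rw [hJ, inv_inv]
    have h2 : ClassGroup.mk0 I' = (ClassGroup.mk0 J)⁻¹ := by rw [← hII', h1]
    obtain ⟨a, -, ha⟩ := ClassGroup.mk0_eq_mk0_inv_iff.mp h1
    obtain ⟨a', -, ha'⟩ := ClassGroup.mk0_eq_mk0_inv_iff.mp h2
    have e1 : A I.1 * A J.1 = 1 := by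
      rw [← hmul _ _ hI hJn, ha]
      exact hprin a (by rw [← ha]; exact S14_mul_sup_eq_top hI hJn)
    have e2 : A I'.1 * A J.1 = 1 := by
      rw [← hmul _ _ hI' hJn, ha']
      exact hprin a' (by rw [← ha']; exact S14_mul_sup_eq_top hI' hJn)
    exact mul_right_cancel (e1.trans e2.symm)
  choose rep hrep hrepn using fun c : ClassGroup R => S14_exists_mk0_coprime 𝔫 h𝔫 c
  have hkey : ∀ I : (Ideal R)⁰, I.1 ⊔ 𝔫 = ⊤ → A (rep (ClassGroup.mk0 I)).1 = A I.1 := fun I hI =>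
    hwd _ _ (hrepn _) hI (hrep _)
  have htop : (⊤ : Ideal R) ⊔ 𝔫 = ⊤ := top_sup_eq _
  have hA1 : A (⊤ : Ideal R) = 1 := by
    have := hprin 1 (by rw [Ideal.span_singleton_one]; exact htop)
    rwa [Ideal.span_singleton_one] at this
  refine ⟨⟨⟨fun c => A (rep c).1, ?_⟩, ?_⟩, fun I hI => hkey I hI⟩
  · have : A (rep 1).1 = A (1 : (Ideal R)⁰).1 := by
      have h := hkey 1 (by simpa using htop)
      rwa [map_one] at h
    rw [this]
    simp [hA1]
  · intro c d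
    have h := hkey (rep c * rep d) (S14_mul_sup_eq_top (hrepn c) (hrepn d))
    rw [map_mul, hrep, hrep] at h
    change A (rep (c * d)).1 = A (rep c).1 * A (rep d).1
    rw [h]
    exact hmul _ _ (hrepn c) (hrepn d)

end Fermat.Agent.S14
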