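import Mathlib
import Fermat.Agent.S14.Frob
import Fermat.Agent.S14.CrossDefs
import Fermat.Agent.S14.CrossFunct
import Fermat.Agent.S14.CrossMove
import Fermat.Agent.S14.CrossField
import Fermat.Agent.S14.CrossFieldChar

/-!
# S14 block N3, BRIDGE: a prime with prescribed Frobenius power in `K(ζ_m)/F`
-/

namespace Fermat.Agent.S14

open NumberField nonZeroDivisors
open scoped Pointwise

section unrbase

variable {F K L M : Type*} [Field F] [NumberField F] [Field K] [NumberField K]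
  [Field L] [NumberField L] [Field M] [NumberField M]
  [Algebra F K] [Algebra F L] [Algebra K M] [Algebra L M] [Algebra F M]
  [IsScalarTower F K M] [IsScalarTower F L M]

omit [NumberField F] [NumberField K] [NumberField M] in
/-- an automorphism of `M/F` fixing `K` pointwise restricts to the identity of `K`. -/
theorem S14_bridge_restrictNormal_eq_one [IsGalois F K] (g : M ≃ₐ[F] M) :
    g.restrictNormal K = 1 ↔ ∀ x : K, g (algebraMap K M x) = algebraMap K M x := by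
  constructor
  · intro h x
    have h1 := AlgEquiv.restrictNormal_commutes g K x
    rw [h] at h1
    exact h1.symm
  · intro h
    ext x
    apply (algebraMap K M).injective
    rw [AlgEquiv.restrictNormal_commutes, h]
    rfl

/-- **(b2)** base change of "unramified": if `K/F` is unramified and restriction
`Gal(M/L) → Gal(K/F)` is injective, then `M/L` is unramified. -/
theorem S14_bridge_unr_base [IsGalois F K] (hunr : S14_Unr F K)
    (hinj : ∀ σ : M ≃ₐ[L] M, (∀ x : K, σ (algebraMap K M x) = algebraMap K M x) → σ = 1) :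
    S14_Unr L M := by
  intro P hP hP0 σ hσ
  have := hP
  apply hinj
  have hρ : (σ.restrictScalars F).restrictNormal K = 1 := by
    apply hunr (P.under (𝓞 K)) inferInstance (S14_funct_under_ne_bot hP0)
    intro x
    have h5 : algebraMap (𝓞 K) (𝓞 M) (((σ.restrictScalars F).restrictNormal K) • x) =
        σ • (algebraMap (𝓞 K) (𝓞 M) x) := by
      apply Subtype.ext
      exact AlgEquiv.restrictNormal_commutes (σ.restrictScalars F) K (x : K)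
    show algebraMap (𝓞 K) (𝓞 M) (((σ.restrictScalars F).restrictNormal K) • x - x) ∈ P
    rw [map_sub, h5]
    exact hσ _
  exact (S14_bridge_restrictNormal_eq_one (σ.restrictScalars F)).mp hρ

end unrbase

section zeta

variable {F Ω : Type*} [Field F] [Field Ω] [Algebra F Ω] {m : ℕ} [NeZero m] {ζ : Ω}

omit [Algebra F Ω] in
/-- powers of a primitive root: equality of powers is congruence of exponents. -/
theorem S14_bridge_pow_eq_pow_iff (hζ : IsPrimitiveRoot ζ m) (a b : ℕ) :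
    ζ ^ a = ζ ^ b ↔ a ≡ b [MOD m] := by
  have h0 : ζ ≠ 0 := hζ.ne_zero (NeZero.ne m)
  have h1 : orderOf (Units.mk0 ζ h0) = m := by
    rw [← orderOf_units, Units.val_mk0, ← hζ.eq_orderOf]
  rw [← h1, ← pow_eq_pow_iff_modEq, Units.ext_iff, Units.val_pow_eq_pow_val,
    Units.val_pow_eq_pow_val, Units.val_mk0]

/-- the cyclotomic character is determined by the action on `ζ`. -/
theorem S14_bridge_autToPow_eq (hζ : IsPrimitiveRoot ζ m) (g : Ω ≃ₐ[F] Ω) (a : ℕ)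
    (h : g ζ = ζ ^ a) : ((hζ.autToPow F g : (ZMod m)ˣ) : ZMod m) = (a : ZMod m) := by
  have h1 := hζ.autToPow_spec F g
  rw [h] at h1
  have h2 : (hζ.autToPow F g : ZMod m).val ≡ a [MOD m] :=
    (S14_bridge_pow_eq_pow_iff hζ _ _).mp h1
  have h3 := (ZMod.natCast_eq_natCast_iff _ _ _).mpr h2
  rwa [ZMod.natCast_zmod_val] at h3

theorem S14_bridge_apply_zeta (hζ : IsPrimitiveRoot ζ m) (g : Ω ≃ₐ[F] Ω) (u : (ZMod m)ˣ)
    (h : hζ.autToPow F g = u) : g ζ = ζ ^ (u : ZMod m).val := by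
  rw [← h]
  exact (hζ.autToPow_spec F g).symm

theorem S14_bridge_autToPow_eq_unit (hζ : IsPrimitiveRoot ζ m) (g : Ω ≃ₐ[F] Ω) (u : (ZMod m)ˣ)
    (h : g ζ = ζ ^ (u : ZMod m).val) : hζ.autToPow F g = u := by
  apply Units.ext
  rw [S14_bridge_autToPow_eq hζ g _ h, ZMod.natCast_zmod_val]

end zeta

section core

variable {F K Ω : Type} [Field F] [NumberField F] [Field K] [NumberField K]
  [Field Ω] [NumberField Ω]
  [Algebra F K] [Algebra K Ω] [Algebra F Ω] [IsScalarTower F K Ω] [IsGalois F K] [IsGalois F Ω]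
  {m : ℕ} [NeZero m] {ζ : Ω} {p' : ℕ}

omit [NumberField F] [NumberField K] [NumberField Ω] in
/-- an element of `Gal(Ω/F)` with prescribed restriction to `K` and prescribed cyclotomic
character. -/
theorem S14_bridge_exists_gamma (hζ : IsPrimitiveRoot ζ m)
    (hb5 : ∀ u : (ZMod m)ˣ, ∃ δ : Ω ≃ₐ[K] Ω, δ ζ = ζ ^ (u : ZMod m).val)
    (s : K ≃ₐ[F] K) (u : (ZMod m)ˣ) :
    ∃ γ : Ω ≃ₐ[F] Ω, AlgEquiv.restrictNormalHom K γ = s ∧ hζ.autToPow F γ = u := by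
  obtain ⟨s', hs'⟩ := AlgEquiv.restrictNormalHom_surjective Ω s
  obtain ⟨δ, hδ⟩ := hb5 ((hζ.autToPow F s')⁻¹ * u)
  refine ⟨s' * δ.restrictScalars F, ?_, ?_⟩
  · rw [map_mul, hs']
    have h1 : AlgEquiv.restrictNormalHom K (δ.restrictScalars F) = 1 := by
      apply (S14_bridge_restrictNormal_eq_one (δ.restrictScalars F)).mpr
      intro x
      exact δ.commutes x
    rw [h1, mul_one]
  · rw [map_mul]
    have h1 : hζ.autToPow F (δ.restrictScalars F) = (hζ.autToPow F s')⁻¹ * u :=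
      S14_bridge_autToPow_eq_unit hζ _ _ hδ
    rw [h1, mul_inv_cancel_left]

theorem S14_bridge_pow_card (hdeg : Module.finrank F K = p') (s : K ≃ₐ[F] K) : s ^ p' = 1 := by
  rw [← hdeg, ← IsGalois.card_aut_eq_finrank F K]
  exact pow_card_eq_one'

/-- **BRIDGE, abstract core.**  `Ω/F` Galois containing `K` and a primitive `m`-th root of unity
`ζ`, with the FIELD facts (b1), (b3), (b5) as hypotheses. -/
theorem S14_bridge_core (p : ℕ) [Fact p.Prime] (h1 : S14_N1Stmt p)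
    (hdeg : Module.finrank F K = p) (hunr : S14_Unr F K)
    (hζ : IsPrimitiveRoot ζ m)
    (hb1 : ∀ g g' : Ω ≃ₐ[F] Ω, (∀ x : K, g (algebraMap K Ω x) = g' (algebraMap K Ω x)) →
      g ζ = g' ζ → g = g')
    (hb3 : ∀ P : Ideal (𝓞 Ω), P.IsPrime → (m : 𝓞 Ω) ∉ P →
      ∀ σ : Ω ≃ₐ[F] Ω, (∀ x : 𝓞 Ω, σ • x - x ∈ P) → σ = 1)
    (hb5 : ∀ u : (ZMod m)ˣ, ∃ δ : Ω ≃ₐ[K] Ω, δ ζ = ζ ^ (u : ZMod m).val)
    (s : K ≃ₐ[F] K) (hs : s ≠ 1) (u : (ZMod m)ˣ) (hu : u ^ p = 1) :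
    ∃ (𝔮 : (Ideal (𝓞 F))⁰) (τ : K ≃ₐ[F] K) (n i : ℕ),
      𝔮.1.IsPrime ∧ S14_FrobOf τ 𝔮.1 ∧ (m : 𝓞 F) ∉ 𝔮.1 ∧ ¬ p ∣ i ∧ τ ^ n = s ^ i ∧
      ((Nat.card (𝓞 F ⧸ 𝔮.1) : ℕ) : ZMod m) ^ n = (u : ZMod m) ^ i := by
  classical
  have hp : p.Prime := Fact.out
  -- Piece A: the element γ
  obtain ⟨γ, hγK, hγχ⟩ := S14_bridge_exists_gamma hζ hb5 s u
  -- Piece B: γ has order p
  have hsp : s ^ p = 1 := S14_bridge_pow_card hdeg s
  have hos : orderOf s = p := orderOf_eq_prime hsp hs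
  have hγp : γ ^ p = 1 := by
    apply hb1
    · have h2 : AlgEquiv.restrictNormalHom K (γ ^ p) = 1 := by rw [map_pow, hγK, hsp]
      intro x
      rw [(S14_bridge_restrictNormal_eq_one (γ ^ p)).mp h2 x]
      rfl
    · have h2 : hζ.autToPow F (γ ^ p) = hζ.autToPow F 1 := by
        rw [map_pow, hγχ, hu, map_one]
      rw [← hζ.autToPow_spec F (γ ^ p), ← hζ.autToPow_spec F 1, h2]
  have hγ1 : γ ≠ 1 := by
    rintro rfl
    rw [map_one] at hγK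
    exact hs hγK.symm
  have hoγ : orderOf γ = p := orderOf_eq_prime hγp hγ1
  -- Piece C: the fixed field E of γ
  set H : Subgroup (Ω ≃ₐ[F] Ω) := Subgroup.zpowers γ with hH
  set E : IntermediateField F Ω := IntermediateField.fixedField H with hE
  have hfin : Module.finrank E Ω = p := by
    rw [hE, IntermediateField.finrank_fixedField_eq_card, hH, Nat.card_zpowers, hoγ]
  have hmemH : ∀ σ : Ω ≃ₐ[E] Ω, σ.restrictScalars F ∈ H := by
    intro σ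
    have h2 : σ.restrictScalars F ∈ E.fixingSubgroup := by
      rw [IntermediateField.mem_fixingSubgroup_iff]
      intro x hx
      exact σ.commutes ⟨x, hx⟩
    have h3 : E.fixingSubgroup = H := IntermediateField.fixingSubgroup_fixedField H
    exact h3.le h2
  have hpowH : ∀ σ : Ω ≃ₐ[E] Ω, ∃ i : ℕ, γ ^ i = σ.restrictScalars F := by
    intro σ
    have h2 := hmemH σ
    rw [hH, ← mem_powers_iff_mem_zpowers] at h2
    exact Submonoid.mem_powers_iff _ _ |>.mp h2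
  have hinj : ∀ σ : Ω ≃ₐ[E] Ω,
      (∀ x : K, σ (algebraMap K Ω x) = algebraMap K Ω x) → σ = 1 := by
    intro σ hσ
    obtain ⟨i, hi⟩ := hpowH σ
    have h2 : AlgEquiv.restrictNormalHom K (σ.restrictScalars F) = 1 :=
      (S14_bridge_restrictNormal_eq_one (σ.restrictScalars F)).mpr hσ
    rw [← hi, map_pow, hγK] at h2
    have h3 : p ∣ i := hos ▸ orderOf_dvd_of_pow_eq_one h2
    have h4 : γ ^ i = 1 := orderOf_dvd_iff_pow_eq_one.mp (hoγ ▸ h3)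
    rw [h4] at hi
    ext x
    have := congrArg (fun g : Ω ≃ₐ[F] Ω => g x) hi
    exact this.symm
  have hUnrE : S14_Unr E Ω := S14_bridge_unr_base (F := F) (K := K) hunr hinj
  -- Piece D: N1 and the moving lemma
  obtain ⟨c, hc⟩ := h1 E Ω hfin hUnrE
  have hcH : c ∉ (S14_clNorm E Ω).range := by
    rintro ⟨x, hx⟩
    obtain ⟨J, rfl⟩ := ClassGroup.mk0_surjective x
    rw [S14_clNorm_mk0] at hx
    exact hc J.1 (S14_funct_relNorm0 E Ω J) (mem_nonZeroDivisors_iff_ne_zero.mp J.2) rfl hx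
  have hex : ∃ 𝔔 : (Ideal (𝓞 E))⁰, 𝔔.1.IsPrime ∧ (m : 𝓞 E) ∉ 𝔔.1 ∧
      ClassGroup.mk0 𝔔 ∉ (S14_clNorm E Ω).range := by
    by_contra hcon
    have htop := S14_move_primes E m (NeZero.ne m) (S14_clNorm E Ω).range
      (fun 𝔮 h𝔮p h𝔮m => by
        by_contra hn
        exact hcon ⟨𝔮, h𝔮p, h𝔮m, hn⟩)
    exact hcH (htop ▸ Subgroup.mem_top c)
  obtain ⟨𝔔, h𝔔p, h𝔔m, h𝔔H⟩ := hex
  have h𝔔0 : 𝔔.1 ≠ ⊥ := mem_nonZeroDivisors_iff_ne_zero.mp 𝔔.2
  -- Piece E: a prime P of Ω over 𝔔 and its Frobenius elements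
  obtain ⟨P, -, hP, hPQ⟩ := Ideal.exists_ideal_over_prime_of_isIntegral 𝔔.1 (⊥ : Ideal (𝓞 Ω))
    (by simp [← RingHom.ker_eq_comap_bot])
  have hPQ' : P.under (𝓞 E) = 𝔔.1 := hPQ
  have hP0 : P ≠ ⊥ := by
    rintro rfl
    exact h𝔔0 (hPQ'.symm.trans (Ideal.under_bot (𝓞 E) (𝓞 Ω)))
  have hmP : (m : 𝓞 Ω) ∉ P := by
    intro h
    apply h𝔔m
    rw [← hPQ']
    show algebraMap (𝓞 E) (𝓞 Ω) (m : 𝓞 E) ∈ P
    rwa [map_natCast]
  have hinE := hUnrE P hP hP0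
  have hdeg1 : P.inertiaDeg (𝓞 E) ≠ 1 := by
    intro h2
    apply h𝔔H
    have hPnz : P ∈ (Ideal (𝓞 Ω))⁰ := mem_nonZeroDivisors_iff_ne_zero.mpr hP0
    refine ⟨ClassGroup.mk0 ⟨P, hPnz⟩, ?_⟩
    rw [S14_clNorm_mk0]
    congr 1
    refine Subtype.ext ?_
    rw [S14_funct_relNorm0_coe]
    show Ideal.relNorm (𝓞 E) P = 𝔔.1
    rw [S14_frob_relNorm P hP hP0, h2, pow_one, hPQ']
  obtain ⟨h, hh⟩ := S14_frob_exists (E := E) P hP hP0
  have hh1 : h ≠ 1 := fun h2 => hdeg1 ((S14_frob_eq_one_iff hP hP0 hinE hh).mp h2)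
  obtain ⟨g, hg⟩ := S14_frob_exists (E := F) P hP hP0
  have hinF := hb3 P hP hmP
  have hd1 : h.restrictScalars F = g ^ (P.under (𝓞 E)).inertiaDeg (𝓞 F) :=
    S14_funct_restrictScalars P hP hP0 hinF hh hg
  obtain ⟨i, hi⟩ := hpowH h
  have hpi : ¬ p ∣ i := by
    intro h3
    have h4 : γ ^ i = 1 := orderOf_dvd_iff_pow_eq_one.mp (hoγ ▸ h3)
    rw [h4] at hi
    apply hh1
    ext x
    have := congrArg (fun g : Ω ≃ₐ[F] Ω => g x) hi
    exact this.symm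
  -- Piece F: the outputs
  have := hP
  have h𝔮0 : P.under (𝓞 F) ≠ ⊥ := S14_funct_under_ne_bot hP0
  set n := (P.under (𝓞 E)).inertiaDeg (𝓞 F) with hn
  refine ⟨⟨P.under (𝓞 F), mem_nonZeroDivisors_iff_ne_zero.mpr h𝔮0⟩,
    AlgEquiv.restrictNormalHom K g, n, i, inferInstance, ?_, ?_, hpi, ?_, ?_⟩
  · exact ⟨P.under (𝓞 K), inferInstance, S14_funct_under_ne_bot hP0, Ideal.under_under P,
      S14_funct_restrictNormal_isFrob P hg⟩
  · intro h2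
    apply hmP
    have h3 : algebraMap (𝓞 F) (𝓞 Ω) (m : 𝓞 F) ∈ P := h2
    rwa [map_natCast] at h3
  · rw [← map_pow, ← hd1, ← hi, map_pow, hγK]
  · -- cyclotomic character of g
    have hζint : IsIntegral ℤ ζ := hζ.isIntegral (NeZero.pos m)
    set ζ' : 𝓞 Ω := ⟨ζ, hζint⟩ with hζ'
    have hζ'm : ζ' ^ m = 1 := by
      apply Subtype.ext
      show ζ ^ m = 1
      exact hζ.pow_eq_one
    have h7 := S14_frob_root_of_unity hg hζ'm hmP
    have h8 : g ζ = ζ ^ Nat.card (𝓞 F ⧸ P.under (𝓞 F)) := by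
      have := congrArg (fun z : 𝓞 Ω => (z : Ω)) h7
      exact this
    have h9 := S14_bridge_autToPow_eq hζ g _ h8
    show ((Nat.card (𝓞 F ⧸ P.under (𝓞 F)) : ℕ) : ZMod m) ^ n = (u : ZMod m) ^ i
    rw [← h9, ← Units.val_pow_eq_pow_val, ← Units.val_pow_eq_pow_val, ← map_pow, ← hd1, ← hi,
      map_pow, hγχ]

end core

section crt

/-- Chinese remainder theorem for units of order dividing `p`. -/
theorem S14_bridge_crt (p : ℕ) (hp : p ≠ 0) {ℓ₀ ℓ₁ : ℕ} (hcop : ℓ₀.Coprime ℓ₁)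
    (u₀ : ZMod ℓ₀) (u₁ : ZMod ℓ₁) (hu₀ : u₀ ^ p = 1) (hu₁ : u₁ ^ p = 1) :
    ∃ u : (ZMod (ℓ₀ * ℓ₁))ˣ, u ^ p = 1 ∧
      ZMod.castHom (dvd_mul_right ℓ₀ ℓ₁) (ZMod ℓ₀) (u : ZMod (ℓ₀ * ℓ₁)) = u₀ ∧
      ZMod.castHom (dvd_mul_left ℓ₁ ℓ₀) (ZMod ℓ₁) (u : ZMod (ℓ₀ * ℓ₁)) = u₁ := by
  set e := ZMod.chineseRemainder hcop with he
  set u' : ZMod (ℓ₀ * ℓ₁) := e.symm (u₀, u₁) with hu'
  have hpow : u' ^ p = 1 := by
    rw [hu', ← map_pow, Prod.pow_mk, hu₀, hu₁]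
    exact map_one e.symm
  have heu : e u' = (u₀, u₁) := e.apply_symm_apply _
  have h1 : (e u').1 = (ZMod.cast u' : ZMod ℓ₀) := Prod.fst_zmod_cast u'
  have h2 : (e u').2 = (ZMod.cast u' : ZMod ℓ₁) := Prod.snd_zmod_cast u'
  refine ⟨Units.ofPowEqOne u' p hpow hp, ?_, ?_, ?_⟩
  · apply Units.ext
    rw [Units.val_pow_eq_pow_val, Units.val_ofPowEqOne, hpow]
    rfl
  · rw [Units.val_ofPowEqOne, ZMod.castHom_apply, ← h1, heu]
  · rw [Units.val_ofPowEqOne, ZMod.castHom_apply, ← h2, heu]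

end crt

/-- **BRIDGE.**  For an unramified Galois extension `K/F` of degree `p`, two distinct primes
`ℓ₀, ℓ₁` not dividing the discriminant of `K`, `1 ≠ s ∈ Gal(K/F)` and `p`-th roots of unity
`u₀ mod ℓ₀`, `u₁ mod ℓ₁`: there is a prime `𝔮` of `F`, prime to `ℓ₀ℓ₁`, with Frobenius `τ` in
`K/F`, and exponents `n`, `i` (`p ∤ i`) with `τ ^ n = s ^ i`, `N𝔮 ^ n ≡ uⱼ ^ i mod ℓⱼ`. -/
theorem S14_bridge (p : ℕ) [Fact p.Prime] (_hp2 : p ≠ 2) (h1 : S14_N1Stmt p) :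
    S14_BridgeStmt p := by
  intro F K _ _ _ _ _ _ hdeg hunr ℓ₀ ℓ₁ hℓ₀ hℓ₁ hne hd₀ hd₁ s u₀ u₁ hs hu₀ hu₁
  have hp : p.Prime := Fact.out
  have : NeZero (ℓ₀ * ℓ₁) := ⟨mul_ne_zero hℓ₀.ne_zero hℓ₁.ne_zero⟩
  have hcop : ℓ₀.Coprime ℓ₁ := (Nat.coprime_primes hℓ₀ hℓ₁).mpr hne
  have hcopd : IsCoprime ((ℓ₀ * ℓ₁ : ℕ) : ℤ) (NumberField.discr K) := by
    rw [Nat.cast_mul]
    exact IsCoprime.mul_left
      ((Nat.prime_iff_prime_int.mp hℓ₀).coprime_iff_not_dvd.mpr hd₀)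
      ((Nat.prime_iff_prime_int.mp hℓ₁).coprime_iff_not_dvd.mpr hd₁)
  obtain ⟨u, hu, hu0, hu1⟩ := S14_bridge_crt p hp.ne_zero hcop u₀ u₁ hu₀ hu₁
  -- the field Ω = K(ζ_m)
  have : IsGalois F (CyclotomicField (ℓ₀ * ℓ₁) K) :=
    S14_field_isGalois F K (CyclotomicField (ℓ₀ * ℓ₁) K) (ℓ₀ * ℓ₁)
  have hζ := IsCyclotomicExtension.zeta_spec (ℓ₀ * ℓ₁) K (CyclotomicField (ℓ₀ * ℓ₁) K)
  have hfr := S14_field_finrank K (CyclotomicField (ℓ₀ * ℓ₁) K) (ℓ₀ * ℓ₁) hcopd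
  obtain ⟨𝔮, τ, n, i, h𝔮, hF, hm𝔮, hpi, hτ, hcong⟩ :=
    S14_bridge_core (F := F) (K := K) (Ω := CyclotomicField (ℓ₀ * ℓ₁) K) p h1 hdeg hunr hζ
      (S14_field_ext (ℓ₀ * ℓ₁) hζ) (S14_field_inertia (ℓ₀ * ℓ₁) hζ hunr)
      (fun v => S14_field_char_surj_of_finrank (ℓ₀ * ℓ₁) hζ hfr v) s hs u hu
  refine ⟨𝔮, τ, n, i, h𝔮, hF, ?_, ?_, hpi, hτ, ?_, ?_⟩
  · intro h
    apply hm𝔮
    rw [Nat.cast_mul]
    exact Ideal.mul_mem_right _ _ h
  · intro h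
    apply hm𝔮
    rw [Nat.cast_mul]
    exact Ideal.mul_mem_left _ _ h
  · have := congrArg (ZMod.castHom (dvd_mul_right ℓ₀ ℓ₁) (ZMod ℓ₀)) hcong
    rwa [map_pow, map_pow, map_natCast, hu0] at this
  · have := congrArg (ZMod.castHom (dvd_mul_left ℓ₁ ℓ₀) (ZMod ℓ₁)) hcong
    rwa [map_pow, map_pow, map_natCast, hu1] at this

end Fermat.Agent.S14
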