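import Mathlib
import Fermat.Agent.S14.Defs
import Fermat.Agent.S14.Frob
import Fermat.Agent.S14.CrossDefs

/-!
# S14 (item 13), block N3 / CORE_EM: the graph argument

`E ⊆ M` number fields, `M/E` Galois of odd prime degree `p`, unramified, `ζ ∈ 𝓞 M` an `ℓ`-th root
of unity moved by every nontrivial element of `Gal(M/E)`, and norms of elements of `𝓞 E` prime to
`ℓ` are `≡ 1 mod ℓ`.  Then the Frobenius elements of the primes of `E` not over `ℓ` define a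
homomorphism `Φ : Cl(𝓞 E) → Gal(M/E)`; with the universal norm inequality its kernel is
`S14_HsT E M ℓ`.
-/

namespace Fermat.Agent.S14

open NumberField nonZeroDivisors

section prelim

variable {E : Type*} [Field E] [NumberField E]

/-- a nonzero prime of `𝓞 E` not containing `ℓ` has absolute norm prime to `ℓ`. -/
theorem S14_coreEM_coprime_of_prime {ℓ : ℕ} (hℓ : ℓ.Prime) (𝔮 : Ideal (𝓞 E)) (h𝔮 : 𝔮.IsPrime)
    (h0 : 𝔮 ≠ ⊥) (hn : (ℓ : 𝓞 E) ∉ 𝔮) : Nat.Coprime (Ideal.absNorm 𝔮) ℓ := by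
  rw [Nat.coprime_comm, Nat.Prime.coprime_iff_not_dvd hℓ]
  intro hdvd
  obtain ⟨P, hP, hPu, hPd⟩ := Ideal.exists_isMaximal_dvd_of_dvd_absNorm' hℓ 𝔮 hdvd
  have hle : 𝔮 ≤ P := Ideal.le_of_dvd hPd
  have hmax : 𝔮.IsMaximal := h𝔮.isMaximal h0
  have hPq : 𝔮 = P := hmax.eq_of_le hP.ne_top hle
  apply hn
  rw [hPq]
  have : ((ℓ : ℤ)) ∈ P.under ℤ := by
    rw [hPu]; exact Ideal.mem_span_singleton_self _
  simpa [Ideal.under_def] using this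

/-- an ideal whose absolute norm is prime to `ℓ` is comaximal with `ℓ`. -/
theorem S14_coreEM_sup_of_coprime {ℓ : ℕ} (I : Ideal (𝓞 E))
    (h : Nat.Coprime (Ideal.absNorm I) ℓ) : I ⊔ Ideal.span {(ℓ : 𝓞 E)} = ⊤ := by
  rw [Ideal.eq_top_iff_one]
  have h1 : ((Ideal.absNorm I : ℤ)) * Nat.gcdA (Ideal.absNorm I) ℓ +
      (ℓ : ℤ) * Nat.gcdB (Ideal.absNorm I) ℓ = 1 := by
    have := Nat.gcd_eq_gcd_ab (Ideal.absNorm I) ℓ
    rw [h.gcd_eq_one] at this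
    simpa using this.symm
  have h2 : ((Ideal.absNorm I : 𝓞 E)) * (Nat.gcdA (Ideal.absNorm I) ℓ : 𝓞 E) +
      (ℓ : 𝓞 E) * (Nat.gcdB (Ideal.absNorm I) ℓ : 𝓞 E) = 1 := by
    have := congrArg (Int.cast : ℤ → 𝓞 E) h1
    push_cast at this
    exact this
  rw [← h2]
  refine Ideal.add_mem _ (Ideal.mem_sup_left ?_) (Ideal.mem_sup_right ?_)
  · exact Ideal.mul_mem_right _ _ (Ideal.absNorm_mem I)
  · exact Ideal.mul_mem_right _ _ (Ideal.mem_span_singleton_self _)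

/-- **trick**: two nonzero ideals prime to `ℓ` in the same class have absolute norms that agree
up to sign modulo `ℓ`, if norms of elements prime to `ℓ` are `≡ 1 mod ℓ`. -/
theorem S14_coreEM_absNorm_class {ℓ : ℕ} (hℓ : ℓ.Prime)
    (hnorm : ∀ x : 𝓞 E, Ideal.span {x} ⊔ Ideal.span {(ℓ : 𝓞 E)} = ⊤ →
      ((Algebra.norm ℤ x : ℤ) : ZMod ℓ) = 1)
    (I J : (Ideal (𝓞 E))⁰) (hI : Nat.Coprime (Ideal.absNorm I.1) ℓ)
    (hJ : Nat.Coprime (Ideal.absNorm J.1) ℓ) (hIJ : ClassGroup.mk0 I = ClassGroup.mk0 J) :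
    ((Ideal.absNorm I.1 : ℕ) : ZMod ℓ) = (Ideal.absNorm J.1 : ℕ) ∨
      ((Ideal.absNorm I.1 : ℕ) : ZMod ℓ) = -((Ideal.absNorm J.1 : ℕ) : ZMod ℓ) := by
  have : Fact ℓ.Prime := ⟨hℓ⟩
  -- absolute norm of a principal ideal prime to ℓ is ±1 mod ℓ
  have key : ∀ z : 𝓞 E, Nat.Coprime (Ideal.absNorm (Ideal.span {z})) ℓ →
      ((Ideal.absNorm (Ideal.span {z}) : ℕ) : ZMod ℓ) = 1 ∨
        ((Ideal.absNorm (Ideal.span {z}) : ℕ) : ZMod ℓ) = -1 := by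
    intro z hz
    have h1 := hnorm z (S14_coreEM_sup_of_coprime _ hz)
    rw [Ideal.absNorm_span_singleton]
    rcases Int.natAbs_eq (Algebra.norm ℤ z) with h | h
    · left
      have : ((Algebra.norm ℤ z).natAbs : ZMod ℓ) = ((Algebra.norm ℤ z : ℤ) : ZMod ℓ) := by
        conv_rhs => rw [h]
        simp
      rw [this, h1]
    · right
      have : ((Algebra.norm ℤ z).natAbs : ZMod ℓ) = -((Algebra.norm ℤ z : ℤ) : ZMod ℓ) := by
        conv_rhs => rw [h]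
        simp
      rw [this, h1]
  set n : ℕ := Ideal.absNorm J.1 with hn
  have hnJ : (n : 𝓞 E) ∈ J.1 := Ideal.absNorm_mem J.1
  have hJ0 : J.1 ≠ ⊥ := nonZeroDivisors.ne_zero J.2
  have hI0 : I.1 ≠ ⊥ := nonZeroDivisors.ne_zero I.2
  have hn0 : n ≠ 0 := by
    intro h0
    rw [hn, Ideal.absNorm_eq_zero_iff] at h0
    exact hJ0 h0
  obtain ⟨J', hJ'⟩ : J.1 ∣ Ideal.span {(n : 𝓞 E)} := by
    rw [Ideal.dvd_span_singleton]; exact hnJ
  have hspan0 : Ideal.span {(n : 𝓞 E)} ≠ ⊥ := by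
    rw [Ne, Ideal.span_singleton_eq_bot]
    exact_mod_cast hn0
  have hJ'0 : J' ≠ ⊥ := by
    rintro rfl
    rw [Ideal.mul_bot] at hJ'
    exact hspan0 hJ'
  have hnn : Nat.Coprime (Ideal.absNorm (Ideal.span {(n : 𝓞 E)})) ℓ := by
    rw [Ideal.absNorm_span_singleton]
    have : Algebra.norm ℤ (n : 𝓞 E) = (n : ℤ) ^ Module.finrank ℤ (𝓞 E) := by
      have := Algebra.norm_algebraMap (R := ℤ) (S := 𝓞 E) (n : ℤ)
      simpa using this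
    rw [this, Int.natAbs_pow, Int.natAbs_natCast]
    exact Nat.Coprime.pow_left _ hJ
  have hmulJ : Ideal.absNorm J.1 * Ideal.absNorm J' = Ideal.absNorm (Ideal.span {(n : 𝓞 E)}) := by
    rw [hJ', map_mul]
  have hJ'c : Nat.Coprime (Ideal.absNorm J') ℓ := by
    rw [← hmulJ] at hnn
    exact Nat.Coprime.coprime_mul_left hnn
  -- the class of I * J' is trivial
  have hprin : (I.1 * J').IsPrincipal := by
    have hIJ'0 : I.1 * J' ∈ (Ideal (𝓞 E))⁰ :=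
      mem_nonZeroDivisors_of_ne_zero (mul_ne_zero hI0 hJ'0)
    rw [← ClassGroup.mk0_eq_one_iff hIJ'0]
    have e1 : (⟨I.1 * J', hIJ'0⟩ : (Ideal (𝓞 E))⁰) =
        I * ⟨J', mem_nonZeroDivisors_of_ne_zero hJ'0⟩ := by
      ext1; rfl
    have hspanmem : Ideal.span {(n : 𝓞 E)} ∈ (Ideal (𝓞 E))⁰ :=
      mem_nonZeroDivisors_of_ne_zero hspan0
    have e2 : (⟨Ideal.span {(n : 𝓞 E)}, hspanmem⟩ : (Ideal (𝓞 E))⁰) =
        J * ⟨J', mem_nonZeroDivisors_of_ne_zero hJ'0⟩ := by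
      ext1; exact hJ'
    rw [e1, map_mul, hIJ, ← map_mul, ← e2]
    rw [ClassGroup.mk0_eq_one_iff hspanmem]
    exact ⟨⟨_, rfl⟩⟩
  obtain ⟨⟨z, hz⟩⟩ := hprin
  have hz' : I.1 * J' = Ideal.span {z} := hz
  have hzc : Nat.Coprime (Ideal.absNorm (Ideal.span {z})) ℓ := by
    rw [← hz', map_mul]
    exact Nat.Coprime.mul_left hI hJ'c
  have hmulI : Ideal.absNorm I.1 * Ideal.absNorm J' = Ideal.absNorm (Ideal.span {z}) := by
    rw [← hz', map_mul]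
  have hJ'unit : IsUnit ((Ideal.absNorm J' : ℕ) : ZMod ℓ) := by
    rw [ZMod.isUnit_iff_coprime]
    exact hJ'c
  have k1 := key z hzc
  have k2 := key (n : 𝓞 E) hnn
  rw [← hmulI] at k1
  rw [← hmulJ] at k2
  push_cast at k1 k2
  rcases k1 with k1 | k1 <;> rcases k2 with k2 | k2
  · left
    exact hJ'unit.mul_right_cancel (k1.trans k2.symm)
  · right
    apply hJ'unit.mul_right_cancel
    rw [neg_mul, k2, k1]; simp
  · right
    apply hJ'unit.mul_right_cancel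
    rw [neg_mul, k2, k1]
  · left
    exact hJ'unit.mul_right_cancel (k1.trans k2.symm)

end prelim

section graph

variable (E M : Type*) [Field E] [NumberField E] [Field M] [NumberField M] [Algebra E M]

/-- generators of the graph of the Artin map: pairs (class of `𝔮`, Frobenius at a prime over
`𝔮` not containing `ℓ`). -/
def S14_coreGen (ℓ : ℕ) : Set (ClassGroup (𝓞 E) × (M ≃ₐ[E] M)) :=
  {x | ∃ (𝔮 : (Ideal (𝓞 E))⁰) (P : Ideal (𝓞 M)), P.IsPrime ∧ P.under (𝓞 E) = 𝔮.1 ∧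
    (ℓ : 𝓞 M) ∉ P ∧ S14_IsFrob x.2 P ∧ x.1 = ClassGroup.mk0 𝔮}

/-- the graph of the Artin map, as a subgroup of `Cl(𝓞 E) × Gal(M/E)`. -/
noncomputable def S14_coreX (ℓ : ℕ) : Subgroup (ClassGroup (𝓞 E) × (M ≃ₐ[E] M)) :=
  Subgroup.closure (S14_coreGen E M ℓ)

variable {E M}

omit [NumberField E] [NumberField M] in
theorem S14_coreEM_under_ne_bot {P : Ideal (𝓞 M)} (hP0 : P ≠ ⊥) : P.under (𝓞 E) ≠ ⊥ := by
  intro h0
  exact hP0 (Ideal.eq_bot_of_comap_eq_bot (R := 𝓞 E) h0)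

omit [NumberField E] [NumberField M] in
theorem S14_coreEM_natCast_mem_under {P : Ideal (𝓞 M)} {ℓ : ℕ} :
    (ℓ : 𝓞 E) ∈ P.under (𝓞 E) ↔ (ℓ : 𝓞 M) ∈ P := by
  rw [Ideal.under_def, Ideal.mem_comap, map_natCast]

variable [IsGalois E M]

/-- every element of the graph is of the form (`[I]/[J]`, `σ`) with `I, J` prime to `ℓ` and
`σ (ζ ^ N J) = ζ ^ N I`. -/
theorem S14_coreEM_graph_form {ℓ : ℕ} (hℓ : ℓ.Prime) (ζ : 𝓞 M) (hζ : ζ ^ ℓ = 1)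
    (x : ClassGroup (𝓞 E) × (M ≃ₐ[E] M)) (hx : x ∈ S14_coreX E M ℓ) :
    ∃ I J : (Ideal (𝓞 E))⁰, Nat.Coprime (Ideal.absNorm I.1) ℓ ∧
      Nat.Coprime (Ideal.absNorm J.1) ℓ ∧ x.1 * ClassGroup.mk0 J = ClassGroup.mk0 I ∧
      x.2 • (ζ ^ Ideal.absNorm J.1) = ζ ^ Ideal.absNorm I.1 := by
  induction hx using Subgroup.closure_induction with
  | mem x hx =>
    obtain ⟨𝔮, P, hP, hu, hn, hF, hc⟩ := hx
    have h𝔮0 : 𝔮.1 ≠ ⊥ := nonZeroDivisors.ne_zero 𝔮.2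
    have h𝔮p : 𝔮.1.IsPrime := by
      rw [← hu]; exact Ideal.IsPrime.under (𝓞 E) P
    have h𝔮n : (ℓ : 𝓞 E) ∉ 𝔮.1 := by
      rw [← hu, S14_coreEM_natCast_mem_under]; exact hn
    refine ⟨𝔮, 1, S14_coreEM_coprime_of_prime hℓ 𝔮.1 h𝔮p h𝔮0 h𝔮n, ?_, ?_, ?_⟩
    · simp
    · rw [hc]; simp
    · have h1 := S14_frob_root_of_unity hF hζ hn
      rw [hu] at h1
      have h2 : Ideal.absNorm ((1 : (Ideal (𝓞 E))⁰) : Ideal (𝓞 E)) = 1 := by simp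
      rw [h2, pow_one, h1, Ideal.absNorm_apply, Submodule.cardQuot_apply]
  | one =>
    refine ⟨1, 1, by simp, by simp, by simp, ?_⟩
    simp
  | mul x y hx hy ihx ihy =>
    obtain ⟨I, J, hI, hJ, hc, hz⟩ := ihx
    obtain ⟨I', J', hI', hJ', hc', hz'⟩ := ihy
    refine ⟨I * I', J * J', ?_, ?_, ?_, ?_⟩
    · rw [Submonoid.coe_mul, map_mul]; exact Nat.Coprime.mul_left hI hI'
    · rw [Submonoid.coe_mul, map_mul]; exact Nat.Coprime.mul_left hJ hJ'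
    · rw [Prod.fst_mul, map_mul, map_mul, ← hc, ← hc']
      exact mul_mul_mul_comm _ _ _ _
    · rw [Prod.snd_mul, Submonoid.coe_mul, map_mul, Submonoid.coe_mul, map_mul, mul_smul,
        mul_comm (Ideal.absNorm J.1), pow_mul, smul_pow', hz', ← pow_mul,
        mul_comm (Ideal.absNorm I'.1), pow_mul, smul_pow', hz, ← pow_mul]
  | inv x hx ih =>
    obtain ⟨I, J, hI, hJ, hc, hz⟩ := ih
    refine ⟨J, I, hJ, hI, ?_, ?_⟩
    · rw [Prod.fst_inv, ← hc]; simp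
    · rw [Prod.snd_inv, ← hz, inv_smul_smul]

/-- **(cyc)**: an element of the graph with trivial class has trivial Galois component. -/
theorem S14_coreEM_graph_inj {p : ℕ} (hp : p.Prime) (hp2 : p ≠ 2)
    (hcard : Nat.card (M ≃ₐ[E] M) = p) {ℓ : ℕ} (hℓ : ℓ.Prime) (ζ : 𝓞 M) (hζ : ζ ^ ℓ = 1)
    (hfix : ∀ σ : M ≃ₐ[E] M, σ • ζ = ζ → σ = 1)
    (hnorm : ∀ x : 𝓞 E, Ideal.span {x} ⊔ Ideal.span {(ℓ : 𝓞 E)} = ⊤ →
      ((Algebra.norm ℤ x : ℤ) : ZMod ℓ) = 1)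
    (x : ClassGroup (𝓞 E) × (M ≃ₐ[E] M)) (hx : x ∈ S14_coreX E M ℓ) (h1 : x.1 = 1) :
    x.2 = 1 := by
  obtain ⟨I, J, hI, hJ, hc, hz⟩ := S14_coreEM_graph_form hℓ ζ hζ x hx
  rw [h1, one_mul] at hc
  set σ := x.2 with hσ
  set ζ' : 𝓞 M := ζ ^ Ideal.absNorm J.1 with hζ'
  -- ζ is a power of ζ'
  obtain ⟨k, -, hk⟩ := Nat.exists_mul_mod_eq_one_of_coprime hJ hℓ.one_lt
  have hζk : ζ' ^ k = ζ := by
    rw [hζ', ← pow_mul, pow_eq_pow_mod _ hζ, hk, pow_one]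
  have hfix' : ∀ τ : M ≃ₐ[E] M, τ • ζ' = ζ' → τ = 1 := by
    intro τ hτ
    apply hfix
    rw [← hζk, smul_pow', hτ]
  rcases S14_coreEM_absNorm_class hℓ hnorm I J hI hJ hc.symm with h | h
  · -- plus sign
    apply hfix'
    rw [hz]
    have : Ideal.absNorm I.1 % ℓ = Ideal.absNorm J.1 % ℓ := by
      have := (ZMod.natCast_eq_natCast_iff _ _ _).mp h
      exact this
    rw [pow_eq_pow_mod _ hζ, this, ← pow_eq_pow_mod _ hζ]
  · -- minus sign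
    have hsum : ζ ^ Ideal.absNorm I.1 * ζ' = 1 := by
      rw [hζ', ← pow_add]
      have : ((Ideal.absNorm I.1 + Ideal.absNorm J.1 : ℕ) : ZMod ℓ) = 0 := by
        push_cast; rw [h]; ring
      rw [ZMod.natCast_eq_zero_iff] at this
      obtain ⟨m, hm⟩ := this
      rw [hm, pow_mul, hζ, one_pow]
    have h2 : σ • ζ' * ζ' = 1 := by rw [hz]; exact hsum
    have h3 : σ • (σ • ζ') * σ • ζ' = 1 := by
      rw [← smul_mul', h2, smul_one]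
    have h4 : σ • (σ • ζ') = ζ' := by
      calc σ • (σ • ζ') = σ • (σ • ζ') * (σ • ζ' * ζ') := by rw [h2, mul_one]
        _ = (σ • (σ • ζ') * σ • ζ') * ζ' := by ring
        _ = ζ' := by rw [h3, one_mul]
    have h5 : σ ^ 2 = 1 := by
      apply hfix'
      rw [pow_two, mul_smul, h4]
    have h6 : σ ^ p = 1 := by
      rw [← hcard]; exact pow_card_eq_one'
    have h7 : orderOf σ ∣ Nat.gcd 2 p := Nat.dvd_gcd (orderOf_dvd_of_pow_eq_one h5)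
      (orderOf_dvd_of_pow_eq_one h6)
    have h8 : Nat.gcd 2 p = 1 := by
      rw [Nat.gcd_comm]
      exact (Nat.coprime_primes hp Nat.prime_two).mpr hp2
    rw [h8, Nat.dvd_one, orderOf_eq_one_iff] at h7
    exact h7

/-- **CORE_EM**: the Artin map of the unramified cyclotomic extension `M/E` of degree `p`. -/
theorem S14_coreEM {p : ℕ} (hp : p.Prime) (hp2 : p ≠ 2)
    (hdeg : Module.finrank E M = p) (hunr : S14_Unr E M)
    {ℓ : ℕ} (hℓ : ℓ.Prime) (ζ : 𝓞 M) (hζ : ζ ^ ℓ = 1)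
    (hfix : ∀ σ : M ≃ₐ[E] M, σ • ζ = ζ → σ = 1)
    (hnorm : ∀ x : 𝓞 E, Ideal.span {x} ⊔ Ideal.span {(ℓ : 𝓞 E)} = ⊤ →
      ((Algebra.norm ℤ x : ℤ) : ZMod ℓ) = 1)
    (hN2 : (S14_HsT E M ℓ).index ≤ p)
    (hgen : ∀ H : Subgroup (ClassGroup (𝓞 E)),
      (∀ 𝔮 : (Ideal (𝓞 E))⁰, 𝔮.1.IsPrime → (ℓ : 𝓞 E) ∉ 𝔮.1 → ClassGroup.mk0 𝔮 ∈ H) → H = ⊤)
    (hinert : ∃ P : Ideal (𝓞 M), P.IsPrime ∧ P ≠ ⊥ ∧ (ℓ : 𝓞 M) ∉ P ∧ P.inertiaDeg (𝓞 E) ≠ 1) :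
    ∃ Φ : ClassGroup (𝓞 E) →* (M ≃ₐ[E] M),
      (∀ (𝔮 : (Ideal (𝓞 E))⁰) (P : Ideal (𝓞 M)) (σ : M ≃ₐ[E] M), P.IsPrime →
        P.under (𝓞 E) = 𝔮.1 → (ℓ : 𝓞 M) ∉ P → S14_IsFrob σ P → Φ (ClassGroup.mk0 𝔮) = σ) ∧
      Φ.ker = S14_HsT E M ℓ := by
  classical
  have hcard : Nat.card (M ≃ₐ[E] M) = p := by
    rw [IsGalois.card_aut_eq_finrank, hdeg]
  set X := S14_coreX E M ℓ with hX
  -- membership of generators
  have hmemgen : ∀ (𝔮 : (Ideal (𝓞 E))⁰) (P : Ideal (𝓞 M)) (σ : M ≃ₐ[E] M), P.IsPrime →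
      P.under (𝓞 E) = 𝔮.1 → (ℓ : 𝓞 M) ∉ P → S14_IsFrob σ P → (ClassGroup.mk0 𝔮, σ) ∈ X :=
    fun 𝔮 P σ hP hu hn hF => Subgroup.subset_closure ⟨𝔮, P, hP, hu, hn, hF, rfl⟩
  let π : X →* ClassGroup (𝓞 E) := (MonoidHom.fst _ _).comp X.subtype
  have hπinj : Function.Injective π := by
    rw [injective_iff_map_eq_one]
    intro x hx
    have h2 := S14_coreEM_graph_inj hp hp2 hcard hℓ ζ hζ hfix hnorm x.1 x.2 hx
    apply Subtype.ext
    exact Prod.ext hx h2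
  have hπsurj : Function.Surjective π := by
    have htop : π.range = ⊤ := by
      apply hgen
      intro 𝔮 h𝔮 hn
      have h𝔮0 : 𝔮.1 ≠ ⊥ := nonZeroDivisors.ne_zero 𝔮.2
      have := h𝔮
      obtain ⟨P, -, hP, hPu⟩ := Ideal.exists_ideal_over_prime_of_isIntegral (S := 𝓞 M) 𝔮.1
        (⊥ : Ideal (𝓞 M)) (by simp [← RingHom.ker_eq_comap_bot])
      have hPu' : P.under (𝓞 E) = 𝔮.1 := hPu
      have hP0 : P ≠ ⊥ := by
        rintro rfl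
        apply h𝔮0
        rw [← hPu']
        simp [← RingHom.ker_eq_comap_bot]
      have hnP : (ℓ : 𝓞 M) ∉ P := by
        rw [← S14_coreEM_natCast_mem_under (E := E), hPu']; exact hn
      obtain ⟨σ, hσ⟩ := S14_frob_exists (E := E) P hP hP0
      exact ⟨⟨(ClassGroup.mk0 𝔮, σ), hmemgen 𝔮 P σ hP hPu' hnP hσ⟩, rfl⟩
    exact MonoidHom.range_eq_top.mp htop
  let e : X ≃* ClassGroup (𝓞 E) := MulEquiv.ofBijective π ⟨hπinj, hπsurj⟩
  let Φ : ClassGroup (𝓞 E) →* (M ≃ₐ[E] M) :=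
    ((MonoidHom.snd _ _).comp X.subtype).comp e.symm.toMonoidHom
  have hΦ : ∀ (c : ClassGroup (𝓞 E)) (σ : M ≃ₐ[E] M), (c, σ) ∈ X → Φ c = σ := by
    intro c σ h
    have h1 : e ⟨(c, σ), h⟩ = c := rfl
    have h2 : e.symm c = ⟨(c, σ), h⟩ := by
      rw [MulEquiv.symm_apply_eq, h1]
    show ((e.symm c : X) : ClassGroup (𝓞 E) × (M ≃ₐ[E] M)).2 = σ
    rw [h2]
  have hΦfrob : ∀ (𝔮 : (Ideal (𝓞 E))⁰) (P : Ideal (𝓞 M)) (σ : M ≃ₐ[E] M), P.IsPrime →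
      P.under (𝓞 E) = 𝔮.1 → (ℓ : 𝓞 M) ∉ P → S14_IsFrob σ P → Φ (ClassGroup.mk0 𝔮) = σ :=
    fun 𝔮 P σ hP hu hn hF => hΦ _ _ (hmemgen 𝔮 P σ hP hu hn hF)
  refine ⟨Φ, hΦfrob, ?_⟩
  -- the kernel
  have hle : S14_HsT E M ℓ ≤ Φ.ker := by
    unfold S14_HsT
    rw [Subgroup.closure_le]
    rintro c ⟨𝔮, P, hP, hu, hf, hn, rfl⟩
    have hP0 : P ≠ ⊥ := by
      rintro rfl
      apply nonZeroDivisors.ne_zero 𝔮.2
      rw [← hu]
      simp [← RingHom.ker_eq_comap_bot]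
    obtain ⟨σ, hσ⟩ := S14_frob_exists (E := E) P hP hP0
    have hσ1 : σ = 1 := (S14_frob_eq_one_iff hP hP0 (hunr P hP hP0) hσ).mpr hf
    rw [SetLike.mem_coe, MonoidHom.mem_ker, hΦfrob 𝔮 P σ hP hu hn hσ, hσ1]
  have hrange : Φ.range = ⊤ := by
    obtain ⟨P, hP, hP0, hn, hf⟩ := hinert
    obtain ⟨σ, hσ⟩ := S14_frob_exists (E := E) P hP hP0
    have hσ1 : σ ≠ 1 := fun h => hf ((S14_frob_eq_one_iff hP hP0 (hunr P hP hP0) hσ).mp h)
    have hmem : σ ∈ Φ.range :=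
      ⟨ClassGroup.mk0 ⟨P.under (𝓞 E), mem_nonZeroDivisors_of_ne_zero
        (S14_coreEM_under_ne_bot hP0)⟩, hΦfrob _ P σ hP rfl hn hσ⟩
    have : Fact (Nat.card (M ≃ₐ[E] M)).Prime := ⟨by rw [hcard]; exact hp⟩
    rcases Φ.range.eq_bot_or_eq_top_of_prime_card with h | h
    · rw [h, Subgroup.mem_bot] at hmem
      exact absurd hmem hσ1
    · exact h
  have hidx : Φ.ker.index = p := by
    rw [Subgroup.index_ker, hrange, Subgroup.card_top, hcard]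
  have h1 := Subgroup.relIndex_mul_index hle
  rw [hidx] at h1
  have hne : (S14_HsT E M ℓ).index ≠ 0 := Subgroup.index_ne_zero_of_finite
  have hrel : (S14_HsT E M ℓ).relIndex Φ.ker = 1 := by
    have hpos : 0 < p := hp.pos
    have h2 : (S14_HsT E M ℓ).relIndex Φ.ker * p ≤ 1 * p := by
      rw [h1, one_mul]; exact hN2
    have h3 : (S14_HsT E M ℓ).relIndex Φ.ker ≤ 1 := Nat.le_of_mul_le_mul_right h2 hpos
    have h4 : (S14_HsT E M ℓ).relIndex Φ.ker ≠ 0 := by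
      intro h0
      rw [h0, zero_mul] at h1
      exact hne h1.symm
    omega
  exact le_antisymm (Subgroup.relIndex_eq_one.mp hrel) hle

end graph

end Fermat.Agent.S14
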