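import Mathlib
import Fermat.Agent.S14.Defs
import Fermat.Agent.S14.Frob
import Fermat.Agent.S14.CrossDefs
import Fermat.Agent.S14.CrossFunct
import Fermat.Agent.S14.CrossMove
import Fermat.Agent.S14.CrossCoreEM
import Fermat.Agent.S14.CrossField

/-!
# S14 (item 13), block N3 / CORE: crossing with one cyclotomic field

`S14_core_aux` : the statement `S14_CoreStmt` for a fixed tower `F ⊆ K ⊆ Ω` (`Ω = K(ζ_ℓ)`), with
the field-theoretic inputs (FIELD, NORM) as explicit hypotheses.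
-/

set_option linter.unusedSectionVars false
set_option linter.style.haveILetI false

namespace Fermat.Agent.S14

open NumberField nonZeroDivisors
open scoped Pointwise

section stab

variable {E M : Type*} [Field E] [NumberField E] [Field M] [NumberField M] [Algebra E M]
  [IsGalois E M]

/-- an element of the decomposition group of a prime of relative degree one with trivial
inertia is trivial. -/
theorem S14_core_stab_eq_one {P : Ideal (𝓞 M)} (hP : P.IsPrime) (hP0 : P ≠ ⊥)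
    (hin : ∀ σ : M ≃ₐ[E] M, (∀ x : 𝓞 M, σ • x - x ∈ P) → σ = 1)
    (hf : P.inertiaDeg (𝓞 E) = 1) (δ : M ≃ₐ[E] M) (hδ : δ • P = P) : δ = 1 := by
  have := hP
  have hp0 : P.under (𝓞 E) ≠ ⊥ := by
    intro h0
    exact hP0 (Ideal.eq_bot_of_comap_eq_bot (R := 𝓞 E) h0)
  have hpmax : (P.under (𝓞 E)).IsMaximal := Ideal.IsPrime.isMaximal inferInstance hp0
  have h1 := Ideal.card_stabilizer_eq_card_inertia_mul_finrank (G := M ≃ₐ[E] M)
    (P.under (𝓞 E)) P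
  have h2 : Nat.card (Ideal.inertia (M ≃ₐ[E] M) P) = 1 := by
    rw [Nat.card_eq_one_iff_unique]
    refine ⟨⟨fun a b => ?_⟩, ⟨1⟩⟩
    have ha : a.1 = 1 := hin a.1 (fun x => a.2 x)
    have hb : b.1 = 1 := hin b.1 (fun x => b.2 x)
    exact Subtype.ext (ha.trans hb.symm)
  rw [h2, hf, mul_one, Nat.card_eq_one_iff_unique] at h1
  have h3 : (⟨δ, hδ⟩ : MulAction.stabilizer (M ≃ₐ[E] M) P) = 1 := h1.1.elim _ _
  exact congrArg Subtype.val h3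

/-- powers of a Frobenius element on a root of unity. -/
theorem S14_core_frob_pow_root {P : Ideal (𝓞 M)} {g : M ≃ₐ[E] M} (hg : S14_IsFrob g P)
    {ζ : 𝓞 M} {ℓ : ℕ} (hζ : ζ ^ ℓ = 1) (hℓ : (ℓ : 𝓞 M) ∉ P) (n : ℕ) :
    (g ^ n) • ζ = ζ ^ (Nat.card (𝓞 E ⧸ P.under (𝓞 E)) ^ n) := by
  induction n with
  | zero => simp
  | succ n ih =>
    rw [pow_succ', mul_smul, ih, smul_pow', S14_frob_root_of_unity hg hζ hℓ, ← pow_mul, pow_succ']

end stab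

section lift

variable {F K Ω : Type*} [Field F] [NumberField F] [Field K] [NumberField K] [Field Ω]
  [NumberField Ω] [Algebra F K] [Algebra K Ω] [Algebra F Ω] [IsScalarTower F K Ω]
  [IsGalois F K] [IsGalois F Ω]

/-- lift a Frobenius element of `K/F` to a Frobenius element of `Ω/F`. -/
theorem S14_core_lift (hunr : S14_Unr F K) {ℓ : ℕ} {𝔮 : Ideal (𝓞 F)} {σ : K ≃ₐ[F] K}
    (h : S14_FrobOf σ 𝔮) (hℓ : (ℓ : 𝓞 F) ∉ 𝔮) :
    ∃ (P : Ideal (𝓞 Ω)) (g : Ω ≃ₐ[F] Ω), P.IsPrime ∧ P ≠ ⊥ ∧ (ℓ : 𝓞 Ω) ∉ P ∧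
      P.under (𝓞 F) = 𝔮 ∧ S14_IsFrob g P ∧ g.restrictNormal K = σ := by
  obtain ⟨Q, hQ, hQ0, hQu, hσ⟩ := h
  have := hQ
  obtain ⟨P, -, hP, hPu⟩ := Ideal.exists_ideal_over_prime_of_isIntegral (S := 𝓞 Ω) Q
    (⊥ : Ideal (𝓞 Ω)) (by simp [← RingHom.ker_eq_comap_bot])
  have hPu' : P.under (𝓞 K) = Q := hPu
  have hP0 : P ≠ ⊥ := by
    rintro rfl
    apply hQ0
    rw [← hPu']
    simp [← RingHom.ker_eq_comap_bot]
  have hPF : P.under (𝓞 F) = 𝔮 := by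
    rw [← hQu, ← hPu']
    exact (Ideal.under_under P).symm
  have hnP : (ℓ : 𝓞 Ω) ∉ P := by
    rw [← S14_coreEM_natCast_mem_under (E := F), hPF]; exact hℓ
  obtain ⟨g, hg⟩ := S14_frob_exists (E := F) P hP hP0
  have hg' : S14_IsFrob (g.restrictNormal K) Q := by
    have := S14_funct_restrictNormal_isFrob (K := K) P hg
    rwa [hPu'] at this
  exact ⟨P, g, hP, hP0, hnP, hPF, hg, S14_frob_unique (hunr Q hQ hQ0) hg' hσ⟩

end lift

/-- Interface NORM → CORE: in an unramified Galois extension `M/E` containing a primitive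
`ℓ`-th root of unity, the norm to `ℤ` of an element of `𝓞 E` prime to `ℓ` is `≡ 1 mod ℓ`. -/
def S14_NormStmt : Prop :=
  ∀ (E M : Type) [Field E] [NumberField E] [Field M] [NumberField M] [Algebra E M]
    [IsGalois E M], S14_Unr E M → ∀ (ℓ : ℕ), ℓ.Prime → ∀ ζ : M, IsPrimitiveRoot ζ ℓ →
    ∀ x : 𝓞 E, Ideal.span {x} ⊔ Ideal.span {(ℓ : 𝓞 E)} = ⊤ →
      ((Algebra.norm ℤ x : ℤ) : ZMod ℓ) = 1

section main

variable {F K Ω : Type} [Field F] [NumberField F] [Field K] [NumberField K] [Field Ω]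
  [NumberField Ω] [Algebra F K] [Algebra K Ω] [Algebra F Ω] [IsScalarTower F K Ω]
  [IsGalois F K] [IsGalois F Ω]

/-- restriction of scalars `Gal(Ω/E) → Gal(Ω/F)` as a monoid hom. -/
noncomputable def S14_core_rho (E : IntermediateField F Ω) : (Ω ≃ₐ[E] Ω) →* (Ω ≃ₐ[F] Ω) where
  toFun σ := σ.restrictScalars F
  map_one' := rfl
  map_mul' _ _ := rfl

theorem S14_core_rho_injective (E : IntermediateField F Ω) :
    Function.Injective (S14_core_rho E) := by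
  intro a b h
  ext x
  exact congrArg (fun g : Ω ≃ₐ[F] Ω => g x) h

theorem S14_core_rho_smul (E : IntermediateField F Ω) (σ : Ω ≃ₐ[E] Ω) (x : 𝓞 Ω) :
    S14_core_rho E σ • x = σ • x := rfl

theorem S14_core_rho_smul_ideal (E : IntermediateField F Ω) (σ : Ω ≃ₐ[E] Ω) (P : Ideal (𝓞 Ω)) :
    S14_core_rho E σ • P = σ • P := by
  ext x
  rw [Ideal.mem_pointwise_smul_iff_inv_smul_mem, Ideal.mem_pointwise_smul_iff_inv_smul_mem,
    ← map_inv, S14_core_rho_smul]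

/-- every element of `Gal(Ω / fixedField ⟨γ⟩)` is a power of `γ`. -/
theorem S14_core_rho_mem (γ : Ω ≃ₐ[F] Ω)
    (σ : Ω ≃ₐ[IntermediateField.fixedField (Subgroup.zpowers γ)] Ω) :
    ∃ k : ℕ, S14_core_rho _ σ = γ ^ k := by
  have h1 : S14_core_rho _ σ ∈
      (IntermediateField.fixedField (Subgroup.zpowers γ)).fixingSubgroup := by
    rw [IntermediateField.mem_fixingSubgroup_iff]
    intro x hx
    exact σ.commutes ⟨x, hx⟩
  rw [IntermediateField.fixingSubgroup_fixedField] at h1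
  have hfin : IsOfFinOrder γ := isOfFinOrder_of_finite γ
  rw [← hfin.mem_powers_iff_mem_zpowers, Submonoid.mem_powers_iff] at h1
  obtain ⟨k, hk⟩ := h1
  exact ⟨k, hk.symm⟩

/-- `γ` itself comes from `Gal(Ω / fixedField ⟨γ⟩)`. -/
theorem S14_core_rho_exists (γ : Ω ≃ₐ[F] Ω) :
    ∃ δ : Ω ≃ₐ[IntermediateField.fixedField (Subgroup.zpowers γ)] Ω, S14_core_rho _ δ = γ := by
  have h1 : γ ∈ (IntermediateField.fixedField (Subgroup.zpowers γ)).fixingSubgroup := by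
    rw [IntermediateField.fixingSubgroup_fixedField]
    exact Subgroup.mem_zpowers γ
  refine ⟨IntermediateField.fixingSubgroupEquiv _ ⟨γ, h1⟩, ?_⟩
  ext x
  rfl

/-- `(g ^ n).restrictNormal K = (g.restrictNormal K) ^ n`, pointwise. -/
theorem S14_core_pow_apply (g : Ω ≃ₐ[F] Ω) (n : ℕ) (x : K) :
    (g ^ n) (algebraMap K Ω x) = algebraMap K Ω (((g.restrictNormal K) ^ n) x) := by
  have h1 : (AlgEquiv.restrictNormalHom K) (g ^ n) = ((AlgEquiv.restrictNormalHom K) g) ^ n :=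
    map_pow _ _ _
  have h2 : (g ^ n).restrictNormal K = (g.restrictNormal K) ^ n := h1
  rw [← h2, AlgEquiv.restrictNormal_commutes]

/-- **CORE**, for a fixed tower `F ⊆ K ⊆ Ω = K(ζ_ℓ)`. -/
theorem S14_core_aux {p : ℕ} (hp : p.Prime) (hp2 : p ≠ 2) (h2 : S14_N2Stmt)
    (hnorm : S14_NormStmt)
    (hdeg : Module.finrank F K = p) (hunr : S14_Unr F K)
    (ℓ : ℕ) (hℓ : ℓ.Prime) [IsCyclotomicExtension {ℓ} K Ω] (ζ : Ω) (hζ : IsPrimitiveRoot ζ ℓ)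
    (𝔮₁ 𝔮₂ : (Ideal (𝓞 F))⁰) (σ₁ σ₂ : K ≃ₐ[F] K)
    (h₁ : S14_FrobOf σ₁ 𝔮₁.1) (h₂ : S14_FrobOf σ₂ 𝔮₂.1)
    (hℓ₁ : (ℓ : 𝓞 F) ∉ 𝔮₁.1) (hℓ₂ : (ℓ : 𝓞 F) ∉ 𝔮₂.1)
    (n₁ n₂ : ℕ) (hσ : σ₁ ^ n₁ = σ₂ ^ n₂) (hσ1 : σ₁ ^ n₁ ≠ 1)
    (hN : ((Nat.card (𝓞 F ⧸ 𝔮₁.1) : ℕ) : ZMod ℓ) ^ n₁ =
      ((Nat.card (𝓞 F ⧸ 𝔮₂.1) : ℕ) : ZMod ℓ) ^ n₂)
    (hN1 : ((Nat.card (𝓞 F ⧸ 𝔮₁.1) : ℕ) : ZMod ℓ) ^ n₁ ≠ 1)
    (hNp : ((Nat.card (𝓞 F ⧸ 𝔮₁.1) : ℕ) : ZMod ℓ) ^ (n₁ * p) = 1) :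
    ClassGroup.mk0 𝔮₁ ^ n₁ / ClassGroup.mk0 𝔮₂ ^ n₂ ∈ S14_HtT p F K 1 := by
  classical
  haveI : Fact p.Prime := ⟨hp⟩
  haveI : Fact ℓ.Prime := ⟨hℓ⟩
  haveI : NeZero ℓ := ⟨hℓ.ne_zero⟩
  have hcardG : Nat.card (K ≃ₐ[F] K) = p := by
    rw [IsGalois.card_aut_eq_finrank, hdeg]
  -- the root of unity in `𝓞 Ω`
  set z : 𝓞 Ω := hζ.toInteger with hz
  have hzprim : IsPrimitiveRoot z ℓ := hζ.toInteger_isPrimitiveRoot
  have hzℓ : z ^ ℓ = 1 := hzprim.pow_eq_one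
  have hzpow : ∀ a b : ℕ, ((a : ℕ) : ZMod ℓ) = (b : ℕ) → z ^ a = z ^ b := by
    intro a b hab
    have h1 : a % ℓ = b % ℓ := (ZMod.natCast_eq_natCast_iff _ _ _).mp hab
    rw [pow_eq_pow_mod a hzℓ, h1, ← pow_eq_pow_mod b hzℓ]
  have hzpow' : ∀ a b : ℕ, z ^ a = z ^ b → ((a : ℕ) : ZMod ℓ) = (b : ℕ) := by
    intro a b hab
    rw [pow_eq_pow_mod a hzℓ, pow_eq_pow_mod b hzℓ] at hab
    have h1 : a % ℓ = b % ℓ :=
      hzprim.pow_inj (Nat.mod_lt _ hℓ.pos) (Nat.mod_lt _ hℓ.pos) hab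
    exact (ZMod.natCast_eq_natCast_iff _ _ _).mpr h1
  -- ext for automorphisms acting on 𝓞 Ω
  have hext : ∀ g g' : Ω ≃ₐ[F] Ω, (∀ x : K, g (algebraMap K Ω x) = g' (algebraMap K Ω x)) →
      g • z = g' • z → g = g' := by
    intro g g' hK hzz
    refine S14_field_ext ℓ hζ g g' hK ?_
    have := congrArg (fun y : 𝓞 Ω => (y : Ω)) hzz
    exact this
  -- lifts of the Frobenius elements
  obtain ⟨P₁, g₁, hP₁, hP₁0, hnP₁, hP₁F, hg₁, hg₁K⟩ := S14_core_lift (Ω := Ω) hunr h₁ hℓ₁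
  obtain ⟨P₂, g₂, hP₂, hP₂0, hnP₂, hP₂F, hg₂, hg₂K⟩ := S14_core_lift (Ω := Ω) hunr h₂ hℓ₂
  set N₁ := Nat.card (𝓞 F ⧸ 𝔮₁.1) with hN₁
  set N₂ := Nat.card (𝓞 F ⧸ 𝔮₂.1) with hN₂
  have hg₁z : ∀ n : ℕ, (g₁ ^ n) • z = z ^ (N₁ ^ n) := by
    intro n
    have := S14_core_frob_pow_root hg₁ hzℓ hnP₁ n
    rwa [hP₁F] at this
  have hg₂z : ∀ n : ℕ, (g₂ ^ n) • z = z ^ (N₂ ^ n) := by
    intro n
    have := S14_core_frob_pow_root hg₂ hzℓ hnP₂ n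
    rwa [hP₂F] at this
  -- the element γ
  set γ : Ω ≃ₐ[F] Ω := g₁ ^ n₁ with hγ
  have hγ2 : g₂ ^ n₂ = γ := by
    refine hext _ _ (fun x => ?_) ?_
    · rw [S14_core_pow_apply, S14_core_pow_apply, hg₁K, hg₂K, hσ]
    · rw [hg₁z, hg₂z]
      apply hzpow
      push_cast
      exact hN.symm
  have hγK : ∀ (k : ℕ) (x : K), (γ ^ k) (algebraMap K Ω x) =
      algebraMap K Ω (((σ₁ ^ n₁) ^ k) x) := by
    intro k x
    rw [hγ, ← pow_mul, S14_core_pow_apply, hg₁K, pow_mul]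
  have hγz : ∀ k : ℕ, (γ ^ k) • z = z ^ (N₁ ^ (n₁ * k)) := by
    intro k
    rw [hγ, ← pow_mul, hg₁z]
  have hs_ord : orderOf (σ₁ ^ n₁) = p := by
    refine orderOf_eq_prime ?_ hσ1
    rw [← hcardG]; exact pow_card_eq_one'
  set u : ZMod ℓ := ((N₁ : ℕ) : ZMod ℓ) ^ n₁ with hu
  have hu_ord : orderOf u = p := by
    refine orderOf_eq_prime ?_ hN1
    rw [hu, ← pow_mul]; exact hNp
  -- γ ^ k = 1 ↔ p ∣ k
  have hγpow : ∀ k : ℕ, p ∣ k → γ ^ k = 1 := by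
    intro k hk
    refine hext _ _ (fun x => ?_) ?_
    · rw [hγK, (orderOf_dvd_iff_pow_eq_one.mp (hs_ord ▸ hk))]
      simp
    · rw [hγz, one_smul]
      have : z ^ (N₁ ^ (n₁ * k)) = z ^ 1 := by
        apply hzpow
        push_cast
        rw [pow_mul, ← hu, (orderOf_dvd_iff_pow_eq_one.mp (hu_ord ▸ hk))]
      rw [this, pow_one]
  have hγK1 : ∀ k : ℕ, (∀ x : K, (γ ^ k) (algebraMap K Ω x) = algebraMap K Ω x) → p ∣ k := by
    intro k hk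
    rw [← hs_ord, orderOf_dvd_iff_pow_eq_one]
    ext x
    have := hk x
    rw [hγK] at this
    exact (algebraMap K Ω).injective this
  have hγz1 : ∀ k : ℕ, (γ ^ k) • z = z → p ∣ k := by
    intro k hk
    rw [hγz] at hk
    have h3 := hzpow' _ 1 (by rw [hk, pow_one])
    push_cast at h3
    rw [pow_mul, ← hu] at h3
    rw [← hu_ord, orderOf_dvd_iff_pow_eq_one]
    exact h3
  have hγne : γ ≠ 1 := by
    intro h
    have h1 : p ∣ 1 := hγK1 1 (by intro x; rw [pow_one, h]; rfl)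
    exact hp.one_lt.ne' (Nat.eq_one_of_dvd_one h1)
  have hγ_ord : orderOf γ = p := orderOf_eq_prime (hγpow p dvd_rfl) hγne
  -- the fixed field
  set E : IntermediateField F Ω := IntermediateField.fixedField (Subgroup.zpowers γ) with hE
  have hdegE : Module.finrank E Ω = p := by
    rw [hE, IntermediateField.finrank_fixedField_eq_card, Nat.card_zpowers, hγ_ord]
  have hcardE : Nat.card (Ω ≃ₐ[E] Ω) = p := by
    rw [IsGalois.card_aut_eq_finrank, hdegE]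
  -- elements of Gal(Ω/E)
  have hmemE : ∀ σ : Ω ≃ₐ[E] Ω, ∃ k : ℕ, S14_core_rho E σ = γ ^ k := S14_core_rho_mem γ
  have hone : ∀ (σ : Ω ≃ₐ[E] Ω) (k : ℕ), S14_core_rho E σ = γ ^ k → p ∣ k → σ = 1 := by
    intro σ k hk hpk
    apply S14_core_rho_injective E
    rw [hk, hγpow k hpk, map_one]
  have hinjE : ∀ σ : Ω ≃ₐ[E] Ω, (∀ x : K, σ (algebraMap K Ω x) = algebraMap K Ω x) → σ = 1 := by
    intro σ hσK
    obtain ⟨k, hk⟩ := hmemE σ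
    refine hone σ k hk (hγK1 k fun x => ?_)
    rw [← hk]
    exact hσK x
  have hfixE : ∀ σ : Ω ≃ₐ[E] Ω, σ • z = z → σ = 1 := by
    intro σ hσz
    obtain ⟨k, hk⟩ := hmemE σ
    refine hone σ k hk (hγz1 k ?_)
    rw [← hk, S14_core_rho_smul]
    exact hσz
  have hunrE : S14_Unr E Ω := S14_field_unr_base (F := F) (K := K) hunr hinjE
  have hnormE := hnorm E Ω hunrE ℓ hℓ ζ hζ
  have hN2E : (S14_HsT E Ω ℓ).index ≤ p := hdegE ▸ h2 E Ω ℓ hℓ.ne_zero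
  have hgenE := S14_move_primes E ℓ hℓ.ne_zero
  -- γ as an element of Gal(Ω/E)
  obtain ⟨γE, hγE⟩ := S14_core_rho_exists γ
  have hγEne : γE ≠ 1 := by
    rintro rfl
    exact hγne (by rw [← hγE, map_one])
  -- primes over which γ is a power of the Frobenius have degree p over E
  have hdegP : ∀ (P : Ideal (𝓞 Ω)) (g : Ω ≃ₐ[F] Ω) (n : ℕ), P.IsPrime → P ≠ ⊥ →
      S14_IsFrob g P → g ^ n = γ → P.inertiaDeg (𝓞 E) = p := by
    intro P g n hP hP0 hg hgn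
    have hdvd : P.inertiaDeg (𝓞 E) ∣ p := hdegE ▸ S14_funct_inertiaDeg_dvd (E := E) P hP hP0
    rcases (Nat.dvd_prime hp).mp hdvd with h | h
    · exfalso
      apply hγEne
      refine S14_core_stab_eq_one (E := E) hP hP0 (hunrE P hP hP0) h γE ?_
      rw [← S14_core_rho_smul_ideal, hγE, ← hgn]
      have hgP : g • P = P := S14_frob_smul_eq hP hg
      clear hgn
      induction n with
      | zero => simp
      | succ n ih => rw [pow_succ, mul_smul, hgP, ih]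
    · exact h
  have hinert : ∃ P : Ideal (𝓞 Ω), P.IsPrime ∧ P ≠ ⊥ ∧ (ℓ : 𝓞 Ω) ∉ P ∧
      P.inertiaDeg (𝓞 E) ≠ 1 :=
    ⟨P₁, hP₁, hP₁0, hnP₁, by rw [hdegP P₁ g₁ n₁ hP₁ hP₁0 hg₁ rfl]; exact hp.one_lt.ne'⟩
  obtain ⟨Φ, hΦ, hker⟩ := S14_coreEM (E := E) (M := Ω) hp hp2 hdegE hunrE hℓ z hzℓ hfixE hnormE
    hN2E hgenE hinert
  -- the key computation for one prime
  have hkey : ∀ (P : Ideal (𝓞 Ω)) (g : Ω ≃ₐ[F] Ω) (n : ℕ) (𝔮 : (Ideal (𝓞 F))⁰), P.IsPrime →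
      P ≠ ⊥ → (ℓ : 𝓞 Ω) ∉ P → P.under (𝓞 F) = 𝔮.1 → S14_IsFrob g P → g ^ n = γ →
      ∃ c : ClassGroup (𝓞 E), Φ c = γE ∧ S14_clNorm F E c = ClassGroup.mk0 𝔮 ^ n := by
    intro P g n 𝔮 hP hP0 hnP hPF hg hgn
    have := hP
    set Q : Ideal (𝓞 E) := P.under (𝓞 E) with hQ
    have hQ0 : Q ≠ ⊥ := S14_funct_under_ne_bot hP0
    have hQp : Q.IsPrime := inferInstance
    have hQF : Q.under (𝓞 F) = 𝔮.1 := by rw [← hPF]; exact Ideal.under_under P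
    set f := Q.inertiaDeg (𝓞 F) with hf
    have hinP := S14_field_inertia (F := F) (K := K) ℓ hζ hunr P hP hnP
    obtain ⟨h, hh⟩ := S14_frob_exists (E := E) P hP hP0
    have hhg : S14_core_rho E h = g ^ f := S14_funct_restrictScalars (F := F) (L := E) P hP hP0
      hinP hh hg
    have hord : orderOf g = f * p := by
      rw [S14_frob_orderOf (E := F) hP hP0 hinP hg, Ideal.inertiaDeg_tower Q P,
        hdegP P g n hP hP0 hg hgn]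
    have hfn : f ∣ n := by
      have h1 : g ^ (n * p) = 1 := by rw [pow_mul, hgn, hγpow p dvd_rfl]
      have h2 : f * p ∣ n * p := hord ▸ orderOf_dvd_of_pow_eq_one h1
      exact (Nat.mul_dvd_mul_iff_right hp.pos).mp h2
    obtain ⟨m, hm⟩ := hfn
    set 𝔔 : (Ideal (𝓞 E))⁰ := ⟨Q, mem_nonZeroDivisors_iff_ne_zero.mpr hQ0⟩ with h𝔔
    refine ⟨ClassGroup.mk0 𝔔 ^ m, ?_, ?_⟩
    · rw [map_pow, hΦ 𝔔 P h hP rfl hnP hh]
      apply S14_core_rho_injective E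
      rw [map_pow, hhg, ← pow_mul, ← hm, hgn, hγE]
    · have hrel : Ideal.relNorm (𝓞 F) Q = 𝔮.1 ^ f := by
        rw [S14_frob_relNorm Q hQp hQ0, hQF]
      rw [map_pow, S14_clNorm_mk0, hm, pow_mul]
      congr 1
      rw [← map_pow]
      congr 1
      refine Subtype.ext ?_
      rw [S14_funct_relNorm0_coe, SubmonoidClass.coe_pow]
      exact hrel
  obtain ⟨c₁, hc₁Φ, hc₁N⟩ := hkey P₁ g₁ n₁ 𝔮₁ hP₁ hP₁0 hnP₁ hP₁F hg₁ rfl
  obtain ⟨c₂, hc₂Φ, hc₂N⟩ := hkey P₂ g₂ n₂ 𝔮₂ hP₂ hP₂0 hnP₂ hP₂F hg₂ hγ2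
  have hmem : c₁ / c₂ ∈ S14_HsT E Ω ℓ := by
    rw [← hker, MonoidHom.mem_ker, map_div, hc₁Φ, hc₂Φ, div_self']
  have hmap : S14_clNorm F E (c₁ / c₂) ∈ (S14_HsT E Ω ℓ).map (S14_clNorm F E) :=
    Subgroup.mem_map_of_mem _ hmem
  have h3 := S14_funct_HtT_le_one p ℓ
    (S14_clNorm_Hs_le (F := F) (K := K) (L := E) (M := Ω) hp hdeg ℓ hmap)
  rwa [map_div, hc₁N, hc₂N] at h3

end main

/-- **CORE** (`S14_CoreStmt p`), from the universal norm inequality (N2) and the norm lemma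
(NORM). -/
theorem S14_core_of (p : ℕ) [Fact p.Prime] (hp2 : p ≠ 2) (h2 : S14_N2Stmt)
    (hnorm : S14_NormStmt) : S14_CoreStmt p := by
  intro F K _ _ _ _ _ _ hdeg hunr ℓ hℓ 𝔮₁ 𝔮₂ σ₁ σ₂ h₁ h₂ hℓ₁ hℓ₂ n₁ n₂ hσ hσ1 hN hN1 hNp
  haveI : NeZero ℓ := ⟨hℓ.ne_zero⟩
  haveI : NumberField (CyclotomicField ℓ K) :=
    IsCyclotomicExtension.numberField {ℓ} K (CyclotomicField ℓ K)
  haveI : IsGalois F (CyclotomicField ℓ K) := S14_field_isGalois F K (CyclotomicField ℓ K) ℓ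
  exact S14_core_aux (Ω := CyclotomicField ℓ K) Fact.out hp2 h2 hnorm hdeg hunr ℓ hℓ
    (IsCyclotomicExtension.zeta ℓ K (CyclotomicField ℓ K))
    (IsCyclotomicExtension.zeta_spec ℓ K (CyclotomicField ℓ K))
    𝔮₁ 𝔮₂ σ₁ σ₂ h₁ h₂ hℓ₁ hℓ₂ n₁ n₂ hσ hσ1 hN hN1 hNp

end Fermat.Agent.S14
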