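import Mathlib
import Fermat.Agent.S14.CrossDefs
import Fermat.Agent.S14.CrossMove
import Fermat.Agent.S14.Frob

/-!
# S14 block N3, FIN: first inequality + two-prime lemma ⇒ reciprocity

`S14_fin : S14_N1Stmt p → S14_TwoPrimeStmt p → S14_Recip p` for a prime `p`.

Proof.  `𝒩 := S14_HtT p F K 1` consists of norm classes (`S14_fin_HtT_le`), so `𝒩 ≠ ⊤` by N1.
The classes of primes generate the class group, so some prime `𝔭₀` has `[𝔭₀] ∉ 𝒩`; its Frobenius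
`σ₀` is nontrivial, hence generates `Gal(K/F)`, and `θ : Gal(K/F) → Cl/𝒩`, `σ₀ ↦ [𝔭₀]` is well
defined.  By the two-prime lemma `θ (Frob P) = [P ∩ 𝓞 F]` for every prime (`S14_fin_key`), so `θ`
is onto, hence bijective, and `φ := θ⁻¹ ∘ mk`.
-/

namespace Fermat.Agent.S14

open NumberField nonZeroDivisors

variable {F K : Type*} [Field F] [NumberField F] [Field K] [NumberField K] [Algebra F K]

/-- the set of classes of relative norms of nonzero ideals. -/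
def S14_fin_normSet (F K : Type*) [Field F] [NumberField F] [Field K] [NumberField K]
    [Algebra F K] : Set (ClassGroup (𝓞 F)) :=
  {c | ∃ (J : Ideal (𝓞 K)) (I : (Ideal (𝓞 F))⁰), J ≠ ⊥ ∧ I.1 = Ideal.relNorm (𝓞 F) J ∧
    ClassGroup.mk0 I = c}

theorem S14_fin_normSet_one : (1 : ClassGroup (𝓞 F)) ∈ S14_fin_normSet F K :=
  ⟨⊤, 1, top_ne_bot, by simp, map_one _⟩

theorem S14_fin_normSet_mul {c d : ClassGroup (𝓞 F)} (hc : c ∈ S14_fin_normSet F K)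
    (hd : d ∈ S14_fin_normSet F K) : c * d ∈ S14_fin_normSet F K := by
  obtain ⟨J, I, hJ, hI, rfl⟩ := hc
  obtain ⟨J', I', hJ', hI', rfl⟩ := hd
  refine ⟨J * J', I * I', mul_ne_zero hJ hJ', ?_, map_mul _ _ _⟩
  rw [Submonoid.coe_mul, hI, hI', map_mul]

theorem S14_fin_normSet_pow {c : ClassGroup (𝓞 F)} (hc : c ∈ S14_fin_normSet F K) (n : ℕ) :
    c ^ n ∈ S14_fin_normSet F K := by
  induction n with
  | zero => rw [pow_zero]; exact S14_fin_normSet_one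
  | succ n ih => rw [pow_succ]; exact S14_fin_normSet_mul ih hc

theorem S14_fin_normSet_inv {c : ClassGroup (𝓞 F)} (hc : c ∈ S14_fin_normSet F K) :
    c⁻¹ ∈ S14_fin_normSet F K := by
  have h1 : c⁻¹ = c ^ (orderOf c - 1) := by
    rw [eq_comm, ← mul_eq_one_iff_eq_inv, ← pow_succ,
      Nat.sub_add_cancel (orderOf_pos c), pow_orderOf_eq_one]
  rw [h1]
  exact S14_fin_normSet_pow hc _

/-- the subgroup of norm classes. -/
def S14_fin_normGroup (F K : Type*) [Field F] [NumberField F] [Field K] [NumberField K]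
    [Algebra F K] : Subgroup (ClassGroup (𝓞 F)) where
  carrier := S14_fin_normSet F K
  mul_mem' := S14_fin_normSet_mul
  one_mem' := S14_fin_normSet_one
  inv_mem' := S14_fin_normSet_inv

/-- `S14_HtT p F K t` consists of norm classes, if `[K : F] = p`. -/
theorem S14_fin_HtT_le (p : ℕ) (hdeg : Module.finrank F K = p) (t : ℕ) :
    S14_HtT p F K t ≤ S14_fin_normGroup F K := by
  rw [S14_HtT, sup_le_iff]
  constructor
  · rw [S14_HsT, Subgroup.closure_le]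
    rintro c ⟨𝔮, P, hP, hPu, hf, -, rfl⟩
    have hP0 : P ≠ ⊥ := by
      rintro rfl
      have h0 : 𝔮.1 = ⊥ := by
        rw [← hPu]
        exact Ideal.under_bot _ _
      exact nonZeroDivisors.ne_zero 𝔮.2 h0
    refine ⟨P, 𝔮, hP0, ?_, rfl⟩
    rw [S14_frob_relNorm P hP hP0, hf, pow_one, hPu]
  · rintro c ⟨d, rfl⟩
    obtain ⟨I, rfl⟩ := ClassGroup.mk0_surjective d
    refine ⟨I.1.map (algebraMap (𝓞 F) (𝓞 K)), I ^ p, ?_, ?_, ?_⟩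
    · exact Ideal.map_ne_bot_of_ne_bot (nonZeroDivisors.ne_zero I.2)
    · rw [Ideal.relNorm_algebraMap, SubmonoidClass.coe_pow, ← hdeg,
        IsFractionRing.finrank_eq (𝓞 F) F (𝓞 K) K]
    · rw [map_pow]
      rfl

theorem S14_fin_HtT_ne_top (p : ℕ) (hdeg : Module.finrank F K = p)
    (hN1 : ∃ c : ClassGroup (𝓞 F), ∀ (J : Ideal (𝓞 K)) (I : (Ideal (𝓞 F))⁰), J ≠ ⊥ →
      I.1 = Ideal.relNorm (𝓞 F) J → ClassGroup.mk0 I ≠ c) (t : ℕ) :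
    S14_HtT p F K t ≠ ⊤ := by
  intro htop
  obtain ⟨c, hc⟩ := hN1
  have h1 : c ∈ S14_HtT p F K t := by rw [htop]; trivial
  obtain ⟨J, I, hJ, hI, hIc⟩ := S14_fin_HtT_le p hdeg t h1
  exact hc J I hJ hI hIc

/-- `p`-th powers lie in `S14_HtT`. -/
theorem S14_fin_pow_mem (p : ℕ) (t : ℕ) (c : ClassGroup (𝓞 F)) : c ^ p ∈ S14_HtT p F K t :=
  Subgroup.mem_sup_right ⟨c, rfl⟩

/-- the class of a prime under a prime with trivial Frobenius lies in `S14_HsT`. -/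
theorem S14_fin_split_mem [IsGalois F K] (hunr : S14_Unr F K) (p : ℕ) {P : Ideal (𝓞 K)}
    (hP : P.IsPrime) (hP0 : P ≠ ⊥) (h : S14_IsFrob (1 : K ≃ₐ[F] K) P)
    (𝔮 : (Ideal (𝓞 F))⁰) (h𝔮 : P.under (𝓞 F) = 𝔮.1) :
    ClassGroup.mk0 𝔮 ∈ S14_HtT p F K 1 := by
  refine Subgroup.mem_sup_left (Subgroup.subset_closure ⟨𝔮, P, hP, h𝔮, ?_, ?_, rfl⟩)
  · exact (S14_frob_eq_one_iff hP hP0 (hunr P hP hP0) h).mp rfl
  · rw [Nat.cast_one]
    exact fun h1 => hP.ne_top ((Ideal.eq_top_iff_one _).mpr h1)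

/-- **FIN, key step**: if `σ₀ ≠ 1` is the Frobenius at `P₀`, then the homomorphism
`θ : Gal(K/F) → Cl(F)/𝒩` with `θ σ₀ = [𝔭₀]` maps every Frobenius element to the class of its
prime. -/
theorem S14_fin_key (p : ℕ) [hp : Fact p.Prime] [IsGalois F K]
    (hdeg : Module.finrank F K = p) (hunr : S14_Unr F K)
    (h2 : ∀ (𝔭₀ 𝔭₁ : (Ideal (𝓞 F))⁰) (σ₀ σ₁ : K ≃ₐ[F] K),
      S14_FrobOf σ₀ 𝔭₀.1 → S14_FrobOf σ₁ 𝔭₁.1 → σ₀ ≠ 1 → σ₁ ≠ 1 →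
      ∃ m₀ m₁ : ℕ, σ₀ ^ m₀ = σ₁ ^ m₁ ∧ σ₀ ^ m₀ ≠ 1 ∧
        ClassGroup.mk0 𝔭₀ ^ m₀ / ClassGroup.mk0 𝔭₁ ^ m₁ ∈ S14_HtT p F K 1)
    (θ : (K ≃ₐ[F] K) →* ClassGroup (𝓞 F) ⧸ S14_HtT p F K 1)
    (𝔭₀ : (Ideal (𝓞 F))⁰) (σ₀ : K ≃ₐ[F] K) (hσ₀ : S14_FrobOf σ₀ 𝔭₀.1) (hσ₀1 : σ₀ ≠ 1)
    (hθ : θ σ₀ = QuotientGroup.mk (ClassGroup.mk0 𝔭₀))
    (𝔭₁ : (Ideal (𝓞 F))⁰) (σ₁ : K ≃ₐ[F] K) (hσ₁ : S14_FrobOf σ₁ 𝔭₁.1) :
    θ σ₁ = QuotientGroup.mk (ClassGroup.mk0 𝔭₁) := by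
  have hcard : Nat.card (K ≃ₐ[F] K) = p := by
    rw [IsGalois.card_aut_eq_finrank, hdeg]
  by_cases hσ₁1 : σ₁ = 1
  · subst hσ₁1
    obtain ⟨Q, hQ, hQ0, hQu, hfrob⟩ := hσ₁
    rw [map_one, eq_comm, QuotientGroup.eq_one_iff]
    exact S14_fin_split_mem hunr p hQ hQ0 hfrob 𝔭₁ hQu
  · obtain ⟨m₀, m₁, hm, hm1, hmem⟩ := h2 𝔭₀ 𝔭₁ σ₀ σ₁ hσ₀ hσ₁ hσ₀1 hσ₁1
    -- `x := θ σ₁ / [𝔭₁]` satisfies `x ^ m₁ = 1` and `x ^ p = 1`
    set x : ClassGroup (𝓞 F) ⧸ S14_HtT p F K 1 :=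
      θ σ₁ / QuotientGroup.mk (ClassGroup.mk0 𝔭₁) with hx
    have hxm : x ^ m₁ = 1 := by
      rw [hx, div_pow, ← map_pow, ← hm, map_pow, hθ, div_eq_one, ← QuotientGroup.mk_pow,
        ← QuotientGroup.mk_pow, QuotientGroup.eq, ← div_eq_inv_mul]
      have := (S14_HtT p F K 1).inv_mem hmem
      rwa [inv_div] at this
    have hxp : x ^ p = 1 := by
      obtain ⟨y, hy⟩ := QuotientGroup.mk_surjective x
      rw [← hy, ← QuotientGroup.mk_pow, QuotientGroup.eq_one_iff]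
      exact S14_fin_pow_mem p 1 y
    have hpm : ¬ p ∣ m₁ := by
      rintro ⟨k, rfl⟩
      apply hm1
      rw [hm, pow_mul]
      have : σ₁ ^ p = 1 := by
        rw [← hcard]
        exact pow_card_eq_one'
      rw [this, one_pow]
    have hcop : Nat.Coprime m₁ p := ((Nat.Prime.coprime_iff_not_dvd hp.out).mpr hpm).symm
    have hx1 : x = 1 := by
      have h1 : orderOf x ∣ Nat.gcd m₁ p :=
        Nat.dvd_gcd (orderOf_dvd_of_pow_eq_one hxm) (orderOf_dvd_of_pow_eq_one hxp)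
      rw [hcop, Nat.dvd_one, orderOf_eq_one_iff] at h1
      exact h1
    rw [hx, div_eq_one] at hx1
    exact hx1

/-- a nonzero ideal is not under `⊥`. -/
theorem S14_fin_ne_bot {P : Ideal (𝓞 K)} (𝔭 : (Ideal (𝓞 F))⁰) (h : P.under (𝓞 F) = 𝔭.1) :
    P ≠ ⊥ := by
  rintro rfl
  apply nonZeroDivisors.ne_zero 𝔭.2
  rw [← h]
  exact Ideal.under_bot _ _

/-- a prime of `𝓞 K` over a nonzero prime of `𝓞 F`, with a Frobenius element. -/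
theorem S14_fin_exists_frobOf [IsGalois F K] (𝔭 : (Ideal (𝓞 F))⁰) (h𝔭 : 𝔭.1.IsPrime) :
    ∃ σ : K ≃ₐ[F] K, S14_FrobOf σ 𝔭.1 := by
  have := h𝔭
  obtain ⟨⟨Q, hQ, hQu⟩⟩ := Ideal.nonempty_primesOver (S := 𝓞 K) 𝔭.1
  have hu : Q.under (𝓞 F) = 𝔭.1 := hQu.over.symm
  have hQ0 : Q ≠ ⊥ := S14_fin_ne_bot 𝔭 hu
  obtain ⟨σ, hσ⟩ := S14_frob_exists (E := F) Q hQ hQ0
  exact ⟨σ, Q, hQ, hQ0, hu, hσ⟩

/-- **FIN**: the first inequality and the two-prime lemma give reciprocity. -/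
theorem S14_fin (p : ℕ) [hp : Fact p.Prime] (h1 : S14_N1Stmt p) (h2 : S14_TwoPrimeStmt p) :
    S14_Recip p := by
  intro F K _ _ _ _ _ _ hdeg hunr
  have hunr' : S14_Unr F K := hunr
  have hcard : Nat.card (K ≃ₐ[F] K) = p := by
    rw [IsGalois.card_aut_eq_finrank, hdeg]
  have h𝒩 : S14_HtT p F K 1 ≠ ⊤ := S14_fin_HtT_ne_top p hdeg (h1 F K hdeg hunr') 1
  -- an inert prime whose class is not in `𝒩`
  obtain ⟨𝔭₀, h𝔭₀, h𝔭₀mem⟩ : ∃ 𝔭₀ : (Ideal (𝓞 F))⁰, 𝔭₀.1.IsPrime ∧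
      ClassGroup.mk0 𝔭₀ ∉ S14_HtT p F K 1 := by
    by_contra hcon
    push Not at hcon
    exact h𝒩 (S14_move_primes F 1 one_ne_zero _ (fun 𝔮 h𝔮 _ => hcon 𝔮 h𝔮))
  obtain ⟨σ₀, hσ₀⟩ := S14_fin_exists_frobOf (K := K) 𝔭₀ h𝔭₀
  have hσ₀1 : σ₀ ≠ 1 := by
    rintro rfl
    obtain ⟨Q, hQ, hQ0, hQu, hfrob⟩ := hσ₀
    exact h𝔭₀mem (S14_fin_split_mem hunr' p hQ hQ0 hfrob 𝔭₀ hQu)
  -- the homomorphism `θ`
  have hgen : ∀ x : K ≃ₐ[F] K, x ∈ Subgroup.zpowers σ₀ := fun x =>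
    mem_zpowers_of_prime_card hcard hσ₀1
  have hord : orderOf σ₀ = p := by
    refine orderOf_eq_prime ?_ hσ₀1
    rw [← hcard]
    exact pow_card_eq_one'
  have hg' : orderOf (QuotientGroup.mk (ClassGroup.mk0 𝔭₀) :
      ClassGroup (𝓞 F) ⧸ S14_HtT p F K 1) ∣ orderOf σ₀ := by
    rw [hord]
    apply orderOf_dvd_of_pow_eq_one
    rw [← QuotientGroup.mk_pow, QuotientGroup.eq_one_iff]
    exact S14_fin_pow_mem p 1 _
  set θ : (K ≃ₐ[F] K) →* ClassGroup (𝓞 F) ⧸ S14_HtT p F K 1 :=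
    monoidHomOfForallMemZpowers hgen hg' with hθdef
  have hθ : θ σ₀ = QuotientGroup.mk (ClassGroup.mk0 𝔭₀) :=
    monoidHomOfForallMemZpowers_apply_gen hgen hg'
  have key := S14_fin_key p hdeg hunr' (h2 F K hdeg hunr') θ 𝔭₀ σ₀ hσ₀ hσ₀1 hθ
  -- `θ` is surjective
  have hsurj : Function.Surjective θ := by
    intro y
    obtain ⟨c, rfl⟩ := QuotientGroup.mk_surjective y
    have hH : (θ.range.comap (QuotientGroup.mk' (S14_HtT p F K 1))) = ⊤ := by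
      refine S14_move_primes F 1 one_ne_zero _ (fun 𝔮 h𝔮 _ => ?_)
      obtain ⟨σ, hσ⟩ := S14_fin_exists_frobOf (K := K) 𝔮 h𝔮
      exact ⟨σ, key 𝔮 σ hσ⟩
    have hc : c ∈ (θ.range.comap (QuotientGroup.mk' (S14_HtT p F K 1))) := by
      rw [hH]; trivial
    exact hc
  -- `θ` is injective
  have hinj : Function.Injective θ := by
    rw [← MonoidHom.ker_eq_bot_iff]
    have : Fact (Nat.card (K ≃ₐ[F] K)).Prime := ⟨by rw [hcard]; exact hp.out⟩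
    rcases θ.ker.eq_bot_or_eq_top_of_prime_card with h | h
    · exact h
    · exfalso
      have h3 : σ₀ ∈ θ.ker := by rw [h]; trivial
      rw [MonoidHom.mem_ker, hθ, QuotientGroup.eq_one_iff] at h3
      exact h𝔭₀mem h3
  let e : (K ≃ₐ[F] K) ≃* ClassGroup (𝓞 F) ⧸ S14_HtT p F K 1 :=
    MulEquiv.ofBijective θ ⟨hinj, hsurj⟩
  refine ⟨e.symm.toMonoidHom.comp (QuotientGroup.mk' (S14_HtT p F K 1)), ?_, ?_⟩
  · exact e.symm.surjective.comp (QuotientGroup.mk'_surjective _)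
  · intro 𝔭 P hP hPu x
    have hP0 : P ≠ ⊥ := S14_fin_ne_bot 𝔭 hPu
    obtain ⟨σ, hσ⟩ := S14_frob_exists (E := F) P hP hP0
    have h4 : θ σ = QuotientGroup.mk (ClassGroup.mk0 𝔭) := key 𝔭 σ ⟨P, hP, hP0, hPu, hσ⟩
    have h5 : (e.symm.toMonoidHom.comp (QuotientGroup.mk' (S14_HtT p F K 1)))
        (ClassGroup.mk0 𝔭) = σ := by
      change e.symm (QuotientGroup.mk (ClassGroup.mk0 𝔭)) = σ
      rw [← h4]
      exact e.symm_apply_apply σ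
    rw [h5, ← hPu]
    exact hσ x

end Fermat.Agent.S14
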