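import Mathlib

/-!
# S14, block N3c: the norm lemma

If every prime of `𝓞 L` over `ℓ` has ramification index divisible by `e₀`, then the norm of
every element of `𝓞 L` is an `e₀`-th power modulo `ℓ`.

Proof: `N(γ) mod ℓ` is the determinant of multiplication by `γ` on the `𝔽_ℓ`-space `𝓞 L ⧸ ℓ`.
The chain of ideals `⊤ ⊇ P₁ ⊇ P₁ P₂ ⊇ ⋯ ⊇ ∏ Pᵢ = (ℓ)` has layers `J ⧸ J P ≅ 𝓞 L ⧸ P`, so the
determinant is `∏_P D(P) ^ e(P)`, where `D(P)` is the determinant of `γ` on `𝓞 L ⧸ P`.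
-/

set_option autoImplicit false
set_option linter.style.haveILetI false
set_option linter.unusedSectionVars false

namespace Fermat.Agent.S14

open Module

section general

variable {k : Type*} [Field k] {M' M M'' : Type*} [AddCommGroup M'] [AddCommGroup M]
  [AddCommGroup M''] [Module k M'] [Module k M] [Module k M'']

/-- multiplicativity of the determinant in a short exact sequence. -/
theorem S14_cn_det_exact [FiniteDimensional k M] (i : M' →ₗ[k] M) (q : M →ₗ[k] M'')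
    (hi : Function.Injective i) (hq : Function.Surjective q)
    (hex : ∀ x, q x = 0 ↔ ∃ y, i y = x)
    (φ' : M' →ₗ[k] M') (φ : M →ₗ[k] M) (φ'' : M'' →ₗ[k] M'')
    (h1 : ∀ x, φ (i x) = i (φ' x)) (h2 : ∀ x, q (φ x) = φ'' (q x)) :
    LinearMap.det φ = LinearMap.det φ' * LinearMap.det φ'' := by
  classical
  set W : Submodule k M := LinearMap.ker q with hW
  have he : W ≤ W.comap φ := by
    intro x hx
    rw [Submodule.mem_comap, hW, LinearMap.mem_ker, h2, LinearMap.mem_ker.1 hx, map_zero]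
  rw [LinearMap.det_eq_det_mul_det W φ he]
  -- the sub part
  have hiW : ∀ y, i y ∈ W := fun y => by
    rw [hW, LinearMap.mem_ker]; exact (hex _).2 ⟨y, rfl⟩
  let i' : M' →ₗ[k] W := i.codRestrict W hiW
  have hi'bij : Function.Bijective i' := by
    constructor
    · intro x y hxy
      apply hi
      have := congrArg Subtype.val hxy
      simpa [i'] using this
    · rintro ⟨x, hx⟩
      obtain ⟨y, hy⟩ := (hex x).1 (LinearMap.mem_ker.1 hx)
      exact ⟨y, Subtype.ext (by simpa [i'] using hy)⟩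
  let e₁ : M' ≃ₗ[k] W := LinearEquiv.ofBijective i' hi'bij
  have hsub : φ.restrict he = (e₁ : M' →ₗ[k] W) ∘ₗ φ' ∘ₗ (e₁.symm : W →ₗ[k] M') := by
    apply LinearMap.ext
    intro w
    obtain ⟨y, rfl⟩ := e₁.surjective w
    apply Subtype.ext
    simp only [LinearMap.coe_restrict_apply, LinearMap.comp_apply, LinearEquiv.coe_coe,
      LinearEquiv.symm_apply_apply]
    show φ (i y) = i (φ' y)
    exact h1 y
  -- the quotient part
  let e₂ : (M ⧸ W) ≃ₗ[k] M'' := q.quotKerEquivOfSurjective hq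
  have hquot : W.mapQ W φ he = (e₂.symm : M'' →ₗ[k] M ⧸ W) ∘ₗ φ'' ∘ₗ (e₂ : (M ⧸ W) →ₗ[k] M'') := by
    apply LinearMap.ext
    intro x
    obtain ⟨x, rfl⟩ := Submodule.Quotient.mk_surjective W x
    apply e₂.injective
    simp only [LinearMap.comp_apply, LinearEquiv.coe_coe, LinearEquiv.apply_symm_apply]
    show q (φ x) = φ'' (q x)
    exact h2 x
  rw [hsub, LinearMap.det_conj, hquot]
  congr 1
  have := LinearMap.det_conj φ'' e₂.symm
  simpa using this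

end general

section ideals

variable {S : Type*} [CommRing S] [IsDedekindDomain S]

theorem S14_cn_mul_lt (J P : Ideal S) (hJ : J ≠ ⊥) (hP : P.IsPrime) : J * P < J := by
  refine lt_of_le_of_ne Ideal.mul_le_left ?_
  intro h
  have h' : J * P = J * 1 := by rw [mul_one]; exact h
  have := mul_left_cancel₀ hJ h'
  exact hP.ne_top (by rw [this, Ideal.one_eq_top])

/-- the element `a` and its two key properties -/
theorem S14_cn_exists_gen (J P : Ideal S) (hJ : J ≠ ⊥) (hP : P.IsPrime) (hP0 : P ≠ ⊥) :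
    ∃ a ∈ J, (∀ x, a * x ∈ J * P → x ∈ P) ∧ (∀ y ∈ J, ∃ x, y - a * x ∈ J * P) := by
  obtain ⟨a, haJ, haJP⟩ := SetLike.exists_of_lt (S14_cn_mul_lt J P hJ hP)
  have hdvd : J ∣ Ideal.span {a} := by
    rw [Ideal.dvd_iff_le, Ideal.span_singleton_le_iff_mem]; exact haJ
  obtain ⟨C, hC⟩ := hdvd
  have hPprime : Prime P := Ideal.prime_of_isPrime hP0 hP
  have hPC : ¬ P ∣ C := by
    rintro ⟨C', rfl⟩
    apply haJP
    have : Ideal.span {a} ≤ J * P := by
      rw [hC, ← mul_assoc]; exact Ideal.mul_le_left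
    exact this (Ideal.mem_span_singleton_self a)
  refine ⟨a, haJ, ?_, ?_⟩
  · intro x hx
    have h1 : Ideal.span {a * x} ≤ J * P := by
      rw [Ideal.span_singleton_le_iff_mem]; exact hx
    rw [← Ideal.span_singleton_mul_span_singleton, hC, ← Ideal.dvd_iff_le, mul_assoc,
      mul_dvd_mul_iff_left hJ] at h1
    rcases hPprime.dvd_or_dvd h1 with h | h
    · exact absurd h hPC
    · rw [Ideal.dvd_iff_le, Ideal.span_singleton_le_iff_mem] at h; exact h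
  · intro y hy
    have hmax : P.IsMaximal := hP.isMaximal hP0
    have hCP : C ⊔ P = ⊤ := by
      by_contra h
      have h2 : P = C ⊔ P := hmax.eq_of_le h le_sup_right
      apply hPC
      rw [Ideal.dvd_iff_le, h2]
      exact le_sup_left
    have hsup : Ideal.span {a} ⊔ J * P = J := by
      rw [hC, ← Ideal.mul_sup, hCP, Ideal.mul_top]
    rw [← hsup] at hy
    obtain ⟨x, z, hz, hxz⟩ := Ideal.mem_span_singleton_sup.1 hy
    refine ⟨x, ?_⟩
    have : y - a * x = z := by rw [← hxz]; ring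
    rw [this]; exact hz

end ideals

section D

variable {S : Type*} [CommRing S] (ℓ : ℕ) [Fact ℓ.Prime]

theorem S14_cn_tors (J : Ideal S) (h : (ℓ : S) ∈ J) (x : S ⧸ J) : ℓ • x = 0 := by
  obtain ⟨x, rfl⟩ := Ideal.Quotient.mk_surjective x
  rw [nsmul_eq_mul, ← map_natCast (Ideal.Quotient.mk J), ← map_mul,
    Ideal.Quotient.eq_zero_iff_mem]
  exact J.mul_mem_right _ h

/-- multiplication by `γ` on `S ⧸ J` as a `ZMod ℓ`-linear map. -/
noncomputable def S14_cn_mulMap (J : Ideal S) [Module (ZMod ℓ) (S ⧸ J)] (γ : S) :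
    (S ⧸ J) →ₗ[ZMod ℓ] (S ⧸ J) :=
  (AddMonoidHom.mulLeft (Ideal.Quotient.mk J γ)).toZModLinearMap ℓ

theorem S14_cn_mulMap_apply (J : Ideal S) [Module (ZMod ℓ) (S ⧸ J)] (γ x : S) :
    S14_cn_mulMap ℓ J γ (Ideal.Quotient.mk J x) = Ideal.Quotient.mk J (γ * x) := by
  simp [S14_cn_mulMap]

open scoped Classical in
/-- the determinant of multiplication by `γ` on `S ⧸ J` (junk value `1` if `ℓ ∉ J`). -/
noncomputable def S14_cn_D (J : Ideal S) (γ : S) : ZMod ℓ :=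
  if h : (ℓ : S) ∈ J then
    letI := AddCommGroup.zmodModule (n := ℓ) (S14_cn_tors ℓ J h)
    LinearMap.det (S14_cn_mulMap ℓ J γ)
  else 1

theorem S14_cn_D_eq (J : Ideal S) [inst : Module (ZMod ℓ) (S ⧸ J)] (h : (ℓ : S) ∈ J) (γ : S) :
    S14_cn_D ℓ J γ = LinearMap.det (S14_cn_mulMap ℓ J γ) := by
  rw [S14_cn_D, dif_pos h]
  have : AddCommGroup.zmodModule (n := ℓ) (S14_cn_tors ℓ J h) = inst := Subsingleton.elim _ _
  rw [this]

theorem S14_cn_D_top (γ : S) : S14_cn_D ℓ (⊤ : Ideal S) γ = 1 := by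
  have h : (ℓ : S) ∈ (⊤ : Ideal S) := Submodule.mem_top
  letI := AddCommGroup.zmodModule (n := ℓ) (S14_cn_tors ℓ (⊤ : Ideal S) h)
  rw [S14_cn_D_eq ℓ ⊤ h]
  haveI : Subsingleton (S ⧸ (⊤ : Ideal S)) := Ideal.Quotient.subsingleton_iff.2 rfl
  exact LinearMap.det_eq_one_of_subsingleton _

variable [IsDedekindDomain S] [Module.Free ℤ S] [Module.Finite ℤ S]

theorem S14_cn_det_mul (J P : Ideal S) (hJ : J ≠ ⊥) (hP : P.IsPrime) (hP0 : P ≠ ⊥)
    [Module (ZMod ℓ) (S ⧸ (J * P))] [Module (ZMod ℓ) (S ⧸ J)] [Module (ZMod ℓ) (S ⧸ P)]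
    (γ : S) :
    LinearMap.det (S14_cn_mulMap ℓ (J * P) γ) =
      LinearMap.det (S14_cn_mulMap ℓ P γ) * LinearMap.det (S14_cn_mulMap ℓ J γ) := by
  obtain ⟨a, haJ, ha1, ha2⟩ := S14_cn_exists_gen J P hJ hP hP0
  have hJP0 : J * P ≠ ⊥ := mul_ne_zero hJ hP0
  haveI : Finite (S ⧸ (J * P)) := Ideal.finiteQuotientOfFreeOfNeBot _ hJP0
  haveI : Module.Finite (ZMod ℓ) (S ⧸ (J * P)) := Module.Finite.of_finite
  have hcomap : (P : Submodule S S) ≤ Submodule.comap (LinearMap.mulLeft S a) (J * P) := by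
    intro x hx
    rw [Submodule.mem_comap]
    exact Ideal.mul_mem_mul haJ hx
  let i₀ : (S ⧸ P) →ₗ[S] (S ⧸ (J * P)) := Submodule.mapQ P (J * P) (LinearMap.mulLeft S a) hcomap
  have hi₀ : ∀ x : S, i₀ (Ideal.Quotient.mk P x) = Ideal.Quotient.mk (J * P) (a * x) :=
    fun x => rfl
  let i : (S ⧸ P) →ₗ[ZMod ℓ] (S ⧸ (J * P)) := i₀.toAddMonoidHom.toZModLinearMap ℓ
  have hle : (J * P : Submodule S S) ≤ Submodule.comap (LinearMap.id) J := by
    intro x hx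
    exact Ideal.mul_le_left hx
  let q₀ : (S ⧸ (J * P)) →ₗ[S] (S ⧸ J) := Submodule.mapQ (J * P) J LinearMap.id hle
  have hq₀ : ∀ x : S, q₀ (Ideal.Quotient.mk (J * P) x) = Ideal.Quotient.mk J x :=
    fun x => rfl
  let q : (S ⧸ (J * P)) →ₗ[ZMod ℓ] (S ⧸ J) := q₀.toAddMonoidHom.toZModLinearMap ℓ
  have hi : ∀ x : S, i (Ideal.Quotient.mk P x) = Ideal.Quotient.mk (J * P) (a * x) := hi₀
  have hq : ∀ x : S, q (Ideal.Quotient.mk (J * P) x) = Ideal.Quotient.mk J x := hq₀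
  refine S14_cn_det_exact i q ?_ ?_ ?_ _ _ _ ?_ ?_
  · rw [injective_iff_map_eq_zero]
    intro x hx
    obtain ⟨x, rfl⟩ := Ideal.Quotient.mk_surjective x
    rw [hi, Ideal.Quotient.eq_zero_iff_mem] at hx
    rw [Ideal.Quotient.eq_zero_iff_mem]
    exact ha1 x hx
  · intro y
    obtain ⟨y, rfl⟩ := Ideal.Quotient.mk_surjective y
    exact ⟨Ideal.Quotient.mk (J * P) y, hq y⟩
  · intro y
    obtain ⟨y, rfl⟩ := Ideal.Quotient.mk_surjective y
    rw [hq, Ideal.Quotient.eq_zero_iff_mem]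
    constructor
    · intro hy
      obtain ⟨x, hx⟩ := ha2 y hy
      refine ⟨Ideal.Quotient.mk P x, ?_⟩
      rw [hi, eq_comm, Ideal.Quotient.eq]
      exact hx
    · rintro ⟨x, hx⟩
      obtain ⟨x, rfl⟩ := Ideal.Quotient.mk_surjective x
      rw [hi, Ideal.Quotient.eq] at hx
      have h1 : a * x - y ∈ J := Ideal.mul_le_left hx
      have h2 : a * x ∈ J := J.mul_mem_right _ haJ
      have : y = a * x - (a * x - y) := by ring
      rw [this]
      exact J.sub_mem h2 h1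
  · intro x
    obtain ⟨x, rfl⟩ := Ideal.Quotient.mk_surjective x
    rw [hi, S14_cn_mulMap_apply, S14_cn_mulMap_apply, hi]
    congr 1; ring
  · intro x
    obtain ⟨x, rfl⟩ := Ideal.Quotient.mk_surjective x
    rw [hq, S14_cn_mulMap_apply, S14_cn_mulMap_apply, hq]

theorem S14_cn_D_mul (J P : Ideal S) (hJ : J ≠ ⊥) (hP : P.IsPrime) (hP0 : P ≠ ⊥)
    (hℓ : (ℓ : S) ∈ J * P) (γ : S) :
    S14_cn_D ℓ (J * P) γ = S14_cn_D ℓ P γ * S14_cn_D ℓ J γ := by
  have hℓJ : (ℓ : S) ∈ J := Ideal.mul_le_left hℓ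
  have hℓP : (ℓ : S) ∈ P := Ideal.mul_le_right hℓ
  letI iJP : Module (ZMod ℓ) (S ⧸ (J * P)) :=
    AddCommGroup.zmodModule (n := ℓ) (S14_cn_tors ℓ (J * P) hℓ)
  letI iJ : Module (ZMod ℓ) (S ⧸ J) := AddCommGroup.zmodModule (n := ℓ) (S14_cn_tors ℓ J hℓJ)
  letI iP : Module (ZMod ℓ) (S ⧸ P) := AddCommGroup.zmodModule (n := ℓ) (S14_cn_tors ℓ P hℓP)
  rw [S14_cn_D_eq ℓ (J * P) hℓ, S14_cn_D_eq ℓ J hℓJ, S14_cn_D_eq ℓ P hℓP]
  exact S14_cn_det_mul ℓ J P hJ hP hP0 γ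

omit [IsDedekindDomain S] in
theorem S14_cn_det_span [Module (ZMod ℓ) (S ⧸ Ideal.span {(ℓ : S)})] (γ : S) :
    LinearMap.det (S14_cn_mulMap ℓ (Ideal.span {(ℓ : S)}) γ) =
      ((Algebra.norm ℤ γ : ℤ) : ZMod ℓ) := by
  classical
  let b : Module.Basis (Module.Free.ChooseBasisIndex ℤ S) ℤ S := Module.Free.chooseBasis ℤ S
  have hℓ : (ℓ : S) ∈ Ideal.span {(ℓ : S)} := Ideal.mem_span_singleton_self _
  let φ : S →ₗ[ℤ] (S ⧸ Ideal.span {(ℓ : S)}) :=
    (Ideal.Quotient.mk (Ideal.span {(ℓ : S)})).toAddMonoidHom.toIntLinearMap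
  have hφ : ∀ x, φ x = Ideal.Quotient.mk _ x := fun x => rfl
  have hker : LinearMap.range (LinearMap.lsmul ℤ S (ℓ : ℤ)) ≤ LinearMap.ker φ := by
    rintro _ ⟨x, rfl⟩
    rw [LinearMap.mem_ker, hφ, Ideal.Quotient.eq_zero_iff_mem]
    simp only [LinearMap.lsmul_apply, zsmul_eq_mul, Int.cast_natCast]
    exact Ideal.mul_mem_right _ _ hℓ
  let e₁ : ModN S ℓ →ₗ[ℤ] (S ⧸ Ideal.span {(ℓ : S)}) := Submodule.liftQ _ φ hker
  have he₁ : ∀ x : S, e₁ (ModN.mkQ ℓ x) = Ideal.Quotient.mk _ x := fun x => rfl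
  let e₀ : ModN S ℓ →ₗ[ZMod ℓ] (S ⧸ Ideal.span {(ℓ : S)}) :=
    e₁.toAddMonoidHom.toZModLinearMap ℓ
  have he₀ : ∀ x : S, e₀ (ModN.mkQ ℓ x) = Ideal.Quotient.mk _ x := he₁
  have hsurj : ∀ y : ModN S ℓ, ∃ x : S, ModN.mkQ ℓ x = y := fun y =>
    Submodule.Quotient.mk_surjective _ y
  have hbij : Function.Bijective e₀ := by
    constructor
    · rw [injective_iff_map_eq_zero]
      intro y hy
      obtain ⟨x, rfl⟩ := hsurj y
      rw [he₀, Ideal.Quotient.eq_zero_iff_mem, Ideal.mem_span_singleton'] at hy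
      obtain ⟨z, rfl⟩ := hy
      show Submodule.Quotient.mk (z * (ℓ : S)) = 0
      rw [Submodule.Quotient.mk_eq_zero]
      refine ⟨z, ?_⟩
      simp only [LinearMap.lsmul_apply, zsmul_eq_mul, Int.cast_natCast]
      ring
    · intro y
      obtain ⟨x, rfl⟩ := Ideal.Quotient.mk_surjective y
      exact ⟨ModN.mkQ ℓ x, he₀ x⟩
  let e : ModN S ℓ ≃ₗ[ZMod ℓ] (S ⧸ Ideal.span {(ℓ : S)}) := LinearEquiv.ofBijective e₀ hbij
  let v : Module.Basis (Module.Free.ChooseBasisIndex ℤ S) (ZMod ℓ) (S ⧸ Ideal.span {(ℓ : S)}) :=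
    (ModN.basis b).map e
  have hv : ∀ i, v i = Ideal.Quotient.mk _ (b i) := by
    intro i
    rw [Module.Basis.map_apply, ModN.basis_apply_eq_mkQ]
    exact he₀ (b i)
  have hmat : S14_cn_mulMap ℓ (Ideal.span {(ℓ : S)}) γ =
      Matrix.toLin v v ((Algebra.leftMulMatrix b γ).map (Int.cast : ℤ → ZMod ℓ)) := by
    apply v.ext
    intro j
    rw [Matrix.toLin_self, hv, S14_cn_mulMap_apply]
    have h1 : γ * b j = ∑ i, (Algebra.leftMulMatrix b γ i j) • b i := by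
      conv_lhs => rw [← b.sum_repr (γ * b j)]
      refine Finset.sum_congr rfl fun i _ => ?_
      rw [Algebra.leftMulMatrix_eq_repr_mul]
    rw [h1, map_sum]
    refine Finset.sum_congr rfl fun i _ => ?_
    rw [Matrix.map_apply, hv, Int.cast_smul_eq_zsmul, zsmul_eq_mul, zsmul_eq_mul, map_mul,
      map_intCast]
  rw [hmat, LinearMap.det_toLin, Algebra.norm_eq_matrix_det b γ]
  exact (RingHom.map_det (Int.castRingHom (ZMod ℓ)) _).symm

omit [IsDedekindDomain S] in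
theorem S14_cn_D_span (γ : S) :
    S14_cn_D ℓ (Ideal.span {(ℓ : S)}) γ = ((Algebra.norm ℤ γ : ℤ) : ZMod ℓ) := by
  have hℓ : (ℓ : S) ∈ Ideal.span {(ℓ : S)} := Ideal.mem_span_singleton_self _
  letI iQ : Module (ZMod ℓ) (S ⧸ Ideal.span {(ℓ : S)}) :=
    AddCommGroup.zmodModule (n := ℓ) (S14_cn_tors ℓ _ hℓ)
  rw [S14_cn_D_eq ℓ _ hℓ]
  exact S14_cn_det_span ℓ γ

theorem S14_cn_D_prod (γ : S) (t : Multiset (Ideal S)) :
    (∀ P ∈ t, P.IsPrime ∧ P ≠ ⊥) → (ℓ : S) ∈ t.prod →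
      S14_cn_D ℓ t.prod γ = (t.map (fun P => S14_cn_D ℓ P γ)).prod := by
  induction t using Multiset.induction_on with
  | empty =>
    intro _ _
    rw [Multiset.prod_zero, Multiset.map_zero, Multiset.prod_zero, Ideal.one_eq_top]
    exact S14_cn_D_top ℓ γ
  | cons P t ih =>
    intro hP hℓ
    rw [Multiset.prod_cons] at hℓ ⊢
    rw [Multiset.map_cons, Multiset.prod_cons]
    have hPp := hP P (Multiset.mem_cons_self P t)
    have ht : ∀ Q ∈ t, Q.IsPrime ∧ Q ≠ ⊥ := fun Q hQ => hP Q (Multiset.mem_cons_of_mem hQ)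
    have hℓt : (ℓ : S) ∈ t.prod := Ideal.mul_le_right hℓ
    have ht0 : t.prod ≠ ⊥ := by
      rw [← Ideal.zero_eq_bot]
      exact Multiset.prod_ne_zero (fun h0 => (ht 0 h0).2 Ideal.zero_eq_bot)
    rw [mul_comm P t.prod] at hℓ ⊢
    rw [S14_cn_D_mul ℓ t.prod P ht0 hPp.1 hPp.2 hℓ γ, ih ht hℓt]

/-- **Norm lemma, core form.** If `e₀` divides the multiplicity of every prime in the
factorisation of `(ℓ)`, then every norm is an `e₀`-th power modulo `ℓ`. -/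
theorem S14_cn_core [DecidableEq (Ideal S)] (e₀ : ℕ)
    (he : ∀ P : Ideal S, P.IsPrime → (ℓ : S) ∈ P →
      e₀ ∣ Multiset.count P (UniqueFactorizationMonoid.normalizedFactors (Ideal.span {(ℓ : S)})))
    (γ : S) : ∃ y : ZMod ℓ, ((Algebra.norm ℤ γ : ℤ) : ZMod ℓ) = y ^ e₀ := by
  have hℓ0 : (ℓ : S) ≠ 0 := by
    have hinj := FaithfulSMul.algebraMap_injective ℤ S
    have h1 : (ℓ : S) = algebraMap ℤ S (ℓ : ℤ) := by simp
    rw [h1, Ne, map_eq_zero_iff _ hinj]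
    exact_mod_cast (Fact.out : ℓ.Prime).ne_zero
  have hI : Ideal.span {(ℓ : S)} ≠ ⊥ := by
    rwa [Ne, Ideal.span_singleton_eq_bot]
  have hprod := Ideal.prod_normalizedFactors_eq_self hI
  have hF : ∀ P ∈ UniqueFactorizationMonoid.normalizedFactors (Ideal.span {(ℓ : S)}),
      P.IsPrime ∧ P ≠ ⊥ := fun P hP =>
    ⟨Ideal.isPrime_of_prime (UniqueFactorizationMonoid.prime_of_normalized_factor P hP),
      (UniqueFactorizationMonoid.prime_of_normalized_factor P hP).ne_zero⟩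
  have hFℓ : ∀ P ∈ UniqueFactorizationMonoid.normalizedFactors (Ideal.span {(ℓ : S)}),
      (ℓ : S) ∈ P := fun P hP => by
    have := UniqueFactorizationMonoid.dvd_of_mem_normalizedFactors hP
    rw [Ideal.dvd_iff_le, Ideal.span_singleton_le_iff_mem] at this
    exact this
  have hD := S14_cn_D_prod ℓ γ _ hF (by rw [hprod]; exact Ideal.mem_span_singleton_self _)
  rw [hprod, S14_cn_D_span, Finset.prod_multiset_map_count] at hD
  refine ⟨∏ P ∈ (UniqueFactorizationMonoid.normalizedFactors (Ideal.span {(ℓ : S)})).toFinset,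
    S14_cn_D ℓ P γ ^ (Multiset.count P
      (UniqueFactorizationMonoid.normalizedFactors (Ideal.span {(ℓ : S)})) / e₀), ?_⟩
  rw [hD, ← Finset.prod_pow]
  refine Finset.prod_congr rfl fun P hP => ?_
  rw [Multiset.mem_toFinset] at hP
  rw [← pow_mul, Nat.div_mul_cancel (he P (hF P hP).1 (hFℓ P hP))]

end D

section wrappers

open NumberField

/-- **Norm lemma (N3c)**, stated with the (new) ramification index `P.ramificationIdx ℤ`. -/
theorem S14_norm_mod_pow (L : Type*) [Field L] [NumberField L] (ℓ : ℕ) [Fact ℓ.Prime] (e₀ : ℕ)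
    (he : ∀ P : Ideal (𝓞 L), P.IsPrime → (ℓ : 𝓞 L) ∈ P → e₀ ∣ P.ramificationIdx ℤ)
    (γ : 𝓞 L) : ∃ y : ZMod ℓ, ((Algebra.norm ℤ γ : ℤ) : ZMod ℓ) = y ^ e₀ := by
  classical
  refine S14_cn_core ℓ e₀ (fun P hP hℓ => ?_) γ
  have hmap : Ideal.map (algebraMap ℤ (𝓞 L)) (Ideal.span {(ℓ : ℤ)}) = Ideal.span {(ℓ : 𝓞 L)} := by
    rw [Ideal.map_span, Set.image_singleton, map_natCast]
  have hℓ0 : (ℓ : 𝓞 L) ≠ 0 := by
    exact_mod_cast (Fact.out : ℓ.Prime).ne_zero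
  have hI : Ideal.span {(ℓ : 𝓞 L)} ≠ ⊥ := by
    rwa [Ne, Ideal.span_singleton_eq_bot]
  haveI : P.LiesOver (Ideal.span {(ℓ : ℤ)}) := by
    refine ⟨Ideal.IsMaximal.eq_of_le (Int.ideal_span_isMaximal_of_prime ℓ) ?_ ?_⟩
    · haveI := hP
      exact Ideal.IsPrime.ne_top'
    · rw [Ideal.span_singleton_le_iff_mem, Ideal.mem_comap, map_natCast]
      exact hℓ
  have := Ideal.IsDedekindDomain.ramificationIdx_eq_normalizedFactors_count
    (Ideal.span {(ℓ : ℤ)}) P (by rw [hmap]; exact hI)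
  rw [hmap] at this
  rw [← this]
  exact he P hP hℓ

/-- **Norm lemma (N3c)**, stated with the (old) ramification index `Ideal.ramificationIdx'`. -/
theorem S14_norm_mod_pow' (L : Type*) [Field L] [NumberField L] (ℓ : ℕ) [Fact ℓ.Prime] (e₀ : ℕ)
    (he : ∀ P : Ideal (𝓞 L), P.IsPrime → (ℓ : 𝓞 L) ∈ P →
      e₀ ∣ Ideal.ramificationIdx' (Ideal.span {(ℓ : ℤ)}) P)
    (γ : 𝓞 L) : ∃ y : ZMod ℓ, ((Algebra.norm ℤ γ : ℤ) : ZMod ℓ) = y ^ e₀ := by
  classical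
  refine S14_cn_core ℓ e₀ (fun P hP hℓ => ?_) γ
  have hmap : Ideal.map (algebraMap ℤ (𝓞 L)) (Ideal.span {(ℓ : ℤ)}) = Ideal.span {(ℓ : 𝓞 L)} := by
    rw [Ideal.map_span, Set.image_singleton, map_natCast]
  have hℓ0 : (ℓ : 𝓞 L) ≠ 0 := by
    exact_mod_cast (Fact.out : ℓ.Prime).ne_zero
  have hI : Ideal.span {(ℓ : 𝓞 L)} ≠ ⊥ := by
    rwa [Ne, Ideal.span_singleton_eq_bot]
  have hP0 : P ≠ ⊥ := by
    rintro rfl
    exact hℓ0 (by simpa using hℓ)
  have := Ideal.IsDedekindDomain.ramificationIdx'_eq_normalizedFactors_count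
    (p := Ideal.span {(ℓ : ℤ)}) (P := P) (by rw [hmap]; exact hI) hP hP0
  rw [hmap] at this
  rw [← this]
  exact he P hP hℓ

/-- the norm of an element prime to `ℓ` is a unit modulo `ℓ`. -/
theorem S14_norm_unit_mod (L : Type*) [Field L] [NumberField L] (ℓ : ℕ) [Fact ℓ.Prime]
    (γ : 𝓞 L) (hγ : Ideal.span {γ} ⊔ Ideal.span {(ℓ : 𝓞 L)} = ⊤) :
    ((Algebra.norm ℤ γ : ℤ) : ZMod ℓ) ≠ 0 := by
  have h1 : (1 : 𝓞 L) ∈ Ideal.span {γ} ⊔ Ideal.span {(ℓ : 𝓞 L)} := by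
    rw [hγ]; exact Submodule.mem_top
  obtain ⟨a, z, hz, haz⟩ := Ideal.mem_span_singleton_sup.1 h1
  obtain ⟨w, rfl⟩ := Ideal.mem_span_singleton'.1 hz
  -- `a * γ + w * ℓ = 1`
  intro h0
  have hD : S14_cn_D ℓ (Ideal.span {(ℓ : 𝓞 L)}) (a * γ) = 1 := by
    have hℓ : (ℓ : 𝓞 L) ∈ Ideal.span {(ℓ : 𝓞 L)} := Ideal.mem_span_singleton_self _
    letI iQ : Module (ZMod ℓ) (𝓞 L ⧸ Ideal.span {(ℓ : 𝓞 L)}) :=
      AddCommGroup.zmodModule (n := ℓ) (S14_cn_tors ℓ _ hℓ)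
    rw [S14_cn_D_eq ℓ _ hℓ]
    have : S14_cn_mulMap ℓ (Ideal.span {(ℓ : 𝓞 L)}) (a * γ) = LinearMap.id := by
      apply LinearMap.ext
      intro x
      obtain ⟨x, rfl⟩ := Ideal.Quotient.mk_surjective x
      rw [S14_cn_mulMap_apply, LinearMap.id_apply, Ideal.Quotient.eq, Ideal.mem_span_singleton']
      refine ⟨-(w * x), ?_⟩
      have : a * γ = 1 - w * (ℓ : 𝓞 L) := by rw [← haz]; ring
      rw [this]; ring
    rw [this, LinearMap.det_id]
  rw [S14_cn_D_span, map_mul, Int.cast_mul, h0, mul_zero] at hD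
  exact zero_ne_one hD

/-- **Norm lemma, cyclotomic form**: if `ℓ - 1` divides all ramification indices over `ℓ`, the
norm of every element prime to `ℓ` is `1` modulo `ℓ`. -/
theorem S14_norm_mod_one (L : Type*) [Field L] [NumberField L] (ℓ : ℕ) [Fact ℓ.Prime]
    (he : ∀ P : Ideal (𝓞 L), P.IsPrime → (ℓ : 𝓞 L) ∈ P → (ℓ - 1) ∣ P.ramificationIdx ℤ)
    (γ : 𝓞 L) (hγ : Ideal.span {γ} ⊔ Ideal.span {(ℓ : 𝓞 L)} = ⊤) :
    ((Algebra.norm ℤ γ : ℤ) : ZMod ℓ) = 1 := by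
  obtain ⟨y, hy⟩ := S14_norm_mod_pow L ℓ (ℓ - 1) he γ
  have hne := S14_norm_unit_mod L ℓ γ hγ
  rw [hy]
  have hy0 : y ≠ 0 := by
    rintro rfl
    apply hne
    rw [hy, zero_pow]
    have := (Fact.out : ℓ.Prime).two_le
    omega
  exact ZMod.pow_card_sub_one_eq_one hy0

end wrappers

end Fermat.Agent.S14
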