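import Mathlib
import Fermat.Agent.S14.Frob

/-!
# S14 block N3, NORM (b4): ramification over `ℓ` below a field containing `ζ_ℓ`

* `S14_ram_dvd_of_root` : if the number field `M` contains a primitive `ℓ`-th root of unity, then
  `ℓ - 1 ∣ e(P | ℓ)` for every prime `P` of `𝓞 M` containing `ℓ`.
* `S14_norm_ramIdx` : the same for the primes of `𝓞 E`, if `M/E` is Galois with trivial inertia.
-/

namespace Fermat.Agent.S14

open NumberField nonZeroDivisors IntermediateField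

variable {M : Type*} [Field M] [NumberField M]

/-- If `M` contains a primitive `ℓ`-th root of unity (`ℓ` prime), then `ℓ - 1` divides the
ramification index over `ℤ` of every prime of `𝓞 M` containing `ℓ`. -/
theorem S14_ram_dvd_of_root {ℓ : ℕ} (hℓ : ℓ.Prime) {ζ : M} (hζ : IsPrimitiveRoot ζ ℓ)
    (P : Ideal (𝓞 M)) (hP : P.IsPrime) (hℓP : (ℓ : 𝓞 M) ∈ P) :
    (ℓ - 1) ∣ P.ramificationIdx ℤ := by
  have := hP
  have : Fact ℓ.Prime := ⟨hℓ⟩
  have : NeZero ℓ := ⟨hℓ.ne_zero⟩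
  have : IsCyclotomicExtension {ℓ} ℚ ℚ⟮ζ⟯ :=
    hζ.intermediateField_adjoin_isCyclotomicExtension ℚ
  set q : Ideal (𝓞 ℚ⟮ζ⟯) := P.under (𝓞 ℚ⟮ζ⟯) with hq
  have : P.LiesOver q := ⟨rfl⟩
  have hqℓ : q.LiesOver (Ideal.span {(ℓ : ℤ)}) := by
    constructor
    have h1 : (Ideal.span {(ℓ : ℤ)}).IsMaximal :=
      (Ideal.span_singleton_prime (by exact_mod_cast hℓ.ne_zero)).mpr
        (Nat.prime_iff_prime_int.mp hℓ) |>.isMaximal (by simpa using hℓ.ne_zero)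
    have hne : q.under ℤ ≠ ⊤ := (Ideal.IsPrime.under ℤ q).ne_top
    refine h1.eq_of_le hne ?_
    rw [Ideal.span_singleton_le_iff_mem, Ideal.mem_comap, hq, Ideal.mem_comap]
    simpa using hℓP
  rw [Ideal.ramificationIdx_tower (R := ℤ) q P,
    IsCyclotomicExtension.Rat.ramificationIdx_eq_of_prime ℓ ℚ⟮ζ⟯ q]
  exact Dvd.intro _ rfl

/-- **(b4)** `M/E` Galois with trivial inertia everywhere, `ζ ∈ M` a primitive `ℓ`-th root of
unity: `ℓ - 1` divides the ramification index over `ℤ` of every prime of `𝓞 E` containing `ℓ`. -/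
theorem S14_norm_ramIdx (E M : Type*) [Field E] [NumberField E] [Field M] [NumberField M]
    [Algebra E M] [IsGalois E M] (hunr : S14_Unr E M) (ℓ : ℕ) (hℓ : ℓ.Prime) (ζ : M)
    (hζ : IsPrimitiveRoot ζ ℓ) :
    ∀ 𝔏 : Ideal (𝓞 E), 𝔏.IsPrime → (ℓ : 𝓞 E) ∈ 𝔏 → (ℓ - 1) ∣ 𝔏.ramificationIdx ℤ := by
  intro 𝔏 h𝔏 hℓ𝔏
  have := h𝔏
  obtain ⟨⟨P, hP, hPu⟩⟩ := Ideal.nonempty_primesOver (S := 𝓞 M) 𝔏
  have := hP
  have := hPu
  have hP0 : P ≠ ⊥ := by
    rintro rfl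
    have h1 : 𝔏 = ⊥ := by
      rw [hPu.over]
      exact Ideal.under_bot _ _
    rw [h1, Ideal.mem_bot] at hℓ𝔏
    exact hℓ.ne_zero (by exact_mod_cast hℓ𝔏)
  have hℓP : (ℓ : 𝓞 M) ∈ P := by
    have h1 : (ℓ : 𝓞 E) ∈ P.under (𝓞 E) := by rw [← hPu.over]; exact hℓ𝔏
    simpa using h1
  have h2 := S14_ram_dvd_of_root hℓ hζ P hP hℓP
  rw [Ideal.ramificationIdx_tower (R := ℤ) 𝔏 P,
    S14_unr_ramificationIdx hP hP0 (hunr P hP hP0), mul_one] at h2
  exact h2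

end Fermat.Agent.S14
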