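import Mathlib

/-!
# S14, block N3a: Artin's lemma (prime-power version)

For an odd prime `p`, an integer `a ≥ 2` and `k ≥ 1` there is a prime `ℓ ≠ p` such that the
multiplicative order of `a` modulo `ℓ` is exactly `p ^ k`.  Different `k` give different `ℓ`,
so `ℓ` can be chosen outside any finite set.
-/

namespace Fermat.Agent.S14

/-- `1 + b + ⋯ + b^(p-1) ≡ p (mod p²)` when `b ≡ 1 (mod p)`, `p` odd. -/
theorem S14_geom_sum_mod_sq (p : ℕ) (hp : p.Prime) (hp2 : p ≠ 2) (b : ℕ)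
    (hb : (b : ZMod p) = 1) :
    ¬ (p ^ 2 ∣ ∑ i ∈ Finset.range p, b ^ i) := by
  intro hdvd
  -- write b = 1 + p t in ℤ
  have hb' : (p : ℤ) ∣ (b : ℤ) - 1 := by
    have : ((b : ℤ) - 1 : ZMod p) = 0 := by
      push_cast
      rw [hb]; ring
    have h2 : (((b : ℤ) - 1 : ℤ) : ZMod p) = 0 := by
      push_cast; rw [hb]; ring
    exact (ZMod.intCast_zmod_eq_zero_iff_dvd _ p).mp h2
  obtain ⟨t, ht⟩ := hb'
  have hbt : (b : ℤ) = 1 + p * t := by linarith
  have hodd : Odd p := hp.odd_of_ne_two hp2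
  obtain ⟨m, hm⟩ := hodd
  -- modulo p^2, b^i ≡ 1 + i p t
  have key : ∀ i : ℕ, ((p : ℤ) ^ 2) ∣ (b : ℤ) ^ i - (1 + i * p * t) := by
    intro i
    induction i with
    | zero => simp
    | succ n ih =>
      obtain ⟨c, hc⟩ := ih
      refine ⟨c * b + n * t ^ 2, ?_⟩
      have : (b : ℤ) ^ (n + 1) = (b : ℤ) ^ n * b := pow_succ _ _
      rw [this]
      have h1 : (b : ℤ) ^ n = 1 + n * p * t + p ^ 2 * c := by linarith
      rw [h1]
      push_cast
      rw [hbt]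
      ring
  have hsum : ((p : ℤ) ^ 2) ∣ (∑ i ∈ Finset.range p, (b : ℤ) ^ i)
      - ∑ i ∈ Finset.range p, (1 + (i : ℤ) * p * t) := by
    rw [← Finset.sum_sub_distrib]
    exact Finset.dvd_sum (fun i _ => key i)
  have hsum2 : (∑ i ∈ Finset.range p, (1 + (i : ℤ) * p * t))
      = p + p * t * ∑ i ∈ Finset.range p, (i : ℤ) := by
    rw [Finset.sum_add_distrib, Finset.mul_sum]
    simp only [Finset.sum_const, Finset.card_range, nsmul_eq_mul, mul_one]
    congr 1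
    refine Finset.sum_congr rfl (fun i _ => by ring)
  have hgauss : (∑ i ∈ Finset.range p, (i : ℤ)) = p * m := by
    have h := Finset.sum_range_id_mul_two p
    have h' : ((∑ i ∈ Finset.range p, i : ℕ) : ℤ) * 2 = (p : ℤ) * ((p : ℤ) - 1) := by
      have := congrArg (fun n : ℕ => (n : ℤ)) h
      simp only [Nat.cast_mul, Nat.cast_ofNat] at this
      rw [this]
      have hp1 : 1 ≤ p := hp.one_le
      push_cast [Nat.cast_sub hp1]
      ring
    have hpm : (p : ℤ) = 2 * m + 1 := by exact_mod_cast hm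
    have : ((∑ i ∈ Finset.range p, i : ℕ) : ℤ) = p * m := by
      have h3 : (p : ℤ) * ((p : ℤ) - 1) = (p * m) * 2 := by rw [hpm]; ring
      have := h'.trans h3
      exact mul_right_cancel₀ (by norm_num : (2 : ℤ) ≠ 0) this
    rw [← this]; push_cast; rfl
  have hd : ((p : ℤ) ^ 2) ∣ ∑ i ∈ Finset.range p, (b : ℤ) ^ i := by
    have : ((∑ i ∈ Finset.range p, b ^ i : ℕ) : ℤ) = ∑ i ∈ Finset.range p, (b : ℤ) ^ i := by
      push_cast; rfl
    rw [← this]
    exact_mod_cast hdvd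
  have hp' : ((p : ℤ) ^ 2) ∣ (p : ℤ) := by
    have h1 := (Int.dvd_sub hd hsum)
    have h2 : (∑ i ∈ Finset.range p, (b : ℤ) ^ i) -
        ((∑ i ∈ Finset.range p, (b : ℤ) ^ i) - ∑ i ∈ Finset.range p, (1 + (i : ℤ) * p * t))
        = p + p ^ 2 * (t * m) := by
      rw [sub_sub_cancel, hsum2, hgauss]; ring
    rw [h2] at h1
    have h3 : ((p : ℤ) ^ 2) ∣ p ^ 2 * (t * m) := Dvd.intro _ rfl
    exact (Int.dvd_add_left h3).mp h1
  have hpos : (0 : ℤ) < p := by exact_mod_cast hp.pos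
  have hle := Int.le_of_dvd hpos hp'
  have h2le : (2 : ℤ) ≤ p := by exact_mod_cast hp.two_le
  nlinarith

/-- **Artin's lemma**, prime-power case: there is a prime `ℓ ≠ p` with `orderOf a = p ^ k` in
`ZMod ℓ`. -/
theorem S14_artin_lemma (p : ℕ) (hp : p.Prime) (hp2 : p ≠ 2) (a : ℕ) (ha : 2 ≤ a)
    (k : ℕ) (hk : 1 ≤ k) :
    ∃ ℓ : ℕ, ℓ.Prime ∧ ℓ ≠ p ∧ orderOf (a : ZMod ℓ) = p ^ k := by
  obtain ⟨j, rfl⟩ : ∃ j, k = j + 1 := ⟨k - 1, by omega⟩
  set b : ℕ := a ^ p ^ j with hb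
  have hb2 : 2 ≤ b := by
    calc 2 ≤ a := ha
      _ = a ^ 1 := (pow_one a).symm
      _ ≤ a ^ p ^ j := Nat.pow_le_pow_right (by omega) (Nat.one_le_pow _ _ hp.pos)
  set N : ℕ := ∑ i ∈ Finset.range p, b ^ i with hN
  -- N * (b - 1) = b^p - 1
  have hgeom : N * (b - 1) = b ^ p - 1 := by
    have := Nat.geomSum_eq hb2 p
    rw [hN, this]
    have hdvd : (b - 1) ∣ b ^ p - 1 := by
      simpa only [one_pow] using Nat.sub_dvd_pow_sub_pow b 1 p
    exact Nat.div_mul_cancel hdvd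
  -- N > p
  have hNp : p < N := by
    have h1 : ∀ i ∈ Finset.range p, 1 ≤ b ^ i := fun i _ => Nat.one_le_pow _ _ (by omega)
    have h2 : N = ∑ i ∈ Finset.range p, b ^ i := rfl
    have hp2' : 2 ≤ p := hp.two_le
    -- N ≥ (p - 1) + b^(p-1) ≥ p - 1 + 2
    have h3 : ∑ i ∈ Finset.range p, 1 < ∑ i ∈ Finset.range p, b ^ i := by
      apply Finset.sum_lt_sum h1
      refine ⟨1, Finset.mem_range.mpr (by omega), ?_⟩
      simp; omega
    simpa using h3
  -- a prime factor different from p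
  have hex : ∃ ℓ : ℕ, ℓ.Prime ∧ ℓ ∣ N ∧ ℓ ≠ p := by
    by_contra hcon
    have hcon : ∀ q : ℕ, q.Prime → q ∣ N → q = p := by
      intro q hq hqN
      by_contra hne
      exact hcon ⟨q, hq, hqN, hne⟩
    have hN0 : N ≠ 0 := by omega
    have hall : ∀ q : ℕ, q.Prime → q ∣ N → q = p := fun q hq hqN => hcon q hq hqN
    obtain ⟨e, hpow⟩ : ∃ e : ℕ, N = p ^ e :=
      ⟨_, Nat.eq_prime_pow_of_unique_prime_dvd hN0 (fun {q} hq hqN => hall q hq hqN)⟩
    have hfac : 2 ≤ e := by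
      by_contra h
      have h' : e ≤ 1 := by omega
      have : N ≤ p := by
        rw [hpow]
        calc p ^ e ≤ p ^ 1 := Nat.pow_le_pow_right hp.pos h'
          _ = p := pow_one p
      omega
    have hp2N : p ^ 2 ∣ N := by
      rw [hpow]; exact pow_dvd_pow p hfac
    have hpN : p ∣ N := dvd_trans (dvd_pow_self p (by norm_num)) hp2N
    -- b ≡ 1 mod p
    have hb1 : (b : ZMod p) = 1 := by
      have : Fact p.Prime := ⟨hp⟩
      have h1 : ((b ^ p - 1 : ℕ) : ZMod p) = 0 := by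
        rw [← hgeom]
        push_cast
        rw [(ZMod.natCast_eq_zero_iff N p).mpr hpN, zero_mul]
      have h2 : 1 ≤ b ^ p := Nat.one_le_pow _ _ (by omega)
      rw [Nat.cast_sub h2] at h1
      push_cast at h1
      rw [ZMod.pow_card] at h1
      exact sub_eq_zero.mp h1
    exact S14_geom_sum_mod_sq p hp hp2 b hb1 hp2N
  obtain ⟨ℓ, hℓ, hℓN, hℓp⟩ := hex
  refine ⟨ℓ, hℓ, hℓp, ?_⟩
  have : Fact ℓ.Prime := ⟨hℓ⟩
  -- b^p = 1 in ZMod ℓ
  have hbp : ((b : ZMod ℓ)) ^ p = 1 := by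
    have h1 : ((b ^ p - 1 : ℕ) : ZMod ℓ) = 0 := by
      rw [← hgeom]
      push_cast
      rw [(ZMod.natCast_eq_zero_iff N ℓ).mpr hℓN, zero_mul]
    have h2 : 1 ≤ b ^ p := Nat.one_le_pow _ _ (by omega)
    rw [Nat.cast_sub h2] at h1
    push_cast at h1
    exact sub_eq_zero.mp h1
  -- b ≠ 1 in ZMod ℓ
  have hb1 : (b : ZMod ℓ) ≠ 1 := by
    intro h
    have hNℓ : (N : ZMod ℓ) = p := by
      rw [hN]
      push_cast
      rw [h]
      simp
    have : (p : ZMod ℓ) = 0 := by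
      rw [← hNℓ]; exact (ZMod.natCast_eq_zero_iff N ℓ).mpr hℓN
    have hdvd : ℓ ∣ p := (ZMod.natCast_eq_zero_iff p ℓ).mp this
    exact hℓp ((Nat.prime_dvd_prime_iff_eq hℓ hp).mp hdvd)
  have h1 : ¬ (a : ZMod ℓ) ^ p ^ j = 1 := by
    intro h
    apply hb1
    rw [hb]; push_cast; exact h
  have h2 : (a : ZMod ℓ) ^ p ^ (j + 1) = 1 := by
    rw [pow_succ, pow_mul]
    have : ((a : ZMod ℓ) ^ p ^ j) = (b : ZMod ℓ) := by rw [hb]; push_cast; rfl
    rw [this]; exact hbp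
  have : Fact p.Prime := ⟨hp⟩
  exact orderOf_eq_prime_pow h1 h2

/-- Artin's lemma avoiding a finite set of primes. -/
theorem S14_artin_lemma_avoid (p : ℕ) (hp : p.Prime) (hp2 : p ≠ 2) (a : ℕ) (ha : 2 ≤ a)
    (S : Finset ℕ) :
    ∃ ℓ k : ℕ, ℓ.Prime ∧ ℓ ∉ S ∧ ℓ ≠ p ∧ 1 ≤ k ∧ orderOf (a : ZMod ℓ) = p ^ k := by
  choose f hf using fun k : ℕ => S14_artin_lemma p hp hp2 a ha (k + 1) (by omega)
  have hinj : Function.Injective f := by
    intro k₁ k₂ h
    have h1 := (hf k₁).2.2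
    have h2 := (hf k₂).2.2
    rw [h] at h1
    have := h1.symm.trans h2
    have := Nat.pow_right_injective hp.two_le this
    omega
  have hinf : (Set.range f).Infinite := Set.infinite_range_of_injective hinj
  obtain ⟨ℓ, ⟨k, rfl⟩, hℓS⟩ := hinf.exists_notMem_finset S
  exact ⟨f k, k + 1, (hf k).1, hℓS, (hf k).2.1, by omega, (hf k).2.2⟩

end Fermat.Agent.S14
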