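import Mathlib
import Fermat.Agent.S14.CrossDefs
import Fermat.Agent.S14.CrossArtin

/-!
# S14, block N3 TOP (first half): Artin's lemma `ord = p · d`, and the TWO-PRIME LEMMA

* `S14_artin_one` : for an odd prime `p`, `a ≥ 2` and a finite set `S` there is a prime `ℓ ∉ S`
  such that the order of `a` modulo `ℓ` is `p · d` with `p ∤ d`.
* `S14_twoprime` : `S14_CoreStmt p → S14_BridgeStmt p → S14_TwoPrimeStmt p`.
-/

namespace Fermat.Agent.S14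

open NumberField nonZeroDivisors

/-- `(∑_{i<p} c^i) * (c - 1) = c^p - 1`. -/
theorem S14_top_geom (p c : ℕ) (hc : 2 ≤ c) :
    (∑ i ∈ Finset.range p, c ^ i) * (c - 1) = c ^ p - 1 := by
  have := Nat.geomSum_eq hc p
  rw [this]
  have hdvd : (c - 1) ∣ c ^ p - 1 := by
    simpa only [one_pow] using Nat.sub_dvd_pow_sub_pow c 1 p
  exact Nat.div_mul_cancel hdvd

/-- `p² ∤ 1 + c + ⋯ + c^(p-1)` for an odd prime `p`. -/
theorem S14_top_geom_not_sq (p : ℕ) (hp : p.Prime) (hp2 : p ≠ 2) (c : ℕ) (hc : 2 ≤ c) :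
    ¬ p ^ 2 ∣ ∑ i ∈ Finset.range p, c ^ i := by
  intro h
  have hpN : p ∣ ∑ i ∈ Finset.range p, c ^ i := dvd_trans (dvd_pow_self p (by norm_num)) h
  have hb1 : (c : ZMod p) = 1 := by
    have : Fact p.Prime := ⟨hp⟩
    have h1 : ((c ^ p - 1 : ℕ) : ZMod p) = 0 := by
      rw [← S14_top_geom p c hc, Nat.cast_mul,
        (ZMod.natCast_eq_zero_iff _ p).mpr hpN, zero_mul]
    have h2 : 1 ≤ c ^ p := Nat.one_le_pow _ _ (by omega)
    rw [Nat.cast_sub h2] at h1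
    push_cast at h1
    rw [ZMod.pow_card] at h1
    exact sub_eq_zero.mp h1
  exact S14_geom_sum_mod_sq p hp hp2 c hb1 h

/-- a prime factor `ℓ ≠ p` of `Φ_p(c)` has `ord_ℓ(c) = p`. -/
theorem S14_top_orderOf_of_dvd (p : ℕ) (hp : p.Prime) (c : ℕ) (hc : 2 ≤ c) (ℓ : ℕ)
    (hℓ : ℓ.Prime) (hℓp : ℓ ≠ p) (hdvd : ℓ ∣ ∑ i ∈ Finset.range p, c ^ i) :
    orderOf (c : ZMod ℓ) = p := by
  have : Fact ℓ.Prime := ⟨hℓ⟩
  have : Fact p.Prime := ⟨hp⟩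
  have hcp : (c : ZMod ℓ) ^ p = 1 := by
    have h1 : ((c ^ p - 1 : ℕ) : ZMod ℓ) = 0 := by
      rw [← S14_top_geom p c hc, Nat.cast_mul,
        (ZMod.natCast_eq_zero_iff _ ℓ).mpr hdvd, zero_mul]
    have h2 : 1 ≤ c ^ p := Nat.one_le_pow _ _ (by omega)
    rw [Nat.cast_sub h2] at h1
    push_cast at h1
    exact sub_eq_zero.mp h1
  have hc1 : (c : ZMod ℓ) ≠ 1 := by
    intro h
    have hNℓ : ((∑ i ∈ Finset.range p, c ^ i : ℕ) : ZMod ℓ) = p := by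
      push_cast
      rw [h]
      simp
    have : (p : ZMod ℓ) = 0 := by
      rw [← hNℓ]; exact (ZMod.natCast_eq_zero_iff _ ℓ).mpr hdvd
    have hd : ℓ ∣ p := (ZMod.natCast_eq_zero_iff p ℓ).mp this
    exact hℓp ((Nat.prime_dvd_prime_iff_eq hℓ hp).mp hd)
  exact orderOf_eq_prime hcp hc1

/-- The key step of `S14_artin_one`: for a prime `q` larger than `p` and than all elements of
`S`, the number `Φ_p(a^q)` has a prime factor outside `S ∪ {p}`. -/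
theorem S14_top_exists_prime_factor (p : ℕ) (hp : p.Prime) (hp2 : p ≠ 2) (a : ℕ) (ha : 2 ≤ a)
    (q : ℕ) (hq : q.Prime) (hqp : p < q) (S : Finset ℕ) (hS : ∀ s ∈ S, s < q) :
    ∃ ℓ : ℕ, ℓ.Prime ∧ ℓ ∉ S ∧ ℓ ≠ p ∧ ℓ ∣ ∑ i ∈ Finset.range p, (a ^ q) ^ i := by
  by_contra hcon
  have hall : ∀ ℓ : ℕ, ℓ.Prime → ℓ ∣ ∑ i ∈ Finset.range p, (a ^ q) ^ i → ℓ ≠ p → ℓ ∈ S := by
    intro ℓ hℓ hd hne
    by_contra hnS
    exact hcon ⟨ℓ, hℓ, hnS, hne, hd⟩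
  set c : ℕ := a ^ q with hc
  have hc2 : 2 ≤ c := by
    calc 2 ≤ a := ha
      _ = a ^ 1 := (pow_one a).symm
      _ ≤ a ^ q := Nat.pow_le_pow_right (by omega) hq.one_le
  set N : ℕ := ∑ i ∈ Finset.range p, c ^ i with hN
  have hp3 : 3 ≤ p := by
    have := hp.two_le
    omega
  have ha1 : 1 < a ^ p := Nat.one_lt_pow (by omega) (by omega)
  -- size
  have hNbig : p * (a ^ p - 1) < N := by
    have h1 : c ^ (p - 1) ≤ N := by
      rw [hN]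
      exact Finset.single_le_sum (f := fun i => c ^ i) (fun i _ => Nat.zero_le _)
        (Finset.mem_range.mpr (by omega))
    have h2 : c ^ 2 ≤ c ^ (p - 1) := Nat.pow_le_pow_right (by omega) (by omega)
    have h3 : c ^ 2 = a ^ (2 * q) := by rw [hc, ← pow_mul, mul_comm]
    have h4 : a ^ (2 * p) ≤ a ^ (2 * q) := Nat.pow_le_pow_right (by omega) (by omega)
    have h5 : a ^ (2 * p) = a ^ p * a ^ p := by rw [two_mul, pow_add]
    have h6 : p < 2 ^ p := Nat.lt_two_pow_self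
    have h7 : 2 ^ p ≤ a ^ p := Nat.pow_le_pow_left ha p
    have h8 : p * (a ^ p - 1) < a ^ p * a ^ p := by
      calc p * (a ^ p - 1) < p * a ^ p := by
            apply Nat.mul_lt_mul_of_pos_left _ hp.pos
            omega
        _ ≤ a ^ p * a ^ p := Nat.mul_le_mul_right _ (by omega)
    omega
  have hN0 : N ≠ 0 := by omega
  have hM0 : p * (a ^ p - 1) ≠ 0 := by
    apply Nat.mul_ne_zero hp.ne_zero
    omega
  have hNdvd : N ∣ c ^ p - 1 := Dvd.intro _ (S14_top_geom p c hc2)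
  have hcp0 : c ^ p - 1 ≠ 0 := by
    have : 1 < c ^ p := Nat.one_lt_pow (by omega) (by omega)
    omega
  -- divisibility
  have hdvd : N ∣ p * (a ^ p - 1) := by
    rw [← Nat.factorization_prime_le_iff_dvd hN0 hM0]
    intro ℓ hℓ
    by_cases hℓN : ℓ ∣ N
    · by_cases hℓp : ℓ = p
      · subst hℓp
        have h1 : ¬ ℓ ^ 2 ∣ N := S14_top_geom_not_sq ℓ hp hp2 c hc2
        rw [hℓ.pow_dvd_iff_le_factorization hN0] at h1
        have h2 : ℓ ^ 1 ∣ ℓ * (a ^ ℓ - 1) := by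
          rw [pow_one]; exact Dvd.intro _ rfl
        rw [hℓ.pow_dvd_iff_le_factorization hM0] at h2
        omega
      · have hℓS : ℓ ∈ S := hall ℓ hℓ hℓN hℓp
        have hℓq : ℓ < q := hS ℓ hℓS
        have : Fact ℓ.Prime := ⟨hℓ⟩
        have hord : orderOf (c : ZMod ℓ) = p := S14_top_orderOf_of_dvd p hp c hc2 ℓ hℓ hℓp hℓN
        have hcp : (c : ZMod ℓ) ^ p = 1 := by rw [← hord]; exact pow_orderOf_eq_one _
        have hapq : (a : ZMod ℓ) ^ (q * p) = 1 := by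
          rw [pow_mul]
          have : ((a : ZMod ℓ) ^ q) = (c : ZMod ℓ) := by rw [hc]; push_cast; rfl
          rw [this]; exact hcp
        have ha0 : (a : ZMod ℓ) ≠ 0 := by
          intro h0
          rw [h0, zero_pow (Nat.mul_ne_zero hq.ne_zero hp.ne_zero)] at hapq
          exact zero_ne_one hapq
        have hc0 : (c : ZMod ℓ) ≠ 0 := by
          intro h0
          rw [h0, zero_pow hp.ne_zero] at hcp
          exact zero_ne_one hcp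
        have haℓ : (a : ZMod ℓ) ^ (ℓ - 1) = 1 := ZMod.pow_card_sub_one_eq_one ha0
        have hcop : Nat.Coprime q (ℓ - 1) := by
          rw [Nat.Prime.coprime_iff_not_dvd hq]
          intro hd
          have := Nat.le_of_dvd (by have := hℓ.two_le; omega) hd
          omega
        have hgcd : Nat.gcd (q * p) (ℓ - 1) ∣ p := by
          have : Nat.gcd (q * p) (ℓ - 1) = Nat.gcd p (ℓ - 1) :=
            Nat.Coprime.gcd_mul_left_cancel p hcop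
          rw [this]
          exact Nat.gcd_dvd_left _ _
        have hap : (a : ZMod ℓ) ^ p = 1 := by
          have h1 : (a : ZMod ℓ) ^ Nat.gcd (q * p) (ℓ - 1) = 1 :=
            pow_gcd_eq_one.mpr ⟨hapq, haℓ⟩
          obtain ⟨k, hk⟩ := hgcd
          rw [hk, pow_mul, h1, one_pow]
        have hℓap : ℓ ∣ a ^ p - 1 := by
          rw [← ZMod.natCast_eq_zero_iff, Nat.cast_sub ha1.le]
          push_cast
          rw [hap, sub_self]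
        have hℓnap : ¬ ℓ ∣ a ^ p := by
          rw [← ZMod.natCast_eq_zero_iff]
          push_cast
          rw [hap]
          exact one_ne_zero
        have hodd : Odd ℓ := by
          apply hℓ.odd_of_ne_two
          intro h2
          have h3 : orderOf (c : ZMod ℓ) ∣ ℓ - 1 := ZMod.orderOf_dvd_card_sub_one hc0
          rw [hord, h2] at h3
          have := Nat.le_of_dvd (by norm_num) h3
          omega
        have hlte := padicValNat.pow_sub_pow hodd ha1 hℓap hℓnap hq.ne_zero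
        rw [one_pow] at hlte
        have hvq : padicValNat ℓ q = 0 := by
          apply padicValNat.eq_zero_of_not_dvd
          intro hd
          rcases (Nat.dvd_prime hq).mp hd with h | h
          · exact hℓ.one_lt.ne' h
          · omega
        rw [hvq, add_zero] at hlte
        have hcpeq : c ^ p - 1 = (a ^ p) ^ q - 1 := by
          rw [hc, ← pow_mul, ← pow_mul, mul_comm]
        have h1 : N.factorization ℓ ≤ (c ^ p - 1).factorization ℓ :=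
          (Nat.factorization_le_iff_dvd hN0 hcp0).mpr hNdvd ℓ
        have h2 : (a ^ p - 1).factorization ℓ ≤ (p * (a ^ p - 1)).factorization ℓ :=
          (Nat.factorization_le_iff_dvd (by omega) hM0).mpr (Dvd.intro_left _ rfl) ℓ
        rw [Nat.factorization_def _ hℓ] at h1 h2 ⊢
        rw [Nat.factorization_def _ hℓ] at h1 h2 ⊢
        rw [hcpeq, hlte] at h1
        omega
    · rw [Nat.factorization_eq_zero_of_not_dvd hℓN]
      exact Nat.zero_le _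
  have := Nat.le_of_dvd (Nat.pos_of_ne_zero hM0) hdvd
  omega

/-- **Artin's lemma**, version `ord = p · d` with `p ∤ d`: for an odd prime `p`, an integer
`a ≥ 2` and a finite set `S` there is a prime `ℓ ∉ S` such that the multiplicative order of `a`
modulo `ℓ` is `p · d` with `p ∤ d`. -/
theorem S14_artin_one (p : ℕ) (hp : p.Prime) (hp2 : p ≠ 2) (a : ℕ) (ha : 2 ≤ a) (S : Finset ℕ) :
    ∃ ℓ d : ℕ, ℓ.Prime ∧ ℓ ∉ S ∧ ¬ p ∣ d ∧ orderOf (a : ZMod ℓ) = p * d := by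
  obtain ⟨q, hqge, hq⟩ := Nat.exists_infinite_primes (p + 1 + (S.sup id + 1))
  have hqp : p < q := by omega
  have hS : ∀ s ∈ S, s < q := by
    intro s hs
    have : s ≤ S.sup id := Finset.le_sup (f := id) hs
    omega
  obtain ⟨ℓ, hℓ, hℓS, hℓp, hℓd⟩ := S14_top_exists_prime_factor p hp hp2 a ha q hq hqp S hS
  have hc2 : 2 ≤ a ^ q := by
    calc 2 ≤ a := ha
      _ = a ^ 1 := (pow_one a).symm
      _ ≤ a ^ q := Nat.pow_le_pow_right (by omega) hq.one_le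
  have hord := S14_top_orderOf_of_dvd p hp (a ^ q) hc2 ℓ hℓ hℓp hℓd
  have hcast : ((a ^ q : ℕ) : ZMod ℓ) = (a : ZMod ℓ) ^ q := by push_cast; rfl
  rw [hcast, orderOf_pow' _ hq.ne_zero] at hord
  refine ⟨ℓ, Nat.gcd (orderOf (a : ZMod ℓ)) q, hℓ, hℓS, ?_, ?_⟩
  · intro hd
    have h1 : p ∣ q := dvd_trans hd (Nat.gcd_dvd_right _ _)
    rcases (Nat.dvd_prime hq).mp h1 with h | h
    · exact hp.one_lt.ne' h
    · omega
  · have hg : Nat.gcd (orderOf (a : ZMod ℓ)) q ∣ orderOf (a : ZMod ℓ) := Nat.gcd_dvd_left _ _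
    have := Nat.div_mul_cancel hg
    rw [hord] at this
    exact this.symm

/-! ## The two-prime lemma -/

/-- `x ^ (d * i) = 1 ↔ p ∣ i` when `orderOf x = p * d`, `d ≠ 0`. -/
theorem S14_top_pow_mul_eq_one_iff {G : Type*} [Monoid G] (x : G) (p d i : ℕ) (hd : d ≠ 0)
    (hord : orderOf x = p * d) : x ^ (d * i) = 1 ↔ p ∣ i := by
  rw [← orderOf_dvd_iff_pow_eq_one, hord, mul_comm p d]
  exact Nat.mul_dvd_mul_iff_left (Nat.pos_of_ne_zero hd)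

/-- `x ^ i = 1 ↔ p ∣ i` when `orderOf x = p`. -/
theorem S14_top_pow_eq_one_iff {G : Type*} [Monoid G] (x : G) (p i : ℕ)
    (hord : orderOf x = p) : x ^ i = 1 ↔ p ∣ i := by
  rw [← orderOf_dvd_iff_pow_eq_one, hord]

/-- the norm of a nonzero prime is at least `2`. -/
theorem S14_top_two_le_card {R : Type*} [CommRing R] [IsDedekindDomain R] [Module.Free ℤ R]
    [Module.Finite ℤ R] (𝔭 : Ideal R) (h𝔭 : 𝔭.IsPrime) (h0 : 𝔭 ≠ ⊥) :
    2 ≤ Nat.card (R ⧸ 𝔭) := by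
  have : Finite (R ⧸ 𝔭) := Ideal.finiteQuotientOfFreeOfNeBot 𝔭 h0
  have : Nontrivial (R ⧸ 𝔭) := Ideal.Quotient.nontrivial_iff.mpr h𝔭.ne_top
  exact Finite.one_lt_card

/-- a rational prime in `𝔭` divides the norm of `𝔭`. -/
theorem S14_top_dvd_card_of_mem {R : Type*} [CommRing R] (𝔭 : Ideal R) (h𝔭 : 𝔭 ≠ ⊤)
    (ℓ : ℕ) (hℓ : ℓ.Prime) (hmem : (ℓ : R) ∈ 𝔭) : ℓ ∣ Nat.card (R ⧸ 𝔭) := by
  have : Nontrivial (R ⧸ 𝔭) := Ideal.Quotient.nontrivial_iff.mpr h𝔭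
  have h1 : addOrderOf (1 : R ⧸ 𝔭) ∣ ℓ := by
    apply addOrderOf_dvd_of_nsmul_eq_zero
    rw [nsmul_eq_mul, mul_one]
    have : ((ℓ : R ⧸ 𝔭)) = Ideal.Quotient.mk 𝔭 (ℓ : R) := by simp
    rw [this]
    exact Ideal.Quotient.eq_zero_iff_mem.mpr hmem
  have h2 : addOrderOf (1 : R ⧸ 𝔭) ≠ 1 := by
    rw [Ne, AddMonoid.addOrderOf_eq_one_iff]
    exact one_ne_zero
  have h3 : addOrderOf (1 : R ⧸ 𝔭) = ℓ := by
    rcases (Nat.dvd_prime hℓ).mp h1 with h | h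
    · exact absurd h h2
    · exact h
  rw [← h3]
  exact addOrderOf_dvd_natCard _

/-- data extracted from `S14_FrobOf`. -/
theorem S14_top_frobOf_prime {E M : Type*} [Field E] [NumberField E] [Field M] [NumberField M]
    [Algebra E M] {σ : M ≃ₐ[E] M} {𝔮 : Ideal (𝓞 E)} (h : S14_FrobOf σ 𝔮) : 𝔮.IsPrime := by
  obtain ⟨Q, hQ, -, hu, -⟩ := h
  rw [← hu]
  have := hQ
  exact Ideal.IsPrime.under (𝓞 E) Q

/-- **TWO-PRIME LEMMA**: CORE + BRIDGE + Artin's lemma. -/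
theorem S14_twoprime (p : ℕ) [hpF : Fact p.Prime] (hp2 : p ≠ 2)
    (hc : S14_CoreStmt p) (hb : S14_BridgeStmt p) : S14_TwoPrimeStmt p := by
  intro F K _ _ _ _ _ _ hdeg hunr 𝔭₀ 𝔭₁ σ₀ σ₁ hF₀ hF₁ hσ₀ hσ₁
  have hp : p.Prime := hpF.out
  have hcard : Nat.card (K ≃ₐ[F] K) = p := by rw [IsGalois.card_aut_eq_finrank, hdeg]
  have hpow : ∀ g : K ≃ₐ[F] K, g ^ p = 1 := by
    intro g
    rw [← hcard]
    exact pow_card_eq_one'
  have hordσ₀ : orderOf σ₀ = p := orderOf_eq_prime (hpow σ₀) hσ₀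
  have hordσ₁ : orderOf σ₁ = p := orderOf_eq_prime (hpow σ₁) hσ₁
  -- the two primes
  have h𝔭₀ : 𝔭₀.1.IsPrime := S14_top_frobOf_prime hF₀
  have h𝔭₁ : 𝔭₁.1.IsPrime := S14_top_frobOf_prime hF₁
  have h𝔭₀0 : 𝔭₀.1 ≠ ⊥ := nonZeroDivisors.ne_zero 𝔭₀.2
  have h𝔭₁0 : 𝔭₁.1 ≠ ⊥ := nonZeroDivisors.ne_zero 𝔭₁.2
  set a : ℕ := Nat.card (𝓞 F ⧸ 𝔭₀.1) with ha
  set b : ℕ := Nat.card (𝓞 F ⧸ 𝔭₁.1) with hb'
  have ha2 : 2 ≤ a := S14_top_two_le_card 𝔭₀.1 h𝔭₀ h𝔭₀0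
  have hb2 : 2 ≤ b := S14_top_two_le_card 𝔭₁.1 h𝔭₁ h𝔭₁0
  have hab0 : a * b ≠ 0 := Nat.mul_ne_zero (by omega) (by omega)
  have hdisc0 : (NumberField.discr K).natAbs ≠ 0 :=
    Int.natAbs_ne_zero.mpr (NumberField.discr_ne_zero K)
  -- the auxiliary primes
  set S₀ : Finset ℕ := (a * b).primeFactors ∪ (NumberField.discr K).natAbs.primeFactors with hS₀
  obtain ⟨ℓ₀, d₀, hℓ₀, hℓ₀S, hd₀, hord₀⟩ := S14_artin_one p hp hp2 a ha2 S₀
  obtain ⟨ℓ₁, d₁, hℓ₁, hℓ₁S, hd₁, hord₁⟩ := S14_artin_one p hp hp2 b hb2 (insert ℓ₀ S₀)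
  have hℓ₁S₀ : ℓ₁ ∉ S₀ := fun h => hℓ₁S (Finset.mem_insert_of_mem h)
  have hne : ℓ₀ ≠ ℓ₁ := fun h => hℓ₁S (h ▸ Finset.mem_insert_self _ _)
  have hd₀0 : d₀ ≠ 0 := fun h => hd₀ (h ▸ dvd_zero p)
  have hd₁0 : d₁ ≠ 0 := fun h => hd₁ (h ▸ dvd_zero p)
  have hnotdvd : ∀ ℓ : ℕ, ℓ.Prime → ℓ ∉ S₀ →
      ¬ ℓ ∣ a * b ∧ ¬ (ℓ : ℤ) ∣ NumberField.discr K := by
    intro ℓ hℓ hS
    rw [hS₀, Finset.mem_union, not_or, Nat.mem_primeFactors, Nat.mem_primeFactors] at hS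
    refine ⟨fun h => hS.1 ⟨hℓ, h, hab0⟩, fun h => hS.2 ⟨hℓ, ?_, hdisc0⟩⟩
    exact Int.natCast_dvd.mp h
  have hmem : ∀ ℓ : ℕ, ℓ.Prime → ℓ ∉ S₀ → (ℓ : 𝓞 F) ∉ 𝔭₀.1 ∧ (ℓ : 𝓞 F) ∉ 𝔭₁.1 := by
    intro ℓ hℓ hS
    have h1 := (hnotdvd ℓ hℓ hS).1
    refine ⟨fun h => h1 ?_, fun h => h1 ?_⟩
    · exact dvd_mul_of_dvd_left (S14_top_dvd_card_of_mem 𝔭₀.1 h𝔭₀.ne_top ℓ hℓ h) _
    · exact dvd_mul_of_dvd_right (S14_top_dvd_card_of_mem 𝔭₁.1 h𝔭₁.ne_top ℓ hℓ h) _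
  -- the common Frobenius power
  set s : K ≃ₐ[F] K := σ₀ ^ d₀ with hs
  have hs1 : s ≠ 1 := fun h => hd₀ ((S14_top_pow_eq_one_iff σ₀ p d₀ hordσ₀).mp h)
  have hs1' : σ₁ ^ d₁ ≠ 1 := fun h => hd₁ ((S14_top_pow_eq_one_iff σ₁ p d₁ hordσ₁).mp h)
  have hords : orderOf s = p := orderOf_eq_prime (hpow s) hs1
  obtain ⟨k, hk⟩ : ∃ k : ℕ, (σ₁ ^ d₁) ^ k = s :=
    Submonoid.mem_powers_iff _ _ |>.mp (mem_powers_of_prime_card hcard hs1')
  have hkp : ¬ p ∣ k := by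
    intro h
    apply hs1
    rw [← hk, ← pow_mul]
    exact (S14_top_pow_eq_one_iff σ₁ p (d₁ * k) hordσ₁).mpr (dvd_mul_of_dvd_right h _)
  -- the two units
  set u₀ : ZMod ℓ₀ := (a : ZMod ℓ₀) ^ d₀ with hu₀
  set u₁ : ZMod ℓ₁ := (b : ZMod ℓ₁) ^ (d₁ * k) with hu₁
  have hu₀p : u₀ ^ p = 1 := by
    rw [hu₀, ← pow_mul]
    exact (S14_top_pow_mul_eq_one_iff _ p d₀ p hd₀0 hord₀).mpr dvd_rfl
  have hu₁p : u₁ ^ p = 1 := by
    rw [hu₁, ← pow_mul, mul_assoc]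
    exact (S14_top_pow_mul_eq_one_iff _ p d₁ (k * p) hd₁0 hord₁).mpr (dvd_mul_left _ _)
  -- BRIDGE
  obtain ⟨𝔮, τ, n, i, h𝔮, hFτ, hℓ₀𝔮, hℓ₁𝔮, hi, hτ, hN₀, hN₁⟩ :=
    hb F K hdeg hunr ℓ₀ ℓ₁ hℓ₀ hℓ₁ hne (hnotdvd ℓ₀ hℓ₀ hℓ₀S).2 (hnotdvd ℓ₁ hℓ₁ hℓ₁S₀).2
      s u₀ u₁ hs1 hu₀p hu₁p
  have hsi : s ^ i ≠ 1 := fun h => hi ((S14_top_pow_eq_one_iff s p i hords).mp h)
  -- CORE at ℓ₀
  have hcore₀ : ClassGroup.mk0 𝔭₀ ^ (d₀ * i) / ClassGroup.mk0 𝔮 ^ n ∈ S14_HtT p F K 1 := by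
    refine hc F K hdeg hunr ℓ₀ hℓ₀ 𝔭₀ 𝔮 σ₀ τ hF₀ hFτ (hmem ℓ₀ hℓ₀ hℓ₀S).1 hℓ₀𝔮 (d₀ * i) n
      ?_ ?_ ?_ ?_ ?_
    · rw [pow_mul, hτ]
    · rw [pow_mul]; exact hsi
    · rw [hN₀, hu₀, pow_mul]
    · exact fun h => hi ((S14_top_pow_mul_eq_one_iff _ p d₀ i hd₀0 hord₀).mp h)
    · rw [mul_assoc]
      exact (S14_top_pow_mul_eq_one_iff _ p d₀ (i * p) hd₀0 hord₀).mpr (dvd_mul_left _ _)
  -- CORE at ℓ₁
  have hcore₁ : ClassGroup.mk0 𝔭₁ ^ (d₁ * k * i) / ClassGroup.mk0 𝔮 ^ n ∈ S14_HtT p F K 1 := by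
    refine hc F K hdeg hunr ℓ₁ hℓ₁ 𝔭₁ 𝔮 σ₁ τ hF₁ hFτ (hmem ℓ₁ hℓ₁ hℓ₁S₀).2 hℓ₁𝔮 (d₁ * k * i) n
      ?_ ?_ ?_ ?_ ?_
    · rw [pow_mul, pow_mul, hk, hτ]
    · rw [pow_mul, pow_mul, hk]; exact hsi
    · rw [hN₁, hu₁, pow_mul]
    · intro h
      rw [mul_assoc] at h
      have h1 := (S14_top_pow_mul_eq_one_iff _ p d₁ (k * i) hd₁0 hord₁).mp h
      rcases (Nat.Prime.dvd_mul hp).mp h1 with h2 | h2
      · exact hkp h2
      · exact hi h2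
    · rw [mul_assoc, mul_assoc]
      exact (S14_top_pow_mul_eq_one_iff _ p d₁ (k * (i * p)) hd₁0 hord₁).mpr
        (dvd_mul_of_dvd_right (dvd_mul_left _ _) _)
  refine ⟨d₀ * i, d₁ * k * i, ?_, ?_, ?_⟩
  · rw [pow_mul, pow_mul, pow_mul, hk]
  · rw [pow_mul]; exact hsi
  · have := div_mem hcore₀ hcore₁
    rwa [div_div_div_cancel_right] at this

end Fermat.Agent.S14
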