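import Mathlib

/-!
# S14 / N2b auxiliary blocks (helper7, for helper17)

* (B) elementary real estimates: `S14_one_sub_two_rpow_ge`, `S14_rpow_sub_rpow_le`,
  `S14_zeta_assembly`;
* (A) abstract coset comparison of sums: `S14_coset_sum_compare`;
* (C) ideals in a class `C` times units ≃ nonzero elements of an ideal `J` of class `C⁻¹`:
  `S14_class_orbit_equiv`.
-/

namespace Fermat.Agent.S14

open scoped NumberField nonZeroDivisors

/-! ## (B) elementary reals -/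

/-- `1 - 2^{-u} ≥ u log 2 / (1 + u log 2)` for `u ≥ 0`. -/
theorem S14_one_sub_two_rpow_neg_ge (u : ℝ) (hu : 0 ≤ u) :
    u * Real.log 2 / (1 + u * Real.log 2) ≤ 1 - (2 : ℝ) ^ (-u) := by
  have hL : 0 < Real.log 2 := Real.log_pos (by norm_num)
  have hpos : 0 < 1 + u * Real.log 2 := by positivity
  have h1 : (2 : ℝ) ^ (-u) = (Real.exp (u * Real.log 2))⁻¹ := by
    rw [Real.rpow_def_of_pos (by norm_num : (0 : ℝ) < 2), ← Real.exp_neg]
    congr 1
    ring
  have h2 : 1 + u * Real.log 2 ≤ Real.exp (u * Real.log 2) := by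
    have := Real.add_one_le_exp (u * Real.log 2)
    linarith
  have h3 : (Real.exp (u * Real.log 2))⁻¹ ≤ (1 + u * Real.log 2)⁻¹ :=
    inv_anti₀ hpos h2
  rw [h1]
  have h4 : u * Real.log 2 / (1 + u * Real.log 2) = 1 - (1 + u * Real.log 2)⁻¹ := by
    field_simp
    ring
  rw [h4]
  linarith

theorem S14_one_sub_two_rpow_ge (n : ℕ) (hn : 1 ≤ n) :
    ∃ c : ℝ, 0 < c ∧ ∀ s : ℝ, 1 < s → s ≤ 2 →
      c * (s - 1) ≤ 1 - (2 : ℝ) ^ (-(n : ℝ) * (s - 1)) := by
  have hL : 0 < Real.log 2 := Real.log_pos (by norm_num)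
  have hn' : (1 : ℝ) ≤ n := by exact_mod_cast hn
  refine ⟨n * Real.log 2 / (1 + n * Real.log 2), by positivity, fun s hs1 hs2 => ?_⟩
  have hu : 0 ≤ (n : ℝ) * (s - 1) := by
    have : 0 ≤ s - 1 := by linarith
    positivity
  have hun : (n : ℝ) * (s - 1) ≤ n := by
    have : s - 1 ≤ 1 := by linarith
    nlinarith
  have key := S14_one_sub_two_rpow_neg_ge ((n : ℝ) * (s - 1)) hu
  have hneg : -(n : ℝ) * (s - 1) = -((n : ℝ) * (s - 1)) := by ring
  rw [hneg]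
  refine le_trans ?_ key
  have hpos1 : 0 < 1 + (n : ℝ) * Real.log 2 := by positivity
  have hpos2 : 0 < 1 + (n : ℝ) * (s - 1) * Real.log 2 := by positivity
  rw [div_mul_eq_mul_div, div_le_div_iff₀ hpos1 hpos2]
  have h5 : 1 + (n : ℝ) * (s - 1) * Real.log 2 ≤ 1 + (n : ℝ) * Real.log 2 := by
    have := mul_le_mul_of_nonneg_right hun hL.le
    linarith
  have h6 : 0 ≤ (n : ℝ) * Real.log 2 * (s - 1) := by
    have : 0 ≤ s - 1 := by linarith
    positivity
  calc (n : ℝ) * Real.log 2 * (s - 1) * (1 + (n : ℝ) * (s - 1) * Real.log 2)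
      ≤ (n : ℝ) * Real.log 2 * (s - 1) * (1 + (n : ℝ) * Real.log 2) :=
        mul_le_mul_of_nonneg_left h5 h6
    _ = (n : ℝ) * (s - 1) * Real.log 2 * (1 + (n : ℝ) * Real.log 2) := by ring

/-- For `a ≥ 1` and `0 ≤ u ≤ 1`: `1 ≤ a^u ≤ 1 + u (a - 1)`. -/
theorem S14_rpow_le_one_add (a : ℝ) (ha : 1 ≤ a) (u : ℝ) (hu0 : 0 ≤ u) (hu1 : u ≤ 1) :
    1 ≤ a ^ u ∧ a ^ u ≤ 1 + u * (a - 1) := by
  refine ⟨Real.one_le_rpow ha hu0, ?_⟩
  have := rpow_one_add_le_one_add_mul_self (s := a - 1) (by linarith) hu0 hu1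
  simpa using this

theorem S14_rpow_sub_rpow_le (a b : ℝ) (ha : 1 ≤ a) (hb : 1 ≤ b) :
    ∃ C : ℝ, 0 ≤ C ∧ ∀ s : ℝ, 1 ≤ s → s ≤ 2 → |a ^ (s - 1) - b ^ (s - 1)| ≤ C * (s - 1) := by
  refine ⟨(a - 1) + (b - 1), by linarith, fun s hs1 hs2 => ?_⟩
  obtain ⟨ha1, ha2⟩ := S14_rpow_le_one_add a ha (s - 1) (by linarith) (by linarith)
  obtain ⟨hb1, hb2⟩ := S14_rpow_le_one_add b hb (s - 1) (by linarith) (by linarith)
  have hs : 0 ≤ s - 1 := by linarith
  have hA : 0 ≤ (s - 1) * (a - 1) := mul_nonneg hs (by linarith)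
  have hB : 0 ≤ (s - 1) * (b - 1) := mul_nonneg hs (by linarith)
  rw [abs_le]
  constructor <;> nlinarith

theorem S14_zeta_assembly (n : ℕ) (hn : 1 ≤ n) (a a' w BJ BJ' B2 : ℝ) (ha : 1 ≤ a)
    (ha' : 1 ≤ a') (hw : 0 < w) :
    ∃ Bd : ℝ, ∀ (s S Z Z' : ℝ), 1 < s → s ≤ 2 → 0 ≤ S →
      |S - a * (w * a ^ (-s) * Z)| ≤ BJ → |S - a' * (w * a' ^ (-s) * Z')| ≤ BJ' →
      |S - (2 : ℝ) ^ n * ((2 : ℝ) ^ (-(n : ℝ) * s) * S)| ≤ B2 → |Z - Z'| ≤ Bd := by
  obtain ⟨c, hc, hcs⟩ := S14_one_sub_two_rpow_ge n hn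
  obtain ⟨C, hC, hCs⟩ := S14_rpow_sub_rpow_le a a' ha ha'
  refine ⟨(C * (B2 / c) + a * BJ + a' * BJ') / w, fun s S Z Z' hs1 hs2 hS h1 h2 h3 => ?_⟩
  have ha0 : 0 < a := by linarith
  have ha'0 : 0 < a' := by linarith
  have hs0 : 0 < s - 1 := by linarith
  have hBJ : 0 ≤ BJ := le_trans (abs_nonneg _) h1
  have hBJ' : 0 ≤ BJ' := le_trans (abs_nonneg _) h2
  -- step 1: S ≤ B2 / (c (s - 1))
  have e2 : (2 : ℝ) ^ n * ((2 : ℝ) ^ (-(n : ℝ) * s) * S)
      = (2 : ℝ) ^ (-(n : ℝ) * (s - 1)) * S := by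
    rw [← mul_assoc, ← Real.rpow_natCast 2 n, ← Real.rpow_add (by norm_num : (0 : ℝ) < 2)]
    congr 2
    ring
  rw [e2] at h3
  have h3' : (1 - (2 : ℝ) ^ (-(n : ℝ) * (s - 1))) * S ≤ B2 := by
    have := (abs_le.mp h3).2
    linarith
  have hcS : c * (s - 1) * S ≤ B2 :=
    le_trans (mul_le_mul_of_nonneg_right (hcs s hs1 hs2) hS) h3'
  have hSb : (s - 1) * S ≤ B2 / c := by
    rw [le_div_iff₀ hc]
    linarith
  -- step 2: w Z = a^(s-1) (S + θ), |θ| ≤ BJ
  have ea : a * (w * a ^ (-s) * Z) = a ^ (-(s - 1)) * (w * Z) := by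
    have : a ^ (-(s - 1)) = a * a ^ (-s) := by
      rw [show -(s - 1) = 1 + -s by ring, Real.rpow_add ha0, Real.rpow_one]
    rw [this]
    ring
  have ea' : a' * (w * a' ^ (-s) * Z') = a' ^ (-(s - 1)) * (w * Z') := by
    have : a' ^ (-(s - 1)) = a' * a' ^ (-s) := by
      rw [show -(s - 1) = 1 + -s by ring, Real.rpow_add ha'0, Real.rpow_one]
    rw [this]
    ring
  rw [ea] at h1
  rw [ea'] at h2
  set p := a ^ (s - 1) with hp
  set p' := a' ^ (s - 1) with hp'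
  have hpinv : a ^ (-(s - 1)) = p⁻¹ := Real.rpow_neg ha0.le _
  have hp'inv : a' ^ (-(s - 1)) = p'⁻¹ := Real.rpow_neg ha'0.le _
  rw [hpinv] at h1
  rw [hp'inv] at h2
  obtain ⟨hp1, hp2⟩ := S14_rpow_le_one_add a ha (s - 1) hs0.le (by linarith)
  obtain ⟨hp'1, hp'2⟩ := S14_rpow_le_one_add a' ha' (s - 1) hs0.le (by linarith)
  have hp0 : 0 < p := by linarith
  have hp'0 : 0 < p' := by linarith
  have hpa : p ≤ a := by nlinarith
  have hp'a : p' ≤ a' := by nlinarith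
  -- |p S - w Z| ≤ p BJ
  have k1 : |p * S - w * Z| ≤ p * BJ := by
    have : p * S - w * Z = p * (S - p⁻¹ * (w * Z)) := by
      field_simp
    rw [this, abs_mul, abs_of_pos hp0]
    exact mul_le_mul_of_nonneg_left h1 hp0.le
  have k2 : |p' * S - w * Z'| ≤ p' * BJ' := by
    have : p' * S - w * Z' = p' * (S - p'⁻¹ * (w * Z')) := by
      field_simp
    rw [this, abs_mul, abs_of_pos hp'0]
    exact mul_le_mul_of_nonneg_left h2 hp'0.le
  have k3 : |p - p'| * S ≤ C * (B2 / c) := by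
    have h := hCs s hs1.le hs2
    calc |p - p'| * S ≤ C * (s - 1) * S := mul_le_mul_of_nonneg_right h hS
      _ = C * ((s - 1) * S) := by ring
      _ ≤ C * (B2 / c) := mul_le_mul_of_nonneg_left hSb hC
  have k4 : |w * Z - w * Z'| ≤ C * (B2 / c) + a * BJ + a' * BJ' := by
    have e : w * Z - w * Z' = -(p * S - w * Z) + (p' * S - w * Z') + (p - p') * S := by ring
    rw [e]
    have t1 := abs_add_le (-(p * S - w * Z) + (p' * S - w * Z')) ((p - p') * S)
    have t2 := abs_add_le (-(p * S - w * Z)) (p' * S - w * Z')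
    rw [abs_neg] at t2
    rw [abs_mul, abs_of_nonneg hS] at t1
    have m1 : p * BJ ≤ a * BJ := mul_le_mul_of_nonneg_right hpa hBJ
    have m2 : p' * BJ' ≤ a' * BJ' := mul_le_mul_of_nonneg_right hp'a hBJ'
    linarith
  rw [le_div_iff₀ hw]
  have : |Z - Z'| * w = |w * Z - w * Z'| := by
    rw [← mul_sub, abs_mul, abs_of_pos hw]
    ring
  rw [this]
  exact k4

/-! ## (A) coset comparison -/

section Coset

variable {G : Type*} [AddCommGroup G] (H : AddSubgroup G)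

/-- The bijection `(G ⧸ H) × H ≃ G`, `(q, b) ↦ b + q.out`. -/
noncomputable def S14_cosetEquiv : (G ⧸ H) × H ≃ G where
  toFun p := (p.2 : G) + p.1.out
  invFun a := ((a : G ⧸ H), ⟨a - (a : G ⧸ H).out, by
    rw [← QuotientAddGroup.eq_zero_iff, QuotientAddGroup.mk_sub, QuotientAddGroup.out_eq',
      sub_self]⟩)
  left_inv p := by
    obtain ⟨q, b⟩ := p
    have h1 : (((b : G) + q.out : G) : G ⧸ H) = q := by
      rw [QuotientAddGroup.mk_add, (QuotientAddGroup.eq_zero_iff (b : G)).mpr b.2, zero_add,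
        QuotientAddGroup.out_eq']
    ext
    · exact h1
    · simp only [h1]
      simp
  right_inv a := by simp

@[simp] theorem S14_cosetEquiv_apply (q : G ⧸ H) (b : H) :
    S14_cosetEquiv H (q, b) = (b : G) + q.out := rfl

theorem S14_coset_sum_compare [Finite (G ⧸ H)] :
    ∃ reps : Finset G, ∀ (f : G → ℝ) (B : G → ℝ), Summable f →
      (∀ c ∈ reps, Summable (fun a => |f (a + c) - f a|) ∧ ∑' a, |f (a + c) - f a| ≤ B c) →
      |∑' a : G, f a - (Nat.card (G ⧸ H) : ℝ) * ∑' b : H, f (b : G)| ≤ ∑ c ∈ reps, B c := by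
  classical
  let _ : Fintype (G ⧸ H) := Fintype.ofFinite _
  have hinj : Function.Injective (Quotient.out : G ⧸ H → G) := Quotient.out_injective
  refine ⟨Finset.univ.image (Quotient.out : G ⧸ H → G), fun f B hf hB => ?_⟩
  rw [Finset.sum_image (fun x _ y _ h => hinj h)]
  -- summability facts
  have hfe : Summable (fun p : (G ⧸ H) × H => f (S14_cosetEquiv H p)) :=
    (S14_cosetEquiv H).summable_iff.mpr hf
  have hfq : ∀ q : G ⧸ H, Summable (fun b : H => f ((b : G) + q.out)) := fun q =>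
    hfe.prod_factor q
  have hfH : Summable (fun b : H => f (b : G)) := hf.subtype _
  -- decomposition of the full sum
  have e1 : ∑' a : G, f a = ∑ q : G ⧸ H, ∑' b : H, f ((b : G) + q.out) := by
    rw [← (S14_cosetEquiv H).tsum_eq f, hfe.tsum_prod' hfq, tsum_fintype]
    rfl
  have e2 : (Nat.card (G ⧸ H) : ℝ) * ∑' b : H, f (b : G)
      = ∑ _q : G ⧸ H, ∑' b : H, f (b : G) := by
    rw [Finset.sum_const, Finset.card_univ, Nat.card_eq_fintype_card, nsmul_eq_mul]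
  rw [e1, e2, ← Finset.sum_sub_distrib]
  refine le_trans (Finset.abs_sum_le_sum_abs _ _) (Finset.sum_le_sum fun q _ => ?_)
  obtain ⟨hs, hle⟩ := hB q.out (Finset.mem_image_of_mem _ (Finset.mem_univ q))
  rw [← (hfq q).tsum_sub hfH]
  have hsH : Summable (fun b : H => |f ((b : G) + q.out) - f (b : G)|) :=
    hs.subtype (H : Set G)
  calc |∑' b : H, (f ((b : G) + q.out) - f (b : G))|
      ≤ ∑' b : H, |f ((b : G) + q.out) - f (b : G)| := by
        have := norm_tsum_le_tsum_norm (f := fun b : H => f ((b : G) + q.out) - f (b : G))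
          (by simpa [Real.norm_eq_abs] using hsH)
        simpa [Real.norm_eq_abs] using this
    _ ≤ ∑' a : G, |f (a + q.out) - f a| :=
        Summable.tsum_subtype_le (fun a : G => |f (a + q.out) - f a|) (H : Set G)
          (fun _ => abs_nonneg _) hs
    _ ≤ B q.out := hle

end Coset

/-! ## (C) ideals of a class, times units, versus nonzero elements of an ideal -/

section Orbit

variable (K : Type*) [Field K] [NumberField K]

theorem S14_class_orbit_equiv (C : ClassGroup (𝓞 K))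
    (J : (Ideal (𝓞 K))⁰) (hJ : ClassGroup.mk0 J = C⁻¹) :
    ∃ (gen : {I : (Ideal (𝓞 K))⁰ // ClassGroup.mk0 I = C} → 𝓞 K)
      (e : ({I : (Ideal (𝓞 K))⁰ // ClassGroup.mk0 I = C} × (𝓞 K)ˣ) ≃
        {β : 𝓞 K // β ∈ J.1 ∧ β ≠ 0}),
      (∀ I, Ideal.span {gen I} = I.1.1 * J.1) ∧
        ∀ I u, ((e (I, u)).1 : 𝓞 K) = (u : 𝓞 K) * gen I := by
  classical
  have hJ0 : (J : Ideal (𝓞 K)) ≠ 0 := nonZeroDivisors.coe_ne_zero J
  -- choice of generators
  have hex : ∀ I : {I : (Ideal (𝓞 K))⁰ // ClassGroup.mk0 I = C},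
      ∃ x : 𝓞 K, x ≠ 0 ∧ (I.1 : Ideal (𝓞 K)) * (J : Ideal (𝓞 K)) = Ideal.span {x} := by
    intro I
    have h : ClassGroup.mk0 I.1 = (ClassGroup.mk0 J)⁻¹ := by rw [hJ, inv_inv, I.2]
    obtain ⟨x, hx, hIJ⟩ := ClassGroup.mk0_eq_mk0_inv_iff.mp h
    exact ⟨x, hx, hIJ⟩
  choose gen hgen0 hgen using hex
  have hmem : ∀ I, gen I ∈ (J : Ideal (𝓞 K)) := fun I => by
    have h1 : gen I ∈ Ideal.span {gen I} := Ideal.mem_span_singleton_self _
    have h2 : gen I ∈ (I.1 : Ideal (𝓞 K)) * (J : Ideal (𝓞 K)) := by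
      rw [hgen I]; exact h1
    exact (Ideal.mul_le_right : (I.1 : Ideal (𝓞 K)) * (J : Ideal (𝓞 K)) ≤ J) h2
  let toFun : ({I : (Ideal (𝓞 K))⁰ // ClassGroup.mk0 I = C} × (𝓞 K)ˣ) →
      {β : 𝓞 K // β ∈ J.1 ∧ β ≠ 0} := fun p =>
    ⟨(p.2 : 𝓞 K) * gen p.1, Ideal.mul_mem_left _ _ (hmem p.1),
      mul_ne_zero p.2.ne_zero (hgen0 p.1)⟩
  have hbij : Function.Bijective toFun := by
    constructor
    · rintro ⟨I, u⟩ ⟨I', u'⟩ h
      have h' : (u : 𝓞 K) * gen I = (u' : 𝓞 K) * gen I' := congrArg Subtype.val h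
      have hspan : Ideal.span {gen I} = Ideal.span {gen I'} := by
        rw [Ideal.span_singleton_eq_span_singleton]
        refine ⟨u'⁻¹ * u, ?_⟩
        rw [Units.val_mul, mul_comm (gen I), mul_assoc, h', ← mul_assoc, ← Units.val_mul,
          inv_mul_cancel, Units.val_one, one_mul]
      have hII : (I.1 : Ideal (𝓞 K)) = (I'.1 : Ideal (𝓞 K)) := by
        have : (I.1 : Ideal (𝓞 K)) * (J : Ideal (𝓞 K)) = (I'.1 : Ideal (𝓞 K)) * J := by
          rw [hgen I, hgen I', hspan]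
        exact mul_right_cancel₀ hJ0 this
      have hI : I = I' := Subtype.ext (Subtype.ext hII)
      subst hI
      have hu : (u : 𝓞 K) = u' := mul_right_cancel₀ (hgen0 I) h'
      rw [Units.ext hu]
    · rintro ⟨β, hβJ, hβ0⟩
      have hle : Ideal.span {β} ≤ (J : Ideal (𝓞 K)) :=
        (Ideal.span_singleton_le_iff_mem _).mpr hβJ
      obtain ⟨I₀, hI₀⟩ := Ideal.dvd_iff_le.mpr hle
      have hI₀0 : I₀ ≠ 0 := by
        rintro rfl
        rw [mul_zero, Ideal.zero_eq_bot, Ideal.span_singleton_eq_bot] at hI₀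
        exact hβ0 hI₀
      let I : (Ideal (𝓞 K))⁰ := ⟨I₀, mem_nonZeroDivisors_iff_ne_zero.mpr hI₀0⟩
      have hIJ : (I : Ideal (𝓞 K)) * (J : Ideal (𝓞 K)) = Ideal.span {β} := by
        rw [hI₀, mul_comm]
      have hIC : ClassGroup.mk0 I = C := by
        have := ClassGroup.mk0_eq_mk0_inv_iff.mpr ⟨β, hβ0, hIJ⟩
        rw [this, hJ, inv_inv]
      have hass : Associated (gen ⟨I, hIC⟩) β := by
        rw [← Ideal.span_singleton_eq_span_singleton, ← hgen ⟨I, hIC⟩, hIJ]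
      obtain ⟨u, hu⟩ := hass
      refine ⟨(⟨I, hIC⟩, u), Subtype.ext ?_⟩
      simp only [toFun]
      rw [mul_comm]
      exact hu
  refine ⟨gen, Equiv.ofBijective toFun hbij, fun I => (hgen I).symm, fun I u => ?_⟩
  rfl

end Orbit

end Fermat.Agent.S14
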