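import Mathlib

/-!
# S14, block N2b (analytic core), part 1: the tent partition of unity

* `S14_tent t = max 0 (1 - |t|)`, with `∑_{k ∈ ℤ} tent (t + k) = 1`;
* `S14_tentProd c = ∏ i, tent (c i)` on `ι → ℝ`, with `∑_{e : ι → ℤ} tentProd (c + e) = 1`,
  `|tentProd c - tentProd c'| ≤ ∑ i, |c i - c' i|`.
-/

set_option autoImplicit false

namespace Fermat.Agent.S14

/-- the tent function -/
noncomputable def S14_tent (t : ℝ) : ℝ := max 0 (1 - |t|)

lemma S14_tent_nonneg (t : ℝ) : 0 ≤ S14_tent t := le_max_left _ _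

lemma S14_tent_le_one (t : ℝ) : S14_tent t ≤ 1 := by
  unfold S14_tent
  exact max_le zero_le_one (by linarith [abs_nonneg t])

lemma S14_tent_eq_zero {t : ℝ} (h : 1 ≤ |t|) : S14_tent t = 0 := by
  unfold S14_tent
  exact max_eq_left (by linarith)

lemma S14_tent_eq {t : ℝ} (h : |t| ≤ 1) : S14_tent t = 1 - |t| := by
  unfold S14_tent
  exact max_eq_right (by linarith)

lemma S14_abs_lt_one_of_tent_ne_zero {t : ℝ} (h : S14_tent t ≠ 0) : |t| < 1 := by
  by_contra h1
  exact h (S14_tent_eq_zero (not_lt.1 h1))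

lemma S14_tent_lipschitz (a b : ℝ) : |S14_tent a - S14_tent b| ≤ |a - b| := by
  unfold S14_tent
  have h1 : |max 0 (1 - |a|) - max 0 (1 - |b|)| ≤ |(1 - |a|) - (1 - |b|)| := by
    have := abs_max_sub_max_le_abs (1 - |a|) (1 - |b|) (0 : ℝ)
    rwa [max_comm (1 - |a|), max_comm (1 - |b|)] at this
  have h2 : |(1 - |a|) - (1 - |b|)| ≤ |a - b| := by
    have : (1 - |a|) - (1 - |b|) = |b| - |a| := by ring
    rw [this, abs_sub_comm a b]
    exact abs_abs_sub_abs_le_abs_sub b a
  exact h1.trans h2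

lemma S14_tent_hasSum (t : ℝ) : HasSum (fun k : ℤ => S14_tent (t + k)) 1 := by
  classical
  set m : ℤ := ⌊t⌋ with hm
  have h0 : (m : ℝ) ≤ t := Int.floor_le t
  have h1 : t < m + 1 := Int.lt_floor_add_one t
  have hne : (-m : ℤ) ≠ -m - 1 := by omega
  have hsum : HasSum (fun k : ℤ => S14_tent (t + k))
      (∑ k ∈ ({-m, -m - 1} : Finset ℤ), S14_tent (t + k)) := by
    apply hasSum_sum_of_ne_finset_zero
    intro k hk
    simp only [Finset.mem_insert, Finset.mem_singleton, not_or] at hk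
    apply S14_tent_eq_zero
    rcases lt_or_gt_of_ne hk.1 with h | h
    · have h' : k < -m - 1 := lt_of_le_of_ne (by omega) hk.2
      have : (k : ℝ) ≤ -m - 2 := by
        have : k ≤ -m - 2 := by omega
        exact_mod_cast this
      rw [le_abs]
      right
      linarith
    · have : (-m : ℝ) + 1 ≤ k := by
        have : -m + 1 ≤ k := by omega
        exact_mod_cast this
      rw [le_abs]
      left
      linarith
  have hval : (∑ k ∈ ({-m, -m - 1} : Finset ℤ), S14_tent (t + k)) = 1 := by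
    rw [Finset.sum_pair hne]
    have e1 : S14_tent (t + ((-m : ℤ) : ℝ)) = 1 - (t - m) := by
      rw [S14_tent_eq]
      · rw [abs_of_nonneg (by push_cast; linarith)]
        push_cast
        ring
      · rw [abs_le]
        push_cast
        constructor <;> linarith
    have e2 : S14_tent (t + ((-m - 1 : ℤ) : ℝ)) = t - m := by
      rw [S14_tent_eq]
      · rw [abs_of_nonpos (by push_cast; linarith)]
        push_cast
        ring
      · rw [abs_le]
        push_cast
        constructor <;> linarith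
    rw [e1, e2]
    ring
  rw [hval] at hsum
  exact hsum

section prod

variable {ι : Type*} [Fintype ι]

/-- product of tent functions -/
noncomputable def S14_tentProd (c : ι → ℝ) : ℝ := ∏ i, S14_tent (c i)

lemma S14_tentProd_nonneg (c : ι → ℝ) : 0 ≤ S14_tentProd c :=
  Finset.prod_nonneg fun i _ => S14_tent_nonneg (c i)

lemma S14_tentProd_le_one (c : ι → ℝ) : S14_tentProd c ≤ 1 :=
  Finset.prod_le_one (fun i _ => S14_tent_nonneg (c i)) (fun i _ => S14_tent_le_one (c i))

lemma S14_abs_lt_one_of_tentProd_ne_zero {c : ι → ℝ} (h : S14_tentProd c ≠ 0) (i : ι) :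
    |c i| < 1 := by
  apply S14_abs_lt_one_of_tent_ne_zero
  intro h0
  exact h (Finset.prod_eq_zero (Finset.mem_univ i) h0)

omit [Fintype ι] in
/-- a product of numbers in `[0, 1]` is Lipschitz in each factor. -/
lemma S14_abs_prod_sub_prod_le (s : Finset ι) (a b : ι → ℝ) (ha : ∀ i, 0 ≤ a i ∧ a i ≤ 1)
    (hb : ∀ i, 0 ≤ b i ∧ b i ≤ 1) :
    |∏ i ∈ s, a i - ∏ i ∈ s, b i| ≤ ∑ i ∈ s, |a i - b i| := by
  classical
  induction s using Finset.induction_on with
  | empty => simp
  | insert j s hj ih =>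
    rw [Finset.prod_insert hj, Finset.prod_insert hj, Finset.sum_insert hj]
    have hA : 0 ≤ ∏ i ∈ s, a i ∧ ∏ i ∈ s, a i ≤ 1 :=
      ⟨Finset.prod_nonneg fun i _ => (ha i).1,
        Finset.prod_le_one (fun i _ => (ha i).1) (fun i _ => (ha i).2)⟩
    have e : a j * ∏ i ∈ s, a i - b j * ∏ i ∈ s, b i =
        (a j - b j) * ∏ i ∈ s, a i + b j * (∏ i ∈ s, a i - ∏ i ∈ s, b i) := by ring
    rw [e]
    refine (abs_add_le _ _).trans ?_
    rw [abs_mul, abs_mul]
    have h1 : |a j - b j| * |∏ i ∈ s, a i| ≤ |a j - b j| := by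
      rw [abs_of_nonneg hA.1]
      exact mul_le_of_le_one_right (abs_nonneg _) hA.2
    have h2 : |b j| * |∏ i ∈ s, a i - ∏ i ∈ s, b i| ≤ ∑ i ∈ s, |a i - b i| := by
      rw [abs_of_nonneg (hb j).1]
      exact (mul_le_of_le_one_left (abs_nonneg _) (hb j).2).trans ih
    linarith

lemma S14_tentProd_lipschitz (c c' : ι → ℝ) :
    |S14_tentProd c - S14_tentProd c'| ≤ ∑ i, |c i - c' i| := by
  unfold S14_tentProd
  refine (S14_abs_prod_sub_prod_le Finset.univ _ _
    (fun i => ⟨S14_tent_nonneg _, S14_tent_le_one _⟩)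
    (fun i => ⟨S14_tent_nonneg _, S14_tent_le_one _⟩)).trans ?_
  exact Finset.sum_le_sum fun i _ => S14_tent_lipschitz _ _

/-- the translates of the tent product by integer vectors: finite support, sum `1`. -/
lemma S14_tentProd_finsupp (c : ι → ℝ) :
    ∃ T : Finset (ι → ℤ), (∀ e, e ∉ T → S14_tentProd (fun i => c i + e i) = 0) ∧
      ∑ e ∈ T, S14_tentProd (fun i => c i + e i) = 1 := by
  classical
  set T : ι → Finset ℤ := fun i => {-⌊c i⌋, -⌊c i⌋ - 1} with hT
  have hzero : ∀ i (k : ℤ), k ∉ T i → S14_tent (c i + k) = 0 := by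
    intro i k hk
    by_contra hne
    have habs := S14_abs_lt_one_of_tent_ne_zero hne
    rw [abs_lt] at habs
    have h0 : (⌊c i⌋ : ℝ) ≤ c i := Int.floor_le _
    have h1 : c i < ⌊c i⌋ + 1 := Int.lt_floor_add_one _
    apply hk
    simp only [hT, Finset.mem_insert, Finset.mem_singleton]
    have hk1 : (-⌊c i⌋ - 2 : ℝ) < k := by linarith [habs.1]
    have hk2 : (k : ℝ) < -⌊c i⌋ + 1 := by linarith [habs.2]
    have hk1' : -⌊c i⌋ - 2 < k := by exact_mod_cast hk1
    have hk2' : k < -⌊c i⌋ + 1 := by exact_mod_cast hk2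
    omega
  have hsumT : ∀ i, ∑ k ∈ T i, S14_tent (c i + k) = 1 := by
    intro i
    have h := S14_tent_hasSum (c i)
    have h' : HasSum (fun k : ℤ => S14_tent (c i + k)) (∑ k ∈ T i, S14_tent (c i + k)) :=
      hasSum_sum_of_ne_finset_zero fun k hk => hzero i k hk
    exact h'.unique h
  refine ⟨Fintype.piFinset T, ?_, ?_⟩
  · intro e he
    rw [Fintype.mem_piFinset, not_forall] at he
    obtain ⟨i, hi⟩ := he
    exact Finset.prod_eq_zero (Finset.mem_univ i) (hzero i (e i) hi)
  · unfold S14_tentProd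
    rw [← Finset.prod_univ_sum T (fun i k => S14_tent (c i + k))]
    simp [hsumT]

lemma S14_tentProd_hasSum (c : ι → ℝ) :
    HasSum (fun e : ι → ℤ => S14_tentProd (fun i => c i + e i)) 1 := by
  obtain ⟨T, hT0, hT1⟩ := S14_tentProd_finsupp c
  rw [← hT1]
  exact hasSum_sum_of_ne_finset_zero fun e he => hT0 e he

end prod

end Fermat.Agent.S14
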