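import Mathlib
import Fermat.Agent.S14.ClassZetaTent

/-!
# S14, block N2b (analytic core), part 2: the partition of unity for the unit action

For a number field `K` we define on the mixed space
`S14_Phi x = ∏ i, tent (c_i (logMap x))`, where `c_i` are the coordinates of `logMap x` in the
basis of the unit lattice.  For `x` of nonzero norm, `∑_{u ∈ (𝓞 K)ˣ} Φ(u • x) = torsionOrder K`.
-/

set_option autoImplicit false

namespace Fermat.Agent.S14

open NumberField NumberField.mixedEmbedding NumberField.Units
open NumberField.Units.dirichletUnitTheorem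

variable (K : Type*) [Field K] [NumberField K]

open scoped Classical

/-- the real basis of `logSpace K` given by the fundamental units. -/
noncomputable def S14_logBasis : Module.Basis (Fin (rank K)) ℝ (logSpace K) :=
  (basisUnitLattice K).ofZLatticeBasis ℝ (unitLattice K)

/-- coordinates of `logMap x` in the basis of the unit lattice. -/
noncomputable def S14_coord (x : mixedSpace K) (i : Fin (rank K)) : ℝ :=
  (S14_logBasis K).repr (logMap x) i

/-- the partition of unity for the action of the units. -/
noncomputable def S14_Phi (x : mixedSpace K) : ℝ := S14_tentProd (S14_coord K x)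

lemma S14_Phi_nonneg (x : mixedSpace K) : 0 ≤ S14_Phi K x := S14_tentProd_nonneg _

lemma S14_Phi_le_one (x : mixedSpace K) : S14_Phi K x ≤ 1 := S14_tentProd_le_one _

/-- the unit attached to a root of unity and a vector of exponents. -/
noncomputable def S14_unitOf (p : torsion K × (Fin (rank K) → ℤ)) : (𝓞 K)ˣ :=
  (p.1 : (𝓞 K)ˣ) * ∏ i, fundSystem K i ^ p.2 i

lemma S14_unitOf_bijective : Function.Bijective (S14_unitOf K) := by
  constructor
  · intro p q h
    obtain ⟨r, -, hr⟩ := exist_unique_eq_mul_prod K (S14_unitOf K p)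
    have hp := hr p rfl
    have hq := hr q h
    rw [hp, hq]
  · intro u
    obtain ⟨r, hr, -⟩ := exist_unique_eq_mul_prod K u
    exact ⟨r, hr.symm⟩

/-- the units as `torsion × ℤ^r`. -/
noncomputable def S14_unitEquiv : torsion K × (Fin (rank K) → ℤ) ≃ (𝓞 K)ˣ :=
  Equiv.ofBijective (S14_unitOf K) (S14_unitOf_bijective K)

lemma S14_logEmbedding_unitOf (p : torsion K × (Fin (rank K) → ℤ)) :
    logEmbedding K (Additive.ofMul (S14_unitOf K p)) =
      ∑ i, (p.2 i : ℝ) • S14_logBasis K i := by
  unfold S14_unitOf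
  rw [ofMul_mul, map_add, ofMul_prod, map_sum]
  have h0 : logEmbedding K (Additive.ofMul (p.1 : (𝓞 K)ˣ)) = 0 :=
    logEmbedding_eq_zero_iff.2 p.1.2
  rw [h0, zero_add]
  refine Finset.sum_congr rfl fun i _ => ?_
  rw [ofMul_zpow, map_zsmul, logEmbedding_fundSystem, S14_logBasis,
    Module.Basis.ofZLatticeBasis_apply, Int.cast_smul_eq_zsmul]

lemma S14_coord_unitOf_smul (p : torsion K × (Fin (rank K) → ℤ)) {x : mixedSpace K}
    (hx : mixedEmbedding.norm x ≠ 0) (i : Fin (rank K)) :
    S14_coord K (S14_unitOf K p • x) i = S14_coord K x i + p.2 i := by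
  unfold S14_coord
  rw [logMap_unit_smul _ hx, S14_logEmbedding_unitOf, map_add, Finsupp.coe_add, Pi.add_apply,
    congrFun (Module.Basis.repr_sum_self (S14_logBasis K) (fun i => (p.2 i : ℝ))) i, add_comm]

/-- `∑_{u ∈ (𝓞 K)ˣ} Φ(u • x) = w`. -/
theorem S14_Phi_hasSum_units {x : mixedSpace K} (hx : mixedEmbedding.norm x ≠ 0) :
    HasSum (fun u : (𝓞 K)ˣ => S14_Phi K (u • x)) (torsionOrder K) := by
  let _i : Fintype (torsion K) := Fintype.ofFinite _
  obtain ⟨T, hT0, hT1⟩ := S14_tentProd_finsupp (S14_coord K x)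
  have h3 : HasSum (fun p : torsion K × (Fin (rank K) → ℤ) =>
      S14_tentProd (fun i => S14_coord K x i + p.2 i))
      (∑ p ∈ (Finset.univ : Finset (torsion K)) ×ˢ T,
        S14_tentProd (fun i => S14_coord K x i + p.2 i)) := by
    apply hasSum_sum_of_ne_finset_zero
    intro p hp
    apply hT0
    intro h
    exact hp (Finset.mem_product.2 ⟨Finset.mem_univ _, h⟩)
  have e : (∑ p ∈ (Finset.univ : Finset (torsion K)) ×ˢ T,
      S14_tentProd (fun i => S14_coord K x i + p.2 i)) = (torsionOrder K : ℝ) := by
    rw [Finset.sum_product]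
    simp only [hT1, Finset.sum_const, Finset.card_univ, nsmul_eq_mul, mul_one]
    rw [torsionOrder, Nat.card_eq_fintype_card]
  rw [e] at h3
  rw [← (S14_unitEquiv K).hasSum_iff]
  have h4 : (fun u : (𝓞 K)ˣ => S14_Phi K (u • x)) ∘ (S14_unitEquiv K) =
      fun p => S14_tentProd (fun i => S14_coord K x i + p.2 i) := by
    funext p
    rw [Function.comp_apply, S14_Phi]
    congr 1
    funext i
    exact S14_coord_unitOf_smul K p hx i
  rw [h4]
  exact h3

end Fermat.Agent.S14
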