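import Mathlib
import Fermat.Agent.S14.ClassZetaPhi

/-!
# S14, block N2b (analytic core), part 3: the Lipschitz estimate for `g_s = Φ · N^{-s}`

Main result `S14_g_sub_le`: for every `d ≥ 0` there are `R, A` such that for all `s ∈ [1, 2]` and
all `x, y` in the mixed space with `‖x - y‖ ≤ d`, `R ≤ ‖x‖`:
`|g_s x - g_s y| ≤ A * ‖x‖ ^ (-(n + 1))`, `n = [K : ℚ]`.
-/

set_option autoImplicit false

namespace Fermat.Agent.S14

open NumberField NumberField.mixedEmbedding NumberField.Units NumberField.InfinitePlace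
open NumberField.Units.dirichletUnitTheorem Module

variable (K : Type*) [Field K] [NumberField K]

open scoped Classical

/-- `g_s = Φ · N^{-s}` on the mixed space. -/
noncomputable def S14_g (s : ℝ) (x : mixedSpace K) : ℝ :=
  S14_Phi K x * mixedEmbedding.norm x ^ (-s)

lemma S14_g_nonneg (s : ℝ) (x : mixedSpace K) : 0 ≤ S14_g K s x :=
  mul_nonneg (S14_Phi_nonneg K x) (Real.rpow_nonneg (mixedEmbedding.norm_nonneg x) _)

lemma S14_g_eq_zero_of_norm_eq_zero {s : ℝ} (hs : 0 < s) {x : mixedSpace K}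
    (hx : mixedEmbedding.norm x = 0) : S14_g K s x = 0 := by
  rw [S14_g, hx, Real.zero_rpow (by linarith), mul_zero]

/-! ### elementary inequalities -/

lemma S14_abs_log_sub_log_le {a b m : ℝ} (hm : 0 < m) (ha : m ≤ a) (hb : m ≤ b) :
    |Real.log a - Real.log b| ≤ |a - b| / m := by
  have ha0 : 0 < a := hm.trans_le ha
  have hb0 : 0 < b := hm.trans_le hb
  rw [abs_le]
  constructor
  · -- log b - log a ≤ (b - a) / a
    have h := Real.log_le_sub_one_of_pos (div_pos hb0 ha0)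
    rw [Real.log_div hb0.ne' ha0.ne'] at h
    have h2 : b / a - 1 = (b - a) / a := by field_simp
    have h3 : (b - a) / a ≤ |a - b| / m := by
      rw [abs_sub_comm]
      calc (b - a) / a ≤ |b - a| / a := by gcongr; exact le_abs_self _
        _ ≤ |b - a| / m := by gcongr
    linarith
  · have h := Real.log_le_sub_one_of_pos (div_pos ha0 hb0)
    rw [Real.log_div ha0.ne' hb0.ne'] at h
    have h2 : a / b - 1 = (a - b) / b := by field_simp
    have h3 : (a - b) / b ≤ |a - b| / m := by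
      calc (a - b) / b ≤ |a - b| / b := by gcongr; exact le_abs_self _
        _ ≤ |a - b| / m := by gcongr
    linarith

variable {K}

lemma S14_normAtPlace_le_norm (w : InfinitePlace K) (x : mixedSpace K) :
    normAtPlace w x ≤ ‖x‖ := by
  rw [norm_eq_sup'_normAtPlace]
  exact Finset.le_sup' (fun w => normAtPlace w x) (Finset.mem_univ w)

lemma S14_exists_normAtPlace_eq_norm (x : mixedSpace K) :
    ∃ w : InfinitePlace K, normAtPlace w x = ‖x‖ := by
  rw [norm_eq_sup'_normAtPlace]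
  obtain ⟨w, -, hw⟩ := Finset.exists_mem_eq_sup' Finset.univ_nonempty
    (fun w => normAtPlace w x)
  exact ⟨w, hw.symm⟩

lemma S14_abs_normAtPlace_sub_le (w : InfinitePlace K) (x y : mixedSpace K) :
    |normAtPlace w x - normAtPlace w y| ≤ ‖x - y‖ := by
  rw [abs_le]
  constructor
  · have h := normAtPlace_add_le w x (y - x)
    rw [add_sub_cancel] at h
    have h2 := S14_normAtPlace_le_norm w (y - x)
    rw [← norm_neg, neg_sub] at h2
    linarith
  · have h := normAtPlace_add_le w y (x - y)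
    rw [add_sub_cancel] at h
    have h2 := S14_normAtPlace_le_norm w (x - y)
    linarith

lemma S14_log_norm_eq {x : mixedSpace K} (hx : ∀ w, 0 < normAtPlace w x) :
    Real.log (mixedEmbedding.norm x) = ∑ w, (mult w : ℝ) * Real.log (normAtPlace w x) := by
  rw [mixedEmbedding.norm_apply, Real.log_prod (fun w _ => (pow_pos (hx w) _).ne')]
  refine Finset.sum_congr rfl fun w _ => ?_
  rw [Real.log_pow]

lemma S14_norm_pos_of {x : mixedSpace K} (hx : ∀ w, 0 < normAtPlace w x) :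
    0 < mixedEmbedding.norm x := by
  rw [mixedEmbedding.norm_apply]
  exact Finset.prod_pos fun w _ => pow_pos (hx w) _

lemma S14_normAtPlace_pos_of {x : mixedSpace K} (hx : mixedEmbedding.norm x ≠ 0)
    (w : InfinitePlace K) : 0 < normAtPlace w x := by
  refine lt_of_le_of_ne (normAtPlace_nonneg w x) fun h => hx ?_
  rw [mixedEmbedding.norm_apply]
  exact Finset.prod_eq_zero (Finset.mem_univ w) (by rw [← h]; exact zero_pow mult_ne_zero)

omit [NumberField K] in
lemma S14_mult_le_two (w : InfinitePlace K) : (mult w : ℝ) ≤ 2 := by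
  unfold mult
  split_ifs <;> norm_num

omit [NumberField K] in
lemma S14_one_le_mult (w : InfinitePlace K) : (1 : ℝ) ≤ mult w := by
  unfold mult
  split_ifs <;> norm_num

lemma S14_sum_mult : ∑ w : InfinitePlace K, (mult w : ℝ) = finrank ℚ K := by
  exact_mod_cast InfinitePlace.sum_mult_eq (K := K)

/-! ### the logarithmic coordinates are Lipschitz where all `normAtPlace` are comparable -/

lemma S14_abs_log_normAtPlace_sub_le {x y : mixedSpace K} {m d : ℝ} (hm : 0 < m)
    (hx : ∀ w, m ≤ normAtPlace w x) (hy : ∀ w, m ≤ normAtPlace w y) (hd : ‖x - y‖ ≤ d)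
    (w : InfinitePlace K) :
    |Real.log (normAtPlace w x) - Real.log (normAtPlace w y)| ≤ d / m := by
  refine (S14_abs_log_sub_log_le hm (hx w) (hy w)).trans ?_
  gcongr
  exact (S14_abs_normAtPlace_sub_le w x y).trans hd

lemma S14_abs_log_norm_sub_le {x y : mixedSpace K} {m d : ℝ} (hm : 0 < m)
    (hx : ∀ w, m ≤ normAtPlace w x) (hy : ∀ w, m ≤ normAtPlace w y) (hd : ‖x - y‖ ≤ d) :
    |Real.log (mixedEmbedding.norm x) - Real.log (mixedEmbedding.norm y)| ≤
      finrank ℚ K * (d / m) := by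
  rw [S14_log_norm_eq fun w => hm.trans_le (hx w), S14_log_norm_eq fun w => hm.trans_le (hy w),
    ← Finset.sum_sub_distrib, ← S14_sum_mult, Finset.sum_mul]
  refine (Finset.abs_sum_le_sum_abs _ _).trans (Finset.sum_le_sum fun w _ => ?_)
  rw [← mul_sub, abs_mul, abs_of_nonneg (Nat.cast_nonneg _)]
  gcongr
  exact S14_abs_log_normAtPlace_sub_le hm hx hy hd w

lemma S14_finrank_pos : (0 : ℝ) < finrank ℚ K := by
  exact_mod_cast (finrank_pos : 0 < finrank ℚ K)

lemma S14_abs_logMap_sub_le {x y : mixedSpace K} {m d : ℝ} (hm : 0 < m)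
    (hx : ∀ w, m ≤ normAtPlace w x) (hy : ∀ w, m ≤ normAtPlace w y) (hd : ‖x - y‖ ≤ d)
    (w : {w : InfinitePlace K // w ≠ w₀}) :
    |logMap x w - logMap y w| ≤ 4 * (d / m) := by
  have h1 := S14_abs_log_normAtPlace_sub_le hm hx hy hd w.1
  have h2 := S14_abs_log_norm_sub_le hm hx hy hd
  have hn := S14_finrank_pos (K := K)
  have h3 : |(Real.log (mixedEmbedding.norm x) - Real.log (mixedEmbedding.norm y)) *
      (finrank ℚ K : ℝ)⁻¹| ≤ d / m := by
    rw [abs_mul, abs_of_pos (inv_pos.2 hn), ← div_eq_mul_inv, div_le_iff₀ hn]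
    linarith
  have e : logMap x w - logMap y w = mult w.1 *
      ((Real.log (normAtPlace w.1 x) - Real.log (normAtPlace w.1 y)) -
        (Real.log (mixedEmbedding.norm x) - Real.log (mixedEmbedding.norm y)) *
          (finrank ℚ K : ℝ)⁻¹) := by
    rw [logMap_apply, logMap_apply]
    ring
  rw [e, abs_mul, abs_of_nonneg (Nat.cast_nonneg _)]
  have h4 := abs_sub (Real.log (normAtPlace w.1 x) - Real.log (normAtPlace w.1 y))
    ((Real.log (mixedEmbedding.norm x) - Real.log (mixedEmbedding.norm y)) *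
          (finrank ℚ K : ℝ)⁻¹)
  have h5 := S14_mult_le_two w.1
  have h6 : 0 ≤ d / m := (abs_nonneg _).trans h1
  calc (mult w.1 : ℝ) * _ ≤ 2 * (d / m + d / m) := by
        apply mul_le_mul h5 (h4.trans (add_le_add h1 h3)) (abs_nonneg _) (by norm_num)
    _ = 4 * (d / m) := by ring

variable (K) in
/-- Lipschitz constant of the coordinates. -/
noncomputable def S14_M1 : ℝ :=
  ‖((S14_logBasis K).equivFunL : logSpace K →L[ℝ] (Fin (rank K) → ℝ))‖

lemma S14_M1_nonneg : 0 ≤ S14_M1 K := norm_nonneg _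

lemma S14_abs_coord_sub_le {x y : mixedSpace K} {m d : ℝ} (hm : 0 < m)
    (hx : ∀ w, m ≤ normAtPlace w x) (hy : ∀ w, m ≤ normAtPlace w y) (hd : ‖x - y‖ ≤ d)
    (i : Fin (rank K)) :
    |S14_coord K x i - S14_coord K y i| ≤ S14_M1 K * (4 * (d / m)) := by
  have hd0 : 0 ≤ d := (norm_nonneg _).trans hd
  have h1 : ‖logMap x - logMap y‖ ≤ 4 * (d / m) := by
    rw [pi_norm_le_iff_of_nonneg (by positivity)]
    intro w
    rw [Pi.sub_apply, Real.norm_eq_abs]
    exact S14_abs_logMap_sub_le hm hx hy hd w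
  have h2 : S14_coord K x i - S14_coord K y i =
      ((S14_logBasis K).equivFunL (logMap x - logMap y)) i := by
    rw [map_sub]
    rfl
  rw [h2]
  calc |((S14_logBasis K).equivFunL (logMap x - logMap y)) i|
      = ‖((S14_logBasis K).equivFunL (logMap x - logMap y)) i‖ := (Real.norm_eq_abs _).symm
    _ ≤ ‖(S14_logBasis K).equivFunL (logMap x - logMap y)‖ := norm_le_pi_norm _ i
    _ ≤ S14_M1 K * ‖logMap x - logMap y‖ :=
        ((S14_logBasis K).equivFunL : logSpace K →L[ℝ] (Fin (rank K) → ℝ)).le_opNorm _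
    _ ≤ S14_M1 K * (4 * (d / m)) := by
        gcongr
        exact S14_M1_nonneg

lemma S14_abs_Phi_sub_le {x y : mixedSpace K} {m d : ℝ} (hm : 0 < m)
    (hx : ∀ w, m ≤ normAtPlace w x) (hy : ∀ w, m ≤ normAtPlace w y) (hd : ‖x - y‖ ≤ d) :
    |S14_Phi K x - S14_Phi K y| ≤ rank K * (S14_M1 K * (4 * (d / m))) := by
  unfold S14_Phi
  refine (S14_tentProd_lipschitz _ _).trans ?_
  calc ∑ i, |S14_coord K x i - S14_coord K y i|
      ≤ ∑ _i : Fin (rank K), S14_M1 K * (4 * (d / m)) :=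
        Finset.sum_le_sum fun i _ => S14_abs_coord_sub_le hm hx hy hd i
    _ = rank K * (S14_M1 K * (4 * (d / m))) := by
        rw [Finset.sum_const, Finset.card_univ, Fintype.card_fin, nsmul_eq_mul]

/-! ### on the support of `Φ` all `normAtPlace` are comparable to the norm -/

variable (K) in
/-- bound for `logMap` on the support of `Φ`. -/
noncomputable def S14_M2 : ℝ := ∑ i, ‖S14_logBasis K i‖

lemma S14_M2_nonneg : 0 ≤ S14_M2 K := Finset.sum_nonneg fun _ _ => norm_nonneg _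

variable (K) in
/-- bound for `log (normAtPlace w x) - log (norm x) / n` on the support of `Φ`. -/
noncomputable def S14_M3 : ℝ := (Fintype.card (InfinitePlace K) + 1) * S14_M2 K

lemma S14_M3_nonneg : 0 ≤ S14_M3 K := mul_nonneg (by positivity) S14_M2_nonneg

lemma S14_M2_le_M3 : S14_M2 K ≤ S14_M3 K := by
  unfold S14_M3
  have := S14_M2_nonneg (K := K)
  have h : (0 : ℝ) ≤ Fintype.card (InfinitePlace K) := Nat.cast_nonneg _
  nlinarith

lemma S14_norm_logMap_le {x : mixedSpace K} (hx : S14_Phi K x ≠ 0) :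
    ‖logMap x‖ ≤ S14_M2 K := by
  have hc : ∀ i, |S14_coord K x i| ≤ 1 := fun i =>
    (S14_abs_lt_one_of_tentProd_ne_zero hx i).le
  have e : logMap x = ∑ i, S14_coord K x i • S14_logBasis K i :=
    ((S14_logBasis K).sum_repr (logMap x)).symm
  rw [e]
  refine (norm_sum_le _ _).trans (Finset.sum_le_sum fun i _ => ?_)
  rw [_root_.norm_smul, Real.norm_eq_abs]
  exact mul_le_of_le_one_left (norm_nonneg _) (hc i)

/-- the deviation of `log (normAtPlace w x)` from the mean. -/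
lemma S14_abs_log_normAtPlace_sub_mean_le {x : mixedSpace K}
    (hN : mixedEmbedding.norm x ≠ 0) (hx : ‖logMap x‖ ≤ S14_M2 K) (w : InfinitePlace K) :
    |Real.log (normAtPlace w x) -
      Real.log (mixedEmbedding.norm x) * (finrank ℚ K : ℝ)⁻¹| ≤ S14_M3 K := by
  set a : ℝ := Real.log (mixedEmbedding.norm x) * (finrank ℚ K : ℝ)⁻¹ with ha
  have hpos : ∀ w, 0 < normAtPlace w x := S14_normAtPlace_pos_of hN
  have hcomp : ∀ v : {w : InfinitePlace K // w ≠ w₀},
      |Real.log (normAtPlace v.1 x) - a| ≤ S14_M2 K := by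
    intro v
    have h1 : |logMap x v| ≤ S14_M2 K := by
      rw [← Real.norm_eq_abs]
      exact (norm_le_pi_norm _ v).trans hx
    rw [logMap_apply, abs_mul, abs_of_nonneg (Nat.cast_nonneg _)] at h1
    have h2 := S14_one_le_mult v.1
    calc |Real.log (normAtPlace v.1 x) - a|
        ≤ (mult v.1 : ℝ) * |Real.log (normAtPlace v.1 x) - a| :=
          le_mul_of_one_le_left (abs_nonneg _) h2
      _ ≤ S14_M2 K := h1
  by_cases hw : w = w₀
  · subst hw
    -- the sum of all deviations, weighted by `mult`, vanishes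
    have hn := S14_finrank_pos (K := K)
    have hsum : ∑ v : InfinitePlace K, (mult v : ℝ) * (Real.log (normAtPlace v x) - a) = 0 := by
      simp only [mul_sub, Finset.sum_sub_distrib]
      rw [← S14_log_norm_eq hpos, ← Finset.sum_mul, S14_sum_mult, ha]
      field_simp
      ring
    rw [Fintype.sum_eq_add_sum_subtype_ne _ (w₀ : InfinitePlace K)] at hsum
    have h3 : (mult (w₀ : InfinitePlace K) : ℝ) * (Real.log (normAtPlace w₀ x) - a) =
        -∑ v : {w : InfinitePlace K // w ≠ w₀},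
          (mult v.1 : ℝ) * (Real.log (normAtPlace v.1 x) - a) := by
      linarith
    have h4 : |∑ v : {w : InfinitePlace K // w ≠ w₀},
        (mult v.1 : ℝ) * (Real.log (normAtPlace v.1 x) - a)| ≤
          Fintype.card (InfinitePlace K) * S14_M2 K := by
      refine (Finset.abs_sum_le_sum_abs _ _).trans ?_
      have h5 : ∀ v : {w : InfinitePlace K // w ≠ w₀},
          |(mult v.1 : ℝ) * (Real.log (normAtPlace v.1 x) - a)| ≤ S14_M2 K := by
        intro v
        have h1 : |logMap x v| ≤ S14_M2 K := by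
          rw [← Real.norm_eq_abs]
          exact (norm_le_pi_norm _ v).trans hx
        rwa [logMap_apply] at h1
      calc ∑ v : {w : InfinitePlace K // w ≠ w₀},
            |(mult v.1 : ℝ) * (Real.log (normAtPlace v.1 x) - a)|
          ≤ ∑ _v : {w : InfinitePlace K // w ≠ w₀}, S14_M2 K :=
            Finset.sum_le_sum fun v _ => h5 v
        _ = Fintype.card {w : InfinitePlace K // w ≠ w₀} * S14_M2 K := by
            rw [Finset.sum_const, Finset.card_univ, nsmul_eq_mul]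
        _ ≤ Fintype.card (InfinitePlace K) * S14_M2 K := by
            gcongr
            · exact S14_M2_nonneg
            · exact Fintype.card_subtype_le _
    have h6 : |Real.log (normAtPlace w₀ x) - a| ≤
        (mult (w₀ : InfinitePlace K) : ℝ) * |Real.log (normAtPlace w₀ x) - a| :=
      le_mul_of_one_le_left (abs_nonneg _) (S14_one_le_mult _)
    have h7 : (mult (w₀ : InfinitePlace K) : ℝ) * |Real.log (normAtPlace w₀ x) - a| =
        |∑ v : {w : InfinitePlace K // w ≠ w₀},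
          (mult v.1 : ℝ) * (Real.log (normAtPlace v.1 x) - a)| := by
      rw [← abs_neg (∑ v : {w : InfinitePlace K // w ≠ w₀}, _), ← h3, abs_mul,
        abs_of_nonneg (show (0 : ℝ) ≤ (mult (w₀ : InfinitePlace K) : ℝ) from Nat.cast_nonneg _)]
    have h8 := S14_M2_nonneg (K := K)
    unfold S14_M3
    nlinarith
  · exact (hcomp ⟨w, hw⟩).trans S14_M2_le_M3

variable (K) in
/-- comparison constant: on the support of `Φ`, `c₁ ‖x‖ ≤ normAtPlace w x`. -/
noncomputable def S14_c1 : ℝ := Real.exp (-(2 * S14_M3 K))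

lemma S14_c1_pos : 0 < S14_c1 K := Real.exp_pos _

lemma S14_c1_le_one : S14_c1 K ≤ 1 := by
  unfold S14_c1
  rw [Real.exp_le_one_iff]
  linarith [S14_M3_nonneg (K := K)]

lemma S14_c1_mul_norm_le {x : mixedSpace K} (hN : mixedEmbedding.norm x ≠ 0)
    (hx : S14_Phi K x ≠ 0) (w : InfinitePlace K) : S14_c1 K * ‖x‖ ≤ normAtPlace w x := by
  have hpos : ∀ w, 0 < normAtPlace w x := S14_normAtPlace_pos_of hN
  have hl := S14_norm_logMap_le hx
  obtain ⟨v, hv⟩ := S14_exists_normAtPlace_eq_norm x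
  have h1 := S14_abs_log_normAtPlace_sub_mean_le hN hl w
  have h2 := S14_abs_log_normAtPlace_sub_mean_le hN hl v
  rw [abs_le] at h1 h2
  have h3 : Real.log (normAtPlace v x) - 2 * S14_M3 K ≤ Real.log (normAtPlace w x) := by
    linarith [h1.1, h2.2]
  have h4 : Real.exp (Real.log (normAtPlace v x) - 2 * S14_M3 K) ≤
      Real.exp (Real.log (normAtPlace w x)) := Real.exp_le_exp.2 h3
  rw [Real.exp_log (hpos w), sub_eq_add_neg, Real.exp_add, Real.exp_log (hpos v), hv,
    mul_comm] at h4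
  exact h4

/-- on the support of `Φ`, `N(x)^{-s} ≤ exp(2 n M₃) / ‖x‖ ^ n` for `s ∈ [1, 2]`, `‖x‖ ≥ 1`. -/
lemma S14_norm_rpow_le {x : mixedSpace K} (hN : mixedEmbedding.norm x ≠ 0)
    (hx : S14_Phi K x ≠ 0) (h1 : 1 ≤ ‖x‖) {s : ℝ} (hs1 : 1 ≤ s) (hs2 : s ≤ 2) :
    mixedEmbedding.norm x ^ (-s) ≤
      Real.exp (2 * finrank ℚ K * S14_M3 K) * (‖x‖ ^ finrank ℚ K)⁻¹ := by
  have hNpos : 0 < mixedEmbedding.norm x :=
    lt_of_le_of_ne (mixedEmbedding.norm_nonneg x) (Ne.symm hN)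
  have hn := S14_finrank_pos (K := K)
  have hl := S14_norm_logMap_le hx
  obtain ⟨v, hv⟩ := S14_exists_normAtPlace_eq_norm x
  have h2 := S14_abs_log_normAtPlace_sub_mean_le hN hl v
  rw [abs_le, hv] at h2
  have hlog0 : 0 ≤ Real.log ‖x‖ := Real.log_nonneg h1
  have hM := S14_M3_nonneg (K := K)
  -- `log N ≥ n log ‖x‖ - n M₃`
  have h3 : (finrank ℚ K : ℝ) * Real.log ‖x‖ - finrank ℚ K * S14_M3 K ≤
      Real.log (mixedEmbedding.norm x) := by
    have h4 : Real.log ‖x‖ - S14_M3 K ≤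
        Real.log (mixedEmbedding.norm x) * (finrank ℚ K : ℝ)⁻¹ := by linarith [h2.2]
    have h5 := mul_le_mul_of_nonneg_left h4 hn.le
    have h6 : (finrank ℚ K : ℝ) * (Real.log (mixedEmbedding.norm x) * (finrank ℚ K : ℝ)⁻¹) =
        Real.log (mixedEmbedding.norm x) := by
      field_simp
    rw [h6] at h5
    linarith
  rw [Real.rpow_def_of_pos hNpos]
  have hxpos : 0 < ‖x‖ := lt_of_lt_of_le one_pos h1
  have e : (‖x‖ ^ finrank ℚ K)⁻¹ = Real.exp (-(finrank ℚ K * Real.log ‖x‖)) := by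
    rw [Real.exp_neg, mul_comm, Real.exp_mul, Real.exp_log hxpos, Real.rpow_natCast]
  rw [e, ← Real.exp_add]
  apply Real.exp_le_exp.2
  have h7 : 0 ≤ (finrank ℚ K : ℝ) * Real.log ‖x‖ := mul_nonneg hn.le hlog0
  have h8 : 0 ≤ (finrank ℚ K : ℝ) * S14_M3 K := mul_nonneg hn.le hM
  -- `-s log N ≤ -s (n log‖x‖ - n M₃) ≤ 2 n M₃ - n log ‖x‖`
  have h9 : Real.log (mixedEmbedding.norm x) * -s ≤
      -s * ((finrank ℚ K : ℝ) * Real.log ‖x‖ - finrank ℚ K * S14_M3 K) := by
    nlinarith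
  nlinarith

/-! ### the main estimate -/

variable (K) in
/-- the Lipschitz constant of `g_s` (up to the factor `d / ‖x‖ ^ (n + 1)`). -/
noncomputable def S14_A1 : ℝ :=
  Real.exp (2 * finrank ℚ K * S14_M3 K) * (2 / S14_c1 K) *
    (4 * rank K * S14_M1 K + 4 * finrank ℚ K)

lemma S14_A1_nonneg : 0 ≤ S14_A1 K := by
  unfold S14_A1
  have := S14_c1_pos (K := K)
  have := S14_M1_nonneg (K := K)
  positivity

lemma S14_g_ne_zero {s : ℝ} {x : mixedSpace K} (hs : 0 < s) (h : S14_g K s x ≠ 0) :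
    mixedEmbedding.norm x ≠ 0 ∧ S14_Phi K x ≠ 0 := by
  constructor
  · intro h0
    exact h (S14_g_eq_zero_of_norm_eq_zero K hs h0)
  · intro h0
    exact h (by rw [S14_g, h0, zero_mul])

lemma S14_g_sub_le_of_ne_zero {s : ℝ} (hs1 : 1 ≤ s) (hs2 : s ≤ 2) {x y : mixedSpace K} {d : ℝ}
    (hd : ‖x - y‖ ≤ d) (hgx : S14_g K s x ≠ 0) (h1 : 1 ≤ ‖x‖)
    (hR : 4 * finrank ℚ K * d ≤ S14_c1 K * ‖x‖) :
    |S14_g K s x - S14_g K s y| ≤ S14_A1 K * d * (‖x‖ ^ (finrank ℚ K + 1))⁻¹ := by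
  obtain ⟨hN, hΦ⟩ := S14_g_ne_zero (by linarith) hgx
  have hd0 : 0 ≤ d := (norm_nonneg _).trans hd
  have hc := S14_c1_pos (K := K)
  have hn := S14_finrank_pos (K := K)
  have hn1 : (1 : ℝ) ≤ finrank ℚ K := by
    exact_mod_cast (finrank_pos : 0 < finrank ℚ K)
  have hxpos : 0 < ‖x‖ := lt_of_lt_of_le one_pos h1
  set m : ℝ := S14_c1 K * ‖x‖ / 2 with hm
  have hmpos : 0 < m := by positivity
  have hdm : d ≤ m := by
    have : 4 * d ≤ 4 * finrank ℚ K * d := by nlinarith
    rw [hm]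
    linarith
  have hxm : ∀ w, m ≤ normAtPlace w x := fun w => by
    have := S14_c1_mul_norm_le hN hΦ w
    rw [hm]
    linarith [mul_pos hc hxpos]
  have hym : ∀ w, m ≤ normAtPlace w y := fun w => by
    have h2 := S14_c1_mul_norm_le hN hΦ w
    have h3 := S14_abs_normAtPlace_sub_le w x y
    rw [abs_le] at h3
    have : S14_c1 K * ‖x‖ = 2 * m := by rw [hm]; ring
    linarith [h3.2]
  have hNy : mixedEmbedding.norm y ≠ 0 := (S14_norm_pos_of fun w => hmpos.trans_le (hym w)).ne'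
  have hNxpos : 0 < mixedEmbedding.norm x :=
    lt_of_le_of_ne (mixedEmbedding.norm_nonneg x) (Ne.symm hN)
  have hNypos : 0 < mixedEmbedding.norm y :=
    lt_of_le_of_ne (mixedEmbedding.norm_nonneg y) (Ne.symm hNy)
  -- `d / m ≤ 1 / (2 n)`
  have hq : finrank ℚ K * (d / m) ≤ 1 / 2 := by
    rw [hm, ← mul_div_assoc, div_le_iff₀ (by positivity)]
    linarith
  have hq0 : 0 ≤ d / m := div_nonneg hd0 hmpos.le
  have hΦd := S14_abs_Phi_sub_le hmpos hxm hym hd
  have hL := S14_abs_log_norm_sub_le hmpos hxm hym hd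
  set L : ℝ := Real.log (mixedEmbedding.norm x) - Real.log (mixedEmbedding.norm y) with hLdef
  -- `N(y)^{-s} = N(x)^{-s} exp (s L)`
  have hNy_eq : mixedEmbedding.norm y ^ (-s) =
      mixedEmbedding.norm x ^ (-s) * Real.exp (s * L) := by
    rw [Real.rpow_def_of_pos hNypos, Real.rpow_def_of_pos hNxpos, ← Real.exp_add]
    congr 1
    rw [hLdef]
    ring
  have hsL : |s * L| ≤ 1 := by
    rw [abs_mul, abs_of_nonneg (by linarith : (0 : ℝ) ≤ s)]
    have : |L| ≤ 1 / 2 := hL.trans hq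
    nlinarith [abs_nonneg L]
  have hexp := Real.abs_exp_sub_one_le hsL
  have hP0 : 0 ≤ mixedEmbedding.norm x ^ (-s) := Real.rpow_nonneg hNxpos.le _
  have hdiffN : |mixedEmbedding.norm x ^ (-s) - mixedEmbedding.norm y ^ (-s)| ≤
      mixedEmbedding.norm x ^ (-s) * (4 * finrank ℚ K * (d / m)) := by
    rw [hNy_eq]
    have e : mixedEmbedding.norm x ^ (-s) - mixedEmbedding.norm x ^ (-s) * Real.exp (s * L) =
        -(mixedEmbedding.norm x ^ (-s) * (Real.exp (s * L) - 1)) := by ring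
    rw [e, abs_neg, abs_mul, abs_of_nonneg hP0]
    apply mul_le_mul_of_nonneg_left _ hP0
    refine hexp.trans ?_
    rw [abs_mul, abs_of_nonneg (by linarith : (0 : ℝ) ≤ s)]
    have h5 : |L| ≤ finrank ℚ K * (d / m) := hL
    have h6 : 0 ≤ (finrank ℚ K : ℝ) * (d / m) := mul_nonneg hn.le hq0
    nlinarith [abs_nonneg L]
  have hmain : |S14_g K s x - S14_g K s y| ≤ mixedEmbedding.norm x ^ (-s) *
      ((d / m) * (4 * rank K * S14_M1 K + 4 * finrank ℚ K)) := by
    have e : S14_g K s x - S14_g K s y =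
        (S14_Phi K x - S14_Phi K y) * mixedEmbedding.norm x ^ (-s) +
          S14_Phi K y * (mixedEmbedding.norm x ^ (-s) - mixedEmbedding.norm y ^ (-s)) := by
      unfold S14_g
      ring
    rw [e]
    refine (abs_add_le _ _).trans ?_
    rw [abs_mul, abs_mul, abs_of_nonneg hP0, abs_of_nonneg (S14_Phi_nonneg K y)]
    have h7 : |S14_Phi K x - S14_Phi K y| * mixedEmbedding.norm x ^ (-s) ≤
        (rank K * (S14_M1 K * (4 * (d / m)))) * mixedEmbedding.norm x ^ (-s) :=
      mul_le_mul_of_nonneg_right hΦd hP0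
    have h8 : S14_Phi K y * |mixedEmbedding.norm x ^ (-s) - mixedEmbedding.norm y ^ (-s)| ≤
        1 * (mixedEmbedding.norm x ^ (-s) * (4 * finrank ℚ K * (d / m))) :=
      mul_le_mul (S14_Phi_le_one K y) hdiffN (abs_nonneg _) zero_le_one
    calc _ ≤ (rank K * (S14_M1 K * (4 * (d / m)))) * mixedEmbedding.norm x ^ (-s) +
          1 * (mixedEmbedding.norm x ^ (-s) * (4 * finrank ℚ K * (d / m))) := add_le_add h7 h8
      _ = _ := by ring
  have hNle := S14_norm_rpow_le hN hΦ h1 hs1 hs2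
  have hB0 : 0 ≤ (d / m) * (4 * rank K * S14_M1 K + 4 * finrank ℚ K) := by
    have := S14_M1_nonneg (K := K)
    positivity
  refine hmain.trans ((mul_le_mul_of_nonneg_right hNle hB0).trans (le_of_eq ?_))
  unfold S14_A1
  rw [hm, pow_succ]
  field_simp

variable (K) in
/-- **Lipschitz estimate for `g_s`**, uniform in `s ∈ [1, 2]`. -/
theorem S14_g_sub_le (d : ℝ) (hd0 : 0 ≤ d) :
    ∃ R A : ℝ, 1 ≤ R ∧ 0 ≤ A ∧ ∀ s : ℝ, 1 ≤ s → s ≤ 2 → ∀ x y : mixedSpace K,
      ‖x - y‖ ≤ d → R ≤ ‖x‖ →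
        |S14_g K s x - S14_g K s y| ≤ A * (‖x‖ ^ (finrank ℚ K + 1))⁻¹ := by
  have hc := S14_c1_pos (K := K)
  have hn := S14_finrank_pos (K := K)
  have hA1 := S14_A1_nonneg (K := K)
  have hq : 0 ≤ 4 * finrank ℚ K * d / S14_c1 K := by positivity
  refine ⟨1 + 4 * finrank ℚ K * d / S14_c1 K + 2 * d,
    2 ^ (finrank ℚ K + 1) * (S14_A1 K * d), by linarith, by positivity, ?_⟩
  intro s hs1 hs2 x y hd hR
  have hx1 : 1 ≤ ‖x‖ := by linarith
  have hxpos : 0 < ‖x‖ := lt_of_lt_of_le one_pos hx1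
  have hxR : 4 * finrank ℚ K * d ≤ S14_c1 K * ‖x‖ := by
    have : 4 * finrank ℚ K * d / S14_c1 K ≤ ‖x‖ := by linarith
    rwa [div_le_iff₀ hc, mul_comm ‖x‖] at this
  have hpow0 : 0 ≤ (‖x‖ ^ (finrank ℚ K + 1))⁻¹ := by positivity
  by_cases hgx : S14_g K s x = 0
  · by_cases hgy : S14_g K s y = 0
    · rw [hgx, hgy, sub_zero, abs_zero]
      positivity
    · -- apply the lemma to `(y, x)`
      have hyx : ‖y‖ ≥ ‖x‖ - d := by
        have := norm_sub_norm_le x y
        linarith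
      have hy1 : 1 ≤ ‖y‖ := by linarith
      have hyR : 4 * finrank ℚ K * d ≤ S14_c1 K * ‖y‖ := by
        have : 4 * finrank ℚ K * d / S14_c1 K ≤ ‖y‖ := by linarith
        rwa [div_le_iff₀ hc, mul_comm ‖y‖] at this
      have hd' : ‖y - x‖ ≤ d := by rwa [norm_sub_rev]
      have h := S14_g_sub_le_of_ne_zero hs1 hs2 hd' hgy hy1 hyR
      rw [abs_sub_comm] at h
      refine h.trans ?_
      have hy2 : ‖x‖ / 2 ≤ ‖y‖ := by linarith
      have hpow : (‖x‖ / 2) ^ (finrank ℚ K + 1) ≤ ‖y‖ ^ (finrank ℚ K + 1) :=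
        pow_le_pow_left₀ (by positivity) hy2 _
      have hinv : (‖y‖ ^ (finrank ℚ K + 1))⁻¹ ≤ ((‖x‖ / 2) ^ (finrank ℚ K + 1))⁻¹ :=
        inv_anti₀ (by positivity) hpow
      calc S14_A1 K * d * (‖y‖ ^ (finrank ℚ K + 1))⁻¹
          ≤ S14_A1 K * d * ((‖x‖ / 2) ^ (finrank ℚ K + 1))⁻¹ := by gcongr
        _ = 2 ^ (finrank ℚ K + 1) * (S14_A1 K * d) * (‖x‖ ^ (finrank ℚ K + 1))⁻¹ := by
            rw [div_pow, inv_div]
            field_simp
  · refine (S14_g_sub_le_of_ne_zero hs1 hs2 hd hgx hx1 hxR).trans ?_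
    have h2 : (1 : ℝ) ≤ 2 ^ (finrank ℚ K + 1) := one_le_pow₀ (by norm_num)
    have h3 : 0 ≤ S14_A1 K * d := mul_nonneg hA1 hd0
    calc S14_A1 K * d * (‖x‖ ^ (finrank ℚ K + 1))⁻¹
        = 1 * (S14_A1 K * d) * (‖x‖ ^ (finrank ℚ K + 1))⁻¹ := by ring
      _ ≤ 2 ^ (finrank ℚ K + 1) * (S14_A1 K * d) * (‖x‖ ^ (finrank ℚ K + 1))⁻¹ := by
          gcongr

end Fermat.Agent.S14
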