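import Mathlib
import Fermat.Agent.S14.ClassZetaLip

/-!
# S14 block N2b, part 4: the sums of `g_s` over `𝓞 K`

`S14_f K s α = g_s(α)` for `α : 𝓞 K`; bounds, summability, and the shift bound
`∑_α |f_s(α + c) - f_s(α)| ≤ B(c)` uniformly in `s ∈ (1, 2]`.
-/

set_option linter.unusedSectionVars false
set_option linter.unusedVariables false
set_option linter.style.longLine false

namespace Fermat.Agent.S14

open NumberField NumberField.mixedEmbedding NumberField.Units NumberField.InfinitePlace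
open NumberField.Units.dirichletUnitTheorem Module

variable (K : Type*) [Field K] [NumberField K]

open scoped Classical

/-- the embedding of `𝓞 K` in the mixed space. -/
noncomputable def S14_emb (α : 𝓞 K) : mixedSpace K := mixedEmbedding K (α : K)

lemma S14_emb_zero : S14_emb K 0 = 0 := by
  simp [S14_emb]

lemma S14_emb_add (α β : 𝓞 K) : S14_emb K (α + β) = S14_emb K α + S14_emb K β := by
  simp [S14_emb]

lemma S14_emb_mul (α β : 𝓞 K) : S14_emb K (α * β) = S14_emb K α * S14_emb K β := by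
  simp [S14_emb]

lemma S14_emb_injective : Function.Injective (S14_emb K) := by
  intro a b h
  exact RingOfIntegers.coe_injective (mixedEmbedding_injective K h)

lemma S14_emb_eq_zero_iff {α : 𝓞 K} : S14_emb K α = 0 ↔ α = 0 := by
  rw [← S14_emb_zero K]
  exact (S14_emb_injective K).eq_iff

/-- `N(x_α) = N((α))`. -/
lemma S14_norm_emb (α : 𝓞 K) :
    mixedEmbedding.norm (S14_emb K α) = (Ideal.absNorm (Ideal.span {α}) : ℝ) := by
  rw [S14_emb, mixedEmbedding.norm_eq_norm, Ideal.absNorm_span_singleton, ← Algebra.coe_norm_int,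
    Nat.cast_natAbs]
  push_cast
  rfl

lemma S14_one_le_norm_emb {α : 𝓞 K} (hα : α ≠ 0) :
    1 ≤ mixedEmbedding.norm (S14_emb K α) := by
  rw [S14_norm_emb]
  have h : Ideal.absNorm (Ideal.span {α}) ≠ 0 := by
    rw [Ne, Ideal.absNorm_eq_zero_iff, Ideal.span_singleton_eq_bot]
    exact hα
  exact_mod_cast Nat.one_le_iff_ne_zero.2 h

variable {K} in
lemma S14_norm_le_norm_pow (x : mixedSpace K) :
    mixedEmbedding.norm x ≤ ‖x‖ ^ finrank ℚ K := by
  rw [mixedEmbedding.norm_apply, ← sum_mult_eq, ← Finset.prod_pow_eq_pow_sum]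
  apply Finset.prod_le_prod
  · intro w _
    exact pow_nonneg (normAtPlace_nonneg w x) _
  · intro w _
    exact pow_le_pow_left₀ (normAtPlace_nonneg w x) (S14_normAtPlace_le_norm w x) _

lemma S14_one_le_norm_emb' {α : 𝓞 K} (hα : α ≠ 0) : 1 ≤ ‖S14_emb K α‖ := by
  by_contra h
  replace h := not_le.1 h
  have h1 := S14_one_le_norm_emb K hα
  have h2 := S14_norm_le_norm_pow (S14_emb K α)
  have hn : finrank ℚ K ≠ 0 := Module.finrank_pos.ne'
  have h3 : ‖S14_emb K α‖ ^ finrank ℚ K < 1 := pow_lt_one₀ (norm_nonneg _) h hn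
  linarith

/-- `f_s(α) = g_s(x_α)`. -/
noncomputable def S14_f (s : ℝ) (α : 𝓞 K) : ℝ := S14_g K s (S14_emb K α)

lemma S14_f_nonneg (s : ℝ) (α : 𝓞 K) : 0 ≤ S14_f K s α := S14_g_nonneg K s _

lemma S14_f_zero {s : ℝ} (hs : 0 < s) : S14_f K s 0 = 0 := by
  rw [S14_f, S14_emb_zero]
  exact S14_g_eq_zero_of_norm_eq_zero K hs (map_zero _)

lemma S14_f_le_one {s : ℝ} (hs : 0 < s) (α : 𝓞 K) : S14_f K s α ≤ 1 := by
  by_cases hα : α = 0
  · rw [hα, S14_f_zero K hs]
    exact zero_le_one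
  · rw [S14_f, S14_g]
    have h1 := S14_one_le_norm_emb K hα
    have h2 : mixedEmbedding.norm (S14_emb K α) ^ (-s) ≤ 1 :=
      Real.rpow_le_one_of_one_le_of_nonpos h1 (by linarith)
    have h3 := S14_Phi_le_one K (S14_emb K α)
    have h4 := S14_Phi_nonneg K (S14_emb K α)
    have h5 : 0 ≤ mixedEmbedding.norm (S14_emb K α) ^ (-s) :=
      Real.rpow_nonneg (mixedEmbedding.norm_nonneg _) _
    calc S14_Phi K (S14_emb K α) * mixedEmbedding.norm (S14_emb K α) ^ (-s)
        ≤ 1 * 1 := mul_le_mul h3 h2 h5 zero_le_one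
      _ = 1 := one_mul 1

lemma S14_abs_f_sub_le_one {s : ℝ} (hs : 0 < s) (α β : 𝓞 K) :
    |S14_f K s α - S14_f K s β| ≤ 1 := by
  rw [abs_le]
  constructor <;>
  linarith [S14_f_le_one K hs α, S14_f_le_one K hs β, S14_f_nonneg K s α, S14_f_nonneg K s β]

variable {K} in
/-- on the support of `Φ`: `(c₁ ‖x‖)^n ≤ N(x)`. -/
lemma S14_c1_norm_pow_le {x : mixedSpace K} (hN : mixedEmbedding.norm x ≠ 0)
    (hx : S14_Phi K x ≠ 0) : (S14_c1 K * ‖x‖) ^ finrank ℚ K ≤ mixedEmbedding.norm x := by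
  rw [mixedEmbedding.norm_apply, ← sum_mult_eq, ← Finset.prod_pow_eq_pow_sum]
  apply Finset.prod_le_prod
  · intro w _
    exact pow_nonneg (mul_nonneg S14_c1_pos.le (norm_nonneg _)) _
  · intro w _
    exact pow_le_pow_left₀ (mul_nonneg S14_c1_pos.le (norm_nonneg _))
      (S14_c1_mul_norm_le hN hx w) _

/-- the bijection of `𝓞 K` with the integer lattice. -/
noncomputable def S14_latEquiv : 𝓞 K ≃ mixedEmbedding.integerLattice K :=
  (LinearEquiv.ofInjective
    ((mixedEmbedding K).comp (algebraMap (𝓞 K) K)).toIntAlgHom.toLinearMap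
    (by intro a b h; exact S14_emb_injective K h)).toEquiv

lemma S14_latEquiv_coe (α : 𝓞 K) :
    ((S14_latEquiv K α : mixedEmbedding.integerLattice K) : mixedSpace K) = S14_emb K α := rfl

lemma S14_summable_norm_rpow {r : ℝ} (hr : r < -(finrank ℚ K : ℝ)) :
    Summable (fun α : 𝓞 K => ‖S14_emb K α‖ ^ r) := by
  have h := ZLattice.summable_norm_rpow (mixedEmbedding.integerLattice K) r (by
    rw [ZLattice.rank ℝ, mixedEmbedding.finrank]; exact hr)
  have h2 := (S14_latEquiv K).summable_iff.2 h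
  refine h2.congr ?_
  intro α
  rfl

/-- pointwise bound for `f_s`. -/
lemma S14_f_le_rpow {s : ℝ} (hs : 0 < s) (α : 𝓞 K) :
    S14_f K s α ≤ (S14_c1 K) ^ (-(finrank ℚ K * s)) * ‖S14_emb K α‖ ^ (-(finrank ℚ K * s)) := by
  have hn := S14_finrank_pos (K := K)
  have hc := S14_c1_pos (K := K)
  have hR : 0 ≤ (S14_c1 K) ^ (-(finrank ℚ K * s)) * ‖S14_emb K α‖ ^ (-(finrank ℚ K * s)) :=
    mul_nonneg (Real.rpow_nonneg hc.le _) (Real.rpow_nonneg (norm_nonneg _) _)
  by_cases h0 : S14_f K s α = 0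
  · rw [h0]; exact hR
  obtain ⟨hN, hΦ⟩ := S14_g_ne_zero hs h0
  have hNpos : 0 < mixedEmbedding.norm (S14_emb K α) :=
    lt_of_le_of_ne (mixedEmbedding.norm_nonneg _) (Ne.symm hN)
  have hx0 : S14_emb K α ≠ 0 := by
    intro h
    rw [h, map_zero] at hN
    exact hN rfl
  have hxpos : 0 < ‖S14_emb K α‖ := norm_pos_iff.2 hx0
  have h1 := S14_c1_norm_pow_le hN hΦ
  have hcx : 0 < S14_c1 K * ‖S14_emb K α‖ := mul_pos hc hxpos
  have h2 : mixedEmbedding.norm (S14_emb K α) ^ (-s) ≤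
      ((S14_c1 K * ‖S14_emb K α‖) ^ finrank ℚ K) ^ (-s) :=
    Real.rpow_le_rpow_of_nonpos (pow_pos hcx _) h1 (by linarith)
  have h3 : ((S14_c1 K * ‖S14_emb K α‖) ^ finrank ℚ K) ^ (-s) =
      (S14_c1 K) ^ (-(finrank ℚ K * s)) * ‖S14_emb K α‖ ^ (-(finrank ℚ K * s)) := by
    rw [← Real.rpow_natCast, ← Real.rpow_mul hcx.le, Real.mul_rpow hc.le hxpos.le]
    congr 2 <;> ring
  rw [S14_f, S14_g]
  calc S14_Phi K (S14_emb K α) * mixedEmbedding.norm (S14_emb K α) ^ (-s)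
      ≤ 1 * mixedEmbedding.norm (S14_emb K α) ^ (-s) :=
        mul_le_mul_of_nonneg_right (S14_Phi_le_one K _) (Real.rpow_nonneg hNpos.le _)
    _ = mixedEmbedding.norm (S14_emb K α) ^ (-s) := one_mul _
    _ ≤ _ := h2
    _ = _ := h3

theorem S14_f_summable {s : ℝ} (hs : 1 < s) : Summable (S14_f K s) := by
  have hn := S14_finrank_pos (K := K)
  have hr : -(finrank ℚ K * s) < -(finrank ℚ K : ℝ) := by
    nlinarith
  have h := (S14_summable_norm_rpow K hr).mul_left ((S14_c1 K) ^ (-(finrank ℚ K * s)))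
  exact Summable.of_nonneg_of_le (S14_f_nonneg K s) (S14_f_le_rpow K (by linarith)) h

/-- the majorant for the shift bound. -/
noncomputable def S14_maj (A : ℝ) (α : 𝓞 K) : ℝ :=
  (if α = 0 then 1 else 0) + A * ‖S14_emb K α‖ ^ (-((finrank ℚ K : ℝ) + 1))

lemma S14_maj_summable (A : ℝ) : Summable (S14_maj K A) := by
  have h1 : Summable (fun α : 𝓞 K => if α = 0 then (1 : ℝ) else 0) :=
    (hasSum_ite_eq (0 : 𝓞 K) (1 : ℝ)).summable
  have h2 : Summable (fun α : 𝓞 K => A * ‖S14_emb K α‖ ^ (-((finrank ℚ K : ℝ) + 1))) :=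
    (S14_summable_norm_rpow K (by linarith)).mul_left A
  exact h1.add h2

/-- **shift bound**: `∑_α |f_s(α + c) - f_s(α)| ≤ B`, uniformly in `s ∈ (1, 2]`. -/
theorem S14_shift_bound (c : 𝓞 K) :
    ∃ B : ℝ, ∀ s : ℝ, 1 < s → s ≤ 2 →
      Summable (fun α : 𝓞 K => |S14_f K s (α + c) - S14_f K s α|) ∧
      ∑' α : 𝓞 K, |S14_f K s (α + c) - S14_f K s α| ≤ B := by
  obtain ⟨R, A, hR1, hA0, hRA⟩ := S14_g_sub_le K ‖S14_emb K c‖ (norm_nonneg _)
  have hRn : 0 ≤ R ^ (finrank ℚ K + 1) := pow_nonneg (by linarith) _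
  refine ⟨∑' α, S14_maj K (A + R ^ (finrank ℚ K + 1)) α, ?_⟩
  intro s hs1 hs2
  have hs0 : 0 < s := by linarith
  have hle : ∀ α : 𝓞 K, |S14_f K s (α + c) - S14_f K s α| ≤
      S14_maj K (A + R ^ (finrank ℚ K + 1)) α := by
    intro α
    unfold S14_maj
    by_cases hα : α = 0
    · rw [if_pos hα]
      have h1 := S14_abs_f_sub_le_one K hs0 (α + c) α
      have h2 : 0 ≤ (A + R ^ (finrank ℚ K + 1)) *
          ‖S14_emb K α‖ ^ (-((finrank ℚ K : ℝ) + 1)) :=
        mul_nonneg (by linarith) (Real.rpow_nonneg (norm_nonneg _) _)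
      linarith
    · rw [if_neg hα, zero_add]
      have hx1 := S14_one_le_norm_emb' K hα
      have hxpos : 0 < ‖S14_emb K α‖ := by linarith
      have hpow : ‖S14_emb K α‖ ^ (-((finrank ℚ K : ℝ) + 1)) =
          (‖S14_emb K α‖ ^ (finrank ℚ K + 1))⁻¹ := by
        rw [Real.rpow_neg hxpos.le, ← Real.rpow_natCast]
        push_cast
        rfl
      rw [hpow]
      have hpp : 0 < ‖S14_emb K α‖ ^ (finrank ℚ K + 1) := pow_pos hxpos _
      by_cases hR : R ≤ ‖S14_emb K α‖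
      · have h1 := hRA s hs1.le hs2 (S14_emb K α) (S14_emb K (α + c))
          (by rw [S14_emb_add, sub_add_cancel_left, norm_neg]) hR
        rw [abs_sub_comm]
        calc |S14_f K s α - S14_f K s (α + c)|
            ≤ A * (‖S14_emb K α‖ ^ (finrank ℚ K + 1))⁻¹ := h1
          _ ≤ (A + R ^ (finrank ℚ K + 1)) * (‖S14_emb K α‖ ^ (finrank ℚ K + 1))⁻¹ := by
              apply mul_le_mul_of_nonneg_right _ (inv_nonneg.2 hpp.le)
              linarith
      · replace hR := not_le.1 hR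
        have h1 := S14_abs_f_sub_le_one K hs0 (α + c) α
        have h2 : ‖S14_emb K α‖ ^ (finrank ℚ K + 1) ≤ R ^ (finrank ℚ K + 1) :=
          pow_le_pow_left₀ hxpos.le hR.le _
        have h3 : 1 ≤ R ^ (finrank ℚ K + 1) * (‖S14_emb K α‖ ^ (finrank ℚ K + 1))⁻¹ := by
          rw [← div_eq_mul_inv, le_div_iff₀ hpp, one_mul]
          exact h2
        calc |S14_f K s (α + c) - S14_f K s α| ≤ 1 := h1
          _ ≤ R ^ (finrank ℚ K + 1) * (‖S14_emb K α‖ ^ (finrank ℚ K + 1))⁻¹ := h3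
          _ ≤ (A + R ^ (finrank ℚ K + 1)) * (‖S14_emb K α‖ ^ (finrank ℚ K + 1))⁻¹ := by
              apply mul_le_mul_of_nonneg_right _ (inv_nonneg.2 hpp.le)
              linarith
  have hsum : Summable (fun α : 𝓞 K => |S14_f K s (α + c) - S14_f K s α|) :=
    Summable.of_nonneg_of_le (fun _ => abs_nonneg _) hle (S14_maj_summable K _)
  exact ⟨hsum, hsum.tsum_le_tsum hle (S14_maj_summable K _)⟩

end Fermat.Agent.S14
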