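import Mathlib
import Fermat.Agent.S14.ClassZetaSum
import Fermat.Agent.S14.ClassZetaAux

/-!
# S14 block N2b, part 6: the orbit decomposition
`∑_{β ∈ J} f_s(β) = w · N(J)^{-s} · ζ(s, C)` for `[J] = C⁻¹`.
-/

set_option linter.unusedSectionVars false
set_option linter.unusedVariables false
set_option linter.style.longLine false

namespace Fermat.Agent.S14

open NumberField NumberField.mixedEmbedding NumberField.Units NumberField.InfinitePlace
open NumberField.Units.dirichletUnitTheorem Module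
open scoped nonZeroDivisors

variable (K : Type*) [Field K] [NumberField K]

open scoped Classical

/-- `x_{uβ} = u • x_β`. -/
lemma S14_emb_unit_mul (u : (𝓞 K)ˣ) (β : 𝓞 K) :
    S14_emb K ((u : 𝓞 K) * β) = u • S14_emb K β := by
  rw [unitSMul_smul, S14_emb_mul]
  rfl

/-- the sum of `f_s` over a unit orbit. -/
lemma S14_hasSum_units_f (s : ℝ) {β : 𝓞 K} (hβ : β ≠ 0) :
    HasSum (fun u : (𝓞 K)ˣ => S14_f K s ((u : 𝓞 K) * β))
      (torsionOrder K * (Ideal.absNorm (Ideal.span {β}) : ℝ) ^ (-s)) := by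
  have hN : mixedEmbedding.norm (S14_emb K β) ≠ 0 := by
    have := S14_one_le_norm_emb K hβ
    intro h
    rw [h] at this
    linarith
  have h := (S14_Phi_hasSum_units K hN).mul_right (mixedEmbedding.norm (S14_emb K β) ^ (-s))
  have hfun : (fun u : (𝓞 K)ˣ => S14_f K s ((u : 𝓞 K) * β)) =
      fun u => S14_Phi K (u • S14_emb K β) * mixedEmbedding.norm (S14_emb K β) ^ (-s) := by
    funext u
    rw [S14_f, S14_emb_unit_mul, S14_g, norm_unit_smul]
  rw [hfun, ← S14_norm_emb]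
  exact h

/-- **P3**: orbit decomposition of the sum over an ideal `J` in the class `C⁻¹`. -/
theorem S14_orbit_sum (C : ClassGroup (𝓞 K)) (J : (Ideal (𝓞 K))⁰)
    (hJ : ClassGroup.mk0 J = C⁻¹) {s : ℝ} (hs : 1 < s) :
    Summable (fun I : {I : (Ideal (𝓞 K))⁰ // ClassGroup.mk0 I = C} =>
      (Ideal.absNorm I.1.1 : ℝ) ^ (-s)) ∧
    ∑' b : J.1, S14_f K s (b : 𝓞 K) =
      torsionOrder K * (Ideal.absNorm J.1 : ℝ) ^ (-s) *
        ∑' I : {I : (Ideal (𝓞 K))⁰ // ClassGroup.mk0 I = C}, (Ideal.absNorm I.1.1 : ℝ) ^ (-s) := by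
  obtain ⟨gen, e, hgen, he⟩ := S14_class_orbit_equiv K C J hJ
  have hs0 : 0 < s := by linarith
  have hf := S14_f_summable K hs
  have hJ0 : J.1 ≠ ⊥ := nonZeroDivisors.coe_ne_zero J
  have hNJ : (0 : ℝ) < Ideal.absNorm J.1 := by
    have := (Ideal.absNorm_eq_zero_iff (I := J.1)).not.2 hJ0
    exact_mod_cast Nat.pos_of_ne_zero this
  have hw : (0 : ℝ) < torsionOrder K := by
    exact_mod_cast torsionOrder_pos K
  have hgen0 : ∀ I, gen I ≠ 0 := by
    intro I h0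
    have h1 := hgen I
    rw [h0, Ideal.span_singleton_eq_bot.2 rfl] at h1
    have hI0 : I.1.1 ≠ ⊥ := nonZeroDivisors.coe_ne_zero I.1
    exact (mul_ne_zero hI0 hJ0) h1.symm
  -- the sum over nonzero elements of `J`
  have hsub : Summable (fun b : {β : 𝓞 K // β ∈ J.1 ∧ β ≠ 0} => S14_f K s b.1) :=
    hf.subtype {β : 𝓞 K | β ∈ J.1 ∧ β ≠ 0}
  have hprod : Summable (fun p : {I : (Ideal (𝓞 K))⁰ // ClassGroup.mk0 I = C} × (𝓞 K)ˣ =>
      S14_f K s (e p).1) := (e.summable_iff).2 hsub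
  have hinner : ∀ I : {I : (Ideal (𝓞 K))⁰ // ClassGroup.mk0 I = C},
      HasSum (fun u : (𝓞 K)ˣ => S14_f K s (e (I, u)).1)
        (torsionOrder K * (Ideal.absNorm J.1 : ℝ) ^ (-s) * (Ideal.absNorm I.1.1 : ℝ) ^ (-s)) := by
    intro I
    have h := S14_hasSum_units_f K s (hgen0 I)
    rw [hgen I, map_mul] at h
    push_cast at h
    rw [Real.mul_rpow (Nat.cast_nonneg _) (Nat.cast_nonneg _)] at h
    have hfun : (fun u : (𝓞 K)ˣ => S14_f K s (e (I, u)).1) =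
        fun u : (𝓞 K)ˣ => S14_f K s ((u : 𝓞 K) * gen I) := by
      funext u
      rw [he]
    rw [hfun]
    convert h using 1
    ring
  have houter := HasSum.prod_fiberwise hprod.hasSum hinner
  have hc : torsionOrder K * (Ideal.absNorm J.1 : ℝ) ^ (-s) ≠ 0 :=
    mul_ne_zero hw.ne' (Real.rpow_pos_of_pos hNJ _).ne'
  have hsum : Summable (fun I : {I : (Ideal (𝓞 K))⁰ // ClassGroup.mk0 I = C} =>
      (Ideal.absNorm I.1.1 : ℝ) ^ (-s)) :=
    (summable_mul_left_iff hc).1 houter.summable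
  refine ⟨hsum, ?_⟩
  have h1 : ∑' b : J.1, S14_f K s (b : 𝓞 K) =
      ∑' x, (J.1 : Set (𝓞 K)).indicator (S14_f K s) x :=
    tsum_subtype (J.1 : Set (𝓞 K)) (S14_f K s)
  have h2 : ∑' b : {β : 𝓞 K // β ∈ J.1 ∧ β ≠ 0}, S14_f K s b.1 =
      ∑' x, {β : 𝓞 K | β ∈ J.1 ∧ β ≠ 0}.indicator (S14_f K s) x :=
    tsum_subtype {β : 𝓞 K | β ∈ J.1 ∧ β ≠ 0} (S14_f K s)
  have h3 : (J.1 : Set (𝓞 K)).indicator (S14_f K s) =
      {β : 𝓞 K | β ∈ J.1 ∧ β ≠ 0}.indicator (S14_f K s) := by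
    funext x
    by_cases hx : x = 0
    · rw [hx, Set.indicator_apply, Set.indicator_apply, S14_f_zero K hs0]
      simp
    · by_cases hxJ : x ∈ J.1
      · rw [Set.indicator_of_mem (show x ∈ (J.1 : Set (𝓞 K)) from hxJ),
          Set.indicator_of_mem (show x ∈ {β : 𝓞 K | β ∈ J.1 ∧ β ≠ 0} from ⟨hxJ, hx⟩)]
      · rw [Set.indicator_of_notMem (show x ∉ (J.1 : Set (𝓞 K)) from hxJ),
          Set.indicator_of_notMem (show x ∉ {β : 𝓞 K | β ∈ J.1 ∧ β ≠ 0} from fun h => hxJ h.1)]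
  have h4 : ∑' p : {I : (Ideal (𝓞 K))⁰ // ClassGroup.mk0 I = C} × (𝓞 K)ˣ, S14_f K s (e p).1 =
      ∑' b : {β : 𝓞 K // β ∈ J.1 ∧ β ≠ 0}, S14_f K s b.1 :=
    e.tsum_eq (fun b : {β : 𝓞 K // β ∈ J.1 ∧ β ≠ 0} => S14_f K s b.1)
  rw [h1, h3, ← h2, ← h4, ← houter.tsum_eq, tsum_mul_left]

end Fermat.Agent.S14
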