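import Mathlib
import Fermat.Agent.S14.ClassZetaSum
import Fermat.Agent.S14.ClassZetaAux

/-!
# S14 block N2b, part 5: coset comparison for ideals, self-similarity, the bound `S(s) ≪ 1/(s-1)`
-/

set_option linter.unusedSectionVars false
set_option linter.unusedVariables false
set_option linter.style.longLine false

namespace Fermat.Agent.S14

open NumberField NumberField.mixedEmbedding NumberField.Units NumberField.InfinitePlace
open NumberField.Units.dirichletUnitTheorem Module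

variable (K : Type*) [Field K] [NumberField K]

open scoped Classical

/-- `x_{2α} = 2 • x_α`. -/
lemma S14_emb_two_mul (α : 𝓞 K) : S14_emb K (2 * α) = (2 : ℝ) • S14_emb K α := by
  rw [two_mul, S14_emb_add, two_smul]

/-- self-similarity: `f_s(2α) = 2^{-ns} f_s(α)`. -/
lemma S14_f_two_mul {s : ℝ} (hs : 0 < s) (α : 𝓞 K) :
    S14_f K s (2 * α) = (2 : ℝ) ^ (-(finrank ℚ K : ℝ) * s) * S14_f K s α := by
  by_cases hα : α = 0
  · rw [hα, mul_zero, S14_f_zero K hs, mul_zero]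
  have hN : mixedEmbedding.norm (S14_emb K α) ≠ 0 := by
    have := S14_one_le_norm_emb K hα
    intro h
    rw [h] at this
    linarith
  have hNn := mixedEmbedding.norm_nonneg (S14_emb K α)
  rw [S14_f, S14_f, S14_emb_two_mul, S14_g, S14_g, S14_Phi, S14_Phi]
  have hc : S14_coord K ((2 : ℝ) • S14_emb K α) = S14_coord K (S14_emb K α) := by
    funext i
    unfold S14_coord
    rw [logMap_real_smul hN (by norm_num : (2 : ℝ) ≠ 0)]
  rw [hc, mixedEmbedding.norm_smul, abs_of_pos (by norm_num : (0 : ℝ) < 2),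
    Real.mul_rpow (by positivity) hNn, ← Real.rpow_natCast, ← Real.rpow_mul (by norm_num)]
  have he : (finrank ℚ K : ℝ) * -s = -(finrank ℚ K : ℝ) * s := by ring
  rw [he]
  ring

/-- **P5**: coset comparison for a nonzero ideal, uniformly in `s ∈ (1, 2]`. -/
theorem S14_ideal_compare (J : Ideal (𝓞 K)) (hJ : J ≠ ⊥) :
    ∃ B : ℝ, ∀ s : ℝ, 1 < s → s ≤ 2 →
      |∑' α : 𝓞 K, S14_f K s α -
        (Ideal.absNorm J : ℝ) * ∑' b : J, S14_f K s (b : 𝓞 K)| ≤ B := by
  have hfin : Finite (𝓞 K ⧸ J.toAddSubgroup) := by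
    have h0 : J.toAddSubgroup.index ≠ 0 := by
      have := (Ideal.absNorm_eq_zero_iff (I := J)).not.2 hJ
      exact this
    haveI : J.toAddSubgroup.FiniteIndex := ⟨h0⟩
    exact AddSubgroup.finite_quotient_of_finiteIndex
  obtain ⟨reps, hreps⟩ := S14_coset_sum_compare (G := 𝓞 K) J.toAddSubgroup
  choose B hB using S14_shift_bound K
  refine ⟨∑ c ∈ reps, B c, ?_⟩
  intro s hs1 hs2
  have h := hreps (S14_f K s) B (S14_f_summable K hs1) (fun c _ => hB c s hs1 hs2)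
  exact h

/-- multiplication by `2` as a bijection onto the ideal `(2)`. -/
noncomputable def S14_twoEquiv : 𝓞 K ≃ (Ideal.span {(2 : 𝓞 K)} : Ideal (𝓞 K)) :=
  Equiv.ofBijective
    (fun α => ⟨2 * α, Ideal.mem_span_singleton'.2 ⟨α, mul_comm _ _⟩⟩)
    ⟨fun a b h => by
      have h2 : (2 : 𝓞 K) * a = 2 * b := congrArg Subtype.val h
      exact mul_left_cancel₀ (two_ne_zero) h2,
     fun b => by
      obtain ⟨a, ha⟩ := Ideal.mem_span_singleton'.1 b.2
      exact ⟨a, Subtype.ext (by rw [← ha, mul_comm])⟩⟩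

lemma S14_twoEquiv_coe (α : 𝓞 K) : ((S14_twoEquiv K α : _) : 𝓞 K) = 2 * α := rfl

lemma S14_absNorm_span_two :
    Ideal.absNorm (Ideal.span {(2 : 𝓞 K)}) = 2 ^ finrank ℚ K := by
  have h := Ideal.absNorm_span_natCast (S := 𝓞 K) 2
  rw [RingOfIntegers.rank] at h
  exact_mod_cast h

lemma S14_tsum_span_two {s : ℝ} (hs : 0 < s) :
    ∑' b : (Ideal.span {(2 : 𝓞 K)} : Ideal (𝓞 K)), S14_f K s (b : 𝓞 K) =
      (2 : ℝ) ^ (-(finrank ℚ K : ℝ) * s) * ∑' α : 𝓞 K, S14_f K s α := by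
  rw [← (S14_twoEquiv K).tsum_eq, ← tsum_mul_left]
  congr 1
  funext α
  rw [S14_twoEquiv_coe, S14_f_two_mul K hs]

/-- self-similarity comparison: `|S(s) - 2^n 2^{-ns} S(s)| ≤ B₂` on `(1, 2]`. -/
theorem S14_two_compare :
    ∃ B : ℝ, ∀ s : ℝ, 1 < s → s ≤ 2 →
      |∑' α : 𝓞 K, S14_f K s α - (2 : ℝ) ^ (finrank ℚ K) *
        ((2 : ℝ) ^ (-(finrank ℚ K : ℝ) * s) * ∑' α : 𝓞 K, S14_f K s α)| ≤ B := by
  have h2 : (Ideal.span {(2 : 𝓞 K)} : Ideal (𝓞 K)) ≠ ⊥ := by
    rw [Ne, Ideal.span_singleton_eq_bot]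
    exact two_ne_zero
  obtain ⟨B, hB⟩ := S14_ideal_compare K _ h2
  refine ⟨B, fun s hs1 hs2 => ?_⟩
  have h := hB s hs1 hs2
  rw [S14_absNorm_span_two, S14_tsum_span_two K (by linarith)] at h
  push_cast at h
  exact h

end Fermat.Agent.S14
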