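import Mathlib
import Fermat.Agent.S14.ClassZetaSelf
import Fermat.Agent.S14.ClassZetaOrbit

/-!
# S14 block N2b: partial zeta functions of ideal classes

* `S14_classZeta K s C = ∑_{I ∈ C} N(I)^{-s}`;
* `S14_classZeta_summable`: convergence for `s > 1`;
* `S14_classZeta_sub_bounded`: `|ζ(s, C) - ζ(s, C')| ≤ B` uniformly for `s ∈ (1, 2]`.

The proof is integral-free: partition of unity for the unit action (`S14_Phi`), Lipschitz
estimate (`S14_g_sub_le`), coset comparison and self-similarity under `α ↦ 2α`.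
-/

set_option linter.unusedSectionVars false
set_option linter.unusedVariables false
set_option linter.style.longLine false

namespace Fermat.Agent.S14

open NumberField NumberField.mixedEmbedding NumberField.Units NumberField.InfinitePlace
open NumberField.Units.dirichletUnitTheorem Module
open scoped nonZeroDivisors

variable (K : Type*) [Field K] [NumberField K]

open scoped Classical

/-- the partial zeta function of the ideal class `C` at the real point `s`. -/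
noncomputable def S14_classZeta (s : ℝ) (C : ClassGroup (𝓞 K)) : ℝ :=
  ∑' I : {I : (Ideal (𝓞 K))⁰ // ClassGroup.mk0 I = C}, (Ideal.absNorm I.1.1 : ℝ) ^ (-s)

lemma S14_classZeta_nonneg (s : ℝ) (C : ClassGroup (𝓞 K)) : 0 ≤ S14_classZeta K s C :=
  tsum_nonneg fun _ => Real.rpow_nonneg (Nat.cast_nonneg _) _

/-- **convergence of the partial zeta function** for `s > 1`. -/
theorem S14_classZeta_summable (C : ClassGroup (𝓞 K)) {s : ℝ} (hs : 1 < s) :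
    Summable (fun I : {I : (Ideal (𝓞 K))⁰ // ClassGroup.mk0 I = C} =>
      (Ideal.absNorm I.1.1 : ℝ) ^ (-s)) := by
  obtain ⟨J, hJ⟩ := ClassGroup.mk0_surjective (C⁻¹)
  exact (S14_orbit_sum K C J hJ hs).1

lemma S14_cz_one_le_absNorm (J : (Ideal (𝓞 K))⁰) : (1 : ℝ) ≤ Ideal.absNorm J.1 := by
  have hJ0 : J.1 ≠ ⊥ := nonZeroDivisors.coe_ne_zero J
  have := (Ideal.absNorm_eq_zero_iff (I := J.1)).not.2 hJ0
  exact_mod_cast Nat.one_le_iff_ne_zero.2 this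

/-- comparison of `S(s) = ∑_α f_s(α)` with `ζ(s, C)`. -/
lemma S14_S_compare_classZeta (C : ClassGroup (𝓞 K)) (J : (Ideal (𝓞 K))⁰)
    (hJ : ClassGroup.mk0 J = C⁻¹) :
    ∃ B : ℝ, ∀ s : ℝ, 1 < s → s ≤ 2 →
      |∑' α : 𝓞 K, S14_f K s α - (Ideal.absNorm J.1 : ℝ) *
        ((torsionOrder K : ℝ) * (Ideal.absNorm J.1 : ℝ) ^ (-s) * S14_classZeta K s C)| ≤ B := by
  obtain ⟨B, hB⟩ := S14_ideal_compare K J.1 (nonZeroDivisors.coe_ne_zero J)
  refine ⟨B, fun s hs1 hs2 => ?_⟩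
  have h := hB s hs1 hs2
  rw [(S14_orbit_sum K C J hJ hs1).2] at h
  exact h

/-- **the partial zeta functions of two ideal classes differ by `O(1)`** on `(1, 2]`. -/
theorem S14_classZeta_sub_bounded (C C' : ClassGroup (𝓞 K)) :
    ∃ B : ℝ, ∀ s : ℝ, 1 < s → s ≤ 2 → |S14_classZeta K s C - S14_classZeta K s C'| ≤ B := by
  obtain ⟨J, hJ⟩ := ClassGroup.mk0_surjective (C⁻¹)
  obtain ⟨J', hJ'⟩ := ClassGroup.mk0_surjective (C'⁻¹)
  obtain ⟨BJ, hBJ⟩ := S14_S_compare_classZeta K C J hJ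
  obtain ⟨BJ', hBJ'⟩ := S14_S_compare_classZeta K C' J' hJ'
  obtain ⟨B2, hB2⟩ := S14_two_compare K
  have hw : (0 : ℝ) < torsionOrder K := by
    exact_mod_cast torsionOrder_pos K
  have hn : 1 ≤ finrank ℚ K := Module.finrank_pos
  obtain ⟨Bd, hBd⟩ := S14_zeta_assembly (finrank ℚ K) hn (Ideal.absNorm J.1 : ℝ)
    (Ideal.absNorm J'.1 : ℝ) (torsionOrder K : ℝ) BJ BJ' B2 (S14_cz_one_le_absNorm K J)
    (S14_cz_one_le_absNorm K J') hw
  refine ⟨Bd, fun s hs1 hs2 => ?_⟩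
  exact hBd s (∑' α : 𝓞 K, S14_f K s α) (S14_classZeta K s C) (S14_classZeta K s C') hs1 hs2
    (tsum_nonneg (S14_f_nonneg K s)) (hBJ s hs1 hs2) (hBJ' s hs1 hs2) (hB2 s hs1 hs2)

/-- the same, in the form consumed by N2a: one bound for all classes against the trivial class. -/
theorem S14_classZeta_sub_one_bounded :
    ∃ B : ℝ, ∀ s : ℝ, 1 < s → s ≤ 2 → ∀ C : ClassGroup (𝓞 K),
      |(∑' I : {I : (Ideal (𝓞 K))⁰ // ClassGroup.mk0 I = C},
          (Ideal.absNorm (I.1 : Ideal (𝓞 K)) : ℝ) ^ (-s))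
        - ∑' I : {I : (Ideal (𝓞 K))⁰ // ClassGroup.mk0 I = 1},
          (Ideal.absNorm (I.1 : Ideal (𝓞 K)) : ℝ) ^ (-s)| ≤ B := by
  choose B hB using fun C : ClassGroup (𝓞 K) => S14_classZeta_sub_bounded K C 1
  refine ⟨∑ C : ClassGroup (𝓞 K), |B C|, fun s hs1 hs2 C => ?_⟩
  have h1 := hB C s hs1 hs2
  have h2 : |B C| ≤ ∑ C : ClassGroup (𝓞 K), |B C| :=
    Finset.single_le_sum (f := fun C => |B C|) (fun _ _ => abs_nonneg _) (Finset.mem_univ C)
  exact (h1.trans (le_abs_self _)).trans h2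

/-- `S(s) = ∑_α f_s(α) ≤ B / (s - 1)` on `(1, 2]`. -/
theorem S14_S_le : ∃ B : ℝ, 0 ≤ B ∧ ∀ s : ℝ, 1 < s → s ≤ 2 →
    ∑' α : 𝓞 K, S14_f K s α ≤ B / (s - 1) := by
  obtain ⟨B2, hB2⟩ := S14_two_compare K
  have hn : 1 ≤ finrank ℚ K := Module.finrank_pos
  obtain ⟨c, hc, hcs⟩ := S14_one_sub_two_rpow_ge (finrank ℚ K) hn
  refine ⟨|B2| / c, by positivity, fun s hs1 hs2 => ?_⟩
  have hS : 0 ≤ ∑' α : 𝓞 K, S14_f K s α := tsum_nonneg (S14_f_nonneg K s)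
  have h := hB2 s hs1 hs2
  have h1 := hcs s hs1 hs2
  have h2 : (2 : ℝ) ^ (finrank ℚ K) * (2 : ℝ) ^ (-(finrank ℚ K : ℝ) * s) =
      (2 : ℝ) ^ (-(finrank ℚ K : ℝ) * (s - 1)) := by
    rw [← Real.rpow_natCast, ← Real.rpow_add (by norm_num)]
    congr 1
    ring
  rw [← mul_assoc, h2] at h
  have h3 : (1 - (2 : ℝ) ^ (-(finrank ℚ K : ℝ) * (s - 1))) * ∑' α : 𝓞 K, S14_f K s α ≤ |B2| := by
    have := (le_abs_self _).trans h
    calc (1 - (2 : ℝ) ^ (-(finrank ℚ K : ℝ) * (s - 1))) * ∑' α : 𝓞 K, S14_f K s α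
        = ∑' α : 𝓞 K, S14_f K s α -
          (2 : ℝ) ^ (-(finrank ℚ K : ℝ) * (s - 1)) * ∑' α : 𝓞 K, S14_f K s α := by ring
      _ ≤ B2 := this
      _ ≤ |B2| := le_abs_self _
  have hs0 : 0 < s - 1 := by linarith
  have h4 : c * (s - 1) * ∑' α : 𝓞 K, S14_f K s α ≤ |B2| :=
    (mul_le_mul_of_nonneg_right h1 hS).trans h3
  rw [div_div, le_div_iff₀ (mul_pos hc hs0)]
  calc (∑' α : 𝓞 K, S14_f K s α) * (c * (s - 1))
      = c * (s - 1) * ∑' α : 𝓞 K, S14_f K s α := by ring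
    _ ≤ |B2| := h4

/-- **upper bound**: `ζ(s, C) ≤ B / (s - 1)` on `(1, 2]`. -/
theorem S14_classZeta_le (C : ClassGroup (𝓞 K)) :
    ∃ B : ℝ, 0 ≤ B ∧ ∀ s : ℝ, 1 < s → s ≤ 2 → S14_classZeta K s C ≤ B / (s - 1) := by
  obtain ⟨J, hJ⟩ := ClassGroup.mk0_surjective (C⁻¹)
  obtain ⟨BJ, hBJ⟩ := S14_S_compare_classZeta K C J hJ
  obtain ⟨B, hB0, hB⟩ := S14_S_le K
  have hw : (0 : ℝ) < torsionOrder K := by
    exact_mod_cast torsionOrder_pos K
  have ha := S14_cz_one_le_absNorm K J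
  have ha0 : (0 : ℝ) < Ideal.absNorm J.1 := by linarith
  refine ⟨(B + |BJ|) * (Ideal.absNorm J.1 : ℝ) / torsionOrder K, by positivity,
    fun s hs1 hs2 => ?_⟩
  have hs0 : 0 < s - 1 := by linarith
  have h1 := hBJ s hs1 hs2
  have h2 := hB s hs1 hs2
  have hZ := S14_classZeta_nonneg K s C
  -- `a * (w * a^{-s} * Z) ≤ S + |BJ|`
  have h3 : (Ideal.absNorm J.1 : ℝ) * ((torsionOrder K : ℝ) * (Ideal.absNorm J.1 : ℝ) ^ (-s) *
      S14_classZeta K s C) ≤ B / (s - 1) + |BJ| := by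
    have := (abs_le.1 h1).1
    have hh := le_abs_self BJ
    have hh2 := neg_abs_le BJ
    linarith
  have h4 : B / (s - 1) + |BJ| ≤ (B + |BJ|) / (s - 1) := by
    rw [add_div]
    have : |BJ| ≤ |BJ| / (s - 1) := by
      rw [le_div_iff₀ hs0]
      nlinarith [abs_nonneg BJ]
    linarith
  -- `a * a^{-s} ≥ a⁻¹`
  have h5 : (Ideal.absNorm J.1 : ℝ)⁻¹ ≤
      (Ideal.absNorm J.1 : ℝ) * (Ideal.absNorm J.1 : ℝ) ^ (-s) := by
    have e : (Ideal.absNorm J.1 : ℝ) * (Ideal.absNorm J.1 : ℝ) ^ (-s) =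
        (Ideal.absNorm J.1 : ℝ) ^ (1 - s) := by
      rw [sub_eq_add_neg, Real.rpow_add ha0, Real.rpow_one]
    rw [e, ← Real.rpow_neg_one]
    exact Real.rpow_le_rpow_of_exponent_le ha (by linarith)
  have h6 : (Ideal.absNorm J.1 : ℝ)⁻¹ * ((torsionOrder K : ℝ) * S14_classZeta K s C) ≤
      (B + |BJ|) / (s - 1) := by
    calc (Ideal.absNorm J.1 : ℝ)⁻¹ * ((torsionOrder K : ℝ) * S14_classZeta K s C)
        ≤ ((Ideal.absNorm J.1 : ℝ) * (Ideal.absNorm J.1 : ℝ) ^ (-s)) *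
            ((torsionOrder K : ℝ) * S14_classZeta K s C) :=
          mul_le_mul_of_nonneg_right h5 (mul_nonneg hw.le hZ)
      _ = (Ideal.absNorm J.1 : ℝ) * ((torsionOrder K : ℝ) * (Ideal.absNorm J.1 : ℝ) ^ (-s) *
            S14_classZeta K s C) := by ring
      _ ≤ B / (s - 1) + |BJ| := h3
      _ ≤ (B + |BJ|) / (s - 1) := h4
  have h7 : S14_classZeta K s C = (Ideal.absNorm J.1 : ℝ) / torsionOrder K *
      ((Ideal.absNorm J.1 : ℝ)⁻¹ * ((torsionOrder K : ℝ) * S14_classZeta K s C)) := by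
    field_simp
  rw [h7]
  calc (Ideal.absNorm J.1 : ℝ) / torsionOrder K *
      ((Ideal.absNorm J.1 : ℝ)⁻¹ * ((torsionOrder K : ℝ) * S14_classZeta K s C))
      ≤ (Ideal.absNorm J.1 : ℝ) / torsionOrder K * ((B + |BJ|) / (s - 1)) :=
        mul_le_mul_of_nonneg_left h6 (by positivity)
    _ = (B + |BJ|) * (Ideal.absNorm J.1 : ℝ) / torsionOrder K / (s - 1) := by
        field_simp

end Fermat.Agent.S14
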