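import Mathlib

/-!
# S14, block N2a (part 3): characters of a finite abelian group and the local Euler factor

`G` a finite commutative group, `χ` running over the characters `G →* ℂˣ`.

* `S14_char_sum_apply`: `∑ χ, χ g = |G|` if `g = 1` and `0` otherwise;
* `S14_char_norm`: `‖χ g‖ = 1`;
* `S14_local_factor`: for `0 ≤ x < 1` the product `∏ χ, (1 - χ g * x)⁻¹` is a real number `≥ 1`;
* `S14_local_factor_one`: for `g = 1` it is `((1 - x)⁻¹) ^ |G|`.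
-/

set_option autoImplicit false
set_option linter.unusedSectionVars false
set_option linter.deprecated false

namespace Fermat.Agent.S14

open Filter Topology

open scoped Classical

variable {G : Type*} [CommGroup G] [Finite G]

lemma S14_char_pow_card (χ : G →* ℂˣ) (g : G) : ((χ g : ℂˣ) : ℂ) ^ Nat.card G = 1 := by
  rw [← Units.val_pow_eq_pow_val, ← map_pow, pow_card_eq_one', map_one, Units.val_one]

lemma S14_char_norm (χ : G →* ℂˣ) (g : G) : ‖((χ g : ℂˣ) : ℂ)‖ = 1 :=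
  Complex.norm_eq_one_of_pow_eq_one (S14_char_pow_card χ g) Nat.card_pos.ne'

lemma S14_char_card [Fintype (G →* ℂˣ)] : Fintype.card (G →* ℂˣ) = Nat.card G := by
  have : NeZero (Monoid.exponent G) := ⟨Monoid.exponent_ne_zero_of_finite⟩
  rw [← Nat.card_eq_fintype_card]
  exact CommGroup.card_monoidHom_of_hasEnoughRootsOfUnity G ℂ

/-- Orthogonality: the sum of `χ g` over all characters. -/
lemma S14_char_sum_apply [Fintype (G →* ℂˣ)] (g : G) :
    ∑ χ : G →* ℂˣ, ((χ g : ℂˣ) : ℂ) = if g = 1 then (Nat.card G : ℂ) else 0 := by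
  split_ifs with h
  · subst h
    simp [S14_char_card]
  · have : NeZero (Monoid.exponent G) := ⟨Monoid.exponent_ne_zero_of_finite⟩
    obtain ⟨ψ, hψ⟩ := CommGroup.exists_apply_ne_one_of_hasEnoughRootsOfUnity G ℂ h
    have h1 : ∑ χ : G →* ℂˣ, ((χ g : ℂˣ) : ℂ) =
        ((ψ g : ℂˣ) : ℂ) * ∑ χ : G →* ℂˣ, ((χ g : ℂˣ) : ℂ) := by
      rw [Finset.mul_sum]
      rw [← Equiv.sum_comp (Equiv.mulLeft ψ)]
      refine Finset.sum_congr rfl (fun χ _ ↦ ?_)
      simp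
    have h2 : ((ψ g : ℂˣ) : ℂ) ≠ 1 := fun h' ↦ hψ (Units.ext h')
    have h3 : (1 - ((ψ g : ℂˣ) : ℂ)) * ∑ χ : G →* ℂˣ, ((χ g : ℂˣ) : ℂ) = 0 := by
      rw [sub_mul, one_mul, ← h1, sub_self]
    rcases mul_eq_zero.mp h3 with h4 | h4
    · exact absurd (sub_eq_zero.mp h4).symm h2
    · exact h4

/-- The real coefficient of the logarithm of the local factor. -/
noncomputable def S14_logCoeff (G : Type*) [CommGroup G] (g : G) (x : ℝ) (n : ℕ) : ℝ :=
  (if g ^ n = 1 then (Nat.card G : ℝ) else 0) * x ^ n / n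

lemma S14_logCoeff_nonneg (g : G) {x : ℝ} (hx : 0 ≤ x) (n : ℕ) : 0 ≤ S14_logCoeff G g x n := by
  unfold S14_logCoeff
  split_ifs <;> positivity

/-- The local Euler factor `∏ χ, (1 - χ g * x)⁻¹` is a real number `≥ 1`. -/
theorem S14_local_factor [Fintype (G →* ℂˣ)] (g : G) {x : ℝ} (hx0 : 0 ≤ x) (hx1 : x < 1) :
    ∃ r : ℝ, 1 ≤ r ∧ ∏ χ : G →* ℂˣ, (1 - ((χ g : ℂˣ) : ℂ) * (x : ℂ))⁻¹ = (r : ℂ) := by
  have hnorm : ∀ χ : G →* ℂˣ, ‖((χ g : ℂˣ) : ℂ) * (x : ℂ)‖ < 1 := by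
    intro χ
    rw [norm_mul, S14_char_norm, one_mul, Complex.norm_real, Real.norm_of_nonneg hx0]
    exact hx1
  have hlog : ∀ χ : G →* ℂˣ, HasSum (fun n : ℕ ↦ (((χ g : ℂˣ) : ℂ) * (x : ℂ)) ^ n / n)
      (-Complex.log (1 - ((χ g : ℂˣ) : ℂ) * (x : ℂ))) :=
    fun χ ↦ Complex.hasSum_taylorSeries_neg_log (hnorm χ)
  have hsum : HasSum (fun n : ℕ ↦ ∑ χ : G →* ℂˣ, (((χ g : ℂˣ) : ℂ) * (x : ℂ)) ^ n / n)
      (∑ χ : G →* ℂˣ, -Complex.log (1 - ((χ g : ℂˣ) : ℂ) * (x : ℂ))) :=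
    hasSum_sum (fun χ _ ↦ hlog χ)
  have hcoef : ∀ n : ℕ, ∑ χ : G →* ℂˣ, (((χ g : ℂˣ) : ℂ) * (x : ℂ)) ^ n / n =
      ((S14_logCoeff G g x n : ℝ) : ℂ) := by
    intro n
    have h1 : ∀ χ : G →* ℂˣ, (((χ g : ℂˣ) : ℂ) * (x : ℂ)) ^ n / n =
        ((χ (g ^ n) : ℂˣ) : ℂ) * ((x : ℂ) ^ n / n) := by
      intro χ
      rw [mul_pow, map_pow, Units.val_pow_eq_pow_val, mul_div_assoc]
    rw [Finset.sum_congr rfl (fun χ _ ↦ h1 χ), ← Finset.sum_mul, S14_char_sum_apply,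
      S14_logCoeff]
    split_ifs <;> simp [mul_div_assoc]
  simp_rw [hcoef] at hsum
  have hsummable : Summable (S14_logCoeff G g x) := Complex.summable_ofReal.mp hsum.summable
  have hsum' : HasSum (fun n ↦ ((S14_logCoeff G g x n : ℝ) : ℂ))
      ((∑' n, S14_logCoeff G g x n : ℝ) : ℂ) := by
    rw [Complex.hasSum_ofReal]
    exact hsummable.hasSum
  have heq := hsum.unique hsum'
  refine ⟨Real.exp (∑' n, S14_logCoeff G g x n), ?_, ?_⟩
  · exact Real.one_le_exp (tsum_nonneg (S14_logCoeff_nonneg g hx0))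
  · rw [Complex.ofReal_exp, ← heq, Complex.exp_sum]
    refine Finset.prod_congr rfl (fun χ _ ↦ ?_)
    have hne : 1 - ((χ g : ℂˣ) : ℂ) * (x : ℂ) ≠ 0 := by
      intro h0
      have h1 : ((χ g : ℂˣ) : ℂ) * (x : ℂ) = 1 := (sub_eq_zero.mp h0).symm
      have := hnorm χ
      rw [h1, norm_one] at this
      exact lt_irrefl _ this
    rw [Complex.exp_neg, Complex.exp_log hne]

/-- The local Euler factor at the trivial class. -/
theorem S14_local_factor_one [Fintype (G →* ℂˣ)] (x : ℝ) :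
    ∏ χ : G →* ℂˣ, (1 - ((χ (1 : G) : ℂˣ) : ℂ) * (x : ℂ))⁻¹ =
      (((1 - x)⁻¹ ^ Nat.card G : ℝ) : ℂ) := by
  simp [S14_char_card]

/-- A nontrivial character sums to zero. -/
lemma S14_char_sum_eq_zero {Γ : Type*} [CommGroup Γ] [Fintype Γ] (ψ : Γ →* ℂˣ) (hψ : ψ ≠ 1) :
    ∑ g : Γ, ((ψ g : ℂˣ) : ℂ) = 0 := by
  have h := sum_hom_units_eq_zero ((Units.coeHom ℂ).comp ψ) (by
    intro h
    apply hψ
    ext g
    have := DFunLike.congr_fun h g
    simpa using this)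
  simpa using h

end Fermat.Agent.S14
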