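import Mathlib
import Fermat.Agent.S14.IdealEuler
import Fermat.Agent.S14.ClassChar

/-!
# S14, block N2a (part 4): the product of the `L`-series over all characters

`R` a Dedekind domain, `w : (Ideal R)⁰ →* ℝ` a nonnegative summable weight (e.g. `N^{-s}`),
`c : (Ideal R)⁰ →* G` a class map to a finite commutative group.  For a character `χ` of `G` put
`L(χ) = ∑' I, χ (c I) * w I`.

* `S14_prodL_re_ge`: `∏_χ L(χ)` is a real number and
  `∏_{𝔭 ∈ s, c 𝔭 = 1} ((1 - w 𝔭)⁻¹) ^ |G| ≤ (∏_χ L(χ)).re` for every finite set `s` of primes;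
* `S14_L_bound`: if the partial sums of `w` over the fibres of `κ : (Ideal R)⁰ → Γ` differ by at most
  `B`, then `‖∑' I, ψ (κ I) * w I‖ ≤ |Γ| * B` for every nontrivial character `ψ` of `Γ`.
-/

set_option autoImplicit false
set_option linter.unusedSectionVars false
set_option linter.deprecated false
set_option linter.style.haveILetI false

namespace Fermat.Agent.S14

open IsDedekindDomain nonZeroDivisors Filter Topology

open scoped Classical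

section real_prod

variable {ι : Type*}

lemma S14_one_le_prod (f : ι → ℝ) (s : Finset ι) (hf : ∀ i ∈ s, 1 ≤ f i) : 1 ≤ ∏ i ∈ s, f i :=
  Finset.prod_induction f (fun x ↦ 1 ≤ x) (fun _ _ ha hb ↦ one_le_mul_of_one_le_of_one_le ha hb)
    le_rfl hf

lemma S14_prod_le_prod_of_subset (f : ι → ℝ) {s t : Finset ι} (h : s ⊆ t)
    (hf : ∀ i ∈ t, 1 ≤ f i) : ∏ i ∈ s, f i ≤ ∏ i ∈ t, f i := by
  rw [← Finset.prod_sdiff h]
  have h1 : 1 ≤ ∏ i ∈ t \ s, f i :=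
    S14_one_le_prod f _ (fun i hi ↦ hf i (Finset.mem_sdiff.mp hi).1)
  have h2 : 0 ≤ ∏ i ∈ s, f i :=
    Finset.prod_nonneg (fun i hi ↦ zero_le_one.trans (hf i (h hi)))
  exact le_mul_of_one_le_left h2 h1

end real_prod

variable {R : Type*} [CommRing R] [IsDedekindDomain R]
variable {G : Type*} [CommGroup G] [Finite G]

/-- The twisted function `I ↦ χ (c I) * w I`. -/
noncomputable def S14_twist (w : (Ideal R)⁰ →* ℝ) (c : (Ideal R)⁰ →* G) (χ : G →* ℂˣ) :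
    (Ideal R)⁰ →* ℂ where
  toFun I := ((χ (c I) : ℂˣ) : ℂ) * ((w I : ℝ) : ℂ)
  map_one' := by simp
  map_mul' I J := by
    simp only [map_mul, Units.val_mul, Complex.ofReal_mul]
    ring

lemma S14_twist_apply (w : (Ideal R)⁰ →* ℝ) (c : (Ideal R)⁰ →* G) (χ : G →* ℂˣ)
    (I : (Ideal R)⁰) : S14_twist w c χ I = ((χ (c I) : ℂˣ) : ℂ) * ((w I : ℝ) : ℂ) := rfl

lemma S14_twist_norm (w : (Ideal R)⁰ →* ℝ) (hw : ∀ I, 0 ≤ w I) (c : (Ideal R)⁰ →* G)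
    (χ : G →* ℂˣ) (I : (Ideal R)⁰) : ‖S14_twist w c χ I‖ = w I := by
  rw [S14_twist_apply, norm_mul, S14_char_norm, one_mul, Complex.norm_real,
    Real.norm_of_nonneg (hw I)]

/-- The `L`-series `L(χ) = ∑' I, χ (c I) * w I`. -/
noncomputable def S14_L (w : (Ideal R)⁰ →* ℝ) (c : (Ideal R)⁰ →* G) (χ : G →* ℂˣ) : ℂ :=
  ∑' I, S14_twist w c χ I

lemma S14_L_tendsto (w : (Ideal R)⁰ →* ℝ) (hw : ∀ I, 0 ≤ w I) (hsum : Summable w)
    (c : (Ideal R)⁰ →* G) (χ : G →* ℂˣ) :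
    Tendsto (fun s : Finset (HeightOneSpectrum R) ↦
      ∏ v ∈ s, (1 - S14_twist w c χ (S14_primeNZ v))⁻¹) atTop (𝓝 (S14_L w c χ)) := by
  refine S14_euler_tendsto (S14_twist w c χ) ?_
  simp_rw [S14_twist_norm w hw c χ]
  exact hsum

lemma S14_w_prime_lt_one (w : (Ideal R)⁰ →* ℝ) (hw : ∀ I, 0 ≤ w I) (hsum : Summable w)
    (v : HeightOneSpectrum R) : w (S14_primeNZ v) < 1 := by
  have := S14_norm_prime_lt_one w hsum v
  rwa [Real.norm_of_nonneg (hw _)] at this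

/-- The local factor at `v`, as a real number. -/
noncomputable def S14_locFac [Fintype (G →* ℂˣ)] (w : (Ideal R)⁰ →* ℝ) (c : (Ideal R)⁰ →* G)
    (v : HeightOneSpectrum R) : ℝ :=
  (∏ χ : G →* ℂˣ, (1 - S14_twist w c χ (S14_primeNZ v))⁻¹).re

lemma S14_locFac_spec [Fintype (G →* ℂˣ)] (w : (Ideal R)⁰ →* ℝ) (hw : ∀ I, 0 ≤ w I)
    (hsum : Summable w) (c : (Ideal R)⁰ →* G) (v : HeightOneSpectrum R) :
    1 ≤ S14_locFac w c v ∧
      ∏ χ : G →* ℂˣ, (1 - S14_twist w c χ (S14_primeNZ v))⁻¹ = ((S14_locFac w c v : ℝ) : ℂ) := by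
  obtain ⟨r, hr1, hr⟩ := S14_local_factor (c (S14_primeNZ v)) (hw (S14_primeNZ v))
    (S14_w_prime_lt_one w hw hsum v)
  have h : ∏ χ : G →* ℂˣ, (1 - S14_twist w c χ (S14_primeNZ v))⁻¹ = (r : ℂ) := by
    rw [← hr]
    rfl
  have h2 : S14_locFac w c v = r := by
    rw [S14_locFac, h, Complex.ofReal_re]
  rw [h2]
  exact ⟨hr1, h⟩

lemma S14_locFac_of_eq_one [Fintype (G →* ℂˣ)] (w : (Ideal R)⁰ →* ℝ) (c : (Ideal R)⁰ →* G)
    (v : HeightOneSpectrum R) (hv : c (S14_primeNZ v) = 1) :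
    S14_locFac w c v = (1 - w (S14_primeNZ v))⁻¹ ^ Nat.card G := by
  have h := S14_local_factor_one (G := G) (w (S14_primeNZ v))
  have h' : ∏ χ : G →* ℂˣ, (1 - S14_twist w c χ (S14_primeNZ v))⁻¹ =
      (((1 - w (S14_primeNZ v))⁻¹ ^ Nat.card G : ℝ) : ℂ) := by
    rw [← h]
    refine Finset.prod_congr rfl (fun χ _ ↦ ?_)
    rw [S14_twist_apply, hv]
  rw [S14_locFac, h', Complex.ofReal_re]

/-- The product of all `L(χ)` is the limit of the real partial Euler products. -/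
lemma S14_prodL_tendsto [Fintype (G →* ℂˣ)] (w : (Ideal R)⁰ →* ℝ) (hw : ∀ I, 0 ≤ w I)
    (hsum : Summable w) (c : (Ideal R)⁰ →* G) :
    Tendsto (fun s : Finset (HeightOneSpectrum R) ↦
      (((∏ v ∈ s, S14_locFac w c v : ℝ)) : ℂ)) atTop (𝓝 (∏ χ : G →* ℂˣ, S14_L w c χ)) := by
  have h := tendsto_finset_prod (Finset.univ : Finset (G →* ℂˣ))
    (fun χ _ ↦ S14_L_tendsto w hw hsum c χ)
  refine h.congr (fun s ↦ ?_)
  rw [Finset.prod_comm, Complex.ofReal_prod]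
  exact Finset.prod_congr rfl (fun v _ ↦ (S14_locFac_spec w hw hsum c v).2)

theorem S14_prodL_im [Fintype (G →* ℂˣ)] (w : (Ideal R)⁰ →* ℝ) (hw : ∀ I, 0 ≤ w I)
    (hsum : Summable w) (c : (Ideal R)⁰ →* G) :
    (∏ χ : G →* ℂˣ, S14_L w c χ).im = 0 := by
  have h := (Complex.continuous_im.tendsto _).comp (S14_prodL_tendsto w hw hsum c)
  have h2 : Tendsto (fun _ : Finset (HeightOneSpectrum R) ↦ (0 : ℝ)) atTop
      (𝓝 (∏ χ : G →* ℂˣ, S14_L w c χ).im) := by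
    refine h.congr (fun s ↦ ?_)
    simp only [Function.comp_apply, Complex.ofReal_im]
  exact tendsto_nhds_unique h2 tendsto_const_nhds

theorem S14_prodL_re_tendsto [Fintype (G →* ℂˣ)] (w : (Ideal R)⁰ →* ℝ) (hw : ∀ I, 0 ≤ w I)
    (hsum : Summable w) (c : (Ideal R)⁰ →* G) :
    Tendsto (fun s : Finset (HeightOneSpectrum R) ↦ ∏ v ∈ s, S14_locFac w c v) atTop
      (𝓝 (∏ χ : G →* ℂˣ, S14_L w c χ).re) := by
  have h := (Complex.continuous_re.tendsto _).comp (S14_prodL_tendsto w hw hsum c)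
  refine h.congr (fun s ↦ ?_)
  simp only [Function.comp_apply, Complex.ofReal_re]

/-- Lower bound for the product of all `L(χ)` by the Euler factors at the primes of trivial
class. -/
theorem S14_prodL_re_ge [Fintype (G →* ℂˣ)] (w : (Ideal R)⁰ →* ℝ) (hw : ∀ I, 0 ≤ w I)
    (hsum : Summable w) (c : (Ideal R)⁰ →* G) (s : Finset (HeightOneSpectrum R)) :
    ∏ v ∈ s with c (S14_primeNZ v) = 1, (1 - w (S14_primeNZ v))⁻¹ ^ Nat.card G ≤
      (∏ χ : G →* ℂˣ, S14_L w c χ).re := by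
  refine ge_of_tendsto (S14_prodL_re_tendsto w hw hsum c) ?_
  filter_upwards [eventually_ge_atTop s] with t hst
  have h1 : ∏ v ∈ s with c (S14_primeNZ v) = 1, (1 - w (S14_primeNZ v))⁻¹ ^ Nat.card G =
      ∏ v ∈ s with c (S14_primeNZ v) = 1, S14_locFac w c v := by
    refine Finset.prod_congr rfl (fun v hv ↦ ?_)
    rw [S14_locFac_of_eq_one w c v (Finset.mem_filter.mp hv).2]
  rw [h1]
  refine S14_prod_le_prod_of_subset _ ?_ (fun v _ ↦ (S14_locFac_spec w hw hsum c v).1)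
  exact (Finset.filter_subset _ _).trans hst

/-- The trivial character gives the sum of the weights. -/
lemma S14_L_one (w : (Ideal R)⁰ →* ℝ) (c : (Ideal R)⁰ →* G) :
    S14_L w c (1 : G →* ℂˣ) = ((∑' I, w I : ℝ) : ℂ) := by
  rw [S14_L, Complex.ofReal_tsum]
  refine tsum_congr (fun I ↦ ?_)
  simp [S14_twist_apply]

section Lbound

variable {Γ : Type*} [CommGroup Γ] [Fintype Γ]

/-- Bound for the `L`-series of a nontrivial character, from the comparison of the partial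
zeta functions of the classes. -/
theorem S14_L_bound (w : (Ideal R)⁰ → ℝ) (hsum : Summable w)
    (κ : (Ideal R)⁰ → Γ) (ψ : Γ →* ℂˣ) (hψ : ψ ≠ 1) (B : ℝ)
    (hB : ∀ C : Γ, |(∑' I : {I : (Ideal R)⁰ // κ I = C}, w I) -
      ∑' I : {I : (Ideal R)⁰ // κ I = 1}, w I| ≤ B) :
    ‖∑' I, ((ψ (κ I) : ℂˣ) : ℂ) * ((w I : ℝ) : ℂ)‖ ≤ Fintype.card Γ * B := by
  set z : Γ → ℝ := fun C ↦ ∑' I : {I : (Ideal R)⁰ // κ I = C}, w I with hz
  have hsumC : Summable (fun I ↦ ((ψ (κ I) : ℂˣ) : ℂ) * ((w I : ℝ) : ℂ)) := by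
    refine Summable.of_norm ?_
    have : ∀ I, ‖((ψ (κ I) : ℂˣ) : ℂ) * ((w I : ℝ) : ℂ)‖ = ‖w I‖ := by
      intro I
      rw [norm_mul, S14_char_norm, one_mul, Complex.norm_real]
    simp_rw [this]
    exact hsum.norm
  have h1 := hsumC.hasSum.tsum_fiberwise κ
  have h2 : ∀ C : Γ, ∑' I : (κ ⁻¹' {C}), ((ψ (κ I) : ℂˣ) : ℂ) * ((w I : ℝ) : ℂ) =
      ((ψ C : ℂˣ) : ℂ) * ((z C : ℝ) : ℂ) := by
    intro C
    have h3 : ∀ I : (κ ⁻¹' {C}), ((ψ (κ I) : ℂˣ) : ℂ) * ((w I : ℝ) : ℂ) =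
        ((ψ C : ℂˣ) : ℂ) * ((w I : ℝ) : ℂ) := by
      intro I
      have hI : κ I = C := I.2
      rw [hI]
    rw [tsum_congr h3, tsum_mul_left, hz, Complex.ofReal_tsum]
    rfl
  simp_rw [h2] at h1
  have h4 : ∑' I, ((ψ (κ I) : ℂˣ) : ℂ) * ((w I : ℝ) : ℂ) =
      ∑ C : Γ, ((ψ C : ℂˣ) : ℂ) * ((z C : ℝ) : ℂ) := by
    rw [← h1.tsum_eq, tsum_fintype]
  have h5 : ∑ C : Γ, ((ψ C : ℂˣ) : ℂ) * ((z C : ℝ) : ℂ) =
      ∑ C : Γ, ((ψ C : ℂˣ) : ℂ) * (((z C - z 1 : ℝ)) : ℂ) := by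
    have : ∀ C : Γ, ((ψ C : ℂˣ) : ℂ) * (((z C - z 1 : ℝ)) : ℂ) =
        ((ψ C : ℂˣ) : ℂ) * ((z C : ℝ) : ℂ) - ((ψ C : ℂˣ) : ℂ) * ((z 1 : ℝ) : ℂ) := by
      intro C
      rw [Complex.ofReal_sub, mul_sub]
    rw [Finset.sum_congr rfl (fun C _ ↦ this C), Finset.sum_sub_distrib, ← Finset.sum_mul,
      S14_char_sum_eq_zero ψ hψ, zero_mul, sub_zero]
  rw [h4, h5]
  calc ‖∑ C : Γ, ((ψ C : ℂˣ) : ℂ) * (((z C - z 1 : ℝ)) : ℂ)‖
      ≤ ∑ C : Γ, ‖((ψ C : ℂˣ) : ℂ) * (((z C - z 1 : ℝ)) : ℂ)‖ := norm_sum_le _ _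
    _ ≤ ∑ _C : Γ, B := by
        refine Finset.sum_le_sum (fun C _ ↦ ?_)
        rw [norm_mul, S14_char_norm, one_mul, Complex.norm_real, Real.norm_eq_abs]
        exact hB C
    _ = Fintype.card Γ * B := by
        rw [Finset.sum_const, Finset.card_univ, nsmul_eq_mul]

end Lbound

end Fermat.Agent.S14
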