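import Mathlib
import Fermat.Agent.S14.CharEuler

/-!
# S14, block N2a (part 5): comparison of Euler factors (abstract form)

`π : ι → κ` a map with fibres of size `≤ n` (primes of `M` over primes of `E`),
`x w = N(w)^{-s}`, `y v = N(v)^{-s}`.  If every `w` either has `x w = y (π w)` and then `π w`
is exceptional or satisfies `P`, or has `x w ≤ y (π w) ^ 2`, then

`∏_{w ∈ s} (1 - x w)⁻¹ ≤ (2 ^ |T| * ∏_{v ∈ π(s)} (1 - y v ^ 2)⁻¹ * ∏_{v ∈ π(s), P v} (1 - y v)⁻¹) ^ n`.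
-/

set_option autoImplicit false
set_option linter.unusedSectionVars false
set_option linter.deprecated false
set_option linter.style.haveILetI false

namespace Fermat.Agent.S14

open scoped Classical

section compare

variable {ι κ : Type*}

lemma S14_inv_one_sub_ge_one {y : ℝ} (h0 : 0 ≤ y) (h1 : y ≤ 1 / 2) : 1 ≤ (1 - y)⁻¹ := by
  rw [one_le_inv₀ (by linarith)]
  linarith

lemma S14_inv_one_sub_le_two {y : ℝ} (h1 : y ≤ 1 / 2) : (1 - y)⁻¹ ≤ 2 := by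
  rw [inv_le_comm₀ (by linarith) (by norm_num)]
  linarith

lemma S14_inv_one_sub_mono {x y : ℝ} (hxy : x ≤ y) (h1 : y < 1) : (1 - x)⁻¹ ≤ (1 - y)⁻¹ := by
  apply inv_anti₀ (by linarith)
  linarith

/-- The comparison factor at `v`. -/
noncomputable def S14_cmpFac (y : κ → ℝ) (P : κ → Prop) (T : Finset κ) (v : κ) : ℝ :=
  (if v ∈ T then 2 else 1) * (1 - y v ^ 2)⁻¹ * (if P v then (1 - y v)⁻¹ else 1)

lemma S14_cmpFac_ge_one (y : κ → ℝ) (P : κ → Prop) (T : Finset κ)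
    (hy0 : ∀ v, 0 ≤ y v) (hy1 : ∀ v, y v ≤ 1 / 2) (v : κ) : 1 ≤ S14_cmpFac y P T v := by
  have hsq : y v ^ 2 ≤ 1 / 2 := by nlinarith [hy0 v, hy1 v]
  have h1 : (1 : ℝ) ≤ (if v ∈ T then 2 else 1) := by split_ifs <;> norm_num
  have h2 : 1 ≤ (1 - y v ^ 2)⁻¹ := S14_inv_one_sub_ge_one (by positivity) hsq
  have h3 : 1 ≤ (if P v then (1 - y v)⁻¹ else 1) := by
    split_ifs
    · exact S14_inv_one_sub_ge_one (hy0 v) (hy1 v)
    · exact le_rfl
  unfold S14_cmpFac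
  exact one_le_mul_of_one_le_of_one_le (one_le_mul_of_one_le_of_one_le h1 h2) h3

lemma S14_le_cmpFac (π : ι → κ) (x : ι → ℝ) (y : κ → ℝ) (P : κ → Prop) (T : Finset κ)
    (hy0 : ∀ v, 0 ≤ y v) (hy1 : ∀ v, y v ≤ 1 / 2)
    (hdeg : ∀ w, (x w = y (π w) ∧ (π w ∉ T → P (π w))) ∨ x w ≤ y (π w) ^ 2) (w : ι) :
    (1 - x w)⁻¹ ≤ S14_cmpFac y P T (π w) := by
  have hsq : y (π w) ^ 2 ≤ 1 / 2 := by nlinarith [hy0 (π w), hy1 (π w)]
  have h1 : (1 : ℝ) ≤ (if π w ∈ T then 2 else 1) := by split_ifs <;> norm_num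
  have h2 : 1 ≤ (1 - y (π w) ^ 2)⁻¹ := S14_inv_one_sub_ge_one (by positivity) hsq
  have h3 : 1 ≤ (if P (π w) then (1 - y (π w))⁻¹ else 1) := by
    split_ifs
    · exact S14_inv_one_sub_ge_one (hy0 _) (hy1 _)
    · exact le_rfl
  unfold S14_cmpFac
  rcases hdeg w with ⟨hx, hP⟩ | hx
  · rw [hx]
    by_cases hp : P (π w)
    · rw [if_pos hp]
      have h4 : 1 ≤ (if π w ∈ T then (2 : ℝ) else 1) * (1 - y (π w) ^ 2)⁻¹ :=
        one_le_mul_of_one_le_of_one_le h1 h2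
      have h5 : 0 ≤ (1 - y (π w))⁻¹ := le_trans zero_le_one (S14_inv_one_sub_ge_one (hy0 _) (hy1 _))
      exact le_mul_of_one_le_left h5 h4
    · have hT : π w ∈ T := by
        by_contra hT
        exact hp (hP hT)
      rw [if_pos hT, if_neg hp, mul_one]
      calc (1 - y (π w))⁻¹ ≤ 2 := S14_inv_one_sub_le_two (hy1 _)
        _ ≤ 2 * (1 - y (π w) ^ 2)⁻¹ := le_mul_of_one_le_right (by norm_num) h2
  · calc (1 - x w)⁻¹ ≤ (1 - y (π w) ^ 2)⁻¹ := S14_inv_one_sub_mono hx (by linarith)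
      _ ≤ (if π w ∈ T then (2 : ℝ) else 1) * (1 - y (π w) ^ 2)⁻¹ :=
          le_mul_of_one_le_left (le_trans zero_le_one h2) h1
      _ ≤ _ := le_mul_of_one_le_right
          (le_trans zero_le_one (one_le_mul_of_one_le_of_one_le h1 h2)) h3

lemma S14_prod_ite_two_le (T U : Finset κ) :
    ∏ v ∈ U, (if v ∈ T then (2 : ℝ) else 1) ≤ 2 ^ T.card := by
  rw [Finset.prod_ite, Finset.prod_const_one, mul_one, Finset.prod_const]
  apply pow_le_pow_right₀ (by norm_num)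
  apply Finset.card_le_card
  intro v hv
  exact (Finset.mem_filter.mp hv).2

theorem S14_compare (π : ι → κ) (n : ℕ) (x : ι → ℝ) (y : κ → ℝ) (P : κ → Prop) (T : Finset κ)
    (hx0 : ∀ w, 0 ≤ x w) (hx1 : ∀ w, x w ≤ 1 / 2)
    (hy0 : ∀ v, 0 ≤ y v) (hy1 : ∀ v, y v ≤ 1 / 2)
    (hfib : ∀ (s : Finset ι) (v : κ), (s.filter (fun w ↦ π w = v)).card ≤ n)
    (hdeg : ∀ w, (x w = y (π w) ∧ (π w ∉ T → P (π w))) ∨ x w ≤ y (π w) ^ 2)
    (s : Finset ι) :
    ∏ w ∈ s, (1 - x w)⁻¹ ≤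
      (2 ^ T.card * (∏ v ∈ s.image π, (1 - y v ^ 2)⁻¹) *
        ∏ v ∈ (s.image π).filter P, (1 - y v)⁻¹) ^ n := by
  have hb1 := S14_cmpFac_ge_one y P T hy0 hy1
  have step1 : ∏ w ∈ s, (1 - x w)⁻¹ ≤ ∏ w ∈ s, S14_cmpFac y P T (π w) := by
    refine Finset.prod_le_prod (fun w _ ↦ ?_) (fun w _ ↦ S14_le_cmpFac π x y P T hy0 hy1 hdeg w)
    exact le_trans zero_le_one (S14_inv_one_sub_ge_one (hx0 w) (hx1 w))
  have step2 : ∏ w ∈ s, S14_cmpFac y P T (π w) =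
      ∏ v ∈ s.image π, S14_cmpFac y P T v ^ (s.filter (fun w ↦ π w = v)).card := by
    rw [← Finset.prod_fiberwise_of_maps_to (g := π) (t := s.image π)
      (fun w hw ↦ Finset.mem_image_of_mem π hw)]
    refine Finset.prod_congr rfl (fun v _ ↦ ?_)
    rw [Finset.prod_congr rfl (fun w hw ↦ by rw [(Finset.mem_filter.mp hw).2]),
      Finset.prod_const]
  have step3 : ∏ v ∈ s.image π, S14_cmpFac y P T v ^ (s.filter (fun w ↦ π w = v)).card ≤
      ∏ v ∈ s.image π, S14_cmpFac y P T v ^ n := by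
    refine Finset.prod_le_prod (fun v _ ↦ ?_) (fun v _ ↦ ?_)
    · exact pow_nonneg (le_trans zero_le_one (hb1 v)) _
    · exact pow_le_pow_right₀ (hb1 v) (hfib s v)
  have step4 : ∏ v ∈ s.image π, S14_cmpFac y P T v =
      (∏ v ∈ s.image π, (if v ∈ T then (2 : ℝ) else 1)) *
        (∏ v ∈ s.image π, (1 - y v ^ 2)⁻¹) * ∏ v ∈ (s.image π).filter P, (1 - y v)⁻¹ := by
    unfold S14_cmpFac
    rw [Finset.prod_mul_distrib, Finset.prod_mul_distrib]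
    congr 1
    rw [Finset.prod_ite, Finset.prod_const_one, mul_one]
  have hA : 0 ≤ ∏ v ∈ s.image π, (1 - y v ^ 2)⁻¹ := by
    refine Finset.prod_nonneg (fun v _ ↦ ?_)
    have hsq : y v ^ 2 ≤ 1 / 2 := by nlinarith [hy0 v, hy1 v]
    exact le_trans zero_le_one (S14_inv_one_sub_ge_one (by positivity) hsq)
  have hD : 0 ≤ ∏ v ∈ (s.image π).filter P, (1 - y v)⁻¹ :=
    Finset.prod_nonneg (fun v _ ↦ le_trans zero_le_one (S14_inv_one_sub_ge_one (hy0 v) (hy1 v)))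
  calc ∏ w ∈ s, (1 - x w)⁻¹ ≤ ∏ w ∈ s, S14_cmpFac y P T (π w) := step1
    _ = ∏ v ∈ s.image π, S14_cmpFac y P T v ^ (s.filter (fun w ↦ π w = v)).card := step2
    _ ≤ ∏ v ∈ s.image π, S14_cmpFac y P T v ^ n := step3
    _ = (∏ v ∈ s.image π, S14_cmpFac y P T v) ^ n := Finset.prod_pow _ _ _
    _ ≤ _ := by
        refine pow_le_pow_left₀ (Finset.prod_nonneg (fun v _ ↦ le_trans zero_le_one (hb1 v))) ?_ n
        rw [step4]
        gcongr
        exact S14_prod_ite_two_le T _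

end compare

end Fermat.Agent.S14
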