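import Mathlib
import Fermat.Agent.S14.IdealSum
import Fermat.Agent.S14.UnivCompare

/-!
# S14, block N2a: the universal norm inequality (second inequality), analytic proof

`E ⊆ M` number fields, `H` a subgroup of the class group of `E` containing the classes of all
primes of `E` (outside a finite exceptional set) lying under a prime of `M` of relative degree
one.  Then `[Cl(E) : H] ≤ [M : E]`.

The proof uses the hypothesis `S14_ClassZetaBdd E` (block N2b, helper17): the partial zeta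
functions of the ideal classes of `E` differ by `O(1)` on `(1, 2]`.

* `S14_univ_norm_aux`: the statement with primes as `HeightOneSpectrum`;
* `S14_univ_norm_of`: exceptional set = a finite set of ideals of `𝓞 E`;
* `S14_univ_norm_of'`: exceptional set = primes containing a natural number `t ≠ 0`.
-/

set_option autoImplicit false
set_option linter.unusedSectionVars false
set_option linter.deprecated false
set_option linter.style.haveILetI false

namespace Fermat.Agent.S14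

open NumberField IsDedekindDomain nonZeroDivisors Filter Topology
open scoped Classical

/-- The input from block N2b: the partial zeta functions of the ideal classes differ by `O(1)`
on `(1, 2]`. -/
def S14_ClassZetaBdd (E : Type*) [Field E] [NumberField E] : Prop :=
  ∃ B : ℝ, ∀ s : ℝ, 1 < s → s ≤ 2 → ∀ C : ClassGroup (𝓞 E),
    |(∑' I : {I : (Ideal (𝓞 E))⁰ // ClassGroup.mk0 I = C},
        (Ideal.absNorm (I.1 : Ideal (𝓞 E)) : ℝ) ^ (-s)) -
      ∑' I : {I : (Ideal (𝓞 E))⁰ // ClassGroup.mk0 I = 1},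
        (Ideal.absNorm (I.1 : Ideal (𝓞 E)) : ℝ) ^ (-s)| ≤ B

section limit

/-- The final limit argument: `f ^ h ≤ C * g ^ n` on `(1, 2]` with `(s - 1) f → a > 0` and
`(s - 1) g → b` forces `h ≤ n`. -/
lemma S14_limit_arg (f g : ℝ → ℝ) (a b C : ℝ) (ha : 0 < a) (h n : ℕ)
    (hf : Tendsto (fun s : ℝ ↦ (s - 1) * f s) (𝓝[>] 1) (𝓝 a))
    (hg : Tendsto (fun s : ℝ ↦ (s - 1) * g s) (𝓝[>] 1) (𝓝 b))
    (hle : ∀ s : ℝ, 1 < s → s ≤ 2 → f s ^ h ≤ C * g s ^ n) : h ≤ n := by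
  by_contra hlt
  rw [not_le] at hlt
  obtain ⟨k, hk⟩ := Nat.exists_eq_add_of_lt hlt
  have hs1 : Tendsto (fun s : ℝ ↦ s - 1) (𝓝[>] 1) (𝓝 0) := by
    have : Tendsto (fun s : ℝ ↦ s - 1) (𝓝 1) (𝓝 (1 - 1)) :=
      (continuous_id.sub continuous_const).tendsto 1
    rw [sub_self] at this
    exact tendsto_nhdsWithin_of_tendsto_nhds this
  have h1 : Tendsto (fun s : ℝ ↦ ((s - 1) * f s) ^ h) (𝓝[>] 1) (𝓝 (a ^ h)) := hf.pow h
  have h2 : Tendsto (fun s : ℝ ↦ C * ((s - 1) * g s) ^ n * (s - 1) ^ (k + 1)) (𝓝[>] 1)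
      (𝓝 (C * b ^ n * 0 ^ (k + 1))) :=
    ((hg.pow n).const_mul C).mul (hs1.pow (k + 1))
  rw [zero_pow (Nat.succ_ne_zero k), mul_zero] at h2
  have h3 : ∀ᶠ s in 𝓝[>] (1 : ℝ),
      ((s - 1) * f s) ^ h ≤ C * ((s - 1) * g s) ^ n * (s - 1) ^ (k + 1) := by
    filter_upwards [Ioc_mem_nhdsGT (show (1 : ℝ) < 2 by norm_num)] with s hs
    have hs0 : 0 ≤ s - 1 := by linarith [hs.1]
    have := mul_le_mul_of_nonneg_left (hle s hs.1 hs.2) (pow_nonneg hs0 h)
    calc ((s - 1) * f s) ^ h = (s - 1) ^ h * f s ^ h := mul_pow _ _ _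
      _ ≤ (s - 1) ^ h * (C * g s ^ n) := this
      _ = C * ((s - 1) * g s) ^ n * (s - 1) ^ (k + 1) := by
          rw [hk, mul_pow]
          ring
  have h4 : a ^ h ≤ 0 := le_of_tendsto_of_tendsto h1 h2 h3
  exact absurd h4 (not_le.mpr (pow_pos ha h))

end limit

section primes

variable {K : Type*} [Field K] [NumberField K]

lemma S14_two_le_absNorm_prime (v : HeightOneSpectrum (𝓞 K)) : 2 ≤ Ideal.absNorm v.asIdeal := by
  have h0 : Ideal.absNorm v.asIdeal ≠ 0 := fun h ↦ v.ne_bot (Ideal.absNorm_eq_zero_iff.mp h)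
  have h1 : Ideal.absNorm v.asIdeal ≠ 1 := fun h ↦
    v.isPrime.ne_top (Ideal.absNorm_eq_one_iff.mp h)
  omega

lemma S14_normPow_prime_le_half (v : HeightOneSpectrum (𝓞 K)) {s : ℝ} (hs : 1 ≤ s) :
    S14_normPow K s (S14_primeNZ v) ≤ 1 / 2 := by
  have h2 : (2 : ℝ) ≤ Ideal.absNorm v.asIdeal := by exact_mod_cast S14_two_le_absNorm_prime v
  calc S14_normPow K s (S14_primeNZ v) = (Ideal.absNorm v.asIdeal : ℝ) ^ (-s) := rfl
    _ ≤ (2 : ℝ) ^ (-s) := Real.rpow_le_rpow_of_nonpos (by norm_num) h2 (by linarith)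
    _ ≤ (2 : ℝ) ^ (-1 : ℝ) := Real.rpow_le_rpow_of_exponent_le (by norm_num) (by linarith)
    _ = 1 / 2 := by rw [Real.rpow_neg_one]; norm_num

lemma S14_normPow_two_mul (s : ℝ) (I : (Ideal (𝓞 K))⁰) :
    S14_normPow K (2 * s) I = S14_normPow K s I ^ 2 := by
  unfold S14_normPow
  rw [← Real.rpow_natCast, ← Real.rpow_mul (Nat.cast_nonneg _)]
  congr 1
  push_cast
  ring

/-- The Euler factors with exponent `2 s` are bounded by `ζ_K(2)`. -/
lemma S14_prod_sq_le (U : Finset (HeightOneSpectrum (𝓞 K))) {s : ℝ} (hs : 1 ≤ s) :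
    ∏ v ∈ U, (1 - S14_normPow K s (S14_primeNZ v) ^ 2)⁻¹ ≤ S14_idealZeta K 2 := by
  have hsum2 : Summable (S14_normPowHom K (2 * s)) :=
    S14_idealZeta_summable K (by linarith)
  have h1 := S14_euler_tsum_facIdeals (S14_normPowHom K (2 * s)) hsum2 U
  have h2 : ∏ v ∈ U, (1 - S14_normPow K s (S14_primeNZ v) ^ 2)⁻¹ =
      ∏ v ∈ U, (1 - S14_normPowHom K (2 * s) (S14_primeNZ v))⁻¹ := by
    refine Finset.prod_congr rfl (fun v _ ↦ ?_)
    rw [S14_normPowHom_apply, S14_normPow_two_mul]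
  rw [h2, ← h1]
  have h3 : ∑' I : S14_facIdeals U, S14_normPowHom K (2 * s) I ≤
      ∑' I, S14_normPowHom K (2 * s) I :=
    hsum2.tsum_subtype_le _ (S14_facIdeals U) (fun I ↦ S14_normPow_nonneg _ I)
  refine h3.trans ?_
  exact hsum2.tsum_le_tsum (fun I ↦ S14_normPow_anti (by linarith) I)
    (S14_idealZeta_summable K (by norm_num))

end primes

section numberfield

variable (E M : Type*) [Field E] [NumberField E] [Field M] [NumberField M] [Algebra E M]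

/-- The prime of `E` below a prime of `M`. -/
noncomputable def S14_pi (w : HeightOneSpectrum (𝓞 M)) : HeightOneSpectrum (𝓞 E) :=
  w.under (𝓞 E)

lemma S14_pi_asIdeal (w : HeightOneSpectrum (𝓞 M)) :
    (S14_pi E M w).asIdeal = w.asIdeal.under (𝓞 E) := rfl

lemma S14_absNorm_pi (w : HeightOneSpectrum (𝓞 M)) :
    ∃ f : ℕ, 1 ≤ f ∧
      Ideal.absNorm w.asIdeal = Ideal.absNorm (S14_pi E M w).asIdeal ^ f := by
  have hp : (S14_pi E M w).asIdeal.IsPrime := (S14_pi E M w).isPrime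
  have hp0 : (S14_pi E M w).asIdeal ≠ ⊥ := (S14_pi E M w).ne_bot
  haveI : w.asIdeal.LiesOver (S14_pi E M w).asIdeal := ⟨rfl⟩
  haveI := w.isPrime
  refine ⟨(S14_pi E M w).asIdeal.inertiaDeg' w.asIdeal, ?_, ?_⟩
  · exact Ideal.inertiaDeg'_pos' _ _
  · exact Ideal.absNorm_eq_pow_inertiaDeg'_of_liesOver w.asIdeal (S14_pi E M w).asIdeal hp hp0

lemma S14_fiber_card_le (s : Finset (HeightOneSpectrum (𝓞 M))) (v : HeightOneSpectrum (𝓞 E)) :
    (s.filter (fun w ↦ S14_pi E M w = v)).card ≤ Module.finrank E M := by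
  haveI : v.asIdeal.IsMaximal := v.isPrime.isMaximal v.ne_bot
  haveI : NoZeroSMulDivisors (𝓞 E) (𝓞 M) := ⟨fun {c x} h ↦ by
    rw [Algebra.smul_def, mul_eq_zero] at h
    rcases h with h | h
    · left
      exact (FaithfulSMul.algebraMap_injective (𝓞 E) (𝓞 M)) (by rw [h, map_zero])
    · exact Or.inr h⟩
  refine le_trans ?_ (Ideal.card_primesOverFinset_le_finrank (𝓞 M) E M v.ne_bot)
  refine Finset.card_le_card_of_injOn (fun w ↦ w.asIdeal) ?_ ?_
  · intro w hw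
    have hw' := (Finset.mem_filter.mp hw).2
    rw [Finset.mem_coe, IsDedekindDomain.mem_primesOverFinset_iff v.ne_bot]
    refine ⟨w.isPrime, ⟨?_⟩⟩
    rw [← hw', S14_pi_asIdeal]
  · intro w _ w' _ h
    exact HeightOneSpectrum.ext h

/-- The dichotomy for a prime `w` of `M` over `v = π w`: either `N w = N v`, or
`N(w)^{-s} ≤ (N(v)^{-s})^2`. -/
lemma S14_deg_dichotomy (w : HeightOneSpectrum (𝓞 M)) {s : ℝ} (hs : 0 ≤ s) :
    Ideal.absNorm w.asIdeal = Ideal.absNorm (S14_pi E M w).asIdeal ∨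
      S14_normPow M s (S14_primeNZ w) ≤ S14_normPow E s (S14_primeNZ (S14_pi E M w)) ^ 2 := by
  obtain ⟨f, hf1, hf⟩ := S14_absNorm_pi E M w
  rcases Nat.eq_or_lt_of_le hf1 with h1 | h2
  · left
    rw [hf, ← h1, pow_one]
  · right
    have hy0 : 0 ≤ S14_normPow E s (S14_primeNZ (S14_pi E M w)) := S14_normPow_nonneg _ _
    have hy1 : S14_normPow E s (S14_primeNZ (S14_pi E M w)) ≤ 1 := S14_normPow_le_one hs _
    have hx : S14_normPow M s (S14_primeNZ w) =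
        S14_normPow E s (S14_primeNZ (S14_pi E M w)) ^ f := by
      unfold S14_normPow
      rw [S14_primeNZ_coe, S14_primeNZ_coe, hf, Nat.cast_pow, ← Real.rpow_natCast,
        ← Real.rpow_natCast, ← Real.rpow_mul (Nat.cast_nonneg _),
        ← Real.rpow_mul (Nat.cast_nonneg _), mul_comm]
    rw [hx]
    exact pow_le_pow_of_le_one hy0 hy1 h2

/-- The class map to `Cl(E) / H`. -/
noncomputable def S14_clsMap (H : Subgroup (ClassGroup (𝓞 E))) :
    (Ideal (𝓞 E))⁰ →* ClassGroup (𝓞 E) ⧸ H :=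
  (QuotientGroup.mk' H).comp ClassGroup.mk0

lemma S14_clsMap_eq_one_iff (H : Subgroup (ClassGroup (𝓞 E))) (I : (Ideal (𝓞 E))⁰) :
    S14_clsMap E H I = 1 ↔ ClassGroup.mk0 I ∈ H := by
  simp [S14_clsMap]

/-- Bound for `L(χ)`, `χ ≠ 1` a character of `Cl(E) / H`. -/
lemma S14_L_bound_nf (H : Subgroup (ClassGroup (𝓞 E))) {B : ℝ} {s : ℝ} (hs : 1 < s)
    (hB : ∀ C : ClassGroup (𝓞 E),
      |(∑' I : {I : (Ideal (𝓞 E))⁰ // ClassGroup.mk0 I = C},
          (Ideal.absNorm (I.1 : Ideal (𝓞 E)) : ℝ) ^ (-s)) -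
        ∑' I : {I : (Ideal (𝓞 E))⁰ // ClassGroup.mk0 I = 1},
          (Ideal.absNorm (I.1 : Ideal (𝓞 E)) : ℝ) ^ (-s)| ≤ B)
    (χ : (ClassGroup (𝓞 E) ⧸ H) →* ℂˣ) (hχ : χ ≠ 1) :
    ‖S14_L (S14_normPowHom E s) (S14_clsMap E H) χ‖ ≤
      Fintype.card (ClassGroup (𝓞 E)) * B := by
  have hψ : χ.comp (QuotientGroup.mk' H) ≠ 1 := by
    intro h
    apply hχ
    refine MonoidHom.ext (fun g ↦ ?_)
    obtain ⟨g', rfl⟩ := QuotientGroup.mk'_surjective H g
    exact DFunLike.congr_fun h g'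
  exact S14_L_bound (S14_normPow E s) (S14_idealZeta_summable E hs)
    (fun I ↦ ClassGroup.mk0 I) (χ.comp (QuotientGroup.mk' H)) hψ B hB

/-- The key inequality between finite Euler products, for fixed `s`. -/
lemma S14_key_ineq (H : Subgroup (ClassGroup (𝓞 E))) (T : Finset (HeightOneSpectrum (𝓞 E)))
    (hH : ∀ w : HeightOneSpectrum (𝓞 M),
      Ideal.absNorm w.asIdeal = Ideal.absNorm (S14_pi E M w).asIdeal → S14_pi E M w ∉ T →
        ClassGroup.mk0 (S14_primeNZ (S14_pi E M w)) ∈ H)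
    [Fintype ((ClassGroup (𝓞 E) ⧸ H) →* ℂˣ)]
    {s : ℝ} (hs : 1 < s) (t : Finset (HeightOneSpectrum (𝓞 M))) :
    (∏ w ∈ t, (1 - S14_normPow M s (S14_primeNZ w))⁻¹) ^ Nat.card (ClassGroup (𝓞 E) ⧸ H) ≤
      ((2 ^ T.card * S14_idealZeta E 2) ^ Module.finrank E M) ^
          Nat.card (ClassGroup (𝓞 E) ⧸ H) *
        (∏ χ : (ClassGroup (𝓞 E) ⧸ H) →* ℂˣ,
          S14_L (S14_normPowHom E s) (S14_clsMap E H) χ).re ^ Module.finrank E M := by
  set n := Module.finrank E M with hn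
  set h := Nat.card (ClassGroup (𝓞 E) ⧸ H) with hh
  set Z := (∏ χ : (ClassGroup (𝓞 E) ⧸ H) →* ℂˣ,
    S14_L (S14_normPowHom E s) (S14_clsMap E H) χ).re with hZ
  have hs0 : (0 : ℝ) ≤ s := by linarith
  have hs1 : (1 : ℝ) ≤ s := hs.le
  have hcmp := S14_compare (S14_pi E M) n (fun w ↦ S14_normPow M s (S14_primeNZ w))
    (fun v ↦ S14_normPow E s (S14_primeNZ v)) (fun v ↦ S14_clsMap E H (S14_primeNZ v) = 1) T
    (fun w ↦ S14_normPow_nonneg _ _) (fun w ↦ S14_normPow_prime_le_half w hs1)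
    (fun v ↦ S14_normPow_nonneg _ _) (fun v ↦ S14_normPow_prime_le_half v hs1)
    (fun u v ↦ S14_fiber_card_le E M u v)
    (fun w ↦ by
      rcases S14_deg_dichotomy E M w hs0 with h1 | h2
      · left
        refine ⟨?_, fun hT ↦ ?_⟩
        · show S14_normPow M s (S14_primeNZ w) = S14_normPow E s (S14_primeNZ (S14_pi E M w))
          unfold S14_normPow
          rw [S14_primeNZ_coe, S14_primeNZ_coe, h1]
        · exact (S14_clsMap_eq_one_iff E H _).mpr (hH w h1 hT)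
      · exact Or.inr h2) t
  set U := t.image (S14_pi E M) with hU
  set A2 := ∏ v ∈ U, (1 - S14_normPow E s (S14_primeNZ v) ^ 2)⁻¹ with hA2
  set D := ∏ v ∈ @Finset.filter _ (fun v ↦ S14_clsMap E H (S14_primeNZ v) = 1)
    (fun _ ↦ Classical.propDecidable _) U,
    (1 - S14_normPow E s (S14_primeNZ v))⁻¹ with hD
  have hA : A2 ≤ S14_idealZeta E 2 := S14_prod_sq_le U hs1
  have hA0 : 0 ≤ A2 := by
    refine Finset.prod_nonneg (fun v _ ↦ ?_)
    have h1 := S14_normPow_prime_le_half v hs1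
    have h0 : 0 ≤ S14_normPow E s (S14_primeNZ v) := S14_normPow_nonneg _ _
    have hsq : S14_normPow E s (S14_primeNZ v) ^ 2 ≤ 1 / 2 := by nlinarith
    exact le_trans zero_le_one (S14_inv_one_sub_ge_one (by positivity) hsq)
  have hD0 : 0 ≤ D :=
    Finset.prod_nonneg (fun v _ ↦ le_trans zero_le_one
      (S14_inv_one_sub_ge_one (S14_normPow_nonneg _ _) (S14_normPow_prime_le_half v hs1)))
  have hDZ : D ^ h ≤ Z := by
    have := S14_prodL_re_ge (S14_normPowHom E s) (fun I ↦ S14_normPow_nonneg s I)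
      (S14_idealZeta_summable E hs) (S14_clsMap E H) U
    rw [Finset.prod_pow] at this
    exact this
  have hL0 : 0 ≤ ∏ w ∈ t, (1 - S14_normPow M s (S14_primeNZ w))⁻¹ :=
    Finset.prod_nonneg (fun w _ ↦ le_trans zero_le_one
      (S14_inv_one_sub_ge_one (S14_normPow_nonneg _ _) (S14_normPow_prime_le_half w hs1)))
  have h2T : (0 : ℝ) ≤ 2 ^ T.card := by positivity
  calc (∏ w ∈ t, (1 - S14_normPow M s (S14_primeNZ w))⁻¹) ^ h
      ≤ ((2 ^ T.card * A2 * D) ^ n) ^ h := pow_le_pow_left₀ hL0 hcmp h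
    _ = ((2 ^ T.card * A2) ^ n) ^ h * (D ^ h) ^ n := by ring
    _ ≤ ((2 ^ T.card * S14_idealZeta E 2) ^ n) ^ h * Z ^ n := by
        refine mul_le_mul ?_ (pow_le_pow_left₀ (pow_nonneg hD0 h) hDZ n)
          (pow_nonneg (pow_nonneg hD0 h) n) (by positivity [S14_idealZeta_pos E one_lt_two])
        refine pow_le_pow_left₀ (by positivity) ?_ h
        refine pow_le_pow_left₀ (by positivity) ?_ n
        exact mul_le_mul_of_nonneg_left hA h2T

/-- Upper bound for the product of all `L(χ)`. -/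
lemma S14_prodL_le (H : Subgroup (ClassGroup (𝓞 E)))
    [Fintype ((ClassGroup (𝓞 E) ⧸ H) →* ℂˣ)] {B : ℝ} {s : ℝ} (hs : 1 < s)
    (hB : ∀ C : ClassGroup (𝓞 E),
      |(∑' I : {I : (Ideal (𝓞 E))⁰ // ClassGroup.mk0 I = C},
          (Ideal.absNorm (I.1 : Ideal (𝓞 E)) : ℝ) ^ (-s)) -
        ∑' I : {I : (Ideal (𝓞 E))⁰ // ClassGroup.mk0 I = 1},
          (Ideal.absNorm (I.1 : Ideal (𝓞 E)) : ℝ) ^ (-s)| ≤ B) :
    (∏ χ : (ClassGroup (𝓞 E) ⧸ H) →* ℂˣ,
        S14_L (S14_normPowHom E s) (S14_clsMap E H) χ).re ≤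
      S14_idealZeta E s *
        (max 1 (Fintype.card (ClassGroup (𝓞 E)) * B)) ^ Nat.card (ClassGroup (𝓞 E) ⧸ H) := by
  set B' := max 1 (Fintype.card (ClassGroup (𝓞 E)) * B) with hB'
  have hB1 : 1 ≤ B' := le_max_left _ _
  have hz : 0 ≤ S14_idealZeta E s := (S14_idealZeta_pos E hs).le
  refine (Complex.re_le_norm _).trans ?_
  rw [Complex.norm_prod, ← Finset.mul_prod_erase Finset.univ _ (Finset.mem_univ 1)]
  have h1 : ‖S14_L (S14_normPowHom E s) (S14_clsMap E H) 1‖ = S14_idealZeta E s := by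
    rw [S14_L_one, Complex.norm_real, Real.norm_of_nonneg]
    · rfl
    · exact hz
  rw [h1]
  refine mul_le_mul_of_nonneg_left ?_ hz
  calc ∏ χ ∈ Finset.univ.erase (1 : (ClassGroup (𝓞 E) ⧸ H) →* ℂˣ),
        ‖S14_L (S14_normPowHom E s) (S14_clsMap E H) χ‖
      ≤ ∏ _χ ∈ Finset.univ.erase (1 : (ClassGroup (𝓞 E) ⧸ H) →* ℂˣ), B' := by
        refine Finset.prod_le_prod (fun χ _ ↦ norm_nonneg _) (fun χ hχ ↦ ?_)
        exact (S14_L_bound_nf E H hs hB χ (Finset.ne_of_mem_erase hχ)).trans (le_max_right _ _)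
    _ = B' ^ (Finset.univ.erase (1 : (ClassGroup (𝓞 E) ⧸ H) →* ℂˣ)).card := Finset.prod_const _
    _ ≤ B' ^ Nat.card (ClassGroup (𝓞 E) ⧸ H) := by
        refine pow_le_pow_right₀ hB1 ?_
        rw [← S14_char_card (G := ClassGroup (𝓞 E) ⧸ H)]
        exact Finset.card_le_univ _

/-- **Universal norm inequality**, with primes as `HeightOneSpectrum`. -/
theorem S14_univ_norm_aux (hB : S14_ClassZetaBdd E) (H : Subgroup (ClassGroup (𝓞 E)))
    (T : Finset (HeightOneSpectrum (𝓞 E)))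
    (hH : ∀ w : HeightOneSpectrum (𝓞 M),
      Ideal.absNorm w.asIdeal = Ideal.absNorm (S14_pi E M w).asIdeal → S14_pi E M w ∉ T →
        ClassGroup.mk0 (S14_primeNZ (S14_pi E M w)) ∈ H) :
    H.index ≤ Module.finrank E M := by
  letI : Fintype ((ClassGroup (𝓞 E) ⧸ H) →* ℂˣ) := Fintype.ofFinite _
  obtain ⟨B, hB⟩ := hB
  rw [Subgroup.index_eq_card]
  set n := Module.finrank E M with hn
  set h := Nat.card (ClassGroup (𝓞 E) ⧸ H) with hh
  set B' := max 1 (Fintype.card (ClassGroup (𝓞 E)) * B) with hB'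
  have hB1 : 1 ≤ B' := le_max_left _ _
  refine S14_limit_arg (S14_idealZeta M) (S14_idealZeta E) (dedekindZeta_residue M)
    (dedekindZeta_residue E) (((2 ^ T.card * S14_idealZeta E 2) ^ n) ^ h * (B' ^ h) ^ n)
    (dedekindZeta_residue_pos M) h n (S14_idealZeta_residue M) (S14_idealZeta_residue E) ?_
  intro s hs1 hs2
  have hsumM : Summable (fun I ↦ ‖S14_normPowHom M s I‖) := by
    have : ∀ I, ‖S14_normPowHom M s I‖ = S14_normPow M s I := fun I ↦
      Real.norm_of_nonneg (S14_normPow_nonneg s I)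
    simp_rw [this]
    exact S14_idealZeta_summable M hs1
  have hlim := (S14_euler_tendsto (S14_normPowHom M s) hsumM).pow h
  have hkey : S14_idealZeta M s ^ h ≤ ((2 ^ T.card * S14_idealZeta E 2) ^ n) ^ h *
      (∏ χ : (ClassGroup (𝓞 E) ⧸ H) →* ℂˣ,
        S14_L (S14_normPowHom E s) (S14_clsMap E H) χ).re ^ n :=
    le_of_tendsto hlim (Filter.Eventually.of_forall (fun t ↦ S14_key_ineq E M H T hH hs1 t))
  have hZ := S14_prodL_le E H hs1 (hB s hs1 hs2)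
  have hZ0 : 0 ≤ (∏ χ : (ClassGroup (𝓞 E) ⧸ H) →* ℂˣ,
      S14_L (S14_normPowHom E s) (S14_clsMap E H) χ).re := by
    have := S14_prodL_re_ge (S14_normPowHom E s) (fun I ↦ S14_normPow_nonneg s I)
      (S14_idealZeta_summable E hs1) (S14_clsMap E H) ∅
    simpa using zero_le_one.trans this
  have hA0 : 0 ≤ ((2 ^ T.card * S14_idealZeta E 2) ^ n) ^ h := by
    have := S14_idealZeta_pos E one_lt_two
    positivity
  calc S14_idealZeta M s ^ h ≤ ((2 ^ T.card * S14_idealZeta E 2) ^ n) ^ h *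
      (∏ χ : (ClassGroup (𝓞 E) ⧸ H) →* ℂˣ,
        S14_L (S14_normPowHom E s) (S14_clsMap E H) χ).re ^ n := hkey
    _ ≤ ((2 ^ T.card * S14_idealZeta E 2) ^ n) ^ h * (S14_idealZeta E s * B' ^ h) ^ n :=
        mul_le_mul_of_nonneg_left (pow_le_pow_left₀ hZ0 hZ n) hA0
    _ = ((2 ^ T.card * S14_idealZeta E 2) ^ n) ^ h * (B' ^ h) ^ n * S14_idealZeta E s ^ n := by
        ring

/-- **Universal norm inequality**, general form: `T` is a finite set of ideals of `𝓞 E`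
(the exceptional primes); "degree one" means `N(P) = N(P ∩ 𝓞 E)`. -/
theorem S14_univ_norm_of (hB : S14_ClassZetaBdd E) (H : Subgroup (ClassGroup (𝓞 E)))
    (T : Set (Ideal (𝓞 E))) (hT : T.Finite)
    (hH : ∀ (P : Ideal (𝓞 M)) (𝔭 : (Ideal (𝓞 E))⁰), P.IsPrime → P ≠ ⊥ →
      P.under (𝓞 E) = 𝔭.1 → Ideal.absNorm P = Ideal.absNorm 𝔭.1 → 𝔭.1 ∉ T →
        ClassGroup.mk0 𝔭 ∈ H) :
    H.index ≤ Module.finrank E M := by
  have hfin : {v : HeightOneSpectrum (𝓞 E) | v.asIdeal ∈ T}.Finite :=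
    hT.preimage (fun v _ v' _ h ↦ HeightOneSpectrum.ext h)
  refine S14_univ_norm_aux E M hB H hfin.toFinset (fun w hw hT' ↦ ?_)
  refine hH w.asIdeal (S14_primeNZ (S14_pi E M w)) w.isPrime w.ne_bot rfl hw ?_
  intro h
  exact hT' (hfin.mem_toFinset.mpr h)

/-- **Universal norm inequality**, with an exceptional modulus `t ≠ 0`: the hypothesis is only
needed for the degree one primes `P` of `M` with `t ∉ P`. -/
theorem S14_univ_norm_of' (hB : S14_ClassZetaBdd E) (H : Subgroup (ClassGroup (𝓞 E)))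
    (t : ℕ) (ht : t ≠ 0)
    (hH : ∀ (P : Ideal (𝓞 M)) (𝔭 : (Ideal (𝓞 E))⁰), P.IsPrime → P ≠ ⊥ →
      P.under (𝓞 E) = 𝔭.1 → Ideal.absNorm P = Ideal.absNorm 𝔭.1 → (t : 𝓞 M) ∉ P →
        ClassGroup.mk0 𝔭 ∈ H) :
    H.index ≤ Module.finrank E M := by
  have ht0 : Ideal.span {(t : 𝓞 E)} ≠ 0 := by
    rw [Ne, Ideal.zero_eq_bot, Ideal.span_singleton_eq_bot]
    exact_mod_cast ht
  refine S14_univ_norm_aux E M hB H (Ideal.finite_factors ht0).toFinset (fun w hw hT' ↦ ?_)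
  refine hH w.asIdeal (S14_primeNZ (S14_pi E M w)) w.isPrime w.ne_bot rfl hw ?_
  intro h
  apply hT'
  rw [Set.Finite.mem_toFinset, Set.mem_setOf_eq, Ideal.dvd_iff_le, Ideal.span_singleton_le_iff_mem,
    S14_pi_asIdeal, Ideal.under_def, Ideal.mem_comap]
  simpa using h

/-- Degree one in terms of `Ideal.inertiaDeg`. -/
lemma S14_inertiaDeg_eq_one_of_absNorm_eq (P : Ideal (𝓞 M)) (𝔭 : Ideal (𝓞 E))
    (hP : P.IsPrime) (hP0 : P ≠ ⊥) (hu : P.under (𝓞 E) = 𝔭)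
    (hN : Ideal.absNorm P = Ideal.absNorm 𝔭) : P.inertiaDeg (𝓞 E) = 1 := by
  subst hu
  have hp : (P.under (𝓞 E)).IsPrime := Ideal.IsPrime.under (𝓞 E) P
  have hp0 : P.under (𝓞 E) ≠ ⊥ := Ideal.under_ne_bot (𝓞 E) hP0
  haveI : (P.under (𝓞 E)).IsMaximal := hp.isMaximal hp0
  haveI : P.IsMaximal := hP.isMaximal hP0
  have h1 := Ideal.absNorm_eq_pow_inertiaDeg'_of_liesOver P (P.under (𝓞 E)) hp hp0
  rw [← Ideal.inertiaDeg'_eq_inertiaDeg (P.under (𝓞 E)) P]
  have h2 : 2 ≤ Ideal.absNorm (P.under (𝓞 E)) :=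
    S14_two_le_absNorm_prime ⟨P.under (𝓞 E), hp, hp0⟩
  have h3 : Ideal.absNorm (P.under (𝓞 E)) ^ (P.under (𝓞 E)).inertiaDeg' P =
      Ideal.absNorm (P.under (𝓞 E)) ^ 1 := by
    rw [pow_one, ← h1, hN]
  exact Nat.pow_right_injective h2 h3

lemma S14_absNorm_eq_of_inertiaDeg_eq_one (P : Ideal (𝓞 M)) (𝔭 : Ideal (𝓞 E))
    (hP : P.IsPrime) (hP0 : P ≠ ⊥) (hu : P.under (𝓞 E) = 𝔭)
    (hf : P.inertiaDeg (𝓞 E) = 1) : Ideal.absNorm P = Ideal.absNorm 𝔭 := by
  subst hu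
  have hp : (P.under (𝓞 E)).IsPrime := Ideal.IsPrime.under (𝓞 E) P
  have hp0 : P.under (𝓞 E) ≠ ⊥ := Ideal.under_ne_bot (𝓞 E) hP0
  haveI : (P.under (𝓞 E)).IsMaximal := hp.isMaximal hp0
  haveI : P.IsMaximal := hP.isMaximal hP0
  have h1 := Ideal.absNorm_eq_pow_inertiaDeg'_of_liesOver P (P.under (𝓞 E)) hp hp0
  rw [Ideal.inertiaDeg'_eq_inertiaDeg (P.under (𝓞 E)) P, hf, pow_one] at h1
  exact h1

end numberfield

end Fermat.Agent.S14
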