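import Mathlib
import Fermat.Agent.S14.UnivNorm
import Fermat.Agent.S14.ClassZeta
import Fermat.Agent.S14.CrossDefs

/-!
# S14, block N2 (universal norm inequality): final, hypothesis-free statements

* `S14_univ_norm`   : `T` a finite set of ideals of `𝓞 E` (exceptional primes), `H ≤ Cl(E)` containing
  the classes of all primes `𝔭 ∉ T` of `E` under a prime `P` of `M` with `N(P) = N(𝔭)`
  ⇒ `H.index ≤ [M : E]`;
* `S14_univ_norm'`  : the same with exceptional modulus `t ≠ 0` (`t ∉ P`);
* `S14_n2 : S14_N2Stmt` : the interface N2 → N3 of `CrossDefs.lean`.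

N2a (Euler products, characters, comparison, limit) = helper3; N2b (class zeta functions) = helper17.
-/

set_option autoImplicit false
set_option linter.unusedSectionVars false

namespace Fermat.Agent.S14

open NumberField nonZeroDivisors

/-- The input of block N2b. -/
theorem S14_classZetaBdd (E : Type*) [Field E] [NumberField E] : S14_ClassZetaBdd E :=
  S14_classZeta_sub_one_bounded E

/-- **Universal norm inequality** (second inequality of class field theory, ideal-theoretic and
analytic form). -/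
theorem S14_univ_norm (E M : Type*) [Field E] [NumberField E] [Field M] [NumberField M]
    [Algebra E M] (H : Subgroup (ClassGroup (𝓞 E)))
    (T : Set (Ideal (𝓞 E))) (hT : T.Finite)
    (hH : ∀ (P : Ideal (𝓞 M)) (𝔭 : (Ideal (𝓞 E))⁰), P.IsPrime → P ≠ ⊥ →
      P.under (𝓞 E) = 𝔭.1 → Ideal.absNorm P = Ideal.absNorm 𝔭.1 → 𝔭.1 ∉ T →
        ClassGroup.mk0 𝔭 ∈ H) :
    H.index ≤ Module.finrank E M :=
  S14_univ_norm_of E M (S14_classZetaBdd E) H T hT hH

/-- **Universal norm inequality** with an exceptional modulus `t ≠ 0`. -/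
theorem S14_univ_norm' (E M : Type*) [Field E] [NumberField E] [Field M] [NumberField M]
    [Algebra E M] (H : Subgroup (ClassGroup (𝓞 E))) (t : ℕ) (ht : t ≠ 0)
    (hH : ∀ (P : Ideal (𝓞 M)) (𝔭 : (Ideal (𝓞 E))⁰), P.IsPrime → P ≠ ⊥ →
      P.under (𝓞 E) = 𝔭.1 → Ideal.absNorm P = Ideal.absNorm 𝔭.1 → (t : 𝓞 M) ∉ P →
        ClassGroup.mk0 𝔭 ∈ H) :
    H.index ≤ Module.finrank E M :=
  S14_univ_norm_of' E M (S14_classZetaBdd E) H t ht hH

/-- The index of `S14_HsT E M t` is at most `[M : E]` (no Galois hypothesis needed). -/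
theorem S14_index_HsT_le (E M : Type*) [Field E] [NumberField E] [Field M] [NumberField M]
    [Algebra E M] (t : ℕ) (ht : t ≠ 0) : (S14_HsT E M t).index ≤ Module.finrank E M := by
  refine S14_univ_norm' E M (S14_HsT E M t) t ht (fun P 𝔭 hP hP0 hu hN htP ↦ ?_)
  refine Subgroup.subset_closure ⟨𝔭, P, hP, hu, ?_, htP, rfl⟩
  exact S14_inertiaDeg_eq_one_of_absNorm_eq E M P 𝔭.1 hP hP0 hu hN

/-- Interface N2 → N3. -/
theorem S14_n2 : S14_N2Stmt := fun E M _ _ _ _ _ _ t ht ↦ S14_index_HsT_le E M t ht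

end Fermat.Agent.S14
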