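import Mathlib
import Fermat.Agent.S14.CrossDefs
import Fermat.Agent.S14.CrossCore
import Fermat.Agent.S14.CrossNorm
import Fermat.Agent.S14.CrossRam
import Fermat.Agent.S14.CrossTop
import Fermat.Agent.S14.CrossFinal
import Fermat.Agent.S14.UnivNormFinal
import Fermat.Agent.S14.CrossBridge

/-!
# S14 (item 13), block N3: assembly of the crossing argument

* `S14_normStmt : S14_NormStmt` (NORM = `S14_norm_mod_one` + `S14_norm_ramIdx`),
* `S14_core : S14_CoreStmt p` (CORE, from N2 and NORM),
* `S14_recip_of : S14_N1Stmt p → S14_BridgeStmt p → S14_Recip p`,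
* `S14_recip_of_n1 : S14_N1Stmt p → S14_Recip p` (block N3 complete: only N1 is an input).
-/

namespace Fermat.Agent.S14

open NumberField nonZeroDivisors

/-- NORM: in an unramified Galois extension containing `ζ_ℓ`, norms of elements prime to `ℓ`
are `≡ 1 mod ℓ`. -/
theorem S14_normStmt : S14_NormStmt := by
  intro E M _ _ _ _ _ _ hunr ℓ hℓ ζ hζ x hx
  have : Fact ℓ.Prime := ⟨hℓ⟩
  exact S14_norm_mod_one E ℓ (S14_norm_ramIdx E M hunr ℓ hℓ ζ hζ) x hx

/-- CORE. -/
theorem S14_core (p : ℕ) [Fact p.Prime] (hp2 : p ≠ 2) : S14_CoreStmt p :=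
  S14_core_of p hp2 S14_n2 S14_normStmt

/-- reciprocity for unramified Galois extensions of odd prime degree `p`, from the first
inequality (N1) and BRIDGE. -/
theorem S14_recip_of (p : ℕ) [Fact p.Prime] (hp2 : p ≠ 2) (h1 : S14_N1Stmt p)
    (hb : S14_BridgeStmt p) : S14_Recip p :=
  S14_fin p h1 (S14_twoprime p hp2 (S14_core p hp2) hb)

/-- **Block N3 complete**: reciprocity for unramified Galois extensions of odd prime degree
`p` follows from the first inequality (N1) alone. -/
theorem S14_recip_of_n1 (p : ℕ) [Fact p.Prime] (hp2 : p ≠ 2) (h1 : S14_N1Stmt p) :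
    S14_Recip p :=
  S14_recip_of p hp2 h1 (S14_bridge p hp2 h1)

end Fermat.Agent.S14
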