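import Mathlib
import Fermat.Prelude.Def_ExtCitation_AdmissibleExtension_v2
import Fermat.Prelude.Def_ExtCitation_KummerBridge

/-!
# S14, block T/RED: reduction of `ExtVanishingCts p` to the group form of `(★)`

`V ⊃ C` an admissible extension (Prelude `IsAdmissibleExtensionCts`), `χ = cycloChar p` the mod-`p`
cyclotomic character of `Gℚ`, `N = S14_red_ker V` the kernel of the action on `V`.

* `N ≤ ker χ` (`S14_red_ker_le`), `σ ↦ σ v₀ - v₀` is a homomorphism `ker χ → C` with kernel `N`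
  (`S14_red_b`, `S14_red_b_ker`), so `[ker χ : N] ∈ {1, p}` (`S14_red_index`);
* `N = ker χ`: the extension splits (`S14_red_split`; eigenspace of some `τ` with `χ τ ≠ 1`);
* `[ker χ : N] = p`: `N` satisfies all hypotheses of `S14_NoExt p`
  (`S14_red_conj`: `τ σ τ⁻¹ ≡ σ ^ k` modulo `N` for `k χ(τ) = 1`).

Main statements: `S14_NoExt p` (definition, the target of the class field theory core) and
`S14_red : S14_NoExt p → ExtCitation.ExtVanishingCts p`.
-/

set_option autoImplicit false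
set_option linter.unusedSectionVars false

namespace Fermat.Agent.S14

open ExtCitation ValuationSubring

local notation "ℚbar" => AlgebraicClosure ℚ
local notation "Gℚ" => (AlgebraicClosure ℚ ≃ₐ[ℚ] AlgebraicClosure ℚ)

/-- **Group form of `(★)`**: there is no open normal subgroup `N ≤ ker χ` of `Gℚ` of index `p` in
`ker χ` (`χ` the mod-`p` cyclotomic character) on whose quotient `(ker χ)/N` the group `Gℚ` acts
through `χ⁻¹`, which contains all inertia groups at `ℓ ≠ p` and all `D_A ∩ ker χ` for `A` over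
`p`.  (`K` = fixed field of `N` would be a cyclic unramified extension of degree `p` of
`F = ℚ(ζ_p)`, Galois over `ℚ`, with `Gal(F/ℚ)` acting on `Gal(K/F)` through `ω⁻¹`.) -/
def S14_NoExt (p : ℕ) [Fact p.Prime] : Prop :=
  ∀ N : Subgroup Gℚ, N.Normal → IsOpen (N : Set Gℚ) → N ≤ (cycloChar p).ker →
    (N.subgroupOf (cycloChar p).ker).index = p →
    (∀ τ : Gℚ, ∀ σ ∈ (cycloChar p).ker, ∀ k : ℕ,
      (k : ZMod p) * ((cycloChar p τ : (ZMod p)ˣ) : ZMod p) = 1 →
        τ * σ * τ⁻¹ * (σ ^ k)⁻¹ ∈ N) →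
    (∀ ℓ : ℕ, ℓ.Prime → ℓ ≠ p → ∀ A : ValuationSubring ℚbar, A.LiesOverPrime ℓ →
      A.inertiaSubgroupIn ℚ ≤ N) →
    (∀ A : ValuationSubring ℚbar, A.LiesOverPrime p → ∀ σ ∈ A.decompositionSubgroup ℚ,
      σ ∈ (cycloChar p).ker → σ ∈ N) →
    False

section

variable {p : ℕ} [Fact p.Prime]
variable {V : Type} [AddCommGroup V] [Module (ZMod p) V]
  [DistribMulAction Gℚ V] [SMulCommClass Gℚ (ZMod p) V]

/-- the kernel of the action on `V`. -/
def S14_red_ker (V : Type) [AddCommGroup V] [DistribMulAction Gℚ V] : Subgroup Gℚ where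
  carrier := {σ | ∀ v : V, σ • v = v}
  one_mem' := fun v => one_smul _ v
  mul_mem' := fun {a b} ha hb v => by rw [mul_smul, hb v, ha v]
  inv_mem' := fun {a} ha v => by
    conv_lhs => rw [← ha v]
    rw [inv_smul_smul]

theorem S14_red_mem_ker {σ : Gℚ} : σ ∈ S14_red_ker V ↔ ∀ v : V, σ • v = v := Iff.rfl

instance S14_red_ker_normal : (S14_red_ker V).Normal where
  conj_mem := fun n hn g v => by
    rw [mul_smul, mul_smul, hn (g⁻¹ • v), smul_inv_smul]

/-- the fixed space of `σ`. -/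
def S14_red_fix (p : ℕ) [Fact p.Prime] (V : Type) [AddCommGroup V] [Module (ZMod p) V]
    [DistribMulAction Gℚ V] [SMulCommClass Gℚ (ZMod p) V] (σ : Gℚ) : Submodule (ZMod p) V where
  carrier := {v | σ • v = v}
  add_mem' := fun {a b} ha hb => by
    show σ • (a + b) = a + b
    rw [smul_add, ha, hb]
  zero_mem' := smul_zero σ
  smul_mem' := fun c x hx => by
    show σ • (c • x) = c • x
    rw [smul_comm, hx]

variable {C : Submodule (ZMod p) V}

/-- a submodule strictly containing `C` is everything. -/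
theorem S14_red_eq_top (hC : Nat.card C = p) (hV : Nat.card V = p ^ 2)
    {S : Submodule (ZMod p) V} (hCS : C ≤ S) {v : V} (hvS : v ∈ S) (hvC : v ∉ C) : S = ⊤ := by
  have hp : p.Prime := Fact.out
  have : Finite V := Nat.finite_of_card_ne_zero (by rw [hV]; exact pow_ne_zero _ hp.ne_zero)
  have h1 : Nat.card C.toAddSubgroup ∣ Nat.card S.toAddSubgroup :=
    AddSubgroup.card_dvd_of_le (by exact hCS)
  have h2 : Nat.card S.toAddSubgroup ∣ Nat.card V := AddSubgroup.card_addSubgroup_dvd_card _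
  have hC' : Nat.card C.toAddSubgroup = p := hC
  rw [hC'] at h1
  rw [hV] at h2
  obtain ⟨j, hj, hcard⟩ := (Nat.dvd_prime_pow hp).1 h2
  have hj0 : j ≠ 0 := by
    rintro rfl
    rw [hcard, pow_zero] at h1
    exact hp.one_lt.ne' (Nat.dvd_one.1 h1)
  have hj' : j = 1 ∨ j = 2 := by omega
  rcases hj' with rfl | rfl
  · exfalso
    rw [pow_one] at hcard
    have : C.toAddSubgroup = S.toAddSubgroup :=
      AddSubgroup.eq_of_le_of_card_ge (by exact hCS) (by rw [hcard, hC'])
    apply hvC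
    have h3 : v ∈ S.toAddSubgroup := hvS
    rw [← this] at h3
    exact h3
  · have : S.toAddSubgroup = ⊤ := AddSubgroup.eq_top_of_card_eq _ (by rw [hcard, hV])
    rw [_root_.eq_top_iff]
    intro x _
    have : x ∈ S.toAddSubgroup := by rw [this]; trivial
    exact this

/-- there is a vector outside `C`. -/
theorem S14_red_exists_notMem (hC : Nat.card C = p) (hV : Nat.card V = p ^ 2) :
    ∃ v : V, v ∉ C := by
  have hp : p.Prime := Fact.out
  by_contra hcon
  push Not at hcon
  have : C = ⊤ := _root_.eq_top_iff.2 fun x _ => hcon x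
  rw [this] at hC
  have h2 : Nat.card (⊤ : Submodule (ZMod p) V) = Nat.card V :=
    Nat.card_congr (Submodule.topEquiv (R := ZMod p) (M := V)).toEquiv
  rw [h2, hV] at hC
  have : p * p = p * 1 := by rw [← pow_two, hC, mul_one]
  have := Nat.eq_of_mul_eq_mul_left hp.pos this
  exact hp.one_lt.ne' this

/-- the kernel of the action lies in the kernel of the cyclotomic character. -/
theorem S14_red_ker_le (hadm : IsAdmissibleExtension p V C) :
    S14_red_ker V ≤ (cycloChar p).ker := by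
  intro σ hσ
  obtain ⟨v, hv⟩ := S14_red_exists_notMem hadm.card_sub hadm.card_total
  have h1 := hadm.cyclo_quot σ v
  rw [hσ v, ← coe_cycloChar] at h1
  rw [MonoidHom.mem_ker]
  by_contra hne
  have hne' : (1 : ZMod p) - ((cycloChar p σ : (ZMod p)ˣ) : ZMod p) ≠ 0 := by
    intro h0
    apply hne
    ext
    rw [Units.val_one]
    exact (sub_eq_zero.1 h0).symm
  have h2 : ((1 : ZMod p) - ((cycloChar p σ : (ZMod p)ˣ) : ZMod p)) • v ∈ C := by
    rw [sub_smul, one_smul]
    exact h1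
  apply hv
  have h3 := C.smul_mem ((1 : ZMod p) - ((cycloChar p σ : (ZMod p)ˣ) : ZMod p))⁻¹ h2
  rwa [smul_smul, inv_mul_cancel₀ hne', one_smul] at h3

/-- elements of `ker χ` move every vector by an element of `C`. -/
theorem S14_red_sub_mem (hadm : IsAdmissibleExtension p V C) {σ : Gℚ}
    (hσ : σ ∈ (cycloChar p).ker) (v : V) : σ • v - v ∈ C := by
  have h1 := hadm.cyclo_quot σ v
  rw [← coe_cycloChar, MonoidHom.mem_ker.1 hσ, Units.val_one, one_smul] at h1
  exact h1

/-- an element of `Gℚ` which fixes a vector outside `C` and lies in `ker χ` acts trivially. -/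
theorem S14_red_mem_ker_of_fix (hadm : IsAdmissibleExtension p V C) {σ : Gℚ}
    {v₀ : V} (hv₀ : v₀ ∉ C) (h : σ • v₀ = v₀) : σ ∈ S14_red_ker V := by
  have : S14_red_fix p V σ = ⊤ :=
    S14_red_eq_top hadm.card_sub hadm.card_total (fun x hx => hadm.fixed_sub σ x hx)
      (show v₀ ∈ S14_red_fix p V σ from h) hv₀
  intro v
  have hv : v ∈ S14_red_fix p V σ := by rw [this]; trivial
  exact hv

/-- the cocycle `σ ↦ σ v₀ - v₀` on `ker χ`, as a homomorphism to `C`. -/
noncomputable def S14_red_b (hadm : IsAdmissibleExtension p V C) (v₀ : V) :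
    (cycloChar p).ker →* Multiplicative C where
  toFun σ := Multiplicative.ofAdd ⟨σ.1 • v₀ - v₀, S14_red_sub_mem hadm σ.2 v₀⟩
  map_one' := by
    apply Multiplicative.toAdd.injective
    apply Subtype.ext
    simp
  map_mul' σ τ := by
    apply Multiplicative.toAdd.injective
    apply Subtype.ext
    have h1 : σ.1 • (τ.1 • v₀ - v₀) = τ.1 • v₀ - v₀ :=
      hadm.fixed_sub σ.1 _ (S14_red_sub_mem hadm τ.2 v₀)
    have h2 : (σ * τ).1 • v₀ - v₀ = σ.1 • (τ.1 • v₀ - v₀) + (σ.1 • v₀ - v₀) := by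
      rw [smul_sub, Subgroup.coe_mul, mul_smul]
      abel
    show (σ * τ).1 • v₀ - v₀ = (σ.1 • v₀ - v₀) + (τ.1 • v₀ - v₀)
    rw [h2, h1, add_comm]

theorem S14_red_b_apply (hadm : IsAdmissibleExtension p V C) (v₀ : V)
    (σ : (cycloChar p).ker) :
    ((Multiplicative.toAdd (S14_red_b hadm v₀ σ) : C) : V) = σ.1 • v₀ - v₀ := rfl

theorem S14_red_b_ker (hadm : IsAdmissibleExtension p V C) {v₀ : V} (hv₀ : v₀ ∉ C) :
    (S14_red_b hadm v₀).ker = (S14_red_ker V).subgroupOf (cycloChar p).ker := by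
  ext σ
  rw [MonoidHom.mem_ker, Subgroup.mem_subgroupOf]
  constructor
  · intro h
    have h1 : ((Multiplicative.toAdd (S14_red_b hadm v₀ σ) : C) : V) = 0 := by
      rw [h]; rfl
    rw [S14_red_b_apply, sub_eq_zero] at h1
    exact S14_red_mem_ker_of_fix hadm hv₀ h1
  · intro h
    apply Multiplicative.toAdd.injective
    apply Subtype.ext
    show σ.1 • v₀ - v₀ = 0
    rw [h v₀, sub_self]

/-- conjugation by `τ` acts on `(ker χ)/N` through `χ(τ)⁻¹`. -/
theorem S14_red_conj (hadm : IsAdmissibleExtension p V C) (τ : Gℚ) {σ : Gℚ}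
    (hσ : σ ∈ (cycloChar p).ker) (k : ℕ)
    (hk : (k : ZMod p) * ((cycloChar p τ : (ZMod p)ˣ) : ZMod p) = 1) :
    τ * σ * τ⁻¹ * (σ ^ k)⁻¹ ∈ S14_red_ker V := by
  obtain ⟨v₀, hv₀⟩ := S14_red_exists_notMem hadm.card_sub hadm.card_total
  have hσ1 : cycloChar p σ = 1 := MonoidHom.mem_ker.1 hσ
  -- the element lies in `ker χ`
  have hconj : τ * σ * τ⁻¹ ∈ (cycloChar p).ker := by
    rw [MonoidHom.mem_ker, map_mul, map_mul, hσ1, mul_one, map_inv, mul_inv_cancel]
  have hpow : σ ^ k ∈ (cycloChar p).ker := Subgroup.pow_mem _ hσ k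
  -- `τ⁻¹ v₀ = k v₀ + c₁`
  have hinv : ((cycloChar p τ⁻¹ : (ZMod p)ˣ) : ZMod p) = (k : ZMod p) := by
    rw [map_inv]
    have h1 : ((cycloChar p τ : (ZMod p)ˣ) : ZMod p) *
        (((cycloChar p τ)⁻¹ : (ZMod p)ˣ) : ZMod p) = 1 := by
      rw [← Units.val_mul, mul_inv_cancel, Units.val_one]
    calc (((cycloChar p τ)⁻¹ : (ZMod p)ˣ) : ZMod p)
        = ((k : ZMod p) * ((cycloChar p τ : (ZMod p)ˣ) : ZMod p)) *
            (((cycloChar p τ)⁻¹ : (ZMod p)ˣ) : ZMod p) := by rw [hk, one_mul]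
      _ = (k : ZMod p) := by rw [mul_assoc, h1, mul_one]
  have hc₁ : τ⁻¹ • v₀ - (k : ZMod p) • v₀ ∈ C := by
    have := hadm.cyclo_quot τ⁻¹ v₀
    rwa [← coe_cycloChar, hinv] at this
  set c₁ := τ⁻¹ • v₀ - (k : ZMod p) • v₀ with hc₁def
  have hu : τ⁻¹ • v₀ = (k : ZMod p) • v₀ + c₁ := by rw [hc₁def]; abel
  have hd : σ • v₀ - v₀ ∈ C := S14_red_sub_mem hadm hσ v₀
  set d := σ • v₀ - v₀ with hddef
  have hσv : σ • v₀ = v₀ + d := by rw [hddef]; abel
  -- `τ σ τ⁻¹ v₀ = v₀ + k d`
  have h1 : (τ * σ * τ⁻¹) • v₀ = v₀ + (k : ZMod p) • d := by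
    rw [mul_smul, mul_smul, hu, smul_add, smul_comm σ, hσv, hadm.fixed_sub σ c₁ hc₁, smul_add,
      smul_add, smul_add, smul_comm τ, smul_comm τ, hadm.fixed_sub τ d hd,
      hadm.fixed_sub τ c₁ hc₁]
    have h2 : τ • v₀ = τ • τ • (τ⁻¹ • v₀) := by rw [smul_inv_smul]
    have h3 : (k : ZMod p) • τ • v₀ + c₁ = v₀ := by
      have : τ • (τ⁻¹ • v₀) = v₀ := smul_inv_smul τ v₀
      rw [hu, smul_add, smul_comm τ, hadm.fixed_sub τ c₁ hc₁] at this
      exact this
    calc (k : ZMod p) • τ • v₀ + (k : ZMod p) • d + c₁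
        = ((k : ZMod p) • τ • v₀ + c₁) + (k : ZMod p) • d := by abel
      _ = v₀ + (k : ZMod p) • d := by rw [h3]
  -- `σ ^ k v₀ = v₀ + k d`
  have h2 : ∀ j : ℕ, (σ ^ j) • v₀ = v₀ + (j : ZMod p) • d := by
    intro j
    induction j with
    | zero => simp
    | succ j ih =>
      rw [pow_succ, mul_smul, hσv, smul_add, ih, hadm.fixed_sub _ d hd]
      push_cast
      rw [add_smul, one_smul]
      abel
  apply S14_red_mem_ker_of_fix hadm hv₀
  have h3 : (σ ^ k)⁻¹ • v₀ = v₀ - (k : ZMod p) • d := by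
    have h4 : (σ ^ k)⁻¹ • ((σ ^ k) • v₀) = v₀ := inv_smul_smul _ _
    rw [h2 k, smul_add] at h4
    have h5 : (σ ^ k)⁻¹ • ((k : ZMod p) • d) = (k : ZMod p) • d :=
      hadm.fixed_sub _ _ (C.smul_mem _ hd)
    rw [h5] at h4
    exact eq_sub_of_add_eq h4
  rw [mul_smul, h3, smul_sub, h1]
  have h6 : (τ * σ * τ⁻¹) • ((k : ZMod p) • d) = (k : ZMod p) • d :=
    hadm.fixed_sub _ _ (C.smul_mem _ hd)
  rw [h6]
  abel

/-- the index of the kernel of the action in `ker χ` is `1` or `p`. -/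
theorem S14_red_index (hadm : IsAdmissibleExtension p V C) :
    (cycloChar p).ker ≤ S14_red_ker V ∨
      ((S14_red_ker V).subgroupOf (cycloChar p).ker).index = p := by
  have hp : p.Prime := Fact.out
  obtain ⟨v₀, hv₀⟩ := S14_red_exists_notMem hadm.card_sub hadm.card_total
  have hker := S14_red_b_ker hadm hv₀
  have hidx : ((S14_red_ker V).subgroupOf (cycloChar p).ker).index =
      Nat.card (S14_red_b hadm v₀).range := by
    rw [← hker, Subgroup.index_ker]
  have hcard : Nat.card (Multiplicative C) = p := hadm.card_sub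
  have hdvd : Nat.card (S14_red_b hadm v₀).range ∣ p := by
    have := Subgroup.card_subgroup_dvd_card (S14_red_b hadm v₀).range
    rwa [hcard] at this
  rcases (Nat.dvd_prime hp).1 hdvd with h1 | h1
  · left
    rw [← hidx, Subgroup.index_eq_one] at h1
    intro σ hσ
    have : (⟨σ, hσ⟩ : (cycloChar p).ker) ∈ (S14_red_ker V).subgroupOf (cycloChar p).ker := by
      rw [h1]; trivial
    exact Subgroup.mem_subgroupOf.1 this
  · right
    rw [hidx, h1]

/-- the action of `τ` on `V` as a linear map. -/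
noncomputable def S14_red_lin (p : ℕ) [Fact p.Prime] (V : Type) [AddCommGroup V]
    [Module (ZMod p) V] [DistribMulAction Gℚ V] [SMulCommClass Gℚ (ZMod p) V] (τ : Gℚ) :
    V →ₗ[ZMod p] V :=
  DistribSMul.toLinearMap (ZMod p) V τ

/-- the `e`-eigenspace of `τ`. -/
noncomputable def S14_red_eigen (p : ℕ) [Fact p.Prime] (V : Type) [AddCommGroup V]
    [Module (ZMod p) V] [DistribMulAction Gℚ V] [SMulCommClass Gℚ (ZMod p) V] (τ : Gℚ)
    (e : ZMod p) : Submodule (ZMod p) V :=
  LinearMap.ker (S14_red_lin p V τ - e • LinearMap.id)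

theorem S14_red_mem_eigen {τ : Gℚ} {e : ZMod p} {v : V} :
    v ∈ S14_red_eigen p V τ e ↔ τ • v = e • v := by
  rw [S14_red_eigen, LinearMap.mem_ker, LinearMap.sub_apply, LinearMap.smul_apply,
    LinearMap.id_apply, sub_eq_zero]
  rfl

/-- **the split case**: if `ker χ` acts trivially, the extension splits. -/
theorem S14_red_split (hadm : IsAdmissibleExtension p V C)
    (hker : (cycloChar p).ker ≤ S14_red_ker V) : SplitsGlobally C := by
  by_cases hχ : ∀ τ : Gℚ, cycloChar p τ = 1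
  · -- trivial action
    obtain ⟨C', hC'⟩ := Submodule.exists_isCompl C
    refine ⟨C', fun σ x hx => ?_, hC'⟩
    have : σ ∈ S14_red_ker V := hker (MonoidHom.mem_ker.2 (hχ σ))
    rw [this x]
    exact hx
  · push Not at hχ
    obtain ⟨τ, hτ⟩ := hχ
    set e : ZMod p := ((cycloChar p τ : (ZMod p)ˣ) : ZMod p) with he
    have he1 : (1 : ZMod p) - e ≠ 0 := by
      intro h0
      apply hτ
      ext
      rw [Units.val_one]
      exact (sub_eq_zero.1 h0).symm
    refine ⟨S14_red_eigen p V τ e, fun σ x hx => ?_, ?_⟩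
    · -- stability: the image of `Gℚ` is abelian
      rw [S14_red_mem_eigen] at hx ⊢
      have hcomm : τ * σ * τ⁻¹ * σ⁻¹ ∈ S14_red_ker V := by
        apply hker
        rw [MonoidHom.mem_ker, map_mul, map_mul, map_mul, map_inv, map_inv]
        rw [mul_comm (cycloChar p τ) (cycloChar p σ), mul_assoc (cycloChar p σ),
          mul_inv_cancel, mul_one, mul_inv_cancel]
      have h1 := hcomm (σ • τ • x)
      rw [mul_smul, inv_smul_smul, mul_smul, inv_smul_smul, mul_smul] at h1
      rw [h1, hx, smul_comm]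
    · refine IsCompl.of_eq ?_ ?_
      · rw [_root_.eq_bot_iff]
        rintro v ⟨hvC, hvE⟩
        rw [SetLike.mem_coe, S14_red_mem_eigen, hadm.fixed_sub τ v hvC] at hvE
        have h2 : ((1 : ZMod p) - e) • v = 0 := by
          rw [sub_smul, one_smul, ← hvE, sub_self]
        rcases smul_eq_zero.1 h2 with h3 | h3
        · exact absurd h3 he1
        · exact h3
      · rw [_root_.eq_top_iff]
        intro v _
        obtain ⟨w, hw, h5⟩ : ∃ w ∈ C, τ • v = w + e • v := by
          refine ⟨τ • v - e • v, ?_, by abel⟩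
          have := hadm.cyclo_quot τ v
          rwa [← coe_cycloChar] at this
        obtain ⟨c, hc, hcw⟩ : ∃ c ∈ C, c - e • c = w := by
          refine ⟨((1 : ZMod p) - e)⁻¹ • w, C.smul_mem _ hw, ?_⟩
          have h4 : ((1 : ZMod p) - e) • (((1 : ZMod p) - e)⁻¹ • w) = w := by
            rw [smul_smul, mul_inv_cancel₀ he1, one_smul]
          rw [sub_smul, one_smul] at h4
          exact h4
        have hv' : v - c ∈ S14_red_eigen p V τ e := by
          rw [S14_red_mem_eigen, smul_sub, smul_sub, hadm.fixed_sub τ c hc, h5, ← hcw]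
          abel
        have : v = c + (v - c) := by abel
        rw [this]
        exact Submodule.add_mem_sup hc hv'

end

/-- **Block T/RED**: the group form `S14_NoExt p` of `(★)` implies `ExtVanishingCts p`. -/
theorem S14_red (p : ℕ) [Fact p.Prime] (h : S14_NoExt p) : ExtCitation.ExtVanishingCts p := by
  intro V _ _ _ _ C hadm
  have hadm' := hadm.toIsAdmissibleExtension
  rcases S14_red_index hadm' with h1 | h1
  · exact S14_red_split hadm' h1
  · exfalso
    refine h (S14_red_ker V) inferInstance hadm.open_kernel (S14_red_ker_le hadm') h1 ?_ ?_ ?_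
    · intro τ σ hσ k hk
      exact S14_red_conj hadm' τ hσ k hk
    · intro ℓ hℓ hℓp A hA σ hσ
      exact fun v => hadm'.unramified_outside ℓ hℓ hℓp A hA σ hσ v
    · intro A hA σ hσD hσχ
      obtain ⟨C', hst, hcompl⟩ := hadm'.locally_split A hA
      intro v
      have hv : v ∈ C ⊔ C' := by rw [hcompl.sup_eq_top]; trivial
      obtain ⟨c, hc, c', hc', rfl⟩ := Submodule.mem_sup.1 hv
      have h2 : σ • c' - c' ∈ C ⊓ C' :=
        ⟨S14_red_sub_mem hadm' hσχ c', C'.sub_mem (hst σ hσD c' hc') hc'⟩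
      rw [hcompl.inf_eq_bot, Submodule.mem_bot, sub_eq_zero] at h2
      rw [smul_add, hadm'.fixed_sub σ c hc, h2]

end Fermat.Agent.S14
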