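import Mathlib
import Fermat.Agent.S14.Red
import Fermat.Agent.Lib.UnramifiedTrivial

/-!
# S14, block DICT: from the group form of `(★)` to the number-field form

`S14_NoExt p` (file `Red.lean`) speaks about an open normal subgroup `N ≤ ker χ` of `Gℚ`.
Here `K := fixedField N` is a number field, Galois over `ℚ`, `ζ ∈ K` a primitive `p`-th root of
unity, `F = ℚ⟮ζ⟯`, and

* `S14_dict_card`  : `[K : F] = p`  (`Gal(K/F) ≅ (ker χ)/N`);
* `S14_dict_conj`  : `g h g⁻¹ = h ^ k` for `h ∈ Gal(K/F)`, `g ∈ Gal(K/ℚ)`, `g (ζ ^ k) = ζ`;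
* `S14_dict_unram` : every `σ ∈ Gal(K/F)` in the inertia group of a nonzero prime `P` of `𝓞 K`
  is trivial (valuation subring of `ℚbar` above `P`, `inertiaLift_exists`, and the hypotheses
  `I_A ≤ N` for `ℓ ≠ p`, `D_A ∩ ker χ ≤ N` for `ℓ = p`).

Main statements: `S14_NoExtNF p` (definition: the target of the class field theory core) and
`S14_dict : S14_NoExtNF p → S14_NoExt p`.
-/

set_option autoImplicit false
set_option linter.unusedSectionVars false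

open scoped Pointwise NumberField
open IntermediateField

namespace Fermat.Agent.S14

open ExtCitation ValuationSubring Fermat.Agent.Lib

local notation "ℚbar" => AlgebraicClosure ℚ
local notation "Gℚ" => (AlgebraicClosure ℚ ≃ₐ[ℚ] AlgebraicClosure ℚ)

/-- **Number-field form of `(★)`**: there is no number field `K`, Galois over `ℚ`, containing a
primitive `p`-th root of unity `ζ`, of degree `p` over `F = ℚ(ζ)`, unramified over `F` at every
prime, on which `Gal(K/ℚ)` acts on `Gal(K/F)` by `g h g⁻¹ = h ^ k` whenever `g (ζ ^ k) = ζ`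
(i.e. through the inverse of the cyclotomic character). -/
def S14_NoExtNF (p : ℕ) [Fact p.Prime] : Prop :=
  ∀ (K : Type) [Field K] [NumberField K] [IsGalois ℚ K] (ζ : K), IsPrimitiveRoot ζ p →
    Module.finrank ℚ⟮ζ⟯ K = p →
    (∀ g h : K ≃ₐ[ℚ] K, h ζ = ζ → ∀ k : ℕ, g (ζ ^ k) = ζ → g * h * g⁻¹ = h ^ k) →
    (∀ P : Ideal (𝓞 K), P.IsPrime → P ≠ ⊥ →
      ∀ σ : K ≃ₐ[ℚ] K, σ ζ = ζ → (∀ x : 𝓞 K, σ • x - x ∈ P) → σ = 1) →
    False

section cyclo

variable {p : ℕ} [Fact p.Prime]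

/-- the defining property of the cyclotomic character. -/
theorem S14_dict_cyclo_spec {ζ₀ : ℚbar} (hζ : IsPrimitiveRoot ζ₀ p) (σ : Gℚ) :
    σ ζ₀ = ζ₀ ^ ((cycloChar p σ : (ZMod p)ˣ) : ZMod p).val := by
  have hp : p.Prime := Fact.out
  have : NeZero p := ⟨hp.ne_zero⟩
  have h2 := modularCyclotomicCharacter.spec ℚbar (card_rootsOfUnity_eq_self p)
    (σ : ℚbar ≃+* ℚbar) (t := (hζ.isUnit hp.ne_zero).unit)
    (by
      rw [mem_rootsOfUnity]
      ext
      simp [hζ.pow_eq_one])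
  have h3 : cycloChar p σ = modularCyclotomicCharacter ℚbar (card_rootsOfUnity_eq_self p)
      (σ : ℚbar ≃+* ℚbar) := rfl
  rw [h3]
  simpa using h2

/-- `ker χ` is the stabiliser of `ζ₀`. -/
theorem S14_dict_mem_ker_iff {ζ₀ : ℚbar} (hζ : IsPrimitiveRoot ζ₀ p) (σ : Gℚ) :
    σ ∈ (cycloChar p).ker ↔ σ ζ₀ = ζ₀ := by
  have hp : p.Prime := Fact.out
  have : NeZero p := ⟨hp.ne_zero⟩
  rw [MonoidHom.mem_ker, S14_dict_cyclo_spec hζ σ]
  constructor
  · intro h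
    rw [h, Units.val_one, ZMod.val_one, pow_one]
  · intro h
    have h1 : ζ₀ ^ ((cycloChar p σ : (ZMod p)ˣ) : ZMod p).val = ζ₀ ^ 1 := by rw [h, pow_one]
    have hfin : IsOfFinOrder ζ₀ := isOfFinOrder_iff_pow_eq_one.2 ⟨p, hp.pos, hζ.pow_eq_one⟩
    have h2 := hfin.pow_eq_pow_iff_modEq.1 h1
    rw [← hζ.eq_orderOf] at h2
    ext
    rw [Units.val_one]
    have h3 : ((((cycloChar p σ : (ZMod p)ˣ) : ZMod p).val : ℕ) : ZMod p) = ((1 : ℕ) : ZMod p) :=
      (ZMod.natCast_eq_natCast_iff _ _ _).2 h2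
    rwa [ZMod.natCast_val, ZMod.cast_id, Nat.cast_one] at h3

/-- `g (ζ₀ ^ k) = ζ₀` means `k χ(g) = 1`. -/
theorem S14_dict_mul_eq_one {ζ₀ : ℚbar} (hζ : IsPrimitiveRoot ζ₀ p) (g : Gℚ) (k : ℕ)
    (h : g (ζ₀ ^ k) = ζ₀) : (k : ZMod p) * ((cycloChar p g : (ZMod p)ˣ) : ZMod p) = 1 := by
  have hp : p.Prime := Fact.out
  have : NeZero p := ⟨hp.ne_zero⟩
  rw [map_pow, S14_dict_cyclo_spec hζ g, ← pow_mul] at h
  have h1 : ζ₀ ^ (((cycloChar p g : (ZMod p)ˣ) : ZMod p).val * k) = ζ₀ ^ 1 := by rw [h, pow_one]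
  have hfin : IsOfFinOrder ζ₀ := isOfFinOrder_iff_pow_eq_one.2 ⟨p, hp.pos, hζ.pow_eq_one⟩
  have h2 := hfin.pow_eq_pow_iff_modEq.1 h1
  rw [← hζ.eq_orderOf] at h2
  have h3 := (ZMod.natCast_eq_natCast_iff _ _ _).2 h2
  push_cast at h3
  rw [ZMod.natCast_val, ZMod.cast_id] at h3
  rw [mul_comm]
  exact h3

/-- a primitive `p`-th root of unity in `ℚbar`. -/
theorem S14_dict_exists_primitiveRoot (p : ℕ) [Fact p.Prime] :
    ∃ ζ₀ : ℚbar, IsPrimitiveRoot ζ₀ p := by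
  have hp : p.Prime := Fact.out
  have : NeZero p := ⟨hp.ne_zero⟩
  exact HasEnoughRootsOfUnity.exists_primitiveRoot ℚbar p

end cyclo

section general

variable {E : Type*} [Field E] [Algebra ℚ E]

/-- the fixing subgroup of `ℚ⟮ζ⟯` is the stabiliser of `ζ`. -/
theorem S14_dict_mem_fixing (ζ : E) (h : E ≃ₐ[ℚ] E) :
    h ∈ (ℚ⟮ζ⟯).fixingSubgroup ↔ h ζ = ζ := by
  rw [IntermediateField.mem_fixingSubgroup_iff]
  constructor
  · intro hh
    exact hh ζ (IntermediateField.mem_adjoin_simple_self ℚ ζ)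
  · intro hζ x hx
    have hle : ℚ⟮ζ⟯ ≤ IntermediateField.fixedField (MulAction.stabilizer (E ≃ₐ[ℚ] E) ζ) := by
      rw [IntermediateField.adjoin_simple_le_iff, IntermediateField.mem_fixedField_iff]
      intro g hg
      exact hg
    exact (IntermediateField.mem_fixedField_iff _ _).1 (hle hx) h hζ

end general

section field

variable {p : ℕ} [Fact p.Prime] (K : IntermediateField ℚ ℚbar) [FiniteDimensional ℚ K]
  [IsGalois ℚ K]

/-- restriction commutes with evaluation. -/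
theorem S14_dict_res (σ₁ : Gℚ) (k : K) :
    ((AlgEquiv.restrictNormalHom K σ₁ k : K) : ℚbar) = σ₁ (k : ℚbar) :=
  AlgEquiv.restrictNormal_commutes σ₁ K k

/-- the restriction is trivial exactly on the fixing subgroup. -/
theorem S14_dict_res_eq_one (σ₁ : Gℚ) :
    AlgEquiv.restrictNormalHom K σ₁ = 1 ↔ σ₁ ∈ K.fixingSubgroup := by
  rw [IntermediateField.mem_fixingSubgroup_iff]
  constructor
  · intro h x hx
    have := S14_dict_res K σ₁ ⟨x, hx⟩
    rw [h] at this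
    exact this.symm
  · intro h
    ext k
    rw [S14_dict_res K σ₁ k, AlgEquiv.one_apply]
    exact h k k.2

/-- `[K : ℚ(ζ)] = p`. -/
theorem S14_dict_card {N : Subgroup Gℚ} (hfix : K.fixingSubgroup = N)
    (hidx : (N.subgroupOf (cycloChar p).ker).index = p)
    {ζ₀ : ℚbar} (hζ : IsPrimitiveRoot ζ₀ p) (hmem : ζ₀ ∈ K) :
    Module.finrank ℚ⟮(⟨ζ₀, hmem⟩ : K)⟯ K = p := by
  rw [← IsGalois.card_fixingSubgroup_eq_finrank]
  let f : (cycloChar p).ker →* (K ≃ₐ[ℚ] K) :=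
    (AlgEquiv.restrictNormalHom K).comp (cycloChar p).ker.subtype
  have hker : f.ker = N.subgroupOf (cycloChar p).ker := by
    ext σ
    rw [MonoidHom.mem_ker, Subgroup.mem_subgroupOf, ← hfix]
    exact S14_dict_res_eq_one K σ.1
  have hrange : f.range = (ℚ⟮(⟨ζ₀, hmem⟩ : K)⟯).fixingSubgroup := by
    ext h
    rw [S14_dict_mem_fixing, MonoidHom.mem_range]
    constructor
    · rintro ⟨σ, rfl⟩
      apply Subtype.ext
      have := S14_dict_res K σ.1 ⟨ζ₀, hmem⟩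
      rw [(S14_dict_mem_ker_iff hζ σ.1).1 σ.2] at this
      exact this
    · intro hh
      have := ut_isGalois
      obtain ⟨σ₁, hσ₁⟩ := AlgEquiv.restrictNormalHom_surjective ℚbar h
      have h1 := S14_dict_res K σ₁ ⟨ζ₀, hmem⟩
      rw [hσ₁, hh] at h1
      exact ⟨⟨σ₁, (S14_dict_mem_ker_iff hζ σ₁).2 h1.symm⟩, hσ₁⟩
  rw [← hrange, ← Subgroup.index_ker, hker, hidx]

/-- the conjugation action on `Gal(K/ℚ(ζ))`. -/
theorem S14_dict_conj {N : Subgroup Gℚ} (hfix : K.fixingSubgroup = N)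
    (hconj : ∀ τ : Gℚ, ∀ σ ∈ (cycloChar p).ker, ∀ k : ℕ,
      (k : ZMod p) * ((cycloChar p τ : (ZMod p)ˣ) : ZMod p) = 1 →
        τ * σ * τ⁻¹ * (σ ^ k)⁻¹ ∈ N)
    {ζ₀ : ℚbar} (hζ : IsPrimitiveRoot ζ₀ p) (hmem : ζ₀ ∈ K)
    (g h : K ≃ₐ[ℚ] K) (hh : h ⟨ζ₀, hmem⟩ = ⟨ζ₀, hmem⟩) (k : ℕ)
    (hg : g ((⟨ζ₀, hmem⟩ : K) ^ k) = ⟨ζ₀, hmem⟩) : g * h * g⁻¹ = h ^ k := by
  have := ut_isGalois
  obtain ⟨g₁, rfl⟩ := AlgEquiv.restrictNormalHom_surjective ℚbar g
  obtain ⟨h₁, rfl⟩ := AlgEquiv.restrictNormalHom_surjective ℚbar h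
  have h1 : h₁ ζ₀ = ζ₀ := by
    have := S14_dict_res K h₁ ⟨ζ₀, hmem⟩
    rw [hh] at this
    exact this.symm
  have h2 : g₁ (ζ₀ ^ k) = ζ₀ := by
    have := S14_dict_res K g₁ ((⟨ζ₀, hmem⟩ : K) ^ k)
    rw [hg] at this
    exact this.symm
  have h3 := hconj g₁ h₁ ((S14_dict_mem_ker_iff hζ h₁).2 h1) k (S14_dict_mul_eq_one hζ g₁ k h2)
  rw [← hfix, ← S14_dict_res_eq_one] at h3
  rw [map_mul, map_mul, map_mul, map_inv, map_inv, map_pow] at h3
  exact mul_inv_eq_one.1 h3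

end field

section unram

attribute [local instance] utMulSemiringAction utTopologicalSpace utDiscreteTopology
  utContinuousSMul

variable {p : ℕ} [Fact p.Prime] (K : IntermediateField ℚ ℚbar) [FiniteDimensional ℚ K]
  [IsGalois ℚ K] [NumberField K]

/-- `K / ℚ(ζ)` is unramified at every prime. -/
theorem S14_dict_unram {N : Subgroup Gℚ} [N.Normal] (hNo : IsOpen (N : Set Gℚ))
    (hN : N ≤ (cycloChar p).ker) (hfix : K.fixingSubgroup = N)
    (hKmem : ∀ x : ℚbar, (∀ τ ∈ N, τ x = x) → x ∈ K)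
    (hunr : ∀ ℓ : ℕ, ℓ.Prime → ℓ ≠ p → ∀ A : ValuationSubring ℚbar, A.LiesOverPrime ℓ →
      A.inertiaSubgroupIn ℚ ≤ N)
    (hsplit : ∀ A : ValuationSubring ℚbar, A.LiesOverPrime p → ∀ σ ∈ A.decompositionSubgroup ℚ,
      σ ∈ (cycloChar p).ker → σ ∈ N)
    {ζ₀ : ℚbar} (hζ : IsPrimitiveRoot ζ₀ p) (hmem : ζ₀ ∈ K)
    (P : Ideal (𝓞 K)) (hP : P.IsPrime) (hP0 : P ≠ ⊥) (σ : K ≃ₐ[ℚ] K)
    (hσζ : σ ⟨ζ₀, hmem⟩ = ⟨ζ₀, hmem⟩) (hσP : ∀ x : 𝓞 K, σ • x - x ∈ P) : σ = 1 := by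
  have hNc : IsClosed (N : Set Gℚ) := Subgroup.isClosed_of_isOpen N hNo
  have hgal := ut_isGalois
  have hPmax : P.IsMaximal := hP.isMaximal hP0
  obtain ⟨ℓ, n, hn, hℓP, hℓ, -⟩ := Ideal.exists_prime_and_absNorm_eq_pow P
  -- a valuation subring of `ℚbar` above `P`
  let f : 𝓞 K →+* ℚbar := (algebraMap K ℚbar).comp (algebraMap (𝓞 K) K)
  have hf : Function.Injective f :=
    (algebraMap K ℚbar).injective.comp NumberField.RingOfIntegers.coe_injective
  let I : Ideal f.range := P.map f.rangeRestrict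
  have hI : I ≠ ⊤ := by
    intro h
    have h1 : (1 : f.range) ∈ I := by rw [h]; trivial
    obtain ⟨x, hx, hx1⟩ := (Ideal.mem_map_iff_of_surjective _ f.rangeRestrict_surjective).1 h1
    have h2 : f x = 1 := congrArg Subtype.val hx1
    have h3 : x = 1 := hf (by rw [h2, map_one])
    rw [h3] at hx
    exact hP.ne_top ((Ideal.eq_top_iff_one P).2 hx)
  obtain ⟨A, -, hIA⟩ := Ideal.image_subset_nonunits_valuationSubring I hI
  have hPA : ∀ x : 𝓞 K, x ∈ P → (((x : K) : ℚbar)) ∈ A.nonunits := fun x hx =>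
    hIA ⟨f.rangeRestrict x, Ideal.mem_map_of_mem _ hx, rfl⟩
  have hA : A.LiesOverPrime ℓ := by
    show (ℓ : ℚbar) ∈ A.nonunits
    have := hPA (ℓ : 𝓞 K) hℓP
    simpa using this
  -- the prime of `ℤ̄` below `A`
  let ι : UtZbar →+* A :=
    { toFun := fun b => ⟨b.1, inertiaCrit_mem_of_isIntegral A b.2⟩
      map_one' := rfl
      map_mul' := fun _ _ => rfl
      map_zero' := rfl
      map_add' := fun _ _ => rfl }
  let Q : Ideal UtZbar := Ideal.comap ι (IsLocalRing.maximalIdeal A)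
  have hQmem : ∀ b : UtZbar, b ∈ Q ↔ (b : ℚbar) ∈ A.nonunits := by
    intro b
    rw [Ideal.mem_comap, ← ValuationSubring.coe_mem_nonunits_iff]
    rfl
  have hQprime : Q.IsPrime := Ideal.comap_isPrime ι _
  -- lift `σ`
  obtain ⟨σ₁, hσ₁⟩ := AlgEquiv.restrictNormalHom_surjective ℚbar σ
  have hres : ∀ k : K, ((σ k : K) : ℚbar) = σ₁ (k : ℚbar) := by
    intro k
    rw [← hσ₁]
    exact S14_dict_res K σ₁ k
  have hσ : ∀ a : UtZbar, (∀ h : N, h • a = a) → σ₁ • a - a ∈ Q := by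
    intro a ha
    have hmemK : (a : ℚbar) ∈ K :=
      hKmem _ (fun τ hτ => congrArg Subtype.val (ha ⟨τ, hτ⟩))
    have hintK : IsIntegral ℤ (⟨(a : ℚbar), hmemK⟩ : K) := by
      have := a.2
      exact (isIntegral_algHom_iff (K.val.restrictScalars ℤ) Subtype.val_injective).mp this
    let x : 𝓞 K := ⟨⟨(a : ℚbar), hmemK⟩, hintK⟩
    have h1 := hPA _ (hσP x)
    rw [hQmem]
    have h2 : (((σ • x - x : 𝓞 K) : K) : ℚbar) = σ₁ (a : ℚbar) - (a : ℚbar) := by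
      have : ((σ • x - x : 𝓞 K) : K) = σ (x : K) - (x : K) := rfl
      rw [this]
      show ((σ (x : K) : K) : ℚbar) - ((x : K) : ℚbar) = _
      rw [hres]
      rfl
    rw [h2] at h1
    exact h1
  obtain ⟨τ, hτN, hτ⟩ := inertiaLift_exists (G := Gℚ) (B := UtZbar) N hNc Q σ₁ hσ
  have halg : ∀ x : ℚbar, IsAlgebraic ℤ x := fun x =>
    (IsFractionRing.isAlgebraic_iff ℤ ℚ ℚbar).mpr
      ((AlgebraicClosure.isAlgebraic ℚ).isAlgebraic x)
  have hmemI : τ * σ₁ ∈ A.inertiaSubgroupIn ℚ := by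
    refine inertiaCrit_mem_inertia_of_forall_isIntegral A hℓ hA halg (τ * σ₁) ?_
    intro b hb
    have := hτ ⟨b, hb⟩
    rw [hQmem] at this
    exact this
  have hσ₁χ : σ₁ ∈ (cycloChar p).ker := by
    rw [S14_dict_mem_ker_iff hζ]
    have := hres ⟨ζ₀, hmem⟩
    rw [hσζ] at this
    exact this.symm
  have hτσ : τ * σ₁ ∈ N := by
    by_cases hℓp : ℓ = p
    · subst hℓp
      refine hsplit A hA (τ * σ₁) ?_ (Subgroup.mul_mem _ (hN hτN) hσ₁χ)
      obtain ⟨d, -, hd⟩ := hmemI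
      rw [← hd]
      exact d.2
    · exact hunr ℓ hℓ hℓp A hA hmemI
  have hσ₁N : σ₁ ∈ N := by
    have := N.mul_mem (N.inv_mem hτN) hτσ
    simpa using this
  rw [← hσ₁, S14_dict_res_eq_one, hfix]
  exact hσ₁N

end unram

/-- **Block DICT**: the number-field form of `(★)` implies the group form. -/
theorem S14_dict (p : ℕ) [Fact p.Prime] (h : S14_NoExtNF p) : S14_NoExt p := by
  intro N hNn hNo hN hidx hconj hunr hsplit
  have hNc : IsClosed (N : Set Gℚ) := Subgroup.isClosed_of_isOpen N hNo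
  have hgal := ut_isGalois
  have halg' : Algebra.IsAlgebraic ℚ ℚbar := AlgebraicClosure.isAlgebraic ℚ
  have hint' : Algebra.IsIntegral ℚ ℚbar := Algebra.IsAlgebraic.isIntegral
  let K : IntermediateField ℚ ℚbar := IntermediateField.fixedField N
  have hfix : K.fixingSubgroup = N := InfiniteGalois.fixingSubgroup_fixedField ⟨N, hNc⟩
  have hKfin : FiniteDimensional ℚ K :=
    (InfiniteGalois.isOpen_iff_finite K).mp (by rw [hfix]; exact hNo)
  have hKgal : IsGalois ℚ K :=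
    (InfiniteGalois.normal_iff_isGalois K).mp (by rw [hfix]; infer_instance)
  have hKnf : NumberField K := ⟨⟩
  obtain ⟨ζ₀, hζ⟩ := S14_dict_exists_primitiveRoot p
  have hmem : ζ₀ ∈ K := by
    rw [IntermediateField.mem_fixedField_iff]
    intro σ hσ
    exact (S14_dict_mem_ker_iff hζ σ).1 (hN hσ)
  have hKmem : ∀ x : ℚbar, (∀ τ ∈ N, τ x = x) → x ∈ K := fun x hx =>
    (IntermediateField.mem_fixedField_iff _ _).2 hx
  have hζK : IsPrimitiveRoot (⟨ζ₀, hmem⟩ : K) p :=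
    IsPrimitiveRoot.of_map_of_injective (f := algebraMap K ℚbar) (by exact hζ)
      (algebraMap K ℚbar).injective
  exact h K ⟨ζ₀, hmem⟩ hζK (S14_dict_card K hfix hidx hζ hmem)
    (fun g h' hh k hg => S14_dict_conj K hfix hconj hζ hmem g h' hh k hg)
    (fun P hP hP0 σ hσζ hσP =>
      S14_dict_unram K hNo hN hfix hKmem hunr hsplit hζ hmem P hP hP0 σ hσζ hσP)

end Fermat.Agent.S14
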