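import Mathlib

/-!
# S14, block J (element level): Jacobi sums of the `p`-th power residue character

`R` a domain (in the application `R = 𝓞 F`, `F = ℚ(ζ_p)`), `𝔮` a maximal ideal with finite residue
field `k = R ⧸ 𝔮`, `ζ ∈ R` a primitive `p`-th root of unity, `p ∉ 𝔮`, `p` an odd prime.

* `S14_sum_pow_mul_one_sub_pow` : `∑_{y ∈ k} y^A (1-y)^A = 0` if `2A < #k - 1`.
* `S14_isPrimitiveRoot_mk` : `ζ mod 𝔮` is still a primitive `p`-th root of unity.
* `S14_exists_char` : the `p`-th power residue character `χ : MulChar k R`,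
  `χ y ≡ y ^ m mod 𝔮`, `p * m = #k - 1`, with `σ ∘ χ = χ ^ a` whenever `σ ζ = ζ ^ a`.
* `S14_jacobiSum_pow_mem` : `J(χ^e, χ^e) ∈ 𝔮` for `0 < e % p < p / 2`.
* `S14_exists_jacobi` : THE INTERFACE: `J`, `J'` with `J * J' = #k`,
  `σ J ∈ 𝔮` for `σ ζ = ζ ^ a`, `0 < a % p < p/2` and `σ J' ∈ 𝔮` for `p/2 < a % p`.
-/

set_option autoImplicit false
set_option linter.style.haveILetI false

open Finset

namespace Fermat.Agent.S14

/-- power-sum lemma: `∑_y y^A (1-y)^A = 0` in a finite field with more than `2A + 1` elements. -/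
theorem S14_sum_pow_mul_one_sub_pow {k : Type*} [Field k] [Fintype k] (A : ℕ)
    (hA : 2 * A < Fintype.card k - 1) : ∑ y : k, y ^ A * (1 - y) ^ A = 0 := by
  have h1 : ∀ y : k, y ^ A * (1 - y) ^ A =
      ∑ j ∈ range (A + 1), ((-1) ^ j * (A.choose j : k)) * y ^ (A + j) := by
    intro y
    have : (1 - y) ^ A = ∑ j ∈ range (A + 1), (-1) ^ j * (A.choose j : k) * y ^ j := by
      rw [sub_eq_add_neg, add_comm, add_pow]
      refine Finset.sum_congr rfl fun j _ => ?_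
      rw [one_pow, mul_one, neg_pow]
      ring
    rw [this, Finset.mul_sum]
    refine Finset.sum_congr rfl fun j _ => ?_
    ring
  simp_rw [h1]
  rw [Finset.sum_comm]
  refine Finset.sum_eq_zero fun j hj => ?_
  rw [← Finset.mul_sum]
  have hj' : j ≤ A := Nat.lt_succ_iff.mp (Finset.mem_range.mp hj)
  rw [FiniteField.sum_pow_lt_card_sub_one (K := k) (A + j) (by omega), mul_zero]


section abstractChar

variable {R : Type*} [CommRing R] [IsDomain R]

/-- reduction of a primitive `p`-th root of unity modulo a prime not containing `p` is primitive. -/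
theorem S14_isPrimitiveRoot_mk (𝔮 : Ideal R) [𝔮.IsPrime] {p : ℕ} (hp : p.Prime) {ζ : R}
    (hζ : IsPrimitiveRoot ζ p) (hpq : (p : R) ∉ 𝔮) :
    IsPrimitiveRoot (Ideal.Quotient.mk 𝔮 ζ) p := by
  haveI : Fact p.Prime := ⟨hp⟩
  have h1 : (Ideal.Quotient.mk 𝔮 ζ) ^ p = 1 := by rw [← map_pow, hζ.pow_eq_one, map_one]
  have h2 : Ideal.Quotient.mk 𝔮 ζ ≠ 1 := by
    intro h
    apply hpq
    have hprod := IsPrimitiveRoot.prod_one_sub_pow_eq_order (R := R) (n := p - 1) (μ := ζ)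
      (by rwa [Nat.sub_add_cancel hp.one_le])
    have hp1 : ((p - 1 : ℕ) : R) + 1 = (p : R) := by
      rw [← Nat.cast_add_one, Nat.sub_add_cancel hp.one_le]
    rw [hp1] at hprod
    rw [← hprod]
    have hmem : (0 : ℕ) ∈ range (p - 1) := by
      rw [Finset.mem_range]; have := hp.two_le; omega
    have hdvd : (1 - ζ ^ (0 + 1)) ∣ ∏ k ∈ range (p - 1), (1 - ζ ^ (k + 1)) :=
      Finset.dvd_prod_of_mem (fun k => 1 - ζ ^ (k + 1)) hmem
    refine Ideal.mem_of_dvd 𝔮 hdvd ?_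
    rw [zero_add, pow_one, ← Ideal.Quotient.eq_zero_iff_mem, map_sub, map_one, h, sub_self]
  have := orderOf_eq_prime h1 h2
  rw [← this]
  exact IsPrimitiveRoot.orderOf _

/-- the `p`-th power residue character modulo a maximal ideal `𝔮` with finite residue field. -/
theorem S14_exists_char (𝔮 : Ideal R) [h𝔮 : 𝔮.IsMaximal] [Finite (R ⧸ 𝔮)] {p : ℕ} (hp : p.Prime)
    (hp2 : p ≠ 2) {ζ : R} (hζ : IsPrimitiveRoot ζ p) (hpq : (p : R) ∉ 𝔮) :
    ∃ (m : ℕ) (χ : MulChar (R ⧸ 𝔮) R), p * m = Nat.card (R ⧸ 𝔮) - 1 ∧ 0 < m ∧ χ ≠ 1 ∧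
      χ * χ ≠ 1 ∧ χ ^ p = 1 ∧ (∀ y, Ideal.Quotient.mk 𝔮 (χ y) = y ^ m) ∧
      ∀ (σ : R →+* R) (a : ℕ), σ ζ = ζ ^ a → χ.ringHomComp σ = χ ^ a := by
  classical
  letI := Ideal.Quotient.field 𝔮
  letI : Fintype (R ⧸ 𝔮) := Fintype.ofFinite _
  haveI : NeZero p := ⟨hp.ne_zero⟩
  have hζbar : IsPrimitiveRoot (Ideal.Quotient.mk 𝔮 ζ) p := S14_isPrimitiveRoot_mk 𝔮 hp hζ hpq
  obtain ⟨g, hg⟩ := IsCyclic.exists_generator (α := (R ⧸ 𝔮)ˣ)
  have hordg : orderOf g = Fintype.card (R ⧸ 𝔮)ˣ := by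
    rw [orderOf_eq_card_of_forall_mem_zpowers hg, Nat.card_eq_fintype_card]
  have hcardu : Fintype.card (R ⧸ 𝔮)ˣ = Nat.card (R ⧸ 𝔮) - 1 := by
    rw [Fintype.card_units, Nat.card_eq_fintype_card]
  -- `p ∣ card kˣ`
  have hdvd : p ∣ Fintype.card (R ⧸ 𝔮)ˣ := by
    have hu : IsUnit (Ideal.Quotient.mk 𝔮 ζ) := hζbar.isUnit hp.ne_zero
    obtain ⟨u, hu⟩ := hu
    have hou : orderOf u = p := by
      rw [← orderOf_units, hu]
      exact hζbar.eq_orderOf.symm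
    rw [← hou]
    exact orderOf_dvd_card
  obtain ⟨m, hm⟩ := hdvd
  have hm0 : 0 < m := by
    rcases Nat.eq_zero_or_pos m with h | h
    · rw [h, mul_zero] at hm
      exact absurd hm Fintype.card_ne_zero
    · exact h
  -- `g ^ m` is a `p`-th root of unity, hence a power of `mk ζ`
  have hgm : ((g : R ⧸ 𝔮) ^ m) ^ p = 1 := by
    rw [← pow_mul, mul_comm, ← hm, ← Units.val_pow_eq_pow_val, pow_card_eq_one, Units.val_one]
  obtain ⟨i, -, hi⟩ := hζbar.eq_pow_of_pow_eq_one hgm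
  have hζ'p : (ζ ^ i) ^ p = 1 := by rw [← pow_mul, mul_comm, pow_mul, hζ.pow_eq_one, one_pow]
  let u : Rˣ := Units.ofPowEqOne (ζ ^ i) p hζ'p hp.ne_zero
  have hu : u ∈ rootsOfUnity (Fintype.card (R ⧸ 𝔮)ˣ) R := by
    rw [mem_rootsOfUnity, hm, pow_mul]
    have : u ^ p = 1 := Units.ext (by simp [u])
    rw [this, one_pow]
  let χ : MulChar (R ⧸ 𝔮) R := MulChar.ofRootOfUnity hu hg
  have hχg : χ g = ζ ^ i := by
    show MulChar.ofRootOfUnity hu hg g = ζ ^ i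
    rw [MulChar.ofRootOfUnity_spec]
    rfl
  have hmkχg : Ideal.Quotient.mk 𝔮 (χ g) = (g : R ⧸ 𝔮) ^ m := by
    rw [hχg, map_pow, hi]
  have hgpow : ∀ n : ℕ, (g : R ⧸ 𝔮) ^ n = 1 → p * m ∣ n := by
    intro n hn
    rw [← hm, ← hordg]
    apply orderOf_dvd_of_pow_eq_one
    exact Units.ext (by rw [Units.val_pow_eq_pow_val, hn, Units.val_one])
  refine ⟨m, χ, by rw [← hm, hcardu], hm0, ?_, ?_, ?_, ?_, ?_⟩
  · -- χ ≠ 1
    intro h
    have h1 : (g : R ⧸ 𝔮) ^ m = 1 := by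
      rw [← hmkχg, h, MulChar.one_apply_coe, map_one]
    have := Nat.le_of_dvd hm0 (hgpow m h1)
    have := hp.two_le
    nlinarith
  · -- χ * χ ≠ 1
    intro h
    have h1 : (g : R ⧸ 𝔮) ^ (2 * m) = 1 := by
      rw [mul_comm, pow_mul, ← hmkχg, ← map_pow, sq, ← MulChar.mul_apply, h,
        MulChar.one_apply_coe, map_one]
    have h2 : p ∣ 2 := by
      have := hgpow (2 * m) h1
      exact (Nat.mul_dvd_mul_iff_right hm0).mp this
    have := (Nat.prime_dvd_prime_iff_eq hp Nat.prime_two).mp h2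
    exact hp2 this
  · -- χ ^ p = 1
    rw [MulChar.eq_iff hg, MulChar.pow_apply_coe, hχg, hζ'p, MulChar.one_apply_coe]
  · -- reduction
    intro y
    by_cases hy : IsUnit y
    · obtain ⟨v, rfl⟩ := hy
      let ψ₁ : (R ⧸ 𝔮)ˣ →* (R ⧸ 𝔮)ˣ :=
        (Units.map (Ideal.Quotient.mk 𝔮 : R →* R ⧸ 𝔮)).comp χ.toUnitHom
      let ψ₂ : (R ⧸ 𝔮)ˣ →* (R ⧸ 𝔮)ˣ := powMonoidHom m
      have h12 : ψ₁ = ψ₂ := by
        rw [MonoidHom.eq_iff_eq_on_generator hg]
        apply Units.ext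
        simp only [ψ₁, ψ₂, MonoidHom.coe_comp, Function.comp_apply, Units.coe_map,
          MulChar.coe_toUnitHom, powMonoidHom_apply, Units.val_pow_eq_pow_val]
        exact hmkχg
      have := congrArg (fun f : (R ⧸ 𝔮)ˣ →* (R ⧸ 𝔮)ˣ => ((f v : (R ⧸ 𝔮)ˣ) : R ⧸ 𝔮)) h12
      simpa [ψ₁, ψ₂] using this
    · rw [MulChar.map_nonunit χ hy, map_zero]
      have hy0 : y = 0 := by
        by_contra h
        exact hy (IsUnit.mk0 y h)
      rw [hy0, zero_pow hm0.ne']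
  · -- Galois action
    intro σ a hσ
    rw [MulChar.eq_iff hg, MulChar.ringHomComp_apply, MulChar.pow_apply_coe, hχg, map_pow, hσ]
    ring

omit [IsDomain R] in
/-- the Jacobi sum `J(χ^e, χ^e)` lies in `𝔮` when `0 < e % p < p / 2`. -/
theorem S14_jacobiSum_pow_mem (𝔮 : Ideal R) [h𝔮 : 𝔮.IsMaximal] [Fintype (R ⧸ 𝔮)] {p m : ℕ}
    (hm : p * m = Nat.card (R ⧸ 𝔮) - 1) (χ : MulChar (R ⧸ 𝔮) R) (hχp : χ ^ p = 1)
    (hχ : ∀ y, Ideal.Quotient.mk 𝔮 (χ y) = y ^ m) (e : ℕ) (he0 : 0 < e % p)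
    (he : 2 * (e % p) < p) : jacobiSum (χ ^ e) (χ ^ e) ∈ 𝔮 := by
  classical
  letI := Ideal.Quotient.field 𝔮
  have hχe : χ ^ e = χ ^ (e % p) := by
    conv_lhs => rw [← Nat.div_add_mod e p]
    rw [pow_add, pow_mul, hχp, one_pow, one_mul]
  rw [hχe, ← Ideal.Quotient.eq_zero_iff_mem, jacobiSum, map_sum]
  have hterm : ∀ y : R ⧸ 𝔮, Ideal.Quotient.mk 𝔮 ((χ ^ (e % p)) y * (χ ^ (e % p)) (1 - y)) =
      y ^ (m * (e % p)) * (1 - y) ^ (m * (e % p)) := by
    intro y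
    rw [map_mul, MulChar.pow_apply' χ he0.ne', MulChar.pow_apply' χ he0.ne', map_pow, map_pow,
      hχ, hχ, ← pow_mul, ← pow_mul]
  simp_rw [hterm]
  apply S14_sum_pow_mul_one_sub_pow
  rw [← Nat.card_eq_fintype_card, ← hm]
  calc 2 * (m * (e % p)) = m * (2 * (e % p)) := by ring
    _ < m * p := by
        apply Nat.mul_lt_mul_of_pos_left he
        rcases Nat.eq_zero_or_pos m with h | h
        · exfalso
          rw [h, mul_zero] at hm
          have hc : 1 < Nat.card (R ⧸ 𝔮) := Finite.one_lt_card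
          omega
        · exact h
    _ = p * m := by ring

/-- **Block J, element level.** The Jacobi sums `J = J(χ,χ)`, `J' = J(χ⁻¹,χ⁻¹)` of the `p`-th
power residue character modulo `𝔮`: `J J' = #(R/𝔮)`, and `σ J ∈ 𝔮` (resp. `σ J' ∈ 𝔮`) for every
endomorphism `σ` with `σ ζ = ζ ^ a`, `0 < a % p < p/2` (resp. `p/2 < a % p`). -/
theorem S14_exists_jacobi [CharZero R] (𝔮 : Ideal R) [h𝔮 : 𝔮.IsMaximal] [Finite (R ⧸ 𝔮)] {p : ℕ}
    (hp : p.Prime) (hp2 : p ≠ 2) {ζ : R} (hζ : IsPrimitiveRoot ζ p) (hpq : (p : R) ∉ 𝔮) :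
    ∃ J J' : R, J * J' = (Nat.card (R ⧸ 𝔮) : R) ∧
      (∀ (σ : R →+* R) (a : ℕ), σ ζ = ζ ^ a → 0 < a % p → 2 * (a % p) < p → σ J ∈ 𝔮) ∧
      (∀ (σ : R →+* R) (a : ℕ), σ ζ = ζ ^ a → p < 2 * (a % p) → σ J' ∈ 𝔮) := by
  classical
  letI := Ideal.Quotient.field 𝔮
  letI : Fintype (R ⧸ 𝔮) := Fintype.ofFinite _
  obtain ⟨m, χ, hm, hm0, hχ1, hχ2, hχp, hχ, hσχ⟩ := S14_exists_char 𝔮 hp hp2 hζ hpq
  have hinv : χ⁻¹ = χ ^ (p - 1) := by
    rw [inv_eq_iff_mul_eq_one, ← pow_succ', Nat.sub_add_cancel hp.one_le, hχp]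
  refine ⟨jacobiSum χ χ, jacobiSum χ⁻¹ χ⁻¹, ?_, ?_, ?_⟩
  · -- product
    let K := FractionRing R
    have hinj : Function.Injective (algebraMap R K) := IsFractionRing.injective R K
    apply hinj
    rw [map_mul, map_natCast, ← jacobiSum_ringHomComp, ← jacobiSum_ringHomComp,
      ← MulChar.ringHomComp_inv, Nat.card_eq_fintype_card]
    refine jacobiSum_mul_jacobiSum_inv ?_ ?_ ?_ ?_
    · -- ringChar K ≠ ringChar k
      have h0 : ringChar K = 0 := by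
        haveI : CharZero K := (algebraMap R K).charZero_iff hinj |>.mp inferInstance
        exact ringChar.eq_zero
      rw [h0]
      intro h
      have hc : CharP (R ⧸ 𝔮) 0 := by
        rw [h]; exact ringChar.charP _
      haveI := CharP.charP_to_charZero (R ⧸ 𝔮)
      exact not_finite (R ⧸ 𝔮)
    · exact (MulChar.ringHomComp_ne_one_iff hinj).mpr hχ1
    · exact (MulChar.ringHomComp_ne_one_iff hinj).mpr hχ1
    · rw [← MulChar.ringHomComp_mul]
      exact (MulChar.ringHomComp_ne_one_iff hinj).mpr hχ2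
  · intro σ a hσ ha0 ha
    rw [← jacobiSum_ringHomComp, hσχ σ a hσ]
    exact S14_jacobiSum_pow_mem 𝔮 hm χ hχp hχ a ha0 ha
  · intro σ a hσ ha
    rw [← jacobiSum_ringHomComp, ← MulChar.ringHomComp_inv, hσχ σ a hσ, ← inv_pow, hinv,
      ← pow_mul]
    have hap : a % p < p := Nat.mod_lt _ hp.pos
    have hmod : ((p - 1) * a) % p = p - a % p := by
      have h1 : ((p - 1) * a + a) % p = 0 := by
        have : (p - 1) * a + a = p * a := by
          have := hp.one_le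
          calc (p - 1) * a + a = ((p - 1) + 1) * a := by ring
            _ = p * a := by rw [Nat.sub_add_cancel this]
        rw [this, Nat.mul_mod_right]
      have h2 : (((p - 1) * a) % p + a % p) % p = 0 := by rw [← Nat.add_mod, h1]
      have h3 : ((p - 1) * a) % p < p := Nat.mod_lt _ hp.pos
      have h4 : p ∣ ((p - 1) * a) % p + a % p := Nat.dvd_of_mod_eq_zero h2
      obtain ⟨c, hc⟩ := h4
      have hc1 : c = 1 := by
        have hlt : p * c < p * 2 := by omega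
        have hgt : p * 0 < p * c := by omega
        have := Nat.lt_of_mul_lt_mul_left hlt
        have := Nat.lt_of_mul_lt_mul_left hgt
        omega
      rw [hc1, mul_one] at hc
      omega
    apply S14_jacobiSum_pow_mem 𝔮 hm χ hχp hχ
    · rw [hmod]; omega
    · rw [hmod]; omega

end abstractChar

end Fermat.Agent.S14
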