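import Mathlib
import Fermat.Agent.S14.Jacobi

/-!
# S14, block J (ideal level): Jacobi-sum Stickelberger for degree-one primes of `ℚ(ζ_p)`

`F = ℚ(ζ_p)`, `𝔮` a prime of `𝓞 F` of prime absolute norm `q ≠ p`, `σ a` automorphisms of `𝓞 F`
raising `p`-th roots of unity to the `a`-th power.  Then
`∏_{1 ≤ a ≤ (p-1)/2} (σ a)⁻¹(𝔮)` is principal (generated by a Jacobi sum).
-/

namespace Fermat.Agent.S14

open Ideal NumberField Finset

section general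

variable {R : Type*} [CommRing R] [IsDedekindDomain R] [Module.Free ℤ R]

/-- `comap` along a ring automorphism preserves the absolute norm. -/
theorem S14_absNorm_comap_equiv (σ : R ≃+* R) (I : Ideal R) :
    absNorm (I.comap (σ : R →+* R)) = absNorm I := by
  have hmap : I = (I.comap (σ : R →+* R)).map (σ : R →+* R) :=
    (Ideal.map_comap_of_surjective _ σ.surjective I).symm
  rw [Ideal.absNorm_apply, Ideal.absNorm_apply, Submodule.cardQuot_apply,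
    Submodule.cardQuot_apply]
  exact Nat.card_congr (Ideal.quotientEquiv _ _ σ hmap).toEquiv

/-- A prime ideal of prime absolute norm is maximal. -/
theorem S14_isMaximal_of_absNorm_prime (𝔮 : Ideal R) [h𝔮 : 𝔮.IsPrime] {q : ℕ} (hq : q.Prime)
    (hN : absNorm 𝔮 = q) : 𝔮.IsMaximal := by
  refine h𝔮.isMaximal ?_
  rintro rfl
  rw [Ideal.absNorm_bot] at hN
  exact hq.ne_zero hN.symm

/-- Modulo an ideal of prime absolute norm every element is congruent to an integer. -/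
theorem S14_exists_int_sub_mem (𝔮 : Ideal R) {q : ℕ} (hq : q.Prime)
    (hN : absNorm 𝔮 = q) (y : R) : ∃ n : ℤ, y - n ∈ 𝔮 := by
  have : Fact q.Prime := ⟨hq⟩
  have hcard : Nat.card (R ⧸ 𝔮) = q := by
    rw [← hN, Ideal.absNorm_apply, Submodule.cardQuot_apply]
  have hne : (1 : R ⧸ 𝔮) ≠ 0 := by
    intro h
    have h1 : (1 : R) ∈ 𝔮 := by
      rw [← Ideal.Quotient.eq_zero_iff_mem, map_one]; exact h
    have htop : 𝔮 = ⊤ := (Ideal.eq_top_iff_one 𝔮).mpr h1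
    rw [htop, Ideal.absNorm_top] at hN
    exact hq.one_lt.ne hN
  have hmem : Ideal.Quotient.mk 𝔮 y ∈ AddSubgroup.zmultiples (1 : R ⧸ 𝔮) :=
    mem_zmultiples_of_prime_card hcard hne
  obtain ⟨n, hn⟩ := AddSubgroup.mem_zmultiples_iff.mp hmem
  refine ⟨n, ?_⟩
  rw [← Ideal.Quotient.eq_zero_iff_mem, map_sub, map_intCast, ← hn]
  simp

end general

section cyclotomic

variable {p : ℕ} {F : Type*} [Field F] [NumberField F]

/-- The ideal-theoretic core: from `J J' = q` and the membership of the conjugates of `J`, `J'`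
in `𝔮`, the principal ideal `(J)` is the product of the conjugates `(σ a)⁻¹ 𝔮`,
`1 ≤ a ≤ (p-1)/2`. -/
theorem S14_jacobi_ideal_core (hp : p.Prime) (hp2 : p ≠ 2) [IsCyclotomicExtension {p} ℚ F]
    (𝔮 : Ideal (𝓞 F)) [𝔮.IsPrime] {q : ℕ} (hq : q.Prime) (hqp : q ≠ p)
    (hN : Ideal.absNorm 𝔮 = q) (σ : ℕ → (𝓞 F ≃+* 𝓞 F))
    (hσ : ∀ a ∈ Finset.Icc 1 (p - 1), ∀ z : 𝓞 F, z ^ p = 1 → σ a z = z ^ a)
    (J J' : 𝓞 F) (hJJ : J * J' = (q : 𝓞 F))
    (hJ : ∀ a ∈ Finset.Icc 1 ((p - 1) / 2), σ a J ∈ 𝔮)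
    (hJ' : ∀ a ∈ Finset.Icc ((p - 1) / 2 + 1) (p - 1), σ a J' ∈ 𝔮) :
    Ideal.span {J} = ∏ a ∈ Finset.Icc 1 ((p - 1) / 2), Ideal.comap (σ a : 𝓞 F →+* 𝓞 F) 𝔮 := by
  classical
  have : NeZero p := ⟨hp.ne_zero⟩
  have hmax : 𝔮.IsMaximal := S14_isMaximal_of_absNorm_prime 𝔮 hq hN
  have hp3 : 3 ≤ p := by
    have := hp.two_le
    omega
  have hodd : p % 2 = 1 := by
    rcases hp.eq_two_or_odd with h | h
    · exact absurd h hp2
    · exact h
  -- the primitive root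
  have hζF := IsCyclotomicExtension.zeta_spec p ℚ F
  set ζ : 𝓞 F := hζF.toInteger with hζdef
  have hζ : IsPrimitiveRoot ζ p := hζF.toInteger_isPrimitiveRoot
  -- `p ∉ 𝔮`
  have hq𝔮 : (q : 𝓞 F) ∈ 𝔮 := hN ▸ Ideal.absNorm_mem 𝔮
  have hpq : (p : 𝓞 F) ∉ 𝔮 := by
    intro hmem
    have hcop : Nat.Coprime p q := (Nat.coprime_primes hp hq).mpr (Ne.symm hqp)
    have h1 : ((Nat.gcd p q : ℕ) : ℤ) = p * Nat.gcdA p q + q * Nat.gcdB p q :=
      Nat.gcd_eq_gcd_ab p q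
    rw [hcop] at h1
    have h2 : (1 : 𝓞 F) = (p : 𝓞 F) * ((Nat.gcdA p q : ℤ) : 𝓞 F) +
        (q : 𝓞 F) * ((Nat.gcdB p q : ℤ) : 𝓞 F) := by
      have := congrArg (fun z : ℤ => (z : 𝓞 F)) h1
      simpa using this
    have h3 : (1 : 𝓞 F) ∈ 𝔮 := by
      rw [h2]
      exact 𝔮.add_mem (𝔮.mul_mem_right _ hmem) (𝔮.mul_mem_right _ hq𝔮)
    exact (Ideal.ne_top_iff_one 𝔮).mp hmax.ne_top h3
  have hζmk : IsPrimitiveRoot (Ideal.Quotient.mk 𝔮 ζ) p := S14_isPrimitiveRoot_mk 𝔮 hp hζ hpq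
  -- the conjugate primes
  set P : ℕ → Ideal (𝓞 F) := fun a => Ideal.comap (σ a : 𝓞 F →+* 𝓞 F) 𝔮 with hP
  have hPmax : ∀ a, (P a).IsMaximal := fun a =>
    Ideal.comap_isMaximal_of_surjective _ (σ a).surjective
  have hPnorm : ∀ a, absNorm (P a) = q := fun a => by
    rw [hP]; simp only; rw [S14_absNorm_comap_equiv, hN]
  -- distinctness
  have hPinj : ∀ a ∈ Finset.Icc 1 (p - 1), ∀ b ∈ Finset.Icc 1 (p - 1), P a = P b → a = b := by
    intro a ha b hb hab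
    obtain ⟨n, hn⟩ := S14_exists_int_sub_mem 𝔮 hq hN (ζ ^ a)
    have hσa : σ a ζ = ζ ^ a := hσ a ha ζ hζ.pow_eq_one
    have hσb : σ b ζ = ζ ^ b := hσ b hb ζ hζ.pow_eq_one
    have h1 : ζ - n ∈ P a := by
      rw [hP]; simp only [Ideal.mem_comap]
      rw [map_sub, map_intCast]
      show (σ a) ζ - (n : 𝓞 F) ∈ 𝔮
      rw [hσa]; exact hn
    rw [hab] at h1
    have h2 : ζ ^ b - n ∈ 𝔮 := by
      rw [hP] at h1; simp only [Ideal.mem_comap] at h1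
      rw [map_sub, map_intCast] at h1
      have h1' : (σ b) ζ - (n : 𝓞 F) ∈ 𝔮 := h1
      rwa [hσb] at h1'
    have h3 : ζ ^ a - ζ ^ b ∈ 𝔮 := by
      have := 𝔮.sub_mem hn h2
      simpa using this
    have h4 : (Ideal.Quotient.mk 𝔮 ζ) ^ a = (Ideal.Quotient.mk 𝔮 ζ) ^ b := by
      rw [← map_pow, ← map_pow]
      exact (Ideal.Quotient.eq).mpr h3
    rw [Finset.mem_Icc] at ha hb
    exact hζmk.pow_inj (by omega) (by omega) h4
  -- the two products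
  set s₁ := Finset.Icc 1 ((p - 1) / 2) with hs₁
  set s₂ := Finset.Icc ((p - 1) / 2 + 1) (p - 1) with hs₂
  have hs₁sub : ∀ a ∈ s₁, a ∈ Finset.Icc 1 (p - 1) := by
    intro a ha
    rw [hs₁, Finset.mem_Icc] at ha
    rw [Finset.mem_Icc]
    omega
  have hs₂sub : ∀ a ∈ s₂, a ∈ Finset.Icc 1 (p - 1) := by
    intro a ha
    rw [hs₂, Finset.mem_Icc] at ha
    rw [Finset.mem_Icc]
    omega
  have hcop : ∀ s : Finset ℕ, (∀ a ∈ s, a ∈ Finset.Icc 1 (p - 1)) →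
      (s : Set ℕ).Pairwise (Function.onFun IsCoprime P) := by
    intro s hs a ha b hb hab
    have := hPmax a
    have := hPmax b
    exact Ideal.isCoprime_of_isMaximal
      (fun h => hab (hPinj a (hs a ha) b (hs b hb) h))
  have hd₁ : (∏ a ∈ s₁, P a) ∣ Ideal.span {J} := by
    refine Finset.prod_dvd_of_coprime (hcop s₁ hs₁sub) fun a ha => ?_
    rw [Ideal.dvd_iff_le, Ideal.span_singleton_le_iff_mem]
    exact hJ a ha
  have hd₂ : (∏ a ∈ s₂, P a) ∣ Ideal.span {J'} := by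
    refine Finset.prod_dvd_of_coprime (hcop s₂ hs₂sub) fun a ha => ?_
    rw [Ideal.dvd_iff_le, Ideal.span_singleton_le_iff_mem]
    exact hJ' a ha
  obtain ⟨X₁, hX₁⟩ := hd₁
  obtain ⟨X₂, hX₂⟩ := hd₂
  -- norms
  have hn₁ : absNorm (∏ a ∈ s₁, P a) = q ^ ((p - 1) / 2) := by
    rw [map_prod, Finset.prod_congr rfl (fun a _ => hPnorm a), Finset.prod_const, hs₁,
      Nat.card_Icc]
    congr 1
  have hn₂ : absNorm (∏ a ∈ s₂, P a) = q ^ ((p - 1) / 2) := by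
    rw [map_prod, Finset.prod_congr rfl (fun a _ => hPnorm a), Finset.prod_const, hs₂,
      Nat.card_Icc]
    congr 1
    omega
  have hrank : Module.finrank ℤ (𝓞 F) = p - 1 := by
    rw [RingOfIntegers.rank,
      IsCyclotomicExtension.finrank F (Polynomial.cyclotomic.irreducible_rat hp.pos),
      Nat.totient_prime hp]
  have hnq : absNorm (Ideal.span {(q : 𝓞 F)}) = q ^ (p - 1) := by
    rw [Ideal.absNorm_span_natCast, hrank]
  have hprod : Ideal.span {J} * Ideal.span {J'} = Ideal.span {(q : 𝓞 F)} := by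
    rw [Ideal.span_singleton_mul_span_singleton, hJJ]
  have hnorm : absNorm (Ideal.span {J}) * absNorm (Ideal.span {J'}) = q ^ (p - 1) := by
    rw [← map_mul, hprod, hnq]
  rw [hX₁, hX₂, map_mul, map_mul, hn₁, hn₂] at hnorm
  have hqpos : 0 < q ^ ((p - 1) / 2) := pow_pos hq.pos _
  have hsplit : q ^ (p - 1) = q ^ ((p - 1) / 2) * q ^ ((p - 1) / 2) := by
    rw [← pow_add]
    congr 1
    omega
  have hX : absNorm X₁ * absNorm X₂ = 1 := by
    have h5 : q ^ ((p - 1) / 2) * q ^ ((p - 1) / 2) * (absNorm X₁ * absNorm X₂) =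
        q ^ ((p - 1) / 2) * q ^ ((p - 1) / 2) * 1 :=
      calc q ^ ((p - 1) / 2) * q ^ ((p - 1) / 2) * (absNorm X₁ * absNorm X₂)
          = q ^ ((p - 1) / 2) * absNorm X₁ * (q ^ ((p - 1) / 2) * absNorm X₂) := by ring
        _ = q ^ (p - 1) := hnorm
        _ = q ^ ((p - 1) / 2) * q ^ ((p - 1) / 2) := hsplit
        _ = q ^ ((p - 1) / 2) * q ^ ((p - 1) / 2) * 1 := (mul_one _).symm
    exact Nat.eq_of_mul_eq_mul_left (Nat.mul_pos hqpos hqpos) h5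
  have hX₁top : X₁ = ⊤ := by
    rw [← Ideal.absNorm_eq_one_iff]
    exact Nat.eq_one_of_mul_eq_one_right hX
  rw [hX₁, hX₁top, ← Ideal.one_eq_top, mul_one]

/-- **Block J (Jacobi-sum Stickelberger, degree-one primes).**  For `F = ℚ(ζ_p)`, `p` an odd
prime, `𝔮` a prime of `𝓞 F` of prime norm `q ≠ p`, and automorphisms `σ a` of `𝓞 F` acting on
`p`-th roots of unity by `z ↦ z ^ a`: the ideal `∏_{a=1}^{(p-1)/2} (σ a)⁻¹(𝔮)` is principal. -/
theorem S14_jacobi_principal (hp : p.Prime) (hp2 : p ≠ 2) [IsCyclotomicExtension {p} ℚ F]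
    (𝔮 : Ideal (𝓞 F)) [𝔮.IsPrime] {q : ℕ} (hq : q.Prime) (hqp : q ≠ p)
    (hN : Ideal.absNorm 𝔮 = q) (σ : ℕ → (𝓞 F ≃+* 𝓞 F))
    (hσ : ∀ a ∈ Finset.Icc 1 (p - 1), ∀ z : 𝓞 F, z ^ p = 1 → σ a z = z ^ a) :
    ∃ J : 𝓞 F,
      Ideal.span {J} = ∏ a ∈ Finset.Icc 1 ((p - 1) / 2), Ideal.comap (σ a : 𝓞 F →+* 𝓞 F) 𝔮 := by
  classical
  have : NeZero p := ⟨hp.ne_zero⟩
  have hmax : 𝔮.IsMaximal := S14_isMaximal_of_absNorm_prime 𝔮 hq hN
  have hodd : p % 2 = 1 := by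
    rcases hp.eq_two_or_odd with h | h
    · exact absurd h hp2
    · exact h
  have hcard : Nat.card (𝓞 F ⧸ 𝔮) = q := by
    rw [← hN, Ideal.absNorm_apply, Submodule.cardQuot_apply]
  have : Finite (𝓞 F ⧸ 𝔮) := Nat.finite_of_card_ne_zero (by rw [hcard]; exact hq.ne_zero)
  have hζF := IsCyclotomicExtension.zeta_spec p ℚ F
  have hζ : IsPrimitiveRoot (hζF.toInteger) p := hζF.toInteger_isPrimitiveRoot
  have hq𝔮 : (q : 𝓞 F) ∈ 𝔮 := hN ▸ Ideal.absNorm_mem 𝔮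
  have hpq : (p : 𝓞 F) ∉ 𝔮 := by
    intro hmem
    have hcop : Nat.Coprime p q := (Nat.coprime_primes hp hq).mpr (Ne.symm hqp)
    have h1 : ((Nat.gcd p q : ℕ) : ℤ) = p * Nat.gcdA p q + q * Nat.gcdB p q :=
      Nat.gcd_eq_gcd_ab p q
    rw [hcop] at h1
    have h2 : (1 : 𝓞 F) = (p : 𝓞 F) * ((Nat.gcdA p q : ℤ) : 𝓞 F) +
        (q : 𝓞 F) * ((Nat.gcdB p q : ℤ) : 𝓞 F) := by
      have := congrArg (fun z : ℤ => (z : 𝓞 F)) h1
      simpa using this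
    have h3 : (1 : 𝓞 F) ∈ 𝔮 := by
      rw [h2]
      exact 𝔮.add_mem (𝔮.mul_mem_right _ hmem) (𝔮.mul_mem_right _ hq𝔮)
    exact (Ideal.ne_top_iff_one 𝔮).mp hmax.ne_top h3
  obtain ⟨J, J', hJJ, hJ, hJ'⟩ := S14_exists_jacobi 𝔮 hp hp2 hζ hpq
  rw [hcard] at hJJ
  refine ⟨J, S14_jacobi_ideal_core hp hp2 𝔮 hq hqp hN σ hσ J J' hJJ ?_ ?_⟩
  · intro a ha
    have ha' : a ∈ Finset.Icc 1 (p - 1) := by
      rw [Finset.mem_Icc] at ha ⊢; omega
    rw [Finset.mem_Icc] at ha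
    have hmod : a % p = a := Nat.mod_eq_of_lt (by omega)
    exact hJ (σ a : 𝓞 F →+* 𝓞 F) a (hσ a ha' _ hζ.pow_eq_one) (by omega) (by omega)
  · intro a ha
    have ha' : a ∈ Finset.Icc 1 (p - 1) := by
      rw [Finset.mem_Icc] at ha ⊢; omega
    rw [Finset.mem_Icc] at ha
    have hmod : a % p = a := Nat.mod_eq_of_lt (by omega)
    exact hJ' (σ a : 𝓞 F →+* 𝓞 F) a (hσ a ha' _ hζ.pow_eq_one) (by omega)

end cyclotomic

end Fermat.Agent.S14
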