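import Mathlib
import Fermat.Agent.S14.RecipDef
import Fermat.Agent.S14.JacobiIdeal
import Fermat.Agent.S14.Dict

/-!
# S14, block GLUE: reciprocity + Jacobi sums ⇒ `S14_NoExtNF p`

Input: `S14_Recip p` (interface `(R)`, `S14/RecipDef.lean`, proved by block N3) and
`S14_jacobi_principal` (block J, `S14/JacobiIdeal.lean`).
Output: `S14_glue : S14_Recip p → S14_NoExtNF p` (for `3 ≤ p`), and
`S14_final : S14_Recip p → ExtCitation.ExtVanishingCts p` is then `S14_red ∘ S14_dict ∘ S14_glue`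
(see `S14/Final.lean`).

## The argument

`K/ℚ` Galois, `F = ℚ(ζ_p) ⊆ K`, `[K : F] = p`, `K/F` unramified everywhere, and `Gal(F/ℚ)` acts
on `H = Gal(K/F)` through the cyclotomic character: `g h g⁻¹ = h ^ k` whenever `g (ζ ^ k) = ζ`.

1. `(R)` gives a surjection `φ : Cl(𝓞 F) → H` with `φ [𝔭] = Frob_P` for all `P ∣ 𝔭`.  As the class
   group is generated by primes and `H ≠ 1`, some prime `𝔮` has `σ₀ := φ [𝔮] ≠ 1`
   (`S14_glue_exists_prime`).
2. Equivariance (`S14_glue_conj`): if `h = Frob_P`, `h' = Frob_{gP}` and `g (ζ ^ k) = ζ`, then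
   `h' = g h g⁻¹ = h ^ k`.
3. `p ∉ 𝔮`, since the only prime above `p` is principal (`S14_glue_principal_of_mem`); and `𝔮`
   has prime absolute norm `q` (`S14_glue_absNorm`): a Frobenius `g₀ ∈ Gal(K/ℚ)` at `P` fixes
   `P`, so `σ₀ = σ₀ ^ k` by 2., so `g₀ ζ = ζ`, so `x ^ q ≡ x mod 𝔮` on `𝓞 F`.
4. For `g_a ζ = ζ ^ a` we get `φ [σ_a⁻¹ 𝔮] = σ₀ ^ a` by 2.; by `(J)` the product over
   `1 ≤ a ≤ (p-1)/2` is principal, so `σ₀ ^ ((p² - 1)/8) = 1`; as `p ∤ (p² - 1)/8` and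
   `σ₀ ^ p = 1`, `σ₀ = 1`: contradiction.
-/

open NumberField nonZeroDivisors IntermediateField Pointwise

namespace Fermat.Agent.S14


/-- The class group is generated by the classes of prime ideals: a homomorphism out of the class
group that is trivial on all classes of nonzero primes is trivial. -/
theorem S14_glue_exists_prime {R : Type*} [CommRing R] [IsDedekindDomain R] {H : Type*} [Group H]
    (φ : ClassGroup R →* H) (hφ : ∃ c, φ c ≠ 1) :
    ∃ 𝔮 : (Ideal R)⁰, 𝔮.1.IsPrime ∧ φ (ClassGroup.mk0 𝔮) ≠ 1 := by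
  classical
  by_contra hcon
  have hprime : ∀ 𝔮 : (Ideal R)⁰, 𝔮.1.IsPrime → φ (ClassGroup.mk0 𝔮) = 1 := by
    intro 𝔮 h𝔮
    by_contra h
    exact hcon ⟨𝔮, h𝔮, h⟩
  have key : ∀ I : Ideal R, ∀ hI : I ∈ (Ideal R)⁰, φ (ClassGroup.mk0 ⟨I, hI⟩) = 1 := by
    intro I
    induction I using UniqueFactorizationMonoid.induction_on_prime with
    | h₁ =>
      intro hI
      exact absurd rfl (nonZeroDivisors.ne_zero hI)
    | h₂ x hx =>
      intro hI
      have hx1 : x = 1 := by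
        rw [Ideal.one_eq_top]
        exact Ideal.isUnit_iff.mp hx
      subst hx1
      have : (⟨1, hI⟩ : (Ideal R)⁰) = 1 := rfl
      rw [this, map_one, map_one]
    | h₃ a q ha hq ih =>
      intro hI
      have hq0 : q ∈ (Ideal R)⁰ := mem_nonZeroDivisors_of_ne_zero hq.ne_zero
      have ha0 : a ∈ (Ideal R)⁰ := mem_nonZeroDivisors_of_ne_zero ha
      have : (⟨q * a, hI⟩ : (Ideal R)⁰) = ⟨q, hq0⟩ * ⟨a, ha0⟩ := rfl
      rw [this, map_mul, map_mul, ih ha0, mul_one]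
      exact hprime ⟨q, hq0⟩ (Ideal.isPrime_of_prime hq)
  obtain ⟨c, hc⟩ := hφ
  obtain ⟨I, rfl⟩ := ClassGroup.mk0_surjective c
  exact hc (key I.1 I.2)

theorem S14_glue_sum_Icc (m : ℕ) : (∑ a ∈ Finset.Icc 1 m, a) * 2 = m * (m + 1) := by
  induction m with
  | zero => simp
  | succ n ih =>
    rw [Finset.sum_Icc_succ_top (by omega), add_mul, ih]
    ring

/-- `p ∤ 1 + 2 + ⋯ + (p-1)/2` for an odd prime `p`. -/
theorem S14_glue_not_dvd_sum {p : ℕ} (hp : p.Prime) (h3 : 3 ≤ p) :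
    ¬ p ∣ ∑ a ∈ Finset.Icc 1 ((p - 1) / 2), a := by
  intro h
  have h2 : p ∣ ((p - 1) / 2) * ((p - 1) / 2 + 1) := by
    rw [← S14_glue_sum_Icc]
    exact Dvd.dvd.mul_right h 2
  rcases (Nat.Prime.dvd_mul hp).mp h2 with h | h
  · have := Nat.le_of_dvd (by omega) h
    omega
  · have := Nat.le_of_dvd (by omega) h
    omega



/-- In `𝓞 ℚ(ζ_p)`, a prime ideal containing `p` is principal (it is `(ζ - 1)`). -/
theorem S14_glue_principal_of_mem {p : ℕ} [Fact p.Prime] {F : Type} [Field F] [NumberField F]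
    [IsCyclotomicExtension {p} ℚ F] {ζ : F} (hζ : IsPrimitiveRoot ζ p)
    (𝔮 : Ideal (𝓞 F)) [h𝔮 : 𝔮.IsPrime] (h : (p : 𝓞 F) ∈ 𝔮) : Submodule.IsPrincipal 𝔮 := by
  have hassoc := IsCyclotomicExtension.Rat.associated_zeta_sub_one_pow_prime p hζ
  have h1 : (hζ.toInteger - 1) ^ (p - 1) ∈ 𝔮 := by
    obtain ⟨c, hc⟩ := hassoc.dvd'
    rw [hc]
    exact 𝔮.mul_mem_right c h
  have h2 : hζ.toInteger - 1 ∈ 𝔮 := h𝔮.mem_of_pow_mem _ h1
  have hle : Ideal.span {hζ.toInteger - 1} ≤ 𝔮 := by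
    rw [Ideal.span_singleton_le_iff_mem]
    exact h2
  have hprime : (Ideal.span {hζ.toInteger - 1}).IsPrime :=
    IsCyclotomicExtension.Rat.isPrime_span_zeta_sub_one' p hζ
  have hne : Ideal.span {hζ.toInteger - 1} ≠ ⊥ := by
    rw [Ne, Ideal.span_singleton_eq_bot]
    exact hζ.zeta_sub_one_prime'.ne_zero
  have hmax : (Ideal.span {hζ.toInteger - 1}).IsMaximal := hprime.isMaximal hne
  have heq : Ideal.span {hζ.toInteger - 1} = 𝔮 := hmax.eq_of_le h𝔮.ne_top hle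
  exact ⟨⟨hζ.toInteger - 1, heq.symm⟩⟩


/-- A finite domain of characteristic `q` all of whose elements satisfy `x ^ q = x` has exactly
`q` elements. -/
theorem S14_glue_card_of_pow_eq {k : Type*} [CommRing k] [IsDomain k] [Finite k] {q : ℕ}
    (hq : q.Prime) (hchar : (q : k) = 0) (hpow : ∀ x : k, x ^ q = x) : Nat.card k = q := by
  classical
  cases nonempty_fintype k
  apply le_antisymm
  · rw [Nat.card_eq_fintype_card]
    have hdeg : (Polynomial.X ^ q - Polynomial.X : Polynomial k).natDegree = q := by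
      have h1 : (Polynomial.X : Polynomial k).degree < (Polynomial.X ^ q : Polynomial k).degree := by
        rw [Polynomial.degree_X_pow, Polynomial.degree_X]
        exact mod_cast hq.one_lt
      rw [Polynomial.natDegree_eq_of_degree_eq (Polynomial.degree_sub_eq_left_of_degree_lt h1),
        Polynomial.natDegree_X_pow]
    have hne : (Polynomial.X ^ q - Polynomial.X : Polynomial k) ≠ 0 := by
      intro h
      rw [h, Polynomial.natDegree_zero] at hdeg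
      exact hq.ne_zero hdeg.symm
    have := Polynomial.card_le_degree_of_subset_roots
      (p := (Polynomial.X ^ q - Polynomial.X : Polynomial k)) (Z := Finset.univ) (by
        intro x _
        rw [Polynomial.mem_roots hne, Polynomial.IsRoot, Polynomial.eval_sub,
          Polynomial.eval_pow, Polynomial.eval_X, hpow, sub_self])
    rw [hdeg] at this
    exact this
  · apply Nat.le_of_dvd Nat.card_pos
    have h1 : addOrderOf (1 : k) ∣ q := by
      apply addOrderOf_dvd_of_nsmul_eq_zero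
      rw [nsmul_one]
      exact hchar
    have h2 : addOrderOf (1 : k) ≠ 1 := by
      rw [Ne, AddMonoid.addOrderOf_eq_one_iff]
      exact one_ne_zero
    have h3 : addOrderOf (1 : k) = q := ((Nat.dvd_prime hq).mp h1).resolve_left h2
    rw [← h3]
    exact addOrderOf_dvd_natCard 1

section general

variable {F K : Type} [Field F] [NumberField F] [Field K] [NumberField K] [Algebra F K]

/-- The restriction of `g ∈ Gal(K/ℚ)` to the ring of integers of a normal subfield `F`. -/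
noncomputable def S14_glue_res [Normal ℚ F] (g : K ≃ₐ[ℚ] K) : 𝓞 F ≃+* 𝓞 F :=
  RingOfIntegers.mapRingEquiv (g.restrictNormal F).toRingEquiv

theorem S14_glue_res_spec [Normal ℚ F] (g : K ≃ₐ[ℚ] K) (x : 𝓞 F) :
    algebraMap (𝓞 F) (𝓞 K) (S14_glue_res g x) = g • algebraMap (𝓞 F) (𝓞 K) x := by
  apply RingOfIntegers.ext
  show algebraMap F K ((g.restrictNormal F) (x : F)) = g (algebraMap F K (x : F))
  exact AlgEquiv.restrictNormal_commutes g F (x : F)

theorem S14_glue_res_coe [Normal ℚ F] (g : K ≃ₐ[ℚ] K) (x : 𝓞 F) :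
    algebraMap F K ((S14_glue_res g x : 𝓞 F) : F) = g (algebraMap F K (x : F)) :=
  AlgEquiv.restrictNormal_commutes g F (x : F)

/-- An element of `Gal(K/ℚ)` fixing `ζ` restricts to the identity on `𝓞 ℚ(ζ)`. -/
theorem S14_glue_res_eq_self {p : ℕ} [Fact p.Prime] [IsCyclotomicExtension {p} ℚ F] [Normal ℚ F]
    {ζ : F} (hζ : IsPrimitiveRoot ζ p) (g : K ≃ₐ[ℚ] K)
    (hg : g (algebraMap F K ζ) = algebraMap F K ζ) (x : 𝓞 F) :
    S14_glue_res g x = x := by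
  have h1 : g.restrictNormal F ζ = ζ := by
    apply (algebraMap F K).injective
    rw [AlgEquiv.restrictNormal_commutes, hg]
  have h2 : (g.restrictNormal F : F →ₐ[ℚ] F) = AlgHom.id ℚ F := by
    apply (hζ.powerBasis ℚ).algHom_ext
    rw [IsPrimitiveRoot.powerBasis_gen]
    exact h1
  apply RingOfIntegers.ext
  show (g.restrictNormal F) (x : F) = (x : F)
  exact DFunLike.congr_fun h2 (x : F)

theorem S14_glue_under_smul [Normal ℚ F] (g : K ≃ₐ[ℚ] K) (P : Ideal (𝓞 K)) :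
    (g⁻¹ • P).under (𝓞 F) =
      Ideal.comap ((S14_glue_res g : 𝓞 F ≃+* 𝓞 F) : 𝓞 F →+* 𝓞 F) (P.under (𝓞 F)) := by
  ext x
  rw [Ideal.mem_comap, Ideal.under_def, Ideal.mem_comap, Ideal.mem_comap,
    Ideal.mem_pointwise_smul_iff_inv_smul_mem, inv_inv, ← S14_glue_res_spec]
  rfl

theorem S14_glue_card_under [Normal ℚ F] (g : K ≃ₐ[ℚ] K) (P : Ideal (𝓞 K)) :
    Nat.card (𝓞 F ⧸ (g • P).under (𝓞 F)) = Nat.card (𝓞 F ⧸ P.under (𝓞 F)) := by
  have h := S14_glue_under_smul (F := F) g⁻¹ P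
  rw [inv_inv] at h
  rw [h]
  have := S14_absNorm_comap_equiv (S14_glue_res (F := F) g⁻¹) (P.under (𝓞 F))
  rwa [Ideal.absNorm_apply, Ideal.absNorm_apply, Submodule.cardQuot_apply,
    Submodule.cardQuot_apply] at this

theorem S14_glue_smul_ne_bot (g : K ≃ₐ[ℚ] K) (P : Ideal (𝓞 K)) (hP : P ≠ ⊥) : g • P ≠ ⊥ := by
  intro h
  apply hP
  have : g⁻¹ • (g • P) = g⁻¹ • (⊥ : Ideal (𝓞 K)) := by rw [h]
  rwa [inv_smul_smul, Ideal.smul_bot] at this

/-- Equivariance `(E')`: if `h` is a Frobenius element at `P` (relative to `F`) and `h'` is a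
Frobenius element at `g • P`, where `g (ζ ^ k) = ζ`, then `h' = h ^ k`. -/
theorem S14_glue_conj [Normal ℚ F]
    (hU : ∀ P : Ideal (𝓞 K), P.IsPrime → P ≠ ⊥ →
      ∀ σ : K ≃ₐ[F] K, (∀ x : 𝓞 K, σ • x - x ∈ P) → σ = 1)
    (ζ : F)
    (hE : ∀ g h : K ≃ₐ[ℚ] K, h (algebraMap F K ζ) = algebraMap F K ζ →
      ∀ k : ℕ, g (algebraMap F K ζ ^ k) = algebraMap F K ζ → g * h * g⁻¹ = h ^ k)
    (g : K ≃ₐ[ℚ] K) (P : Ideal (𝓞 K)) (hP : P.IsPrime) (hP0 : P ≠ ⊥) (h h' : K ≃ₐ[F] K) (k : ℕ)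
    (hk : g (algebraMap F K ζ ^ k) = algebraMap F K ζ)
    (hh : ∀ x : 𝓞 K, h • x - x ^ Nat.card (𝓞 F ⧸ P.under (𝓞 F)) ∈ P)
    (hh' : ∀ x : 𝓞 K, h' • x - x ^ Nat.card (𝓞 F ⧸ (g • P).under (𝓞 F)) ∈ g • P) :
    h' = h ^ k := by
  set N := Nat.card (𝓞 F ⧸ P.under (𝓞 F)) with hN
  rw [S14_glue_card_under] at hh'
  have e := hE g (h.restrictScalars ℚ) (h.commutes ζ) k hk
  have e2 : (h ^ k).restrictScalars ℚ = (h.restrictScalars ℚ) ^ k :=
    map_pow (AlgEquiv.restrictScalarsHom ℚ) h k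
  have key : ∀ y : 𝓞 K, (h ^ k) • y - y ^ N ∈ g • P := by
    intro y
    have e3 : (h ^ k) • y = g • (h • (g⁻¹ • y)) := by
      apply RingOfIntegers.ext
      show (h ^ k) (y : K) = g (h (g⁻¹ (y : K)))
      have : ((h ^ k).restrictScalars ℚ) (y : K) = (g * h.restrictScalars ℚ * g⁻¹) (y : K) := by
        rw [e2, e]
      exact this
    rw [Ideal.mem_pointwise_smul_iff_inv_smul_mem, e3, smul_sub, inv_smul_smul, smul_pow']
    exact hh (g⁻¹ • y)
  have hin : ∀ z : 𝓞 K, (h' * (h ^ k)⁻¹) • z - z ∈ g • P := by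
    intro z
    have h1 := hh' ((h ^ k)⁻¹ • z)
    have h2 := key ((h ^ k)⁻¹ • z)
    rw [smul_inv_smul] at h2
    have := sub_mem h1 h2
    rw [sub_sub_sub_cancel_right] at this
    rwa [mul_smul]
  have hprime : (g • P).IsPrime := inferInstance
  have := hU (g • P) hprime (S14_glue_smul_ne_bot g P hP0) _ hin
  exact mul_inv_eq_one.mp this


/-- The prime `𝔮 = P ∩ 𝓞 F` below a prime `P` whose Frobenius (relative to `F = ℚ(ζ)`) is
nontrivial has prime absolute norm. -/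
theorem S14_glue_absNorm {p : ℕ} [Fact p.Prime] [IsCyclotomicExtension {p} ℚ F] [Normal ℚ F]
    [IsGalois ℚ K]
    (hU : ∀ P : Ideal (𝓞 K), P.IsPrime → P ≠ ⊥ →
      ∀ σ : K ≃ₐ[F] K, (∀ x : 𝓞 K, σ • x - x ∈ P) → σ = 1)
    {ζ : F} (hζ : IsPrimitiveRoot ζ p)
    (hE : ∀ g h : K ≃ₐ[ℚ] K, h (algebraMap F K ζ) = algebraMap F K ζ →
      ∀ k : ℕ, g (algebraMap F K ζ ^ k) = algebraMap F K ζ → g * h * g⁻¹ = h ^ k)
    (P : Ideal (𝓞 K)) (hP : P.IsPrime) (hP0 : P ≠ ⊥) (σ₀ : K ≃ₐ[F] K) (hσ1 : σ₀ ≠ 1)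
    (hσp : σ₀ ^ p = 1)
    (hfrob : ∀ x : 𝓞 K, σ₀ • x - x ^ Nat.card (𝓞 F ⧸ P.under (𝓞 F)) ∈ P) :
    ∃ q : ℕ, q.Prime ∧ (q : 𝓞 F) ∈ P.under (𝓞 F) ∧ Ideal.absNorm (P.under (𝓞 F)) = q := by
  have hp : p.Prime := Fact.out
  have : NeZero p := ⟨hp.ne_zero⟩
  have hζK : IsPrimitiveRoot (algebraMap F K ζ) p := hζ.map_of_injective (algebraMap F K).injective
  have hfin : Finite (𝓞 K ⧸ P) := Ideal.finiteQuotientOfFreeOfNeBot P hP0
  obtain ⟨g₀, hg₀⟩ := IsArithFrobAt.exists_of_isInvariant ℤ (K ≃ₐ[ℚ] K) P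
  have hstab : g₀ • P = P := MulAction.mem_stabilizer_iff.mp hg₀.mem_stabilizer
  -- `g₀⁻¹ ζ = ζ ^ k`
  obtain ⟨k, -, hk⟩ := hζK.eq_pow_of_pow_eq_one (ξ := g₀⁻¹ (algebraMap F K ζ)) (by
    rw [← map_pow, hζK.pow_eq_one, map_one])
  have hk' : g₀ (algebraMap F K ζ ^ k) = algebraMap F K ζ := by
    rw [hk]
    exact AlgEquiv.apply_symm_apply g₀ _
  have hconj : σ₀ = σ₀ ^ k := by
    refine S14_glue_conj hU ζ hE g₀ P hP hP0 σ₀ σ₀ k hk' hfrob ?_
    rw [hstab]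
    exact hfrob
  have hord : orderOf σ₀ = p := orderOf_eq_prime hσp hσ1
  have hk1 : k ≡ 1 [MOD p] := by
    have : σ₀ ^ k = σ₀ ^ 1 := by rw [pow_one]; exact hconj.symm
    rwa [pow_eq_pow_iff_modEq, hord] at this
  have hζk : algebraMap F K ζ ^ k = algebraMap F K ζ := by
    have : algebraMap F K ζ ^ k = algebraMap F K ζ ^ 1 := by
      rw [(hζK.isOfFinOrder hp.ne_zero).pow_eq_pow_iff_modEq, ← hζK.eq_orderOf]
      exact hk1
    rwa [pow_one] at this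
  have hg₀ζ : g₀ (algebraMap F K ζ) = algebraMap F K ζ := by rwa [hζk] at hk'
  set q := Nat.card (ℤ ⧸ P.under ℤ) with hq
  -- `q` is prime
  have hunder_prime : (P.under ℤ).IsPrime := Ideal.IsPrime.under ℤ P
  have hunder_ne : P.under ℤ ≠ ⊥ := Ideal.under_ne_bot ℤ hP0
  have hqabs : Ideal.absNorm (P.under ℤ) = q := by
    rw [Ideal.absNorm_apply, Submodule.cardQuot_apply]
  have hspan : Ideal.span {(q : ℤ)} = P.under ℤ := by
    rw [← hqabs]
    exact Int.ideal_span_absNorm_eq_self _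
  have hq0 : (q : ℤ) ≠ 0 := by
    intro h0
    apply hunder_ne
    rw [← hspan, h0, Ideal.span_singleton_eq_bot]
  have hqprime : q.Prime := by
    rw [Nat.prime_iff_prime_int, ← Ideal.span_singleton_prime hq0, hspan]
    exact hunder_prime
  have hqmemP : (q : 𝓞 K) ∈ P := by
    have : (q : ℤ) ∈ P.under ℤ := by
      rw [← hspan]
      exact Ideal.mem_span_singleton_self _
    rw [Ideal.under_def, Ideal.mem_comap] at this
    simpa using this
  have hqmem : (q : 𝓞 F) ∈ P.under (𝓞 F) := by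
    rw [Ideal.under_def, Ideal.mem_comap, map_natCast]
    exact hqmemP
  refine ⟨q, hqprime, hqmem, ?_⟩
  -- every `x ∈ 𝓞 F` satisfies `x ^ q ≡ x mod 𝔮`
  have hpow : ∀ x : 𝓞 F, x ^ q - x ∈ P.under (𝓞 F) := by
    intro x
    rw [Ideal.under_def, Ideal.mem_comap, map_sub, map_pow]
    have h1 := hg₀ (algebraMap (𝓞 F) (𝓞 K) x)
    have h2 : (MulSemiringAction.toAlgHom ℤ (𝓞 K) g₀) (algebraMap (𝓞 F) (𝓞 K) x)
        = algebraMap (𝓞 F) (𝓞 K) x := by
      show g₀ • algebraMap (𝓞 F) (𝓞 K) x = algebraMap (𝓞 F) (𝓞 K) x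
      rw [← S14_glue_res_spec, S14_glue_res_eq_self hζ g₀ hg₀ζ]
    rw [h2] at h1
    have := P.neg_mem h1
    rwa [neg_sub] at this
  have hprimeF : (P.under (𝓞 F)).IsPrime := Ideal.IsPrime.under (𝓞 F) P
  have hfinF : Finite (𝓞 F ⧸ P.under (𝓞 F)) :=
    Ideal.finiteQuotientOfFreeOfNeBot _ (Ideal.under_ne_bot (𝓞 F) hP0)
  rw [Ideal.absNorm_apply, Submodule.cardQuot_apply]
  apply S14_glue_card_of_pow_eq hqprime
  · rw [← map_natCast (Ideal.Quotient.mk (P.under (𝓞 F))), Ideal.Quotient.eq_zero_iff_mem]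
    exact hqmem
  · intro x
    obtain ⟨y, rfl⟩ := Ideal.Quotient.mk_surjective x
    rw [← map_pow, Ideal.Quotient.eq]
    exact hpow y


theorem S14_glue_map_prod {C H : Type*} [CommGroup C] [Group H] (φ : C →* H) (σ₀ : H)
    (c : ℕ → C) (s : Finset ℕ) (h : ∀ a ∈ s, φ (c a) = σ₀ ^ a) :
    φ (∏ a ∈ s, c a) = σ₀ ^ (∑ a ∈ s, a) := by
  classical
  induction s using Finset.induction_on with
  | empty => simp
  | insert a s ha ih =>
    rw [Finset.prod_insert ha, Finset.sum_insert ha, map_mul, pow_add,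
      h a (Finset.mem_insert_self a s), ih (fun b hb => h b (Finset.mem_insert_of_mem hb))]

/-- For `1 ≤ a ≤ p - 1` there is `g ∈ Gal(K/ℚ)` with `g ζ = ζ ^ a`. -/
theorem S14_glue_exists_aut {p : ℕ} [Fact p.Prime] [IsGalois ℚ K] {ζ : K}
    (hζ : IsPrimitiveRoot ζ p) (a : ℕ) (ha : a ∈ Finset.Icc 1 (p - 1)) :
    ∃ g : K ≃ₐ[ℚ] K, g ζ = ζ ^ a := by
  have hp : p.Prime := Fact.out
  rw [Finset.mem_Icc] at ha
  have hcop : a.Coprime p := by
    rw [Nat.coprime_comm, Nat.Prime.coprime_iff_not_dvd hp]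
    intro hdvd
    have := Nat.le_of_dvd (by omega) hdvd
    omega
  have hζa : IsPrimitiveRoot (ζ ^ a) p := hζ.pow_of_coprime a hcop
  have h1 := Polynomial.cyclotomic_eq_minpoly_rat hζ hp.pos
  have h2 := Polynomial.cyclotomic_eq_minpoly_rat hζa hp.pos
  apply minpoly.exists_algEquiv_of_root' (Algebra.IsAlgebraic.isAlgebraic ζ)
  rw [← h1, h2]
  exact minpoly.aeval ℚ (ζ ^ a)

/-- **Block GLUE, core form** (general `F` with `F = ℚ(ζ_p)`). -/
theorem S14_glue_core {p : ℕ} [Fact p.Prime] (h3 : 3 ≤ p) (hR : S14_Recip p)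
    [IsCyclotomicExtension {p} ℚ F] [IsGalois ℚ K] [IsGalois F K]
    {ζ : F} (hζ : IsPrimitiveRoot ζ p) (hdeg : Module.finrank F K = p)
    (hE : ∀ g h : K ≃ₐ[ℚ] K, h (algebraMap F K ζ) = algebraMap F K ζ →
      ∀ k : ℕ, g (algebraMap F K ζ ^ k) = algebraMap F K ζ → g * h * g⁻¹ = h ^ k)
    (hU : ∀ P : Ideal (𝓞 K), P.IsPrime → P ≠ ⊥ →
      ∀ σ : K ≃ₐ[F] K, (∀ x : 𝓞 K, σ • x - x ∈ P) → σ = 1) : False := by
  classical
  have hp : p.Prime := Fact.out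
  have hp2 : p ≠ 2 := by omega
  have : NeZero p := ⟨hp.ne_zero⟩
  have : IsGalois ℚ F := IsCyclotomicExtension.isGalois {p} ℚ F
  have hζK : IsPrimitiveRoot (algebraMap F K ζ) p := hζ.map_of_injective (algebraMap F K).injective
  obtain ⟨φ, hφs, hφ⟩ := hR F K hdeg hU
  have hcard : Nat.card (K ≃ₐ[F] K) = p := by rw [IsGalois.card_aut_eq_finrank, hdeg]
  -- a class with nontrivial image
  have hne : ∃ c, φ c ≠ 1 := by
    by_contra hcon
    have h1 : ∀ σ : K ≃ₐ[F] K, σ = 1 := by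
      intro σ
      obtain ⟨c, rfl⟩ := hφs σ
      by_contra h
      exact hcon ⟨c, h⟩
    have : Subsingleton (K ≃ₐ[F] K) := ⟨fun a b => by rw [h1 a, h1 b]⟩
    have : Nat.card (K ≃ₐ[F] K) = 1 := Nat.card_unique
    omega
  obtain ⟨𝔮, h𝔮prime, h𝔮⟩ := S14_glue_exists_prime φ hne
  -- a prime `P` above `𝔮`
  obtain ⟨P, hPprime, hPover⟩ :=
    Ideal.exists_ideal_over_prime_of_isIntegral_of_isDomain (S := 𝓞 K) 𝔮.1 (by
      rw [(RingHom.injective_iff_ker_eq_bot _).mp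
        (FaithfulSMul.algebraMap_injective (𝓞 F) (𝓞 K))]
      exact bot_le)
  have hPover' : P.under (𝓞 F) = 𝔮.1 := hPover
  have h𝔮0 : 𝔮.1 ≠ ⊥ := nonZeroDivisors.ne_zero 𝔮.2
  have hP0 : P ≠ ⊥ := by
    rintro rfl
    apply h𝔮0
    rw [← hPover']
    exact Ideal.under_bot (𝓞 F) (𝓞 K)
  have hfrob : ∀ x : 𝓞 K, φ (ClassGroup.mk0 𝔮) • x - x ^ Nat.card (𝓞 F ⧸ P.under (𝓞 F)) ∈ P := by
    rw [hPover']
    exact hφ 𝔮 P hPprime hPover'
  have hσp : φ (ClassGroup.mk0 𝔮) ^ p = 1 := by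
    rw [← hcard]
    exact pow_card_eq_one'
  have hord : orderOf (φ (ClassGroup.mk0 𝔮)) = p := orderOf_eq_prime hσp h𝔮
  obtain ⟨q, hq, hqmem, hN⟩ :=
    S14_glue_absNorm hU hζ hE P hPprime hP0 (φ (ClassGroup.mk0 𝔮)) h𝔮 hσp hfrob
  rw [hPover'] at hqmem hN
  -- `p ∉ 𝔮`
  have hpn : (p : 𝓞 F) ∉ 𝔮.1 := by
    intro h
    apply h𝔮
    have h1 := S14_glue_principal_of_mem hζ 𝔮.1 h
    have h2 : ClassGroup.mk0 𝔮 = 1 := (ClassGroup.mk0_eq_one_iff 𝔮.2).mpr h1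
    rw [h2, map_one]
  have hqp : q ≠ p := by
    rintro rfl
    exact hpn hqmem
  -- the automorphisms `g_a`
  have hga : ∀ a : ℕ, ∃ g : K ≃ₐ[ℚ] K,
      a ∈ Finset.Icc 1 (p - 1) → g (algebraMap F K ζ) = algebraMap F K ζ ^ a := by
    intro a
    by_cases ha : a ∈ Finset.Icc 1 (p - 1)
    · obtain ⟨g, hg⟩ := S14_glue_exists_aut hζK a ha
      exact ⟨g, fun _ => hg⟩
    · exact ⟨1, fun h => absurd h ha⟩
  choose ga hga using hga
  have hσ : ∀ a ∈ Finset.Icc 1 (p - 1), ∀ z : 𝓞 F, z ^ p = 1 →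
      S14_glue_res (F := F) (ga a) z = z ^ a := by
    intro a ha z hz
    have hz' : (z : F) ^ p = 1 := by
      have := congrArg (fun t : 𝓞 F => (t : F)) hz
      simpa using this
    obtain ⟨i, -, hi⟩ := hζ.eq_pow_of_pow_eq_one hz'
    apply RingOfIntegers.ext
    apply (algebraMap F K).injective
    rw [S14_glue_res_coe, ← hi]
    show (ga a) (algebraMap F K (ζ ^ i)) = algebraMap F K (((z ^ a : 𝓞 F) : F))
    have : ((z ^ a : 𝓞 F) : F) = (ζ ^ i) ^ a := by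
      rw [hi]
      simp
    rw [this, map_pow, map_pow, map_pow, map_pow, hga a ha, ← pow_mul, ← pow_mul, mul_comm]
  obtain ⟨J, hJ⟩ := S14_jacobi_principal hp hp2 𝔮.1 hq hqp hN (fun a => S14_glue_res (ga a)) hσ
  -- the ideals `σ_a⁻¹ 𝔮`
  have hcomap : ∀ a : ℕ, Ideal.comap ((S14_glue_res (F := F) (ga a) : 𝓞 F ≃+* 𝓞 F) : 𝓞 F →+* 𝓞 F) 𝔮.1
      = ((ga a)⁻¹ • P).under (𝓞 F) := by
    intro a
    rw [S14_glue_under_smul, hPover']
  have hmem0 : ∀ a : ℕ,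
      Ideal.comap ((S14_glue_res (F := F) (ga a) : 𝓞 F ≃+* 𝓞 F) : 𝓞 F →+* 𝓞 F) 𝔮.1
        ∈ (Ideal (𝓞 F))⁰ := by
    intro a
    apply mem_nonZeroDivisors_of_ne_zero
    rw [hcomap]
    exact Ideal.under_ne_bot (𝓞 F) (S14_glue_smul_ne_bot _ P hP0)
  have hφa : ∀ a ∈ Finset.Icc 1 ((p - 1) / 2),
      φ (ClassGroup.mk0 ⟨_, hmem0 a⟩) = φ (ClassGroup.mk0 𝔮) ^ a := by
    intro a ha
    have ha' : a ∈ Finset.Icc 1 (p - 1) := by
      rw [Finset.mem_Icc] at ha ⊢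
      omega
    have hk : (ga a)⁻¹ (algebraMap F K ζ ^ a) = algebraMap F K ζ := by
      rw [← hga a ha']
      exact AlgEquiv.symm_apply_apply (ga a) _
    refine S14_glue_conj hU ζ hE (ga a)⁻¹ P hPprime hP0 _ _ a hk hfrob ?_
    have := hφ ⟨_, hmem0 a⟩ ((ga a)⁻¹ • P) inferInstance (hcomap a).symm
    rw [← hcomap a]
    exact this
  -- the product is principal
  have hprod : φ (ClassGroup.mk0 (∏ a ∈ Finset.Icc 1 ((p - 1) / 2),
      (⟨_, hmem0 a⟩ : (Ideal (𝓞 F))⁰))) = 1 := by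
    have h1 : ClassGroup.mk0 (∏ a ∈ Finset.Icc 1 ((p - 1) / 2),
        (⟨_, hmem0 a⟩ : (Ideal (𝓞 F))⁰)) = 1 := by
      rw [ClassGroup.mk0_eq_one_iff (SetLike.coe_mem _), Submonoid.coe_finsetProd]
      exact ⟨⟨J, hJ.symm⟩⟩
    rw [h1, map_one]
  rw [map_prod, S14_glue_map_prod φ (φ (ClassGroup.mk0 𝔮)) _ _ hφa] at hprod
  have hdvd : p ∣ ∑ a ∈ Finset.Icc 1 ((p - 1) / 2), a := by
    have := orderOf_dvd_of_pow_eq_one hprod
    rwa [hord] at this
  exact S14_glue_not_dvd_sum hp h3 hdvd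

end general

/-- **Block GLUE**: reciprocity `(R)` (and the Jacobi-sum relation `(J)`, already proved in
`S14/JacobiIdeal.lean`) imply the number-field form `S14_NoExtNF p` of the statement. -/
theorem S14_glue (p : ℕ) [Fact p.Prime] (h3 : 3 ≤ p) (hR : S14_Recip p) : S14_NoExtNF p := by
  intro K _ _ _ ζ hζ hdeg hE hU
  have hp : p.Prime := Fact.out
  have : NeZero p := ⟨hp.ne_zero⟩
  have hcyc : IsCyclotomicExtension {p} ℚ ↥ℚ⟮ζ⟯ :=
    hζ.intermediateField_adjoin_isCyclotomicExtension ℚ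
  have hζF : IsPrimitiveRoot (AdjoinSimple.gen ℚ ζ) p := by
    apply IsPrimitiveRoot.of_map_of_injective (f := algebraMap ↥ℚ⟮ζ⟯ K)
    · rw [AdjoinSimple.algebraMap_gen]
      exact hζ
    · exact (algebraMap ↥ℚ⟮ζ⟯ K).injective
  refine S14_glue_core (F := ↥ℚ⟮ζ⟯) (K := K) h3 hR hζF hdeg ?_ ?_
  · rw [AdjoinSimple.algebraMap_gen]
    exact hE
  · intro P hP hP0 σ hσ
    have h1 : (σ.restrictScalars ℚ) ζ = ζ := by
      have := σ.commutes (AdjoinSimple.gen ℚ ζ)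
      rwa [AdjoinSimple.algebraMap_gen] at this
    have h2 := hU P hP hP0 (σ.restrictScalars ℚ) h1 (fun x => hσ x)
    apply AlgEquiv.restrictScalars_injective ℚ
    rw [h2]
    rfl



end Fermat.Agent.S14
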