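import Fermat.Agent.S14.Red
import Fermat.Agent.S14.Glue

/-!
# S14: final wiring, modulo reciprocity

`S14_final : S14_Recip p → ExtCitation.ExtVanishingCts p` for primes `p ≥ 3`.
Once block N3 has landed `S14_recip : S14_Recip p`, the statement S14 is
`S14_final p h3 (S14_recip …)`.
-/

namespace Fermat.Agent.S14

/-- `ExtVanishingCts p` for `p ≥ 3`, from reciprocity `(R)`. -/
theorem S14_final (p : ℕ) [Fact p.Prime] (h3 : 3 ≤ p) (hR : S14_Recip p) :
    ExtCitation.ExtVanishingCts p :=
  S14_red p (S14_dict p (S14_glue p h3 hR))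

end Fermat.Agent.S14
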