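import Mathlib

/-!
# S14, block N1-INDEX (ambiguous classes): generic counting tools

* `S14_ambig_relIndex_le_card`, `S14_ambig_relIndex_le_index` : bounding the number of cosets by
  means of a relation (no map has to be shown well defined).
* `S14_ambig_exists_lift` : a monoid hom on the nonzero ideals of a Dedekind domain which kills
  principal ideals descends to the class group.
-/

set_option autoImplicit false

namespace Fermat.Agent.S14
open nonZeroDivisors

/-- counting cosets by a relation with "injective fibres". -/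
theorem S14_ambig_relIndex_le_card {E C : Type*} [Group E] [Group C] [Finite C]
    (K D : Subgroup E) (Y : Subgroup C) (P : E → C → Prop)
    (hex : ∀ u ∈ K, ∃ c ∈ Y, P u c)
    (hinj : ∀ u u' c, u ∈ K → u' ∈ K → P u c → P u' c → u⁻¹ * u' ∈ D) :
    D.relIndex K ≤ Nat.card Y := by
  classical
  let f : K ⧸ D.subgroupOf K → Y := fun q =>
    ⟨Classical.choose (hex q.out.1 q.out.2), (Classical.choose_spec (hex q.out.1 q.out.2)).1⟩
  have hf : Function.Injective f := by
    intro q q' h
    have h1 := (Classical.choose_spec (hex q.out.1 q.out.2)).2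
    have h2 := (Classical.choose_spec (hex q'.out.1 q'.out.2)).2
    have h3 : Classical.choose (hex q.out.1 q.out.2) = Classical.choose (hex q'.out.1 q'.out.2) :=
      congrArg Subtype.val h
    rw [← h3] at h2
    have h4 := hinj _ _ _ q.out.2 q'.out.2 h1 h2
    have h5 : (q.out : K)⁻¹ * q'.out ∈ D.subgroupOf K := by
      rw [Subgroup.mem_subgroupOf]
      exact h4
    have h6 : (QuotientGroup.mk q.out : K ⧸ D.subgroupOf K) = QuotientGroup.mk q'.out :=
      QuotientGroup.eq.mpr h5
    rwa [QuotientGroup.out_eq', QuotientGroup.out_eq'] at h6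
  exact Nat.card_le_card_of_injective f hf

/-- counting cosets by a multiplicative relation. -/
theorem S14_ambig_relIndex_le_index {C H : Type*} [CommGroup C] [CommGroup H]
    (X Y : Subgroup C) (Z : Subgroup H) (hZ : Z.index ≠ 0) (Q : C → H → Prop)
    (hex : ∀ c ∈ X, ∃ e, Q c e)
    (hmul : ∀ c c' e e', Q c e → Q c' e' → Q (c * c') (e * e'))
    (hone : ∀ e, Q 1 e → e ∈ Z)
    (hker : ∀ c e, Q c e → e ∈ Z → c ∈ Y) :
    Y.relIndex X ≤ Z.index := by
  classical
  have : Z.FiniteIndex := ⟨hZ⟩
  have : Finite (H ⧸ Z) := Subgroup.finite_quotient_of_finiteIndex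
  let f : X ⧸ Y.subgroupOf X → H ⧸ Z := fun q =>
    QuotientGroup.mk (Classical.choose (hex q.out.1 q.out.2))
  have hf : Function.Injective f := by
    intro q q' h
    have h1 := Classical.choose_spec (hex q.out.1 q.out.2)
    have h2 := Classical.choose_spec (hex q'.out.1 q'.out.2)
    set e := Classical.choose (hex q.out.1 q.out.2)
    set e' := Classical.choose (hex q'.out.1 q'.out.2)
    have h3 : e⁻¹ * e' ∈ Z := QuotientGroup.eq.mp h
    obtain ⟨e'', h4⟩ := hex _ (X.inv_mem q.out.2)
    have h5 : e'' * e ∈ Z := hone _ (by simpa using hmul _ _ _ _ h4 h1)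
    have h6 : Q ((q.out : C)⁻¹ * q'.out) (e'' * e') := hmul _ _ _ _ h4 h2
    have h7 : e'' * e' ∈ Z := by
      have : e'' * e' = (e'' * e) * (e⁻¹ * e') := by group
      rw [this]
      exact Z.mul_mem h5 h3
    have h8 := hker _ _ h6 h7
    have h9 : (q.out : X)⁻¹ * q'.out ∈ Y.subgroupOf X := by
      rw [Subgroup.mem_subgroupOf]
      exact h8
    have h10 : (QuotientGroup.mk q.out : X ⧸ Y.subgroupOf X) = QuotientGroup.mk q'.out :=
      QuotientGroup.eq.mpr h9
    rwa [QuotientGroup.out_eq', QuotientGroup.out_eq'] at h10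
  exact Nat.card_le_card_of_injective f hf

/-- a monoid hom on nonzero ideals killing principal ideals descends to the class group. -/
theorem S14_ambig_exists_lift {R : Type*} [CommRing R] [IsDedekindDomain R]
    {G : Type*} [CommGroup G] (f : (Ideal R)⁰ →* G)
    (hf : ∀ I : (Ideal R)⁰, (I : Ideal R).IsPrincipal → f I = 1) :
    ∃ g : ClassGroup R →* G, ∀ I, g (ClassGroup.mk0 I) = f I := by
  classical
  have hwd : ∀ I J : (Ideal R)⁰, ClassGroup.mk0 I = ClassGroup.mk0 J → f I = f J := by
    intro I J h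
    obtain ⟨x, y, hx, hy, hxy⟩ := ClassGroup.mk0_eq_mk0_iff.mp h
    have hx' : Ideal.span {x} ∈ (Ideal R)⁰ :=
      mem_nonZeroDivisors_iff_ne_zero.mpr (by simpa using hx)
    have hy' : Ideal.span {y} ∈ (Ideal R)⁰ :=
      mem_nonZeroDivisors_iff_ne_zero.mpr (by simpa using hy)
    have h1 : (⟨_, hx'⟩ : (Ideal R)⁰) * I = ⟨_, hy'⟩ * J := Subtype.ext hxy
    have h2 := congrArg f h1
    rw [map_mul, map_mul, hf ⟨_, hx'⟩ ⟨x, rfl⟩, hf ⟨_, hy'⟩ ⟨y, rfl⟩, one_mul, one_mul] at h2
    exact h2
  have hsurj := ClassGroup.mk0_surjective (R := R)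
  have hg : ∀ I, f (Classical.choose (hsurj (ClassGroup.mk0 I))) = f I := fun I =>
    hwd _ _ (Classical.choose_spec (hsurj (ClassGroup.mk0 I)))
  refine ⟨⟨⟨fun c => f (Classical.choose (hsurj c)), ?_⟩, ?_⟩, hg⟩
  · rw [← map_one (ClassGroup.mk0 (R := R)), hg, map_one]
  · intro c c'
    obtain ⟨I, rfl⟩ := hsurj c
    obtain ⟨J, rfl⟩ := hsurj c'
    show f (Classical.choose (hsurj _)) = f (Classical.choose (hsurj _)) * f (Classical.choose (hsurj _))
    rw [← map_mul, hg, hg, hg, map_mul]

end Fermat.Agent.S14
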