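import Mathlib
import Fermat.Agent.S14.Frob

/-!
# S14, block N1-INDEX (ambiguous classes): ideal-theoretic inputs

`F ⊆ L` number fields, `L/F` Galois, unramified at all finite primes (`S14_Unr F L`).

* `S14_ambig_invariant_ideal` : a nonzero ideal of `𝓞 L` fixed by `Gal(L/F)` is the extension of an
  ideal of `𝓞 F`.
* `S14_ambig_hilbert90` : Hilbert 90 in integral form: `N t = 1` implies `y = t * σ y` for some
  nonzero `y ∈ 𝓞 L` (`σ` a generator of the Galois group).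
* `S14_ambig_coe_intNorm`, `S14_ambig_intNorm_smul` : the integral norm.
-/

set_option autoImplicit false
set_option linter.unusedSectionVars false

namespace Fermat.Agent.S14

open NumberField nonZeroDivisors
open scoped Pointwise

section invariant

variable {F L : Type*} [Field F] [NumberField F] [Field L] [NumberField L] [Algebra F L]

/-- an ideal contained in all conjugates of a prime `P` with trivial inertia is contained in
the extension of `P ∩ 𝓞 F`. -/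
theorem S14_ambig_le_map [IsGalois F L] (hunr : S14_Unr F L) (I : Ideal (𝓞 L))
    (hI : ∀ τ : L ≃ₐ[F] L, τ • I = I) (P : Ideal (𝓞 L)) (hP : P.IsPrime) (hP0 : P ≠ ⊥)
    (hIP : I ≤ P) : I ≤ (P.under (𝓞 F)).map (algebraMap (𝓞 F) (𝓞 L)) := by
  classical
  have := hP
  have hp0 : P.under (𝓞 F) ≠ ⊥ := by
    intro h0
    exact hP0 (Ideal.eq_bot_of_comap_eq_bot (R := 𝓞 F) h0)
  have hpmax : (P.under (𝓞 F)).IsMaximal := Ideal.IsPrime.isMaximal inferInstance hp0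
  rw [Ideal.map_algebraMap_eq_finsetProd_pow hp0, ← Ideal.dvd_iff_le]
  have hQ : ∀ Q ∈ ((P.under (𝓞 F)).primesOver (𝓞 L)).toFinset,
      Q ^ Q.ramificationIdx (𝓞 F) = Q ∧ Prime Q ∧ Q ∣ I := by
    intro Q hQ
    rw [Set.mem_toFinset] at hQ
    obtain ⟨hQp, hQo⟩ := hQ
    have hQ0 : Q ≠ ⊥ := by
      rintro rfl
      apply hp0
      rw [hQo.over]
      simp [Ideal.under]
    have he := S14_unr_ramificationIdx (E := F) hQp hQ0 (hunr Q hQp hQ0)
    refine ⟨by rw [he, pow_one], Ideal.prime_of_isPrime hQ0 hQp, ?_⟩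
    rw [Ideal.dvd_iff_le]
    obtain ⟨τ, rfl⟩ := S14_frob_exists_smul_eq (E := F) hP hQp hQo.over
    rw [← hI τ]
    exact Ideal.pointwise_smul_le_pointwise_smul_iff.mpr hIP
  rw [Finset.prod_congr rfl (fun Q hQ' => (hQ Q hQ').1)]
  exact Finset.prod_primes_dvd I (fun Q hQ' => (hQ Q hQ').2.1) (fun Q hQ' => (hQ Q hQ').2.2)

theorem S14_ambig_smul_map (𝔞 : Ideal (𝓞 F)) (τ : L ≃ₐ[F] L) :
    τ • (𝔞.map (algebraMap (𝓞 F) (𝓞 L))) = 𝔞.map (algebraMap (𝓞 F) (𝓞 L)) := by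
  rw [Ideal.pointwise_smul_def, Ideal.map_map]
  congr 1
  ext x
  show τ (algebraMap (𝓞 F) (𝓞 L) x : L) = _
  have h : ((algebraMap (𝓞 F) (𝓞 L) x : 𝓞 L) : L) = algebraMap F L (x : F) := rfl
  rw [h, τ.commutes]

/-- **Invariant ideals are extended** (unramified Galois extension): a nonzero ideal of `𝓞 L`
fixed by the Galois group is the extension of an ideal of `𝓞 F`. -/
theorem S14_ambig_invariant_ideal [IsGalois F L] (hunr : S14_Unr F L) (I : Ideal (𝓞 L))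
    (hI0 : I ≠ ⊥) (hI : ∀ τ : L ≃ₐ[F] L, τ • I = I) :
    ∃ 𝔞 : Ideal (𝓞 F), 𝔞 ≠ ⊥ ∧ I = 𝔞.map (algebraMap (𝓞 F) (𝓞 L)) := by
  classical
  induction I using IsNoetherian.induction with
  | _ I ih =>
  by_cases htop : I = ⊤
  · exact ⟨⊤, top_ne_bot, by rw [htop, Ideal.map_top]⟩
  obtain ⟨P, hPmax, hIP⟩ := Ideal.exists_le_maximal I htop
  have hP : P.IsPrime := hPmax.isPrime
  have hP0 : P ≠ ⊥ := fun h => hI0 (le_bot_iff.mp (h ▸ hIP))
  have hp0 : P.under (𝓞 F) ≠ ⊥ := by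
    intro h0
    exact hP0 (Ideal.eq_bot_of_comap_eq_bot (R := 𝓞 F) h0)
  have hle := S14_ambig_le_map hunr I hI P hP hP0 hIP
  set 𝔭 := P.under (𝓞 F) with h𝔭
  set pR := 𝔭.map (algebraMap (𝓞 F) (𝓞 L)) with hpR
  have hpR0 : pR ≠ ⊥ := Ideal.map_ne_bot_of_ne_bot hp0
  have hpRP : pR ≤ P := Ideal.map_le_iff_le_comap.mpr le_rfl
  obtain ⟨I', hI'⟩ := Ideal.dvd_iff_le.mpr hle
  have hI'0 : I' ≠ ⊥ := by
    rintro rfl
    exact hI0 (by rw [hI', Ideal.mul_bot])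
  have hI'inv : ∀ τ : L ≃ₐ[F] L, τ • I' = I' := by
    intro τ
    have h1 := hI τ
    rw [hI'] at h1
    have h2 : τ • (pR * I') = (τ • pR) * (τ • I') := by
      simp only [Ideal.pointwise_smul_def, Ideal.map_mul]
    rw [h2, S14_ambig_smul_map] at h1
    exact mul_left_cancel₀ hpR0 h1
  have hlt : I < I' := by
    refine lt_of_le_of_ne (by rw [hI', mul_comm]; exact Ideal.mul_le_left) ?_
    intro h
    rw [← h] at hI'
    have h3 : pR * I = 1 * I := by rw [one_mul]; exact hI'.symm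
    have h4 := mul_right_cancel₀ hI0 h3
    exact hPmax.ne_top (top_le_iff.mp (by rw [← Ideal.one_eq_top, ← h4]; exact hpRP))
  obtain ⟨𝔞', h𝔞'0, h𝔞'⟩ := ih I' hlt hI'0 hI'inv
  refine ⟨𝔭 * 𝔞', mul_ne_zero hp0 h𝔞'0, ?_⟩
  rw [Ideal.map_mul, ← h𝔞', ← hpR, hI']

end invariant

section hilbert

variable {F L : Type} [Field F] [NumberField F] [Field L] [NumberField L] [Algebra F L]
  [IsGalois F L]

omit [IsGalois F L] in
theorem S14_ambig_coe_intNorm (x : 𝓞 L) :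
    ((Algebra.intNorm (𝓞 F) (𝓞 L) x : 𝓞 F) : F) = Algebra.norm F (x : L) :=
  Algebra.algebraMap_intNorm (A := 𝓞 F) (K := F) (L := L) (B := 𝓞 L) x

omit [IsGalois F L] in
theorem S14_ambig_intNorm_smul (σ : L ≃ₐ[F] L) (x : 𝓞 L) :
    Algebra.intNorm (𝓞 F) (𝓞 L) (σ • x) = Algebra.intNorm (𝓞 F) (𝓞 L) x := by
  apply RingOfIntegers.ext
  rw [S14_ambig_coe_intNorm, S14_ambig_coe_intNorm]
  exact Algebra.norm_eq_of_algEquiv σ (x : L)

/-- Hilbert 90, integral form. -/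
theorem S14_ambig_hilbert90 (σ : L ≃ₐ[F] L) (hσ : ∀ τ, τ ∈ Subgroup.zpowers σ) (t : L)
    (ht : Algebra.norm F t = 1) : ∃ y : 𝓞 L, y ≠ 0 ∧ (y : L) = t * σ (y : L) := by
  have : IsCyclic (L ≃ₐ[F] L) := ⟨σ, hσ⟩
  obtain ⟨y, hy⟩ := groupCohomology.exists_div_of_norm_eq_one hσ ht
  have hy0 : (y : L) ≠ 0 := y.ne_zero
  have hσy0 : σ (y : L) ≠ 0 := by simp
  have halg : IsAlgebraic ℤ (y : L) :=
    (IsFractionRing.isAlgebraic_iff ℤ ℚ L).mpr (Algebra.IsAlgebraic.isAlgebraic _)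
  obtain ⟨n, hn0, hn⟩ := IsAlgebraic.exists_integral_multiple halg
  obtain ⟨y', hy'⟩ : ∃ y' : 𝓞 L, (y' : L) = (n : L) * (y : L) :=
    ⟨⟨n • (y : L), hn⟩, zsmul_eq_mul _ _⟩
  refine ⟨y', ?_, ?_⟩
  · rintro rfl
    rcases mul_eq_zero.mp hy'.symm with h2 | h2
    · exact hn0 (by exact_mod_cast h2)
    · exact hy0 h2
  · rw [hy', map_mul, map_intCast, ← hy]
    field_simp

end hilbert

end Fermat.Agent.S14
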