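import Mathlib

/-!
# S14, block N1 (first inequality): definitions for the unit Herbrand inequality

`S14_unitAct σ` (action of `σ ∈ Gal(L/F)` on `(𝓞 L)ˣ`), `S14_unitD σ` (`u ↦ σ u / u`),
`S14_unitNorm` (relative norm `(𝓞 L)ˣ → (𝓞 F)ˣ`).  Interface between UNITS (`HerbrandUnits.lean`)
and INDEX (`AmbigClass.lean`).
-/

set_option autoImplicit false
set_option linter.unusedSectionVars false

namespace Fermat.Agent.S14

open NumberField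

variable (F L : Type*) [Field F] [NumberField F] [Field L] [NumberField L] [Algebra F L]

/-- the action of `σ` on units of `𝓞 L` -/
noncomputable def S14_unitAct (σ : L ≃ₐ[F] L) : (𝓞 L)ˣ →* (𝓞 L)ˣ :=
  Units.map ((MulSemiringAction.toRingHom (L ≃ₐ[F] L) (𝓞 L) σ : 𝓞 L →+* 𝓞 L) : 𝓞 L →* 𝓞 L)

@[simp] theorem S14_unitAct_coe (σ : L ≃ₐ[F] L) (u : (𝓞 L)ˣ) :
    ((S14_unitAct F L σ u : (𝓞 L)ˣ) : 𝓞 L) = σ • (u : 𝓞 L) := rfl

theorem S14_unitAct_coe_coe (σ : L ≃ₐ[F] L) (u : (𝓞 L)ˣ) :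
    (((S14_unitAct F L σ u : (𝓞 L)ˣ) : 𝓞 L) : L) = σ ((u : 𝓞 L) : L) := rfl

/-- `D u = σ u / u` -/
noncomputable def S14_unitD (σ : L ≃ₐ[F] L) : (𝓞 L)ˣ →* (𝓞 L)ˣ :=
  S14_unitAct F L σ / MonoidHom.id _

@[simp] theorem S14_unitD_apply (σ : L ≃ₐ[F] L) (u : (𝓞 L)ˣ) :
    S14_unitD F L σ u = S14_unitAct F L σ u / u := rfl

/-- relative norm on units -/
noncomputable def S14_unitNorm : (𝓞 L)ˣ →* (𝓞 F)ˣ :=
  Units.map (Algebra.intNorm (𝓞 F) (𝓞 L))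

@[simp] theorem S14_unitNorm_coe (u : (𝓞 L)ˣ) :
    ((S14_unitNorm F L u : (𝓞 F)ˣ) : 𝓞 F) = Algebra.intNorm (𝓞 F) (𝓞 L) (u : 𝓞 L) := rfl

end Fermat.Agent.S14
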