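import Mathlib
import Fermat.Agent.S14.AmbigIdeal
import Fermat.Agent.S14.AmbigCount
import Fermat.Agent.S14.HerbrandDefs

/-!
# S14, block N1-INDEX (ambiguous classes): class group maps and the map `Λ`

`F ⊆ L` number fields (in `Type`), `L/F` Galois.

* `S14_ambig_clAct σ`, `S14_ambig_clNorm F L` : the action of `σ` and the relative norm on class
  groups (`Cl(F) → Cl(L)` is Mathlib's `ClassGroup.extendedHom`).
* `S14_ambig_lambda` : `[Cl(L)^σ : j(Cl(F))] ≤ [E_F : N E_L]` for `L/F` cyclic with generator `σ`,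
  unramified.
-/

set_option autoImplicit false
set_option linter.unusedSectionVars false

namespace Fermat.Agent.S14
open NumberField nonZeroDivisors
open scoped Pointwise

variable {F L : Type} [Field F] [NumberField F] [Field L] [NumberField L] [Algebra F L]
  [IsGalois F L]

theorem S14_ambig_smul_ne_bot (σ : L ≃ₐ[F] L) {I : Ideal (𝓞 L)} (h : I ≠ ⊥) : σ • I ≠ ⊥ := by
  intro h0
  apply h
  have h1 : σ⁻¹ • (σ • I) = σ⁻¹ • (⊥ : Ideal (𝓞 L)) := by rw [h0]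
  rw [inv_smul_smul] at h1
  rw [h1, Ideal.pointwise_smul_def, Ideal.map_bot]

theorem S14_ambig_smul_mul (σ : L ≃ₐ[F] L) (I J : Ideal (𝓞 L)) :
    σ • (I * J) = σ • I * σ • J := by
  simp only [Ideal.pointwise_smul_def, Ideal.map_mul]

theorem S14_ambig_smul_span (σ : L ≃ₐ[F] L) (x : 𝓞 L) :
    σ • Ideal.span {x} = Ideal.span {σ • x} := by
  rw [Ideal.pointwise_smul_def, Ideal.map_span, Set.image_singleton]
  rfl

theorem S14_ambig_smul_top (σ : L ≃ₐ[F] L) : σ • (⊤ : Ideal (𝓞 L)) = ⊤ := by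
  rw [← Ideal.span_singleton_one, S14_ambig_smul_span, smul_one]

theorem S14_ambig_nz {R : Type*} [CommRing R] [IsDomain R] {I : Ideal R} :
    I ∈ (Ideal R)⁰ ↔ I ≠ ⊥ := mem_nonZeroDivisors_iff_ne_zero

/-- `σ` acting on the nonzero ideals of `𝓞 L`. -/
noncomputable def S14_ambig_nzAct (σ : L ≃ₐ[F] L) : (Ideal (𝓞 L))⁰ →* (Ideal (𝓞 L))⁰ where
  toFun I := ⟨σ • I.1, S14_ambig_nz.mpr (S14_ambig_smul_ne_bot σ (S14_ambig_nz.mp I.2))⟩
  map_one' := Subtype.ext (by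
    show σ • ((1 : (Ideal (𝓞 L))⁰) : Ideal (𝓞 L)) = 1
    rw [Submonoid.coe_one, Ideal.one_eq_top, S14_ambig_smul_top])
  map_mul' I J := Subtype.ext (S14_ambig_smul_mul σ I.1 J.1)

/-- the relative norm on nonzero ideals. -/
noncomputable def S14_ambig_nzNorm : (Ideal (𝓞 L))⁰ →* (Ideal (𝓞 F))⁰ where
  toFun I := ⟨Ideal.relNorm (𝓞 F) I.1,
    S14_ambig_nz.mpr (Ideal.relNorm_eq_bot_iff.not.mpr (S14_ambig_nz.mp I.2))⟩
  map_one' := Subtype.ext (map_one (Ideal.relNorm (𝓞 F)))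
  map_mul' I J := Subtype.ext (map_mul (Ideal.relNorm (𝓞 F)) I.1 J.1)

theorem S14_ambig_clAct_exists (σ : L ≃ₐ[F] L) :
    ∃ g : ClassGroup (𝓞 L) →* ClassGroup (𝓞 L),
      ∀ I, g (ClassGroup.mk0 I) = ClassGroup.mk0 (S14_ambig_nzAct σ I) := by
  refine S14_ambig_exists_lift (ClassGroup.mk0.comp (S14_ambig_nzAct σ)) ?_
  rintro I ⟨x, hx⟩
  rw [MonoidHom.comp_apply, ClassGroup.mk0_eq_one_iff]
  refine ⟨σ • x, ?_⟩
  show σ • I.1 = _
  rw [hx]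
  exact S14_ambig_smul_span σ x

theorem S14_ambig_clNorm_exists :
    ∃ g : ClassGroup (𝓞 L) →* ClassGroup (𝓞 F),
      ∀ I, g (ClassGroup.mk0 I) = ClassGroup.mk0 (S14_ambig_nzNorm (F := F) I) := by
  refine S14_ambig_exists_lift (ClassGroup.mk0.comp (S14_ambig_nzNorm (F := F) (L := L))) ?_
  rintro I ⟨x, hx⟩
  rw [MonoidHom.comp_apply, ClassGroup.mk0_eq_one_iff]
  refine ⟨Algebra.intNorm (𝓞 F) (𝓞 L) x, ?_⟩
  show Ideal.relNorm (𝓞 F) I.1 = _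
  rw [hx]
  exact Ideal.relNorm_singleton (𝓞 F) x

/-- the action of `σ` on the class group of `𝓞 L`. -/
noncomputable def S14_ambig_clAct (σ : L ≃ₐ[F] L) : ClassGroup (𝓞 L) →* ClassGroup (𝓞 L) :=
  Classical.choose (S14_ambig_clAct_exists σ)

theorem S14_ambig_clAct_mk0 (σ : L ≃ₐ[F] L) (I : (Ideal (𝓞 L))⁰) :
    S14_ambig_clAct σ (ClassGroup.mk0 I) = ClassGroup.mk0 (S14_ambig_nzAct σ I) :=
  Classical.choose_spec (S14_ambig_clAct_exists σ) I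

/-- the norm map on class groups. -/
noncomputable def S14_ambig_clNorm (F L : Type) [Field F] [NumberField F] [Field L] [NumberField L]
    [Algebra F L] [IsGalois F L] : ClassGroup (𝓞 L) →* ClassGroup (𝓞 F) :=
  Classical.choose (S14_ambig_clNorm_exists (F := F) (L := L))

theorem S14_ambig_clNorm_mk0 (I : (Ideal (𝓞 L))⁰) :
    S14_ambig_clNorm F L (ClassGroup.mk0 I) = ClassGroup.mk0 (S14_ambig_nzNorm (F := F) I) :=
  Classical.choose_spec (S14_ambig_clNorm_exists (F := F) (L := L)) I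

theorem S14_ambig_clNorm_clAct (σ : L ≃ₐ[F] L) (c : ClassGroup (𝓞 L)) :
    S14_ambig_clNorm F L (S14_ambig_clAct σ c) = S14_ambig_clNorm F L c := by
  obtain ⟨I, rfl⟩ := ClassGroup.mk0_surjective c
  rw [S14_ambig_clAct_mk0, S14_ambig_clNorm_mk0, S14_ambig_clNorm_mk0]
  congr 1
  apply Subtype.ext
  show Ideal.relNorm (𝓞 F) (σ • I.1) = Ideal.relNorm (𝓞 F) I.1
  exact Ideal.relNorm_smul (𝓞 F) σ I.1

theorem S14_ambig_clAct_ext (σ : L ≃ₐ[F] L) (c : ClassGroup (𝓞 F)) :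
    S14_ambig_clAct σ (ClassGroup.extendedHom (𝓞 F) (𝓞 L) c) =
      ClassGroup.extendedHom (𝓞 F) (𝓞 L) c := by
  obtain ⟨I, rfl⟩ := ClassGroup.mk0_surjective c
  rw [ClassGroup.extendedHom_mk0, S14_ambig_clAct_mk0]
  congr 1
  apply Subtype.ext
  show σ • (I.1.map (algebraMap (𝓞 F) (𝓞 L))) = I.1.map (algebraMap (𝓞 F) (𝓞 L))
  exact S14_ambig_smul_map I.1 σ

/-- the relation defining `Λ : Cl(L)^σ → E_F / N E_L`. -/
def S14_ambig_Q (σ : L ≃ₐ[F] L) (c : ClassGroup (𝓞 L)) (e : (𝓞 F)ˣ) : Prop :=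
  ∃ (𝔄 : (Ideal (𝓞 L))⁰) (a b : 𝓞 L), a ≠ 0 ∧ b ≠ 0 ∧ ClassGroup.mk0 𝔄 = c ∧
    Ideal.span {a} * (σ • 𝔄.1) = Ideal.span {b} * 𝔄.1 ∧
    Algebra.intNorm (𝓞 F) (𝓞 L) b = (e : 𝓞 F) * Algebra.intNorm (𝓞 F) (𝓞 L) a

theorem S14_ambig_intNorm_ne_zero {x : 𝓞 L} (hx : x ≠ 0) :
    Algebra.intNorm (𝓞 F) (𝓞 L) x ≠ 0 := by
  rw [Ne, Algebra.intNorm_eq_zero]
  exact hx

theorem S14_ambig_Q_exists (σ : L ≃ₐ[F] L) (c : ClassGroup (𝓞 L))
    (hc : S14_ambig_clAct σ c = c) : ∃ e, S14_ambig_Q σ c e := by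
  obtain ⟨𝔄, rfl⟩ := ClassGroup.mk0_surjective c
  rw [S14_ambig_clAct_mk0] at hc
  obtain ⟨a, b, ha, hb, hab⟩ := ClassGroup.mk0_eq_mk0_iff.mp hc
  have hab' : Ideal.span {a} * (σ • 𝔄.1) = Ideal.span {b} * 𝔄.1 := hab
  have h1 := congrArg (Ideal.relNorm (𝓞 F)) hab'
  rw [map_mul, map_mul, Ideal.relNorm_singleton, Ideal.relNorm_singleton,
    Ideal.relNorm_smul (𝓞 F) σ] at h1
  have h2 : Ideal.relNorm (𝓞 F) 𝔄.1 ≠ 0 :=
    Ideal.relNorm_eq_bot_iff.not.mpr (S14_ambig_nz.mp 𝔄.2)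
  have h3 := mul_right_cancel₀ h2 h1
  obtain ⟨e, he⟩ := Ideal.span_singleton_eq_span_singleton.mp h3
  exact ⟨e, 𝔄, a, b, ha, hb, rfl, hab', by rw [← he, mul_comm]⟩

theorem S14_ambig_Q_mul (σ : L ≃ₐ[F] L) (c c' : ClassGroup (𝓞 L)) (e e' : (𝓞 F)ˣ)
    (h : S14_ambig_Q σ c e) (h' : S14_ambig_Q σ c' e') : S14_ambig_Q σ (c * c') (e * e') := by
  obtain ⟨𝔄, a, b, ha, hb, rfl, hab, hN⟩ := h
  obtain ⟨𝔄', a', b', ha', hb', rfl, hab', hN'⟩ := h'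
  refine ⟨𝔄 * 𝔄', a * a', b * b', mul_ne_zero ha ha', mul_ne_zero hb hb', map_mul _ _ _, ?_, ?_⟩
  · rw [Submonoid.coe_mul, S14_ambig_smul_mul, ← Ideal.span_singleton_mul_span_singleton,
      ← Ideal.span_singleton_mul_span_singleton, mul_mul_mul_comm, hab, hab', mul_mul_mul_comm]
  · rw [map_mul, map_mul, hN, hN', Units.val_mul]
    ring

theorem S14_ambig_Q_one (σ : L ≃ₐ[F] L) (e : (𝓞 F)ˣ) (h : S14_ambig_Q σ 1 e) :
    e ∈ (S14_unitNorm F L).range := by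
  obtain ⟨𝔄, a, b, ha, hb, h1, hab, hN⟩ := h
  obtain ⟨α, hα⟩ := (ClassGroup.mk0_eq_one_iff 𝔄.2).mp h1
  have hα' : 𝔄.1 = Ideal.span {α} := hα
  have hα0 : α ≠ 0 := by
    rintro rfl
    apply S14_ambig_nz.mp 𝔄.2
    rw [hα']
    simp
  rw [hα', S14_ambig_smul_span, Ideal.span_singleton_mul_span_singleton,
    Ideal.span_singleton_mul_span_singleton] at hab
  obtain ⟨w, hw⟩ := Ideal.span_singleton_eq_span_singleton.mp hab
  refine ⟨w, ?_⟩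
  apply Units.ext
  rw [S14_unitNorm_coe]
  have h2 := congrArg (Algebra.intNorm (𝓞 F) (𝓞 L)) hw
  rw [map_mul, map_mul, map_mul, S14_ambig_intNorm_smul, hN] at h2
  have h3 : Algebra.intNorm (𝓞 F) (𝓞 L) a * Algebra.intNorm (𝓞 F) (𝓞 L) α ≠ 0 :=
    mul_ne_zero (S14_ambig_intNorm_ne_zero ha) (S14_ambig_intNorm_ne_zero hα0)
  apply mul_left_cancel₀ h3
  rw [h2]
  ring


theorem S14_ambig_algebraMap_intNorm (x : 𝓞 L) :
    algebraMap (𝓞 F) F (Algebra.intNorm (𝓞 F) (𝓞 L) x) = Algebra.norm F (x : L) :=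
  S14_ambig_coe_intNorm x

theorem S14_ambig_coe_ne_zero {x : 𝓞 L} (hx : x ≠ 0) : (x : L) ≠ 0 := by
  intro h
  exact hx (RingOfIntegers.ext (by rw [h]; rfl))

theorem S14_ambig_invariant_of_gen (σ : L ≃ₐ[F] L) (hσ : ∀ τ, τ ∈ Subgroup.zpowers σ)
    (I : Ideal (𝓞 L)) (hI : σ • I = I) : ∀ τ : L ≃ₐ[F] L, τ • I = I := by
  intro τ
  have hstab : σ ∈ MulAction.stabilizer (L ≃ₐ[F] L) I := hI
  exact (Subgroup.zpowers_le.mpr hstab) (hσ τ)

theorem S14_ambig_Q_ker (hunr : S14_Unr F L) (σ : L ≃ₐ[F] L)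
    (hσ : ∀ τ, τ ∈ Subgroup.zpowers σ) (c : ClassGroup (𝓞 L)) (e : (𝓞 F)ˣ)
    (h : S14_ambig_Q σ c e) (he : e ∈ (S14_unitNorm F L).range) :
    c ∈ (ClassGroup.extendedHom (𝓞 F) (𝓞 L)).range := by
  obtain ⟨𝔄, a, b, ha, hb, rfl, hab, hN⟩ := h
  obtain ⟨v, rfl⟩ := he
  have haL : (a : L) ≠ 0 := S14_ambig_coe_ne_zero ha
  have hvL : ((v : 𝓞 L) : L) ≠ 0 := S14_ambig_coe_ne_zero v.ne_zero
  have hNa : Algebra.norm F (a : L) ≠ 0 := by
    rw [Ne, Algebra.norm_eq_zero_iff]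
    exact haL
  have hNv : Algebra.norm F ((v : 𝓞 L) : L) ≠ 0 := by
    rw [Ne, Algebra.norm_eq_zero_iff]
    exact hvL
  have ht : Algebra.norm F ((b : L) / ((a : L) * ((v : 𝓞 L) : L))) = 1 := by
    have h1 := congrArg (algebraMap (𝓞 F) F) hN
    rw [map_mul, S14_unitNorm_coe, S14_ambig_algebraMap_intNorm b,
      S14_ambig_algebraMap_intNorm (v : 𝓞 L), S14_ambig_algebraMap_intNorm a] at h1
    have h2 : Algebra.norm F ((b : L) / ((a : L) * ((v : 𝓞 L) : L))) *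
        (Algebra.norm F ((v : 𝓞 L) : L) * Algebra.norm F (a : L)) =
        1 * (Algebra.norm F ((v : 𝓞 L) : L) * Algebra.norm F (a : L)) := by
      have h3 : (b : L) / ((a : L) * ((v : 𝓞 L) : L)) * (((v : 𝓞 L) : L) * (a : L)) = (b : L) := by
        field_simp
      calc Algebra.norm F ((b : L) / ((a : L) * ((v : 𝓞 L) : L))) *
            (Algebra.norm F ((v : 𝓞 L) : L) * Algebra.norm F (a : L))
          = Algebra.norm F ((b : L) / ((a : L) * ((v : 𝓞 L) : L)) *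
              (((v : 𝓞 L) : L) * (a : L))) := by rw [map_mul, map_mul]
        _ = Algebra.norm F (b : L) := by rw [h3]
        _ = 1 * (Algebra.norm F ((v : 𝓞 L) : L) * Algebra.norm F (a : L)) := by rw [one_mul, h1]
    exact mul_right_cancel₀ (mul_ne_zero hNv hNa) h2
  obtain ⟨y, hy0, hy⟩ := S14_ambig_hilbert90 σ hσ _ ht
  have hy' : y * a * (v : 𝓞 L) = b * (σ • y) := by
    apply RingOfIntegers.ext
    show (y : L) * (a : L) * ((v : 𝓞 L) : L) = (b : L) * σ (y : L)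
    have h2 : (y : L) * (a : L) * ((v : 𝓞 L) : L) =
        ((b : L) / ((a : L) * ((v : 𝓞 L) : L)) * σ (y : L)) * (a : L) * ((v : 𝓞 L) : L) := by
      rw [← hy]
    rw [h2]
    field_simp
  have ha' : Ideal.span {a} ≠ (0 : Ideal (𝓞 L)) := by
    simpa using ha
  have hB : σ • (Ideal.span {y} * 𝔄.1) = Ideal.span {y} * 𝔄.1 := by
    apply mul_left_cancel₀ ha'
    calc Ideal.span {a} * σ • (Ideal.span {y} * 𝔄.1)
        = Ideal.span {σ • y} * (Ideal.span {a} * σ • 𝔄.1) := by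
          rw [S14_ambig_smul_mul, S14_ambig_smul_span, mul_left_comm]
      _ = Ideal.span {b * σ • y} * 𝔄.1 := by
          rw [hab, ← mul_assoc, Ideal.span_singleton_mul_span_singleton, mul_comm b]
      _ = Ideal.span {y * a} * 𝔄.1 := by
          rw [← hy', Ideal.span_singleton_mul_right_unit v.isUnit]
      _ = Ideal.span {a} * (Ideal.span {y} * 𝔄.1) := by
          rw [← mul_assoc, Ideal.span_singleton_mul_span_singleton, mul_comm a]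
  have hB0 : Ideal.span {y} * 𝔄.1 ≠ ⊥ :=
    mul_ne_zero (by simpa using hy0) (S14_ambig_nz.mp 𝔄.2)
  obtain ⟨𝔡, h𝔡0, h𝔡⟩ := S14_ambig_invariant_ideal hunr _ hB0
    (S14_ambig_invariant_of_gen σ hσ _ hB)
  refine ⟨ClassGroup.mk0 ⟨𝔡, S14_ambig_nz.mpr h𝔡0⟩, ?_⟩
  rw [ClassGroup.extendedHom_mk0]
  refine ClassGroup.mk0_eq_mk0_iff.mpr ⟨1, y, one_ne_zero, hy0, ?_⟩
  show Ideal.span {1} * 𝔡.map (algebraMap (𝓞 F) (𝓞 L)) = Ideal.span {y} * 𝔄.1
  rw [Ideal.span_singleton_one, Ideal.top_mul, ← h𝔡]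

/-- **Λ-part**: `[Cl(L)^σ : j(Cl(F))] ≤ [E_F : N E_L]`. -/
theorem S14_ambig_lambda (hunr : S14_Unr F L) (σ : L ≃ₐ[F] L)
    (hσ : ∀ τ, τ ∈ Subgroup.zpowers σ) (h0 : (S14_unitNorm F L).range.index ≠ 0) :
    (ClassGroup.extendedHom (𝓞 F) (𝓞 L)).range.relIndex
        (S14_ambig_clAct σ / MonoidHom.id (ClassGroup (𝓞 L))).ker
      ≤ (S14_unitNorm F L).range.index := by
  refine S14_ambig_relIndex_le_index _ _ _ h0 (S14_ambig_Q σ) ?_ (S14_ambig_Q_mul σ)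
    (S14_ambig_Q_one σ) (S14_ambig_Q_ker hunr σ hσ)
  intro c hc
  apply S14_ambig_Q_exists
  rw [MonoidHom.mem_ker, MonoidHom.div_apply, MonoidHom.id_apply, div_eq_one] at hc
  exact hc

end Fermat.Agent.S14
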