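import Mathlib
import Fermat.Agent.S14.AmbigIdeal
import Fermat.Agent.S14.AmbigCount
import Fermat.Agent.S14.HerbrandDefs

/-!
# S14, block N1-INDEX: pieces PSI and P1

* `S14_ambig_card_range_le` (P1): for an endomorphism `s` of a finite abelian group `A` and a
  homomorphism `ν` with `ν ∘ s = ν`: `|im ν| ≤ |ker (s / id)|`.
* `S14_ambig_h1_le` (PSI): `[ker N : D E_L] ≤ |ker (Cl_F → Cl_L)|` for `L/F` cyclic unramified.
-/

set_option linter.unusedSectionVars false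
set_option linter.unusedVariables false
set_option linter.style.longLine false

namespace Fermat.Agent.S14

open NumberField nonZeroDivisors
open scoped Pointwise

/-- (P1) `|im ν| ≤ |ker (s / id)|` if `ν ∘ s = ν`. -/
theorem S14_ambig_card_range_le {A B : Type*} [CommGroup A] [Finite A] [CommGroup B]
    (s : A →* A) (ν : A →* B) (h : ∀ a, ν (s a) = ν a) :
    Nat.card ν.range ≤ Nat.card (s / MonoidHom.id A).ker := by
  set δ : A →* A := s / MonoidHom.id A with hδ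
  have h1 : Nat.card ν.ker * Nat.card ν.range = Nat.card A := by
    rw [← Subgroup.index_ker]
    exact Subgroup.card_mul_index _
  have h2 : Nat.card δ.ker * Nat.card δ.range = Nat.card A := by
    rw [← Subgroup.index_ker]
    exact Subgroup.card_mul_index _
  have h3 : δ.range ≤ ν.ker := by
    rintro _ ⟨a, rfl⟩
    rw [MonoidHom.mem_ker, hδ, MonoidHom.div_apply, MonoidHom.id_apply, map_div, h a, div_self']
  have h4 : Nat.card δ.range ≤ Nat.card ν.ker := Subgroup.card_le_of_le h3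
  have h5 : 0 < Nat.card δ.range := Nat.card_pos
  have h6 : Nat.card ν.range * Nat.card δ.range ≤ Nat.card δ.ker * Nat.card δ.range := by
    calc Nat.card ν.range * Nat.card δ.range ≤ Nat.card ν.range * Nat.card ν.ker :=
          Nat.mul_le_mul_left _ h4
      _ = Nat.card A := by rw [mul_comm, h1]
      _ = Nat.card δ.ker * Nat.card δ.range := h2.symm
  exact Nat.le_of_mul_le_mul_right h6 h5

section psi

variable {F L : Type} [Field F] [NumberField F] [Field L] [NumberField L] [Algebra F L]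
  [IsGalois F L]

omit [IsGalois F L] in
/-- `σ • span {x} = span {σ • x}`. -/
lemma S14_ambig_psi_smul_span (τ : L ≃ₐ[F] L) (x : 𝓞 L) :
    τ • (Ideal.span {x} : Ideal (𝓞 L)) = Ideal.span {τ • x} := by
  rw [Ideal.pointwise_smul_def, Ideal.map_span, Set.image_singleton]
  rfl

omit [IsGalois F L] in
/-- an ideal fixed by `σ` is fixed by the cyclic group generated by `σ`. -/
lemma S14_ambig_psi_fixed (σ : L ≃ₐ[F] L) (hσ : ∀ τ, τ ∈ Subgroup.zpowers σ)
    (I : Ideal (𝓞 L)) (hI : σ • I = I) (τ : L ≃ₐ[F] L) : τ • I = I := by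
  have h1 : σ ∈ MulAction.stabilizer (L ≃ₐ[F] L) I := MulAction.mem_stabilizer_iff.2 hI
  have h2 : Subgroup.zpowers σ ≤ MulAction.stabilizer (L ≃ₐ[F] L) I :=
    (Subgroup.zpowers_le).2 h1
  exact MulAction.mem_stabilizer_iff.1 (h2 (hσ τ))

omit [IsGalois F L] in
/-- elements of `𝓞 F` are fixed. -/
lemma S14_ambig_psi_smul_algebraMap (τ : L ≃ₐ[F] L) (a : 𝓞 F) :
    τ • (algebraMap (𝓞 F) (𝓞 L) a) = algebraMap (𝓞 F) (𝓞 L) a := by
  apply RingOfIntegers.ext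
  show τ (algebraMap (𝓞 F) (𝓞 L) a : L) = _
  have h : ((algebraMap (𝓞 F) (𝓞 L) a : 𝓞 L) : L) = algebraMap F L (a : F) := rfl
  rw [h, τ.commutes]

/-- (PSI) `[ker N : D E_L] ≤ |ker (Cl_F → Cl_L)|`. -/
theorem S14_ambig_h1_le (hunr : S14_Unr F L) (σ : L ≃ₐ[F] L)
    (hσ : ∀ τ, τ ∈ Subgroup.zpowers σ) :
    (S14_unitD F L σ).range.relIndex (S14_unitNorm F L).ker
      ≤ Nat.card (ClassGroup.extendedHom (𝓞 F) (𝓞 L)).ker := by
  classical
  refine S14_ambig_relIndex_le_card (S14_unitNorm F L).ker (S14_unitD F L σ).range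
    (ClassGroup.extendedHom (𝓞 F) (𝓞 L)).ker
    (fun u c => ∃ (x : 𝓞 L) (𝔞 : (Ideal (𝓞 F))⁰), x ≠ 0 ∧ σ • x = (u : 𝓞 L) * x ∧
      Ideal.span {x} = 𝔞.1.map (algebraMap (𝓞 F) (𝓞 L)) ∧ ClassGroup.mk0 𝔞 = c) ?_ ?_
  · -- existence
    intro u hu
    rw [MonoidHom.mem_ker] at hu
    have hN : Algebra.norm F ((u : 𝓞 L) : L) = 1 := by
      rw [← S14_ambig_coe_intNorm, ← S14_unitNorm_coe, hu]
      rfl
    have hu0 : ((u : 𝓞 L) : L) ≠ 0 := by
      intro h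
      rw [h, Algebra.norm_zero] at hN
      exact zero_ne_one hN
    have hNinv : Algebra.norm F (((u : 𝓞 L) : L)⁻¹) = 1 := by
      have h := map_mul (Algebra.norm F) (((u : 𝓞 L) : L)⁻¹) ((u : 𝓞 L) : L)
      rw [inv_mul_cancel₀ hu0, map_one, hN, mul_one] at h
      exact h.symm
    obtain ⟨y, hy0, hy⟩ := S14_ambig_hilbert90 σ hσ _ hNinv
    have hσy : σ • y = (u : 𝓞 L) * y := by
      apply RingOfIntegers.ext
      show σ (y : L) = ((u : 𝓞 L) : L) * (y : L)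
      conv_rhs => rw [hy]
      rw [← mul_assoc, mul_inv_cancel₀ hu0, one_mul]
    have hinv : σ • (Ideal.span {y} : Ideal (𝓞 L)) = Ideal.span {y} := by
      rw [S14_ambig_psi_smul_span, hσy, Ideal.span_singleton_mul_left_unit u.isUnit]
    have hy0' : (Ideal.span {y} : Ideal (𝓞 L)) ≠ ⊥ := by
      rw [Ne, Ideal.span_singleton_eq_bot]
      exact hy0
    obtain ⟨𝔞, h𝔞0, h𝔞⟩ := S14_ambig_invariant_ideal hunr _ hy0'
      (S14_ambig_psi_fixed σ hσ _ hinv)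
    have h𝔞mem : 𝔞 ∈ (Ideal (𝓞 F))⁰ := mem_nonZeroDivisors_iff_ne_zero.2 h𝔞0
    refine ⟨ClassGroup.mk0 ⟨𝔞, h𝔞mem⟩, ?_, y, ⟨𝔞, h𝔞mem⟩, hy0, hσy, h𝔞, rfl⟩
    rw [MonoidHom.mem_ker, ClassGroup.extendedHom_mk0]
    refine (ClassGroup.mk0_eq_one_iff
      (ClassGroup.extendedIdeal (𝓞 F) (𝓞 L) ⟨𝔞, h𝔞mem⟩).2).mpr ⟨⟨y, ?_⟩⟩
    rw [Ideal.submodule_span_eq]
    exact h𝔞.symm
  · -- injectivity
    rintro u u' c hu hu' ⟨x, 𝔞, hx0, hσx, hx, h𝔞⟩ ⟨x', 𝔞', hx0', hσx', hx', h𝔞'⟩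
    rw [← h𝔞'] at h𝔞
    obtain ⟨a, a', ha0, ha0', haa⟩ := (ClassGroup.mk0_eq_mk0_iff).1 h𝔞
    have h1 := congrArg (Ideal.map (algebraMap (𝓞 F) (𝓞 L))) haa
    rw [Ideal.map_mul, Ideal.map_mul, Ideal.map_span, Ideal.map_span, Set.image_singleton,
      Set.image_singleton, ← hx, ← hx', Ideal.span_singleton_mul_span_singleton,
      Ideal.span_singleton_mul_span_singleton, Ideal.span_singleton_eq_span_singleton] at h1
    obtain ⟨v, hv⟩ := h1
    have hinjF : Function.Injective (algebraMap (𝓞 F) (𝓞 L)) :=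
      FaithfulSMul.algebraMap_injective _ _
    have hax0 : algebraMap (𝓞 F) (𝓞 L) a * x ≠ 0 :=
      mul_ne_zero (fun h => ha0 (hinjF (by rw [h, map_zero]))) hx0
    -- apply σ
    have h2 := congrArg (fun z => σ • z) hv
    simp only [smul_mul', S14_ambig_psi_smul_algebraMap, hσx, hσx'] at h2
    -- `a * (u * x) * σ v = a' * (u' * x')`, and `a' * x' = a * x * v`
    have h3 : (algebraMap (𝓞 F) (𝓞 L) a * x) * ((u : 𝓞 L) * (σ • (v : 𝓞 L))) =
        (algebraMap (𝓞 F) (𝓞 L) a * x) * ((u' : 𝓞 L) * (v : 𝓞 L)) := by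
      calc (algebraMap (𝓞 F) (𝓞 L) a * x) * ((u : 𝓞 L) * (σ • (v : 𝓞 L)))
          = algebraMap (𝓞 F) (𝓞 L) a * ((u : 𝓞 L) * x) * (σ • (v : 𝓞 L)) := by ring
        _ = algebraMap (𝓞 F) (𝓞 L) a' * ((u' : 𝓞 L) * x') := h2
        _ = (u' : 𝓞 L) * (algebraMap (𝓞 F) (𝓞 L) a' * x') := by ring
        _ = (u' : 𝓞 L) * (algebraMap (𝓞 F) (𝓞 L) a * x * (v : 𝓞 L)) := by rw [hv]
        _ = _ := by ring
    have h4 : (u : 𝓞 L) * (σ • (v : 𝓞 L)) = (u' : 𝓞 L) * (v : 𝓞 L) := mul_left_cancel₀ hax0 h3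
    refine ⟨v, ?_⟩
    rw [S14_unitD_apply]
    apply Units.ext
    have h5 : ((u * S14_unitAct F L σ v : (𝓞 L)ˣ) : 𝓞 L) = ((u' * v : (𝓞 L)ˣ) : 𝓞 L) := by
      rw [Units.val_mul, Units.val_mul, S14_unitAct_coe]
      exact h4
    have h6 : u * S14_unitAct F L σ v = u' * v := Units.ext h5
    have h7 : S14_unitAct F L σ v / v = u⁻¹ * u' := by
      rw [div_eq_iff_eq_mul, mul_assoc, ← h6, ← mul_assoc, inv_mul_cancel, one_mul]
    rw [h7]

end psi

end Fermat.Agent.S14
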