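import Mathlib

/-!
# S14, block N1 (first inequality), part U0: abstract Herbrand inequality from ranks

For a finitely generated abelian group `E` with an endomorphism `τ`, `τ ^ p = 1`, put
`D = τ - 1`, `N = ∑_{i<p} τ^i`.  If `rank E + 1 = p * s` and `rank (ker D) + 1 = s`, then
`p * [ker D : im N] ≤ [ker N : im D]` and both indices are finite.
No cohomology, no hexagon lemma: only index calculus, determinants on the torsion-free quotient
and the identity `(X - 1)^(p-1) = Φ_p + p W`.
-/

set_option autoImplicit false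
set_option linter.unusedSectionVars false

namespace Fermat.Agent.S14

open Module Submodule

section BarMap

variable {A : Type*} [AddCommGroup A]

theorem S14_map_torsion_le (f : A →ₗ[ℤ] A) :
    torsion ℤ A ≤ (torsion ℤ A).comap f := by
  intro x hx
  rw [Submodule.mem_comap]
  obtain ⟨a, ha⟩ := hx
  refine ⟨a, ?_⟩
  rw [Submonoid.smul_def] at ha ⊢
  rw [← map_smul, ha, map_zero]

/-- The endomorphism induced on the torsion-free quotient. -/
noncomputable def S14_barMap (f : A →ₗ[ℤ] A) : (A ⧸ torsion ℤ A) →ₗ[ℤ] (A ⧸ torsion ℤ A) :=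
  (torsion ℤ A).mapQ (torsion ℤ A) f (S14_map_torsion_le f)

@[simp] theorem S14_barMap_mk (f : A →ₗ[ℤ] A) (x : A) :
    S14_barMap f ((torsion ℤ A).mkQ x) = (torsion ℤ A).mkQ (f x) := rfl

theorem S14_barMap_mul (f g : A →ₗ[ℤ] A) : S14_barMap (f * g) = S14_barMap f * S14_barMap g := by
  ext x
  rfl

theorem S14_barMap_one : S14_barMap (1 : A →ₗ[ℤ] A) = 1 := by
  ext x
  rfl

theorem S14_barMap_pow (f : A →ₗ[ℤ] A) (n : ℕ) : S14_barMap (f ^ n) = S14_barMap f ^ n := by
  induction n with
  | zero => simpa using S14_barMap_one (A := A)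
  | succ n ih => rw [pow_succ, pow_succ, S14_barMap_mul, ih]

theorem S14_barMap_smul (c : ℤ) (f : A →ₗ[ℤ] A) : S14_barMap (c • f) = c • S14_barMap f := by
  ext x
  rfl

theorem S14_barMap_injective (f : A →ₗ[ℤ] A)
    (hf : ∀ a, f a ∈ torsion ℤ A → a ∈ torsion ℤ A) : Function.Injective (S14_barMap f) := by
  rw [← LinearMap.ker_eq_bot, eq_bot_iff]
  intro x hx
  obtain ⟨a, rfl⟩ := (torsion ℤ A).mkQ_surjective x
  rw [LinearMap.mem_ker, S14_barMap_mk, Submodule.mkQ_apply, Submodule.Quotient.mk_eq_zero] at hx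
  rw [Submodule.mem_bot, Submodule.mkQ_apply, Submodule.Quotient.mk_eq_zero]
  exact hf a hx

end BarMap

section IndexRange

variable {A : Type*} [AddCommGroup A] [Module.Finite ℤ A]

theorem S14_finite_torsion (A : Type*) [AddCommGroup A] [Module.Finite ℤ A] :
    Finite (torsion ℤ A) := by
  have : Module.Finite ℤ (torsion ℤ A) := Module.Finite.of_injective (torsion ℤ A).subtype
    (torsion ℤ A).injective_subtype
  refine Module.finite_of_fg_torsion _ ?_
  intro x
  obtain ⟨a, ha⟩ := x.2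
  refine ⟨a, ?_⟩
  ext
  simpa using ha

/-- (L) index of the range of an endomorphism which is injective modulo torsion. -/
theorem S14_index_range (f : A →ₗ[ℤ] A) (hf : ∀ a, f a ∈ torsion ℤ A → a ∈ torsion ℤ A) :
    (LinearMap.range f).toAddSubgroup.index =
      (LinearMap.det (S14_barMap f)).natAbs * Nat.card (LinearMap.ker f) := by
  classical
  have hinj := S14_barMap_injective f hf
  have hfin : Finite (torsion ℤ A) := S14_finite_torsion A
  -- step 1 : index of the range of the induced map = |det|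
  have h1 : (LinearMap.range (S14_barMap f)).toAddSubgroup.index =
      (LinearMap.det (S14_barMap f)).natAbs := by
    let e : (A ⧸ torsion ℤ A) ≃ₗ[ℤ] LinearMap.range (S14_barMap f) :=
      LinearEquiv.ofInjective _ hinj
    have h := Submodule.natAbs_det_equiv (LinearMap.range (S14_barMap f)) e.toAddEquiv
    have h' : (LinearMap.range (S14_barMap f)).subtype ∘ₗ
        AddMonoidHom.toIntLinearMap ((e.toAddEquiv : (A ⧸ torsion ℤ A) →+ _)) = S14_barMap f := by
      ext x
      rfl
    rw [h'] at h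
    rw [h, AddSubgroup.index_eq_card]
    rfl
  set R : AddSubgroup A := (LinearMap.range f).toAddSubgroup with hR
  set Tg : AddSubgroup A := (torsion ℤ A).toAddSubgroup with hTg
  -- step 2
  have h2 : (R ⊔ Tg).index = (LinearMap.det (S14_barMap f)).natAbs := by
    rw [← h1]
    have hmap : (LinearMap.range (S14_barMap f)).toAddSubgroup =
        R.map ((torsion ℤ A).mkQ).toAddMonoidHom := by
      ext y
      constructor
      · rintro ⟨x, rfl⟩
        obtain ⟨a, rfl⟩ := (torsion ℤ A).mkQ_surjective x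
        exact ⟨f a, ⟨a, rfl⟩, rfl⟩
      · rintro ⟨z, ⟨a, rfl⟩, rfl⟩
        exact ⟨(torsion ℤ A).mkQ a, rfl⟩
    rw [hmap, AddSubgroup.index_map]
    have hker : ((torsion ℤ A).mkQ).toAddMonoidHom.ker = Tg := by
      ext x
      simp [hTg, AddMonoidHom.mem_ker]
    have hrange : ((torsion ℤ A).mkQ).toAddMonoidHom.range = ⊤ := by
      rw [AddMonoidHom.range_eq_top]
      exact (torsion ℤ A).mkQ_surjective
    rw [hker, hrange, AddSubgroup.index_top, mul_one]
  have h3 : R.relIndex (R ⊔ Tg) * (R ⊔ Tg).index = R.index :=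
    AddSubgroup.relIndex_mul_index le_sup_left
  have h4 : R.relIndex (R ⊔ Tg) = R.relIndex Tg := AddSubgroup.relIndex_sup_left Tg R
  -- step 5
  have hkerle : f.toAddMonoidHom.ker ≤ Tg := by
    intro x hx
    refine hf x ?_
    rw [AddMonoidHom.mem_ker] at hx
    have : f x = 0 := hx
    rw [this]
    exact zero_mem _
  have hinf : R ⊓ Tg = Tg.map f.toAddMonoidHom := by
    ext y
    constructor
    · rintro ⟨⟨a, rfl⟩, hy⟩
      exact ⟨a, hf a hy, rfl⟩
    · rintro ⟨a, ha, rfl⟩
      exact ⟨⟨a, rfl⟩, S14_map_torsion_le f ha⟩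
  have hTfin : Finite Tg := hfin
  have h5 : R.relIndex Tg = Nat.card (LinearMap.ker f) := by
    have e1 : R.relIndex Tg = (Tg.map f.toAddMonoidHom).relIndex Tg := by
      rw [← hinf, AddSubgroup.inf_relIndex_right]
    have e2 : Nat.card (Tg.map f.toAddMonoidHom) * (Tg.map f.toAddMonoidHom).relIndex Tg =
        Nat.card Tg := by
      have := AddSubgroup.relIndex_mul_relIndex (H := ⊥) (K := Tg.map f.toAddMonoidHom) (L := Tg)
        bot_le (hinf ▸ inf_le_right)
      rwa [AddSubgroup.relIndex_bot_left, AddSubgroup.relIndex_bot_left] at this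
    have e3 : Nat.card f.toAddMonoidHom.ker * Nat.card (Tg.map f.toAddMonoidHom) =
        Nat.card Tg := by
      have := AddSubgroup.relIndex_mul_relIndex (H := ⊥) (K := f.toAddMonoidHom.ker) (L := Tg)
        bot_le hkerle
      rwa [AddSubgroup.relIndex_bot_left, AddSubgroup.relIndex_bot_left,
        AddSubgroup.relIndex_ker] at this
    have hpos : Nat.card (Tg.map f.toAddMonoidHom) ≠ 0 := by
      have : Finite (Tg.map f.toAddMonoidHom) :=
        Finite.of_injective (fun x : Tg.map f.toAddMonoidHom => (⟨x.1, (hinf ▸ inf_le_right :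
          Tg.map f.toAddMonoidHom ≤ Tg) x.2⟩ : Tg)) (fun x y h => by
            apply Subtype.ext
            simpa using congrArg Subtype.val h)
      exact Nat.card_pos.ne'
    have e4 : (Tg.map f.toAddMonoidHom).relIndex Tg = Nat.card f.toAddMonoidHom.ker := by
      have : Nat.card (Tg.map f.toAddMonoidHom) * (Tg.map f.toAddMonoidHom).relIndex Tg =
          Nat.card (Tg.map f.toAddMonoidHom) * Nat.card f.toAddMonoidHom.ker := by
        rw [e2, ← e3, mul_comm]
      exact Nat.eq_of_mul_eq_mul_left (Nat.pos_of_ne_zero hpos) this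
    rw [e1, e4]
    rfl
  rw [← h3, h4, h5, h2, mul_comm]

end IndexRange

section Poly

open Polynomial in
theorem S14_poly_identity (p : ℕ) (hp : p.Prime) :
    ∃ W : Polynomial ℤ, (Polynomial.X - 1) ^ (p - 1) =
      Polynomial.cyclotomic p ℤ + Polynomial.C (p : ℤ) * W := by
  have := Fact.mk hp
  have h : Polynomial.C (p : ℤ) ∣ ((X - 1) ^ (p - 1) - cyclotomic p ℤ : Polynomial ℤ) := by
    rw [Polynomial.C_dvd_iff_dvd_coeff]
    intro i
    rw [← ZMod.intCast_zmod_eq_zero_iff_dvd]
    have hmap : ((X - 1) ^ (p - 1) - cyclotomic p ℤ : Polynomial ℤ).map (Int.castRingHom (ZMod p))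
        = 0 := by
      have h1 := cyclotomic_mul_prime_eq_pow_of_not_dvd (ZMod p) (p := p) (n := 1)
        (by simpa using hp.one_lt.ne')
      rw [one_mul, cyclotomic_one] at h1
      simp only [Polynomial.map_sub, Polynomial.map_pow, Polynomial.map_X, Polynomial.map_one,
        map_cyclotomic]
      rw [h1, sub_self]
    have := congrArg (fun q => Polynomial.coeff q i) hmap
    simpa only [Polynomial.coeff_map, Polynomial.coeff_zero, eq_intCast] using this
  obtain ⟨W, hW⟩ := h
  exact ⟨W, by rw [← hW]; ring⟩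

end Poly

section Main

variable {E : Type*} [AddCommGroup E] [Module.Finite ℤ E]

theorem S14_finrank_eq_zero_of_smul (M : Type*) [AddCommGroup M] [Module.Finite ℤ M]
    (n : ℤ) (hn : n ≠ 0) (h : ∀ x : M, n • x = 0) : finrank ℤ M = 0 := by
  rw [Module.finrank_eq_zero_iff_isTorsion]
  intro x
  exact ⟨⟨n, mem_nonZeroDivisors_of_ne_zero hn⟩, h x⟩

/-- transport of an index along the inclusion of a submodule -/
theorem S14_relIndex_restrict (K : Submodule ℤ E) (g : E →ₗ[ℤ] E) (hg : ∀ x ∈ K, g x ∈ K) :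
    ((K.map g).toAddSubgroup).relIndex K.toAddSubgroup =
      (LinearMap.range (g.restrict hg)).toAddSubgroup.index := by
  have hinj : Function.Injective K.subtype.toAddMonoidHom := K.injective_subtype
  have h := AddSubgroup.relIndex_map_map_of_injective
    (LinearMap.range (g.restrict hg)).toAddSubgroup ⊤ hinj
  rw [AddSubgroup.relIndex_top_right] at h
  rw [← h]
  congr 1
  · ext y
    constructor
    · rintro ⟨x, hx, rfl⟩
      exact ⟨⟨g x, hg x hx⟩, ⟨⟨x, hx⟩, rfl⟩, rfl⟩
    · rintro ⟨z, ⟨x, rfl⟩, rfl⟩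
      exact ⟨x.1, x.2, rfl⟩
  · ext y
    constructor
    · intro hy
      exact ⟨⟨y, hy⟩, trivial, rfl⟩
    · rintro ⟨z, -, rfl⟩
      exact z.2

theorem S14_det_barMap_smul_one (M : Type*) [AddCommGroup M] [Module.Finite ℤ M] (c : ℤ) :
    LinearMap.det (S14_barMap (c • (1 : M →ₗ[ℤ] M))) = c ^ finrank ℤ M := by
  rw [S14_barMap_smul, S14_barMap_one, LinearMap.det_smul, map_one, mul_one,
    finrank_quotient_eq_of_le_torsion le_rfl]

theorem S14_det_barMap_ne_zero (M : Type*) [AddCommGroup M] [Module.Finite ℤ M]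
    (f : M →ₗ[ℤ] M) (hf : ∀ a, f a ∈ torsion ℤ M → a ∈ torsion ℤ M) :
    LinearMap.det (S14_barMap f) ≠ 0 := by
  intro h
  rw [LinearMap.det_eq_zero_iff_ker_ne_bot] at h
  exact h (LinearMap.ker_eq_bot.mpr (S14_barMap_injective f hf))

/-- **Abstract Herbrand inequality** (ranks only). -/
theorem S14_herbrand_abs (p : ℕ) (hp : p.Prime) (τ : E →ₗ[ℤ] E) (hτ : τ ^ p = 1) (s : ℕ)
    (hE : finrank ℤ E + 1 = p * s) (hF : finrank ℤ (LinearMap.ker (τ - 1)) + 1 = s) :
    (LinearMap.range (∑ i ∈ Finset.range p, τ ^ i)).toAddSubgroup.relIndex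
        (LinearMap.ker (τ - 1)).toAddSubgroup ≠ 0 ∧
    (LinearMap.range (τ - 1)).toAddSubgroup.relIndex
        (LinearMap.ker (∑ i ∈ Finset.range p, τ ^ i)).toAddSubgroup ≠ 0 ∧
    p * (LinearMap.range (∑ i ∈ Finset.range p, τ ^ i)).toAddSubgroup.relIndex
        (LinearMap.ker (τ - 1)).toAddSubgroup ≤
      (LinearMap.range (τ - 1)).toAddSubgroup.relIndex
        (LinearMap.ker (∑ i ∈ Finset.range p, τ ^ i)).toAddSubgroup := by
  classical
  have hpF := Fact.mk hp
  set N : E →ₗ[ℤ] E := ∑ i ∈ Finset.range p, τ ^ i with hN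
  set D : E →ₗ[ℤ] E := τ - 1 with hD
  have hND : N * D = 0 := by
    rw [hN, hD, geom_sum_mul, hτ, sub_self]
  have hDN : D * N = 0 := by
    rw [hN, hD, mul_geom_sum, hτ, sub_self]
  obtain ⟨W, hW⟩ := S14_poly_identity p hp
  set Wτ : E →ₗ[ℤ] E := Polynomial.aeval τ W with hWτ
  have hNaeval : N = Polynomial.aeval τ (Polynomial.cyclotomic p ℤ) := by
    rw [Polynomial.cyclotomic_prime, map_sum, hN]
    simp
  have hDpow : D ^ (p - 1) = N + (p : ℤ) • Wτ := by
    have h := congrArg (Polynomial.aeval τ) hW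
    rw [map_pow, map_sub, Polynomial.aeval_X, map_one, map_add, map_mul, Polynomial.aeval_C,
      ← hNaeval, ← Algebra.smul_def] at h
    exact h
  have hWN : N * Wτ = Wτ * N := by
    rw [hNaeval, hWτ, ← map_mul, ← map_mul, mul_comm]
  -- the two submodules
  set Fx : Submodule ℤ E := LinearMap.ker D with hFx
  set B : Submodule ℤ E := LinearMap.ker N with hB
  have hNfix : ∀ x ∈ Fx, N x = (p : ℤ) • x := by
    intro x hx
    have hτx : τ x = x := by
      have : D x = 0 := hx
      rw [hD, LinearMap.sub_apply, Module.End.one_apply, sub_eq_zero] at this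
      exact this
    have hpow : ∀ i : ℕ, (τ ^ i) x = x := by
      intro i
      induction i with
      | zero => simp
      | succ i ih => rw [pow_succ, Module.End.mul_apply, hτx, ih]
    rw [hN, LinearMap.sum_apply]
    simp [hpow]
  have hFxN : ∀ x ∈ Fx, N x ∈ Fx := by
    intro x _
    show D (N x) = 0
    rw [← Module.End.mul_apply, hDN, LinearMap.zero_apply]
  have hBD : ∀ x ∈ B, D x ∈ B := by
    intro x _
    show N (D x) = 0
    rw [← Module.End.mul_apply, hND, LinearMap.zero_apply]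
  have hBW : ∀ x ∈ B, Wτ x ∈ B := by
    intro x hx
    show N (Wτ x) = 0
    rw [← Module.End.mul_apply, hWN, Module.End.mul_apply]
    have : N x = 0 := hx
    rw [this, map_zero]
  set f₁ : ↥Fx →ₗ[ℤ] ↥Fx := N.restrict hFxN with hf₁
  set f₂ : ↥B →ₗ[ℤ] ↥B := D.restrict hBD with hf₂
  set WB : ↥B →ₗ[ℤ] ↥B := Wτ.restrict hBW with hWB
  have hf₁eq : f₁ = (p : ℤ) • (1 : ↥Fx →ₗ[ℤ] ↥Fx) := by
    ext x
    simp only [hf₁, LinearMap.coe_restrict_apply, LinearMap.smul_apply, Module.End.one_apply,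
      Submodule.coe_smul]
    exact hNfix x.1 x.2
  have hp0 : (p : ℤ) ≠ 0 := by exact_mod_cast hp.ne_zero
  -- torsion conditions
  have htors₁ : ∀ a, f₁ a ∈ torsion ℤ ↥Fx → a ∈ torsion ℤ ↥Fx := by
    intro a ha
    rw [hf₁eq] at ha
    obtain ⟨c, hc⟩ := ha
    refine ⟨c * ⟨(p : ℤ), mem_nonZeroDivisors_of_ne_zero hp0⟩, ?_⟩
    rw [Submonoid.smul_def] at hc ⊢
    simpa [mul_smul] using hc
  have htors₂ : ∀ a, f₂ a ∈ torsion ℤ ↥B → a ∈ torsion ℤ ↥B := by
    intro a ha
    obtain ⟨c, hc⟩ := ha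
    rw [Submonoid.smul_def] at hc
    -- D (c • a) = 0, so c • a ∈ Fx ⊓ B and p • c • a = 0
    have h1 : D ((c : ℤ) • (a : E)) = 0 := by
      have := congrArg Subtype.val hc
      simpa [hf₂] using this
    have h2 : N ((c : ℤ) • (a : E)) = (p : ℤ) • ((c : ℤ) • (a : E)) := hNfix _ h1
    have h3 : N ((c : ℤ) • (a : E)) = 0 := by
      rw [map_smul]
      have : N (a : E) = 0 := a.2
      rw [this, smul_zero]
    refine ⟨⟨(p : ℤ), mem_nonZeroDivisors_of_ne_zero hp0⟩ * c, ?_⟩
    rw [Submonoid.smul_def]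
    apply Subtype.ext
    simp only [Submonoid.coe_mul, Submodule.coe_smul, ZeroMemClass.coe_zero, mul_smul]
    rw [← h2, h3]
  have hu := S14_index_range f₁ htors₁
  have hv := S14_index_range f₂ htors₂
  rw [← S14_relIndex_restrict Fx N hFxN] at hu
  rw [← S14_relIndex_restrict B D hBD] at hv
  -- determinants
  have hdet₁ : (LinearMap.det (S14_barMap f₁)).natAbs = p ^ finrank ℤ ↥Fx := by
    rw [hf₁eq, S14_det_barMap_smul_one, Int.natAbs_pow, Int.natAbs_natCast]
  have hd₂ne := S14_det_barMap_ne_zero _ f₂ htors₂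
  have hpowB : f₂ ^ (p - 1) = (p : ℤ) • WB := by
    rw [hf₂, Module.End.pow_restrict]
    ext x
    simp only [LinearMap.coe_restrict_apply, LinearMap.smul_apply, Submodule.coe_smul, hWB]
    rw [hDpow, LinearMap.add_apply, LinearMap.smul_apply]
    have : N (x : E) = 0 := x.2
    rw [this, zero_add]
  have hdet₂ : (LinearMap.det (S14_barMap f₂)).natAbs ^ (p - 1) =
      p ^ finrank ℤ ↥B * (LinearMap.det (S14_barMap WB)).natAbs := by
    have h : LinearMap.det (S14_barMap f₂) ^ (p - 1) =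
        (p : ℤ) ^ finrank ℤ ↥B * LinearMap.det (S14_barMap WB) := by
      rw [← map_pow, ← S14_barMap_pow, hpowB, S14_barMap_smul, LinearMap.det_smul,
        finrank_quotient_eq_of_le_torsion le_rfl]
    have h' := congrArg Int.natAbs h
    rwa [Int.natAbs_pow, Int.natAbs_mul, Int.natAbs_pow, Int.natAbs_natCast] at h'
  have hWBne : (LinearMap.det (S14_barMap WB)).natAbs ≠ 0 := by
    intro h0
    rw [h0, mul_zero] at hdet₂
    exact hd₂ne (Int.natAbs_eq_zero.mp (pow_eq_zero_iff (Nat.sub_ne_zero_of_lt hp.one_lt) |>.mp hdet₂))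
  -- ranks
  have hrankN : finrank ℤ ↥(LinearMap.range N) = finrank ℤ ↥Fx := by
    apply le_antisymm
    · apply Submodule.finrank_mono
      rintro y ⟨x, rfl⟩
      show D (N x) = 0
      rw [← Module.End.mul_apply, hDN, LinearMap.zero_apply]
    · set g₁ : ↥Fx →ₗ[ℤ] E := N ∘ₗ Fx.subtype with hg₁
      have h1 : finrank ℤ ↥(LinearMap.range g₁) ≤ finrank ℤ ↥(LinearMap.range N) := by
        apply Submodule.finrank_mono
        rintro y ⟨x, rfl⟩
        exact ⟨x.1, rfl⟩
      have h2 : finrank ℤ (↥Fx ⧸ LinearMap.ker g₁) = finrank ℤ ↥(LinearMap.range g₁) :=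
        LinearEquiv.finrank_eq g₁.quotKerEquivRange
      have h3 := Submodule.finrank_quotient_add_finrank (LinearMap.ker g₁)
      have h4 : finrank ℤ ↥(LinearMap.ker g₁) = 0 := by
        apply S14_finrank_eq_zero_of_smul _ (p : ℤ) hp0
        intro x
        apply Subtype.ext
        apply Subtype.ext
        have hx : N (x.1 : E) = 0 := x.2
        rw [hNfix _ x.1.2] at hx
        simpa using hx
      omega
  have hrankB : finrank ℤ ↥B = (p - 1) * s := by
    have h2 : finrank ℤ (E ⧸ B) = finrank ℤ ↥(LinearMap.range N) :=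
      LinearEquiv.finrank_eq N.quotKerEquivRange
    have h3 := Submodule.finrank_quotient_add_finrank B
    have h5 : finrank ℤ ↥B + s = p * s := by omega
    have h6 : p * s = (p - 1) * s + s := by
      have : p = (p - 1) + 1 := (Nat.sub_add_cancel hp.one_le).symm
      conv_lhs => rw [this]
      ring
    omega
  -- the two kernels have the same (finite, nonzero) cardinality
  have hker : Nat.card ↥(LinearMap.ker f₁) = Nat.card ↥(LinearMap.ker f₂) := by
    refine Nat.card_congr
      { toFun := fun x => ⟨⟨x.1.1, ?_⟩, ?_⟩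
        invFun := fun x => ⟨⟨x.1.1, ?_⟩, ?_⟩
        left_inv := fun x => rfl
        right_inv := fun x => rfl }
    · have h := congrArg Subtype.val (x.2 : f₁ x.1 = 0)
      exact h
    · apply Subtype.ext
      exact (x.1.2 : D (x.1.1) = 0)
    · have h := congrArg Subtype.val (x.2 : f₂ x.1 = 0)
      exact h
    · apply Subtype.ext
      exact (x.1.2 : N (x.1.1) = 0)
  have hkerne : Nat.card ↥(LinearMap.ker f₁) ≠ 0 := by
    have hfin : Finite (torsion ℤ ↥Fx) := S14_finite_torsion _
    have hle : LinearMap.ker f₁ ≤ torsion ℤ ↥Fx := by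
      intro y hy
      rw [LinearMap.mem_ker, hf₁eq] at hy
      refine ⟨⟨(p : ℤ), mem_nonZeroDivisors_of_ne_zero hp0⟩, ?_⟩
      rw [Submonoid.smul_def]
      simpa using hy
    have : Finite ↥(LinearMap.ker f₁) :=
      Finite.of_injective (Submodule.inclusion hle) (Submodule.inclusion_injective hle)
    exact Nat.card_pos.ne'
  -- index bookkeeping inside `E`
  set Fa : AddSubgroup E := Fx.toAddSubgroup with hFa
  set Ba : AddSubgroup E := B.toAddSubgroup with hBa
  set RNa : AddSubgroup E := (LinearMap.range N).toAddSubgroup with hRNa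
  set RDa : AddSubgroup E := (LinearMap.range D).toAddSubgroup with hRDa
  have hmapN : (Fx.map N).toAddSubgroup = Fa.map N.toAddMonoidHom := rfl
  have hmapD : (B.map D).toAddSubgroup = Ba.map D.toAddMonoidHom := rfl
  have hRN' : RNa = (⊤ : AddSubgroup E).map N.toAddMonoidHom := by
    rw [← AddMonoidHom.range_eq_map]; rfl
  have hRD' : RDa = (⊤ : AddSubgroup E).map D.toAddMonoidHom := by
    rw [← AddMonoidHom.range_eq_map]; rfl
  have hkerN : N.toAddMonoidHom.ker = Ba := rfl
  have hkerD : D.toAddMonoidHom.ker = Fa := rfl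
  have hRNle : RNa ≤ Fa := by
    rintro y ⟨x, rfl⟩
    show D (N x) = 0
    rw [← Module.End.mul_apply, hDN, LinearMap.zero_apply]
  have hRDle : RDa ≤ Ba := by
    rintro y ⟨x, rfl⟩
    show N (D x) = 0
    rw [← Module.End.mul_apply, hND, LinearMap.zero_apply]
  have hmapNle : Fa.map N.toAddMonoidHom ≤ RNa := by
    rintro y ⟨x, -, rfl⟩
    exact ⟨x, rfl⟩
  have hmapDle : Ba.map D.toAddMonoidHom ≤ RDa := by
    rintro y ⟨x, -, rfl⟩
    exact ⟨x, rfl⟩
  have hca := AddSubgroup.relIndex_mul_relIndex _ _ _ hmapNle hRNle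
  have hcb := AddSubgroup.relIndex_mul_relIndex _ _ _ hmapDle hRDle
  have hc : (Fa.map N.toAddMonoidHom).relIndex RNa = (Fa ⊔ Ba).index := by
    rw [hRN', AddSubgroup.relIndex_map_map, hkerN, top_sup_eq, AddSubgroup.relIndex_top_right]
  have hc' : (Ba.map D.toAddMonoidHom).relIndex RDa = (Fa ⊔ Ba).index := by
    rw [hRD', AddSubgroup.relIndex_map_map, hkerD, top_sup_eq, AddSubgroup.relIndex_top_right,
      sup_comm]
  rw [hmapN, hdet₁] at hu
  rw [hmapD, ← hker] at hv
  rw [hc, hu] at hca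
  rw [hc', hv] at hcb
  -- arithmetic
  set a := RNa.relIndex Fa with ha
  set b := RDa.relIndex Ba with hb
  set cc := (Fa ⊔ Ba).index with hcc
  set t := Nat.card ↥(LinearMap.ker f₁) with ht
  set d₂ := (LinearMap.det (S14_barMap f₂)).natAbs with hd₂
  set r := finrank ℤ ↥Fx with hr
  have hd₂ne' : d₂ ≠ 0 := by
    rw [hd₂]
    exact Int.natAbs_ne_zero.mpr hd₂ne
  have hpr : p ^ r ≠ 0 := pow_ne_zero _ hp.ne_zero
  have hane : cc * a ≠ 0 := by rw [hca]; exact mul_ne_zero hpr hkerne
  have hbne : cc * b ≠ 0 := by rw [hcb]; exact mul_ne_zero hd₂ne' hkerne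
  have ha0 : a ≠ 0 := fun h => hane (by rw [h, mul_zero])
  have hb0 : b ≠ 0 := fun h => hbne (by rw [h, mul_zero])
  have hcc0 : cc ≠ 0 := fun h => hane (by rw [h, zero_mul])
  have hkey : a * d₂ = b * p ^ r := by
    have h1 : (cc * t) * (a * d₂) = (cc * t) * (b * p ^ r) := by
      calc (cc * t) * (a * d₂) = (cc * a) * (d₂ * t) := by ring
        _ = (p ^ r * t) * (cc * b) := by rw [hca, hcb]
        _ = (cc * t) * (b * p ^ r) := by ring
    exact Nat.eq_of_mul_eq_mul_left (Nat.pos_of_ne_zero (mul_ne_zero hcc0 hkerne)) h1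
  have hd₂ge : p ^ s ≤ d₂ := by
    have h1 : (p ^ s) ^ (p - 1) ≤ d₂ ^ (p - 1) := by
      rw [hdet₂, hrankB, ← pow_mul, mul_comm s (p - 1)]
      exact Nat.le_mul_of_pos_right _ (Nat.pos_of_ne_zero hWBne)
    exact (Nat.pow_le_pow_iff_left (Nat.sub_ne_zero_of_lt hp.one_lt)).mp h1
  have hs : s = r + 1 := hF.symm
  refine ⟨ha0, hb0, ?_⟩
  have h2 : p * a * p ^ r ≤ b * p ^ r := by
    rw [← hkey]
    calc p * a * p ^ r = a * p ^ s := by rw [hs, pow_succ]; ring
      _ ≤ a * d₂ := Nat.mul_le_mul_left _ hd₂ge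
  exact Nat.le_of_mul_le_mul_right h2 (Nat.pos_of_ne_zero hpr)

end Main

end Fermat.Agent.S14
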