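import Fermat.Agent.S14.HerbrandDefs
import Fermat.Agent.S14.HerbrandAbs

/-!
# S14, block N1 (first inequality), part UNITS: the unit Herbrand inequality

For a Galois extension `L/F` of number fields of odd prime degree `p` and `1 ≠ σ ∈ Gal(L/F)`:
`p * [E_F : N E_L] ≤ [ker N : D E_L]`, where `E = (𝓞 ·)ˣ`, `N` the relative norm and
`D u = σ u / u`; both indices are finite.  (`S14_units_herbrand`.)
-/

set_option autoImplicit false
set_option linter.unusedSectionVars false

namespace Fermat.Agent.S14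

open NumberField Module

section GroupLemma

theorem S14_prod_univ_eq_prod_range {G : Type*} [Group G] [Fintype G] {M : Type*} [CommMonoid M]
    (p : ℕ) [hp : Fact p.Prime] (hcard : Nat.card G = p) (σ : G) (hσ : σ ≠ 1) (f : G → M) :
    ∏ g, f g = ∏ i ∈ Finset.range p, f (σ ^ i) := by
  classical
  have hpow : σ ^ p = 1 := by
    rw [← hcard]; exact pow_card_eq_one'
  have hord : orderOf σ = p := orderOf_eq_prime hpow hσ
  have hinj : Set.InjOn (fun i : ℕ => σ ^ i) (Finset.range p : Set ℕ) := by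
    intro i hi j hj hij
    have hi' : i < orderOf σ := by rw [hord]; exact Finset.mem_range.mp hi
    have hj' : j < orderOf σ := by rw [hord]; exact Finset.mem_range.mp hj
    exact pow_injOn_Iio_orderOf hi' hj' hij
  have himg : (Finset.range p).image (fun i : ℕ => σ ^ i) = Finset.univ := by
    apply Finset.eq_univ_of_card
    rw [Finset.card_image_of_injOn hinj, Finset.card_range, ← Nat.card_eq_fintype_card, hcard]
  rw [← himg, Finset.prod_image hinj]

end GroupLemma

variable (F L : Type*) [Field F] [NumberField F] [Field L] [NumberField L] [Algebra F L]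
  [IsGalois F L]

/-- the norm, viewed in `L`, is the product over the Galois group -/
theorem S14_intNorm_coe (x : 𝓞 L) :
    algebraMap F L ((Algebra.intNorm (𝓞 F) (𝓞 L) x : 𝓞 F) : F) = ∏ g : L ≃ₐ[F] L, g (x : L) := by
  rw [← Algebra.norm_eq_prod_automorphisms]
  congr 1
  exact Algebra.algebraMap_intNorm (A := 𝓞 F) (K := F) (L := L) (B := 𝓞 L) x

/-- `σ` acting on `Additive (𝓞 L)ˣ`, as a `ℤ`-linear map. -/
noncomputable def S14_unitLin (σ : L ≃ₐ[F] L) : Additive (𝓞 L)ˣ →ₗ[ℤ] Additive (𝓞 L)ˣ :=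
  (MonoidHom.toAdditive (S14_unitAct F L σ)).toIntLinearMap

@[simp] theorem S14_unitLin_apply (σ : L ≃ₐ[F] L) (u : Additive (𝓞 L)ˣ) :
    S14_unitLin F L σ u = Additive.ofMul (S14_unitAct F L σ u.toMul) := rfl

theorem S14_unitAct_mul (σ τ : L ≃ₐ[F] L) (u : (𝓞 L)ˣ) :
    S14_unitAct F L (σ * τ) u = S14_unitAct F L σ (S14_unitAct F L τ u) := by
  apply Units.ext
  simp only [S14_unitAct_coe]
  exact mul_smul σ τ (u : 𝓞 L)

theorem S14_unitAct_one (u : (𝓞 L)ˣ) : S14_unitAct F L 1 u = u := by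
  apply Units.ext
  simp only [S14_unitAct_coe]
  exact one_smul _ (u : 𝓞 L)

theorem S14_unitAct_pow (σ : L ≃ₐ[F] L) (i : ℕ) (u : (𝓞 L)ˣ) :
    S14_unitAct F L (σ ^ i) u = (S14_unitAct F L σ)^[i] u := by
  induction i generalizing u with
  | zero => simpa using S14_unitAct_one F L u
  | succ i ih =>
    rw [pow_succ, S14_unitAct_mul, ih, Function.iterate_succ_apply]

theorem S14_unitLin_pow_apply (σ : L ≃ₐ[F] L) (i : ℕ) (u : Additive (𝓞 L)ˣ) :
    (S14_unitLin F L σ ^ i) u = Additive.ofMul (S14_unitAct F L (σ ^ i) u.toMul) := by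
  induction i generalizing u with
  | zero =>
    rw [pow_zero, pow_zero, Module.End.one_apply, S14_unitAct_one]
    rfl
  | succ i ih =>
    rw [pow_succ, Module.End.mul_apply, ih, pow_succ, S14_unitAct_mul]
    rfl

theorem S14_unitLin_pow_card (p : ℕ) (hdeg : Module.finrank F L = p) (σ : L ≃ₐ[F] L) :
    S14_unitLin F L σ ^ p = 1 := by
  ext u
  rw [S14_unitLin_pow_apply, Module.End.one_apply]
  have : σ ^ p = 1 := by
    rw [← hdeg, ← IsGalois.card_aut_eq_finrank F L]
    exact pow_card_eq_one'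
  rw [this, S14_unitAct_one]
  rfl

/-- the inclusion of units -/
noncomputable def S14_unitIncl : (𝓞 F)ˣ →* (𝓞 L)ˣ := Units.map (algebraMap (𝓞 F) (𝓞 L))

theorem S14_unitIncl_injective : Function.Injective (S14_unitIncl F L) := by
  intro a b h
  apply Units.ext
  have h' := congrArg (fun u : (𝓞 L)ˣ => (u : 𝓞 L)) h
  exact FaithfulSMul.algebraMap_injective (𝓞 F) (𝓞 L) h'

/-- the multiplicative norm-sum `u ↦ ∏_{i<p} σ^i u` is the norm followed by the inclusion -/
theorem S14_prod_unitAct (p : ℕ) [Fact p.Prime] (hdeg : Module.finrank F L = p)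
    (σ : L ≃ₐ[F] L) (hσ : σ ≠ 1) (u : (𝓞 L)ˣ) :
    ∏ i ∈ Finset.range p, S14_unitAct F L (σ ^ i) u = S14_unitIncl F L (S14_unitNorm F L u) := by
  apply Units.ext
  apply RingOfIntegers.ext
  have hcard : Nat.card (L ≃ₐ[F] L) = p := by rw [IsGalois.card_aut_eq_finrank, hdeg]
  have h1 := S14_intNorm_coe F L (u : 𝓞 L)
  rw [S14_prod_univ_eq_prod_range p hcard σ hσ] at h1
  have h2 : ((S14_unitIncl F L (S14_unitNorm F L u) : (𝓞 L)ˣ) : 𝓞 L) =
      algebraMap (𝓞 F) (𝓞 L) (Algebra.intNorm (𝓞 F) (𝓞 L) (u : 𝓞 L)) := rfl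
  rw [h2]
  have h3 : ((algebraMap (𝓞 F) (𝓞 L) (Algebra.intNorm (𝓞 F) (𝓞 L) (u : 𝓞 L)) : 𝓞 L) : L) =
      algebraMap F L ((Algebra.intNorm (𝓞 F) (𝓞 L) (u : 𝓞 L) : 𝓞 F) : F) := rfl
  rw [h3, h1]
  rw [Units.coe_prod, RingOfIntegers.coe_eq_algebraMap, map_prod]
  rfl

/-- every element of the Galois group is a power of `σ ≠ 1` -/
theorem S14_exists_pow_eq (p : ℕ) [Fact p.Prime] (hdeg : Module.finrank F L = p)
    (σ : L ≃ₐ[F] L) (hσ : σ ≠ 1) (g : L ≃ₐ[F] L) : ∃ i : ℕ, σ ^ i = g := by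
  have hcard : Nat.card (L ≃ₐ[F] L) = p := by rw [IsGalois.card_aut_eq_finrank, hdeg]
  have h := zpowers_eq_top_of_prime_card (G := L ≃ₐ[F] L) hcard hσ
  have hg : g ∈ Subgroup.zpowers σ := by rw [h]; trivial
  obtain ⟨k, hk⟩ := hg
  have hfin : Finite (L ≃ₐ[F] L) := Nat.finite_of_card_ne_zero (by
    rw [hcard]; exact (Fact.out : p.Prime).ne_zero)
  obtain ⟨i, hi⟩ := (mem_powers_iff_mem_zpowers (x := σ) (y := g)).mpr ⟨k, hk⟩
  exact ⟨i, hi⟩

/-- a unit of `𝓞 L` fixed by `σ` comes from a unit of `𝓞 F` -/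
theorem S14_fixed_unit (p : ℕ) [Fact p.Prime] (hdeg : Module.finrank F L = p)
    (σ : L ≃ₐ[F] L) (hσ : σ ≠ 1) (u : (𝓞 L)ˣ) (hu : S14_unitAct F L σ u = u) :
    ∃ v : (𝓞 F)ˣ, S14_unitIncl F L v = u := by
  -- all powers of σ fix u
  have hpow : ∀ i : ℕ, S14_unitAct F L (σ ^ i) u = u := by
    intro i
    rw [S14_unitAct_pow]
    exact Function.iterate_fixed hu i
  have hall : ∀ g : L ≃ₐ[F] L, S14_unitAct F L g u = u := by
    intro g
    obtain ⟨i, rfl⟩ := S14_exists_pow_eq F L p hdeg σ hσ g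
    exact hpow i
  -- descend an element
  have hdesc : ∀ w : (𝓞 L)ˣ, (∀ g : L ≃ₐ[F] L, S14_unitAct F L g w = w) →
      ∃ y : 𝓞 F, algebraMap (𝓞 F) (𝓞 L) y = (w : 𝓞 L) := by
    intro w hw
    have hfix : ∀ g : L ≃ₐ[F] L, g ((w : 𝓞 L) : L) = ((w : 𝓞 L) : L) := by
      intro g
      have := congrArg (fun z : (𝓞 L)ˣ => ((z : 𝓞 L) : L)) (hw g)
      exact this
    obtain ⟨y, hy⟩ := (IsGalois.mem_range_algebraMap_iff_fixed (F := F) (E := L) _).mpr hfix
    have hyint : IsIntegral ℤ y := by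
      have h1 : IsIntegral ℤ (algebraMap F L y) := by
        rw [hy]; exact RingOfIntegers.isIntegral_coe (w : 𝓞 L)
      exact (isIntegral_algebraMap_iff (algebraMap F L).injective).mp h1
    refine ⟨⟨y, hyint⟩, ?_⟩
    apply RingOfIntegers.ext
    exact hy
  obtain ⟨y, hy⟩ := hdesc u hall
  have hall' : ∀ g : L ≃ₐ[F] L, S14_unitAct F L g u⁻¹ = u⁻¹ := by
    intro g
    rw [map_inv, hall g]
  obtain ⟨z, hz⟩ := hdesc u⁻¹ hall'
  have hyz : y * z = 1 := by
    apply FaithfulSMul.algebraMap_injective (𝓞 F) (𝓞 L)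
    rw [map_mul, hy, hz, map_one]
    exact u.mul_inv
  have hzy : z * y = 1 := by rw [mul_comm]; exact hyz
  refine ⟨⟨y, z, hyz, hzy⟩, ?_⟩
  apply Units.ext
  exact hy

theorem S14_card_infinitePlace (p : ℕ) (hp2 : Odd p) (hdeg : Module.finrank F L = p) :
    Fintype.card (InfinitePlace L) = Fintype.card (InfinitePlace F) * p := by
  classical
  have hunr : IsUnramifiedAtInfinitePlaces F L :=
    IsUnramifiedAtInfinitePlaces_of_odd_finrank (by rw [hdeg]; exact hp2)
  have h := InfinitePlace.card_eq_card_isUnramifiedIn F L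
  have h1 : (Finset.univ.filter fun w : InfinitePlace F => InfinitePlace.IsUnramifiedIn L w) =
      Finset.univ := by
    apply Finset.filter_true_of_mem
    intro w _
    exact InfinitePlace.isUnramifiedIn L w
  rw [h1, Finset.compl_univ, Finset.card_empty, zero_mul, add_zero, Finset.card_univ, hdeg] at h
  exact h

theorem S14_finrank_units_succ (K : Type*) [Field K] [NumberField K] :
    finrank ℤ (Additive (𝓞 K)ˣ) + 1 = Fintype.card (InfinitePlace K) := by
  rw [Units.finrank_eq, Units.rank]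
  have : 0 < Fintype.card (InfinitePlace K) := Fintype.card_pos
  omega

/-- the inclusion of units as a linear map -/
noncomputable def S14_unitInclLin : Additive (𝓞 F)ˣ →ₗ[ℤ] Additive (𝓞 L)ˣ :=
  (MonoidHom.toAdditive (S14_unitIncl F L)).toIntLinearMap

theorem S14_unitInclLin_injective : Function.Injective (S14_unitInclLin F L) := by
  intro a b h
  exact congrArg Additive.ofMul (S14_unitIncl_injective F L (congrArg Additive.toMul h))

theorem S14_unitAct_incl (σ : L ≃ₐ[F] L) (v : (𝓞 F)ˣ) :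
    S14_unitAct F L σ (S14_unitIncl F L v) = S14_unitIncl F L v := by
  apply Units.ext
  apply RingOfIntegers.ext
  show σ (algebraMap F L ((v : 𝓞 F) : F)) = algebraMap F L ((v : 𝓞 F) : F)
  exact σ.commutes _

theorem S14_range_unitInclLin (p : ℕ) [Fact p.Prime] (hdeg : Module.finrank F L = p)
    (σ : L ≃ₐ[F] L) (hσ : σ ≠ 1) :
    LinearMap.range (S14_unitInclLin F L) = LinearMap.ker (S14_unitLin F L σ - 1) := by
  ext u
  constructor
  · rintro ⟨v, rfl⟩
    rw [LinearMap.mem_ker, LinearMap.sub_apply, Module.End.one_apply, sub_eq_zero]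
    exact congrArg Additive.ofMul (S14_unitAct_incl F L σ v.toMul)
  · intro hu
    rw [LinearMap.mem_ker, LinearMap.sub_apply, Module.End.one_apply, sub_eq_zero] at hu
    obtain ⟨v, hv⟩ := S14_fixed_unit F L p hdeg σ hσ u.toMul (congrArg Additive.toMul hu)
    exact ⟨Additive.ofMul v, congrArg Additive.ofMul hv⟩

theorem S14_finrank_fixed (p : ℕ) [Fact p.Prime] (hdeg : Module.finrank F L = p)
    (σ : L ≃ₐ[F] L) (hσ : σ ≠ 1) :
    finrank ℤ ↥(LinearMap.ker (S14_unitLin F L σ - 1)) + 1 = Fintype.card (InfinitePlace F) := by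
  rw [← S14_range_unitInclLin F L p hdeg σ hσ,
    LinearMap.finrank_range_of_inj (S14_unitInclLin_injective F L)]
  exact S14_finrank_units_succ F

theorem S14_normLin_apply (p : ℕ) [Fact p.Prime] (hdeg : Module.finrank F L = p)
    (σ : L ≃ₐ[F] L) (hσ : σ ≠ 1) (u : Additive (𝓞 L)ˣ) :
    (∑ i ∈ Finset.range p, S14_unitLin F L σ ^ i) u =
      Additive.ofMul (S14_unitIncl F L (S14_unitNorm F L u.toMul)) := by
  rw [LinearMap.sum_apply, ← S14_prod_unitAct F L p hdeg σ hσ, ofMul_prod]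
  refine Finset.sum_congr rfl fun i _ => ?_
  rw [S14_unitLin_pow_apply]

theorem S14_subLin_apply (σ : L ≃ₐ[F] L) (u : Additive (𝓞 L)ˣ) :
    (S14_unitLin F L σ - 1) u = Additive.ofMul (S14_unitD F L σ u.toMul) := rfl

/-- **Unit Herbrand inequality** for a Galois extension of number fields of odd prime degree. -/
theorem S14_units_herbrand (p : ℕ) [Fact p.Prime] (hp2 : p ≠ 2) (hdeg : Module.finrank F L = p)
    (σ : L ≃ₐ[F] L) (hσ : σ ≠ 1) :
    (S14_unitNorm F L).range.index ≠ 0 ∧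
    (S14_unitD F L σ).range.relIndex (S14_unitNorm F L).ker ≠ 0 ∧
    p * (S14_unitNorm F L).range.index ≤
      (S14_unitD F L σ).range.relIndex (S14_unitNorm F L).ker := by
  have hp : p.Prime := Fact.out
  have hodd : Odd p := hp.odd_of_ne_two hp2
  have hE : finrank ℤ (Additive (𝓞 L)ˣ) + 1 = p * Fintype.card (InfinitePlace F) := by
    rw [S14_finrank_units_succ L, S14_card_infinitePlace F L p hodd hdeg, mul_comm]
  have habs := S14_herbrand_abs p hp (S14_unitLin F L σ) (S14_unitLin_pow_card F L p hdeg σ)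
    (Fintype.card (InfinitePlace F)) hE (S14_finrank_fixed F L p hdeg σ hσ)
  -- translation of the four subgroups
  have h1 : (LinearMap.range (S14_unitLin F L σ - 1)).toAddSubgroup =
      Subgroup.toAddSubgroup (S14_unitD F L σ).range := by
    ext u
    constructor
    · rintro ⟨w, rfl⟩
      exact ⟨w.toMul, rfl⟩
    · rintro ⟨w, hw⟩
      exact ⟨Additive.ofMul w, congrArg Additive.ofMul hw⟩
  have h2 : (LinearMap.ker (∑ i ∈ Finset.range p, S14_unitLin F L σ ^ i)).toAddSubgroup =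
      Subgroup.toAddSubgroup (S14_unitNorm F L).ker := by
    ext u
    change (∑ i ∈ Finset.range p, S14_unitLin F L σ ^ i) u = 0 ↔ S14_unitNorm F L u.toMul = 1
    rw [S14_normLin_apply F L p hdeg σ hσ]
    constructor
    · intro h
      have h' : S14_unitIncl F L (S14_unitNorm F L u.toMul) = S14_unitIncl F L 1 := by
        rw [map_one]; exact congrArg Additive.toMul h
      exact S14_unitIncl_injective F L h'
    · intro h
      rw [h, map_one]
      rfl
  have h3 : (LinearMap.ker (S14_unitLin F L σ - 1)).toAddSubgroup =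
      Subgroup.toAddSubgroup ((⊤ : Subgroup (𝓞 F)ˣ).map (S14_unitIncl F L)) := by
    rw [← S14_range_unitInclLin F L p hdeg σ hσ]
    ext u
    constructor
    · rintro ⟨v, rfl⟩
      exact ⟨v.toMul, trivial, rfl⟩
    · rintro ⟨v, -, hv⟩
      exact ⟨Additive.ofMul v, congrArg Additive.ofMul hv⟩
  have h4 : (LinearMap.range (∑ i ∈ Finset.range p, S14_unitLin F L σ ^ i)).toAddSubgroup =
      Subgroup.toAddSubgroup ((S14_unitNorm F L).range.map (S14_unitIncl F L)) := by
    ext u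
    constructor
    · rintro ⟨w, rfl⟩
      rw [S14_normLin_apply F L p hdeg σ hσ]
      exact ⟨S14_unitNorm F L w.toMul, ⟨w.toMul, rfl⟩, rfl⟩
    · rintro ⟨v, ⟨w, rfl⟩, hv⟩
      refine ⟨Additive.ofMul w, ?_⟩
      rw [S14_normLin_apply F L p hdeg σ hσ]
      exact congrArg Additive.ofMul hv
  rw [h1, h2, h3, h4, Subgroup.relIndex_toAddSubgroup, Subgroup.relIndex_toAddSubgroup,
    Subgroup.relIndex_map_map_of_injective _ _ (S14_unitIncl_injective F L),
    Subgroup.relIndex_top_right] at habs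
  exact habs

end Fermat.Agent.S14
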