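import Mathlib
import Fermat.Agent.S14.AmbigClass
import Fermat.Agent.S14.AmbigPsi
import Fermat.Agent.S14.HerbrandUnits
import Fermat.Agent.S14.CrossDefs

/-!
# S14, block N1: the first inequality (weak form) — final assembly

* `S14_ambig_norm_not_surj` : for an unramified Galois extension `L/F` of number fields of odd prime
  degree `p`, the norm map `Cl(L) → Cl(F)` is not surjective
  (`p · |N Cl(L)| ≤ |Cl(F)|`: ambiguous class number count + unit Herbrand inequality).
* `S14_n1 : S14_N1Stmt p` : the interface required by block N3 (`CrossDefs.lean`).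
-/

set_option autoImplicit false
set_option linter.unusedSectionVars false

namespace Fermat.Agent.S14
open NumberField nonZeroDivisors
open scoped Pointwise


variable {F L : Type} [Field F] [NumberField F] [Field L] [NumberField L] [Algebra F L]
  [IsGalois F L]

/-- **First inequality** (weak form): the norm map on class groups of an unramified Galois
extension of odd prime degree is not surjective. -/
theorem S14_ambig_norm_not_surj (p : ℕ) [Fact p.Prime] (hp2 : p ≠ 2)
    (hdeg : Module.finrank F L = p) (hunr : S14_Unr F L) :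
    ∃ c : ClassGroup (𝓞 F), c ∉ (S14_ambig_clNorm F L).range := by
  classical
  have hp : p.Prime := Fact.out
  have hcard : Nat.card (L ≃ₐ[F] L) = p := by
    rw [IsGalois.card_aut_eq_finrank, hdeg]
  -- a generator
  obtain ⟨σ, hσ1⟩ : ∃ σ : L ≃ₐ[F] L, σ ≠ 1 := by
    by_contra hcon
    push Not at hcon
    have : Subsingleton (L ≃ₐ[F] L) := ⟨fun a b => by rw [hcon a, hcon b]⟩
    have h1 : Nat.card (L ≃ₐ[F] L) = 1 := Nat.card_unique
    rw [hcard] at h1
    exact hp.one_lt.ne' h1
  have hσ : ∀ τ, τ ∈ Subgroup.zpowers σ := by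
    intro τ
    rw [zpowers_eq_top_of_prime_card hcard hσ1]
    exact Subgroup.mem_top τ
  obtain ⟨h0, -, hle⟩ := S14_units_herbrand F L p hp2 hdeg σ hσ1
  have hpsi := S14_ambig_h1_le hunr σ hσ
  have hlam := S14_ambig_lambda hunr σ hσ h0
  have hP1 := S14_ambig_card_range_le (S14_ambig_clAct σ) (S14_ambig_clNorm F L)
    (S14_ambig_clNorm_clAct σ)
  set j := ClassGroup.extendedHom (𝓞 F) (𝓞 L) with hj
  set X := (S14_ambig_clAct σ / MonoidHom.id (ClassGroup (𝓞 L))).ker with hX
  set T := (S14_ambig_clNorm F L).range with hT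
  set hz := (S14_unitNorm F L).range.index with hh0
  set ho := (S14_unitD F L σ).range.relIndex (S14_unitNorm F L).ker with hh1
  have hYX : j.range ≤ X := by
    rintro _ ⟨c, rfl⟩
    rw [hX, MonoidHom.mem_ker, MonoidHom.div_apply, MonoidHom.id_apply, div_eq_one]
    exact S14_ambig_clAct_ext σ c
  have hXcard : Nat.card X = Nat.card j.range * j.range.relIndex X := by
    rw [← Subgroup.relIndex_bot_left, ← Subgroup.relIndex_bot_left,
      Subgroup.relIndex_mul_relIndex _ _ _ bot_le hYX]
  have hCF : Nat.card j.ker * Nat.card j.range = Nat.card (ClassGroup (𝓞 F)) := by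
    rw [← Subgroup.index_ker]
    exact Subgroup.card_mul_index _
  have hCFpos : 0 < Nat.card (ClassGroup (𝓞 F)) := Nat.card_pos
  have hTpos : 0 < Nat.card T := Nat.card_pos
  have h0pos : 0 < hz := Nat.pos_of_ne_zero h0
  -- main inequality
  have hmain : hz * (p * Nat.card T) ≤ hz * Nat.card (ClassGroup (𝓞 F)) := by
    calc hz * (p * Nat.card T) = (p * hz) * Nat.card T := by ring
      _ ≤ ho * Nat.card X := Nat.mul_le_mul hle hP1
      _ ≤ Nat.card j.ker * (Nat.card j.range * hz) := by
          rw [hXcard]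
          exact Nat.mul_le_mul hpsi (Nat.mul_le_mul_left _ hlam)
      _ = hz * Nat.card (ClassGroup (𝓞 F)) := by rw [← hCF]; ring
  have hmain' : p * Nat.card T ≤ Nat.card (ClassGroup (𝓞 F)) :=
    Nat.le_of_mul_le_mul_left hmain h0pos
  have hlt : Nat.card T < Nat.card (ClassGroup (𝓞 F)) := by
    have h2 : 2 * Nat.card T ≤ p * Nat.card T := Nat.mul_le_mul_right _ hp.two_le
    omega
  by_contra hcon
  push Not at hcon
  have htop : T = ⊤ := by
    rw [eq_top_iff]
    intro c _
    exact hcon c
  rw [htop, Subgroup.card_top] at hlt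
  exact lt_irrefl _ hlt

/-- **Block N1**: the first inequality in the form required by the crossing argument. -/
theorem S14_n1 (p : ℕ) [Fact p.Prime] (hp2 : p ≠ 2) : S14_N1Stmt p := by
  intro E M _ _ _ _ _ _ hdeg hunr
  obtain ⟨c, hc⟩ := S14_ambig_norm_not_surj (F := E) (L := M) p hp2 hdeg hunr
  refine ⟨c, fun J I hJ hI h => hc ⟨ClassGroup.mk0 ⟨J, S14_ambig_nz.mpr hJ⟩, ?_⟩⟩
  rw [S14_ambig_clNorm_mk0, ← h]
  congr 1
  exact Subtype.ext hI.symm

end Fermat.Agent.S14
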