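import Mathlib
import Fermat.Agent.S14.Defs
import Fermat.Agent.S14.CrossField

/-!
# S14, block N3: the fixed field `E = Ω^⟨γ⟩`

`K/F` Galois, `F ⊆ K ⊆ Ω`, `Ω/F` Galois, `γ ∈ Gal(Ω/F)`, `E := fixedField (zpowers γ)`.

* `S14_fix γ` : the intermediate field `E`.
* `S14_fix_finrank` : `[Ω : E] = orderOf γ`.
* `S14_fix_exists_pow` : every element of `Gal(Ω/E)` is (the restriction of scalars of) a power
  of `γ`;  `S14_fix_lift` : every power of `γ` comes from `Gal(Ω/E)`.
* `S14_fix_unr` : if `K/F` is unramified and no nontrivial power of `γ` fixes `K` pointwise, then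
  `Ω/E` is unramified.
* `S14_fix_moves` : if no nontrivial power of `γ` fixes `ζ`, then every nontrivial element of
  `Gal(Ω/E)` moves `ζ`.
-/

set_option autoImplicit false
set_option linter.unusedSectionVars false
set_option linter.unusedVariables false

namespace Fermat.Agent.S14

open NumberField IntermediateField

section fix

variable {F Ω : Type} [Field F] [Field Ω] [Algebra F Ω]

/-- the fixed field of `γ`. -/
abbrev S14_fix (γ : Ω ≃ₐ[F] Ω) : IntermediateField F Ω :=
  IntermediateField.fixedField (Subgroup.zpowers γ)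

variable [FiniteDimensional F Ω] (γ : Ω ≃ₐ[F] Ω)

/-- `[Ω : Ω^⟨γ⟩] = orderOf γ`. -/
theorem S14_fix_finrank : Module.finrank (S14_fix γ) Ω = orderOf γ := by
  classical
  rw [IntermediateField.finrank_fixedField_eq_card, Nat.card_zpowers]

/-- every element of `Gal(Ω/E)` is a power of `γ`. -/
theorem S14_fix_exists_pow (σ : Ω ≃ₐ[S14_fix γ] Ω) :
    ∃ k : ℕ, σ.restrictScalars F = γ ^ k := by
  have hmem : σ.restrictScalars F ∈ (S14_fix γ).fixingSubgroup := by
    rw [IntermediateField.mem_fixingSubgroup_iff]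
    intro x hx
    exact σ.commutes ⟨x, hx⟩
  rw [IntermediateField.fixingSubgroup_fixedField] at hmem
  have hfin : IsOfFinOrder γ := isOfFinOrder_of_finite γ
  obtain ⟨k, hk⟩ := (Submonoid.mem_powers_iff _ _).mp (hfin.mem_powers_iff_mem_zpowers.mpr hmem)
  exact ⟨k, hk.symm⟩

/-- every power of `γ` comes from an element of `Gal(Ω/E)`. -/
theorem S14_fix_lift (k : ℕ) : ∃ σ : Ω ≃ₐ[S14_fix γ] Ω, σ.restrictScalars F = γ ^ k := by
  have hmem : γ ^ k ∈ (S14_fix γ).fixingSubgroup := by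
    rw [IntermediateField.fixingSubgroup_fixedField]
    exact Subgroup.pow_mem _ (Subgroup.mem_zpowers γ) k
  refine ⟨IntermediateField.fixingSubgroupEquiv (S14_fix γ) ⟨γ ^ k, hmem⟩, ?_⟩
  ext x
  rfl

/-- an element of `Gal(Ω/E)` is trivial as soon as its restriction of scalars is. -/
theorem S14_fix_eq_one_of_restrictScalars (σ : Ω ≃ₐ[S14_fix γ] Ω)
    (h : σ.restrictScalars F = 1) : σ = 1 := by
  ext x
  have := congrArg (fun τ : Ω ≃ₐ[F] Ω => τ x) h
  simpa using this

/-- if no nontrivial power of `γ` fixes `z`, every nontrivial element of `Gal(Ω/E)` moves `z`. -/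
theorem S14_fix_moves {z : Ω} (hz : ∀ k : ℕ, (γ ^ k) z = z → γ ^ k = 1)
    (σ : Ω ≃ₐ[S14_fix γ] Ω) (hσ : σ z = z) : σ = 1 := by
  obtain ⟨k, hk⟩ := S14_fix_exists_pow γ σ
  apply S14_fix_eq_one_of_restrictScalars γ σ
  rw [hk]
  apply hz
  rw [← hk]
  exact hσ

/-- if `γ` has prime order `p` and `γ` moves `z`, no nontrivial power of `γ` fixes `z`. -/
theorem S14_fix_pow_moves_of_prime {p : ℕ} (hp : p.Prime) (hγ : orderOf γ = p) {z : Ω}
    (hz : γ z ≠ z) (k : ℕ) (hk : (γ ^ k) z = z) : γ ^ k = 1 := by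
  by_contra hne
  have hndvd : ¬ p ∣ k := fun hd => hne (by rw [← hγ] at hd; exact orderOf_dvd_iff_pow_eq_one.mp hd)
  have hcop : Nat.Coprime k p := (Nat.Prime.coprime_iff_not_dvd hp).mpr hndvd |>.symm
  -- `γ` is a power of `γ ^ k`
  obtain ⟨j, hj⟩ : ∃ j : ℕ, (γ ^ k) ^ j = γ :=
    exists_pow_eq_self_of_coprime (by rw [hγ]; exact hcop)
  apply hz
  rw [← hj]
  clear hj
  induction j with
  | zero => simp
  | succ n ih => rw [pow_succ, AlgEquiv.mul_apply, hk, ih]

end fix

section group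

/-- in a group, if `g` has prime order `p` and `g ∉ H`, the only power of `g` in `H` is `1`. -/
theorem S14_fix_pow_mem_of_prime {G : Type*} [Group G] {p : ℕ} (hp : p.Prime) {g : G}
    (hg : orderOf g = p) (H : Subgroup G) (hH : g ∉ H) (k : ℕ) (hk : g ^ k ∈ H) : g ^ k = 1 := by
  by_contra hne
  have hndvd : ¬ p ∣ k := fun hd => hne (by rw [← hg] at hd; exact orderOf_dvd_iff_pow_eq_one.mp hd)
  have hcop : Nat.Coprime k p := ((Nat.Prime.coprime_iff_not_dvd hp).mpr hndvd).symm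
  obtain ⟨j, hj⟩ : ∃ j : ℕ, (g ^ k) ^ j = g :=
    exists_pow_eq_self_of_coprime (by rw [hg]; exact hcop)
  apply hH
  rw [← hj]
  exact Subgroup.pow_mem _ hk j

end group

section unr

variable {F K Ω : Type} [Field F] [NumberField F] [Field K] [NumberField K]
  [Field Ω] [NumberField Ω]
  [Algebra F K] [Algebra K Ω] [Algebra F Ω] [IsScalarTower F K Ω] [IsGalois F K]
  (γ : Ω ≃ₐ[F] Ω)

/-- if `K/F` is unramified and no nontrivial power of `γ` fixes `K` pointwise, then `Ω/E` is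
unramified, `E = Ω^⟨γ⟩`. -/
theorem S14_fix_unr (hunr : S14_Unr F K)
    (hK : ∀ k : ℕ, (∀ x : K, (γ ^ k) (algebraMap K Ω x) = algebraMap K Ω x) → γ ^ k = 1) :
    S14_Unr (S14_fix γ) Ω := by
  refine S14_field_unr_base (F := F) (K := K) (L := S14_fix γ) (M := Ω) hunr ?_
  intro σ hσ
  obtain ⟨k, hk⟩ := S14_fix_exists_pow γ σ
  apply S14_fix_eq_one_of_restrictScalars γ σ
  rw [hk]
  apply hK
  intro x
  rw [← hk]
  exact hσ x

/-- the subgroup of `Gal(Ω/F)` of the elements fixing `K` pointwise. -/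
def S14_fix_fixK (F K Ω : Type) [Field F] [Field K] [Field Ω] [Algebra F K] [Algebra K Ω]
    [Algebra F Ω] : Subgroup (Ω ≃ₐ[F] Ω) where
  carrier := {g | ∀ x : K, g (algebraMap K Ω x) = algebraMap K Ω x}
  one_mem' := fun x => rfl
  mul_mem' := fun {a b} ha hb x => by
    change a (b _) = _
    rw [hb x, ha x]
  inv_mem' := fun {a} ha x => by
    have h := ha x
    calc a⁻¹ (algebraMap K Ω x) = a⁻¹ (a (algebraMap K Ω x)) := by rw [h]
      _ = algebraMap K Ω x := by
        change a.symm (a _) = _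
        exact a.symm_apply_apply _

/-- if `γ` has prime order and moves some element of `K`, no nontrivial power of `γ` fixes `K`
pointwise. -/
theorem S14_fix_pow_fixK_of_prime {p : ℕ} (hp : p.Prime) (hγ : orderOf γ = p)
    (hK : ∃ x : K, γ (algebraMap K Ω x) ≠ algebraMap K Ω x) (k : ℕ)
    (hk : ∀ x : K, (γ ^ k) (algebraMap K Ω x) = algebraMap K Ω x) : γ ^ k = 1 := by
  refine S14_fix_pow_mem_of_prime hp hγ (S14_fix_fixK F K Ω) ?_ k hk
  intro hmem
  obtain ⟨x, hx⟩ := hK
  exact hx (hmem x)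

/-- **package**: `γ ∈ Gal(Ω/F)` of prime order `p`, moving some element of `K` and moving `z`;
`E = Ω^⟨γ⟩`.  Then `[Ω : E] = p`, `Ω/E` is unramified if `K/F` is, and every nontrivial element
of `Gal(Ω/E)` moves `z`. -/
theorem S14_fix_package {p : ℕ} (hp : p.Prime) (hγ : orderOf γ = p) (hunr : S14_Unr F K)
    (hK : ∃ x : K, γ (algebraMap K Ω x) ≠ algebraMap K Ω x) {z : Ω} (hz : γ z ≠ z) :
    Module.finrank (S14_fix γ) Ω = p ∧ S14_Unr (S14_fix γ) Ω ∧
      ∀ σ : Ω ≃ₐ[S14_fix γ] Ω, σ z = z → σ = 1 :=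
  ⟨(S14_fix_finrank γ).trans hγ,
    S14_fix_unr γ hunr (S14_fix_pow_fixK_of_prime γ hp hγ hK),
    S14_fix_moves γ (S14_fix_pow_moves_of_prime γ hp hγ hz)⟩

/-- `γ` moves some element of `K` as soon as its restriction to `K` is nontrivial. -/
theorem S14_fix_moves_of_restrictNormal (h : γ.restrictNormal K ≠ 1) :
    ∃ x : K, γ (algebraMap K Ω x) ≠ algebraMap K Ω x := by
  by_contra hcon
  simp only [not_exists, not_not] at hcon
  apply h
  ext x
  apply (algebraMap K Ω).injective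
  rw [AlgEquiv.restrictNormal_commutes, hcon x]
  rfl

end unr

end Fermat.Agent.S14
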