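import Mathlib
import Fermat.Agent.S14.CrossNorm
import Fermat.Agent.S14.CrossRam

/-!
# S14 block N3, NORM (cyc)

In an unramified Galois extension `M/E` containing a primitive `ℓ`-th root of unity, the norm to
`ℤ` of an element of `𝓞 E` prime to `ℓ` is `≡ 1 mod ℓ`.  This is `S14_norm_mod_one`
(`CrossNorm.lean`) applied to the ramification statement `S14_norm_ramIdx` (`CrossRam.lean`).
(The interface form of this statement is proved in `Cross.lean`.)
-/

namespace Fermat.Agent.S14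

open NumberField

/-- **(cyc)** norms of elements prime to `ℓ` are `1` modulo `ℓ`. -/
theorem S14_norm_cyc (E M : Type*) [Field E] [NumberField E] [Field M] [NumberField M]
    [Algebra E M] [IsGalois E M] (hunr : S14_Unr E M) (ℓ : ℕ) (hℓ : ℓ.Prime) (ζ : M)
    (hζ : IsPrimitiveRoot ζ ℓ) (x : 𝓞 E)
    (hx : Ideal.span {x} ⊔ Ideal.span {(ℓ : 𝓞 E)} = ⊤) :
    ((Algebra.norm ℤ x : ℤ) : ZMod ℓ) = 1 := by
  have : Fact ℓ.Prime := ⟨hℓ⟩
  exact S14_norm_mod_one E ℓ (S14_norm_ramIdx E M hunr ℓ hℓ ζ hζ) x hx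

end Fermat.Agent.S14
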